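import Mathlib

/-!
# S16 / LOW: cocycles `G → (X → A)` on a `G`-set `X` with values in an abelian group

`G` acts on functions `X → A` by `(g • m) x = m (g⁻¹ • x)`.  A map `c : G → X → A` is a cocycle
(`IsCoc c`) if `c (g * h) x = c g x + c h (g⁻¹ • x)`.

* basic calculus (`one`, `inv`, `pow`, `zpow`-free), uniqueness on a generating set;
* `resHom` : restriction to the stabiliser of a point is a homomorphism;
* `shapiro` : the cocycle induced by a homomorphism of the stabiliser through a section;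
* `exists_cobdry_of_zpow` : a cocycle is a coboundary on the cyclic group generated by `g` as soon
  as `c (g ^ r) x = 0` whenever `g ^ r` fixes `x`.
-/

set_option autoImplicit false

open MulAction

namespace Fermat.Agent.Eis
namespace Coc

variable {G X A : Type*} [Group G] [MulAction G X] [AddCommGroup A]

/-- the cocycle condition for `c : G → X → A`, the action on functions being
`(g • m) x = m (g⁻¹ • x)`. -/
def IsCoc (c : G → X → A) : Prop := ∀ (g h : G) (x : X), c (g * h) x = c g x + c h (g⁻¹ • x)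

namespace IsCoc

variable {c c' : G → X → A}

theorem one (hc : IsCoc c) (x : X) : c 1 x = 0 := by
  have := hc 1 1 x
  rw [mul_one, inv_one, one_smul] at this
  exact left_eq_add.mp this

theorem inv (hc : IsCoc c) (g : G) (x : X) : c g⁻¹ x = - c g (g • x) := by
  have := hc g⁻¹ g x
  rw [inv_mul_cancel, hc.one, inv_inv] at this
  exact eq_neg_of_add_eq_zero_left this.symm

theorem zpow_succ' (hc : IsCoc c) (g : G) (k : ℤ) (x : X) :
    c (g ^ (k + 1)) x = c (g ^ k) x + c g ((g ^ k)⁻¹ • x) := by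
  rw [zpow_add_one, hc]

/-- equality of two cocycles on a generating set -/
theorem eq_of_closure (hc : IsCoc c) (hc' : IsCoc c') (s : Set G) (hs : Subgroup.closure s = ⊤)
    (h : ∀ g ∈ s, c g = c' g) : c = c' := by
  let H : Subgroup G :=
    { carrier := {g | c g = c' g}
      one_mem' := by
        funext x
        rw [hc.one, hc'.one]
      mul_mem' := fun {a b} ha hb => by
        funext x
        rw [hc, hc', ha, hb]
      inv_mem' := fun {a} ha => by
        funext x
        rw [hc.inv, hc'.inv, ha] }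
  have hH : H = ⊤ := by
    rw [eq_top_iff, ← hs, Subgroup.closure_le]
    exact h
  funext g
  have : g ∈ H := hH ▸ Subgroup.mem_top g
  exact this

/-- subtracting a coboundary -/
theorem sub_cobdry (hc : IsCoc c) (m : X → A) :
    IsCoc (fun g x => c g x - (m (g⁻¹ • x) - m x)) := by
  intro g h x
  simp only
  rw [hc, mul_inv_rev, mul_smul]
  abel

/-- push-forward along a homomorphism of coefficients -/
theorem map {B : Type*} [AddCommGroup B] (hc : IsCoc c) (f : A →+ B) :
    IsCoc (fun g x => f (c g x)) := by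
  intro g h x
  simp only
  rw [hc, map_add]

/-- the sum over a finite `G`-set is additive -/
theorem sum_mul [Fintype X] (hc : IsCoc c) (g h : G) :
    ∑ x, c (g * h) x = ∑ x, c g x + ∑ x, c h x := by
  simp only [hc g h]
  rw [Finset.sum_add_distrib]
  congr 1
  exact Equiv.sum_comp (MulAction.toPerm g⁻¹) (fun x => c h x)

/-- restriction of a cocycle to the stabiliser of a point -/
def resHom (hc : IsCoc c) (x0 : X) : Additive (stabilizer G x0) →+ A where
  toFun γ := c ((Additive.toMul γ : stabilizer G x0) : G) x0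
  map_zero' := hc.one x0
  map_add' γ γ' := by
    show c (((Additive.toMul γ : stabilizer G x0) : G) *
      ((Additive.toMul γ' : stabilizer G x0) : G)) x0 = _
    rw [hc]
    congr 2
    rw [inv_smul_eq_iff]
    exact (mem_stabilizer_iff.mp (Additive.toMul γ : stabilizer G x0).2).symm

@[simp] theorem resHom_apply (hc : IsCoc c) (x0 : X) (γ : stabilizer G x0) :
    hc.resHom x0 (Additive.ofMul γ) = c (γ : G) x0 := rfl

/-- value at a conjugate: if `σ * g * σ⁻¹` fixes `x0` then
`c (σ * g * σ⁻¹) x0 = c g (σ⁻¹ • x0)`. -/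
theorem conj_apply (hc : IsCoc c) (σ g : G) (x0 : X) (hfix : (σ * g * σ⁻¹) • x0 = x0) :
    c (σ * g * σ⁻¹) x0 = c g (σ⁻¹ • x0) := by
  have h1 : (σ * g)⁻¹ • x0 = σ⁻¹ • x0 := by
    rw [inv_smul_eq_iff]
    have : (σ * g) • σ⁻¹ • x0 = (σ * g * σ⁻¹) • x0 := by rw [mul_smul (σ * g)]
    rw [this, hfix]
  rw [hc (σ * g) σ⁻¹, hc σ g, h1, hc.inv, smul_inv_smul]
  abel

end IsCoc

/-! ### The Shapiro cocycle -/

section Shapiro

variable (x0 : X)

/-- extension by zero of an additive character of the stabilizer -/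
noncomputable def extZero (φ : Additive (stabilizer G x0) →+ A) (g : G) : A :=
  open scoped Classical in
  if h : g ∈ stabilizer G x0 then φ (Additive.ofMul ⟨g, h⟩) else 0

theorem extZero_of_mem (φ : Additive (stabilizer G x0) →+ A) {g : G} (h : g ∈ stabilizer G x0) :
    extZero x0 φ g = φ (Additive.ofMul ⟨g, h⟩) := dif_pos h

theorem extZero_mul (φ : Additive (stabilizer G x0) →+ A) {g g' : G} (h : g ∈ stabilizer G x0)
    (h' : g' ∈ stabilizer G x0) :
    extZero x0 φ (g * g') = extZero x0 φ g + extZero x0 φ g' := by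
  rw [extZero_of_mem x0 φ h, extZero_of_mem x0 φ h', extZero_of_mem x0 φ (mul_mem h h'),
    ← map_add]
  rfl

theorem extZero_one (φ : Additive (stabilizer G x0) →+ A) : extZero x0 φ 1 = 0 := by
  rw [extZero_of_mem x0 φ (one_mem _)]
  exact map_zero φ

variable (s : X → G)

/-- The cocycle attached to `φ` through the section `s`. -/
noncomputable def shapiro (φ : Additive (stabilizer G x0) →+ A) (g : G) (x : X) : A :=
  extZero x0 φ ((s x)⁻¹ * g * s (g⁻¹ • x))

variable {x0 s}

theorem mem_stab (hs : ∀ x, s x • x0 = x) (g : G) (x : X) :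
    (s x)⁻¹ * g * s (g⁻¹ • x) ∈ stabilizer G x0 := by
  rw [mem_stabilizer_iff, mul_smul, mul_smul, hs, smul_inv_smul, inv_smul_eq_iff, hs]

theorem shapiro_isCoc (hs : ∀ x, s x • x0 = x) (φ : Additive (stabilizer G x0) →+ A) :
    IsCoc (shapiro x0 s φ) := by
  intro g h x
  unfold shapiro
  have e1 : (g * h)⁻¹ • x = h⁻¹ • g⁻¹ • x := by rw [mul_inv_rev, mul_smul]
  have e2 : (s x)⁻¹ * (g * h) * s (h⁻¹ • g⁻¹ • x) =
      ((s x)⁻¹ * g * s (g⁻¹ • x)) * ((s (g⁻¹ • x))⁻¹ * h * s (h⁻¹ • g⁻¹ • x)) := by group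
  rw [e1, e2, extZero_mul x0 φ (mem_stab hs g x) (mem_stab hs h (g⁻¹ • x))]

/-- on the stabiliser, the Shapiro cocycle at the base point gives back `φ`. -/
theorem shapiro_apply_base (hs : ∀ x, s x • x0 = x) (φ : Additive (stabilizer G x0) →+ A)
    (γ : stabilizer G x0) : shapiro x0 s φ (γ : G) x0 = φ (Additive.ofMul γ) := by
  unfold shapiro
  have hfix : ((γ : G))⁻¹ • x0 = x0 := by
    rw [inv_smul_eq_iff]
    exact (mem_stabilizer_iff.mp γ.2).symm
  rw [hfix]
  have hσ : s x0 ∈ stabilizer G x0 := mem_stabilizer_iff.mpr (hs x0)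
  rw [extZero_mul x0 φ (mul_mem (inv_mem hσ) γ.2) hσ, extZero_mul x0 φ (inv_mem hσ) γ.2]
  have h2 : extZero x0 φ (s x0)⁻¹ + extZero x0 φ (s x0) = 0 := by
    rw [← extZero_mul x0 φ (inv_mem hσ) hσ, inv_mul_cancel, extZero_one]
  rw [extZero_of_mem x0 φ γ.2]
  have : extZero x0 φ (s x0)⁻¹ + φ (Additive.ofMul γ) + extZero x0 φ (s x0) =
      φ (Additive.ofMul γ) + (extZero x0 φ (s x0)⁻¹ + extZero x0 φ (s x0)) := by abel
  rw [this, h2, add_zero]

/-- at a point fixed by `g`, the Shapiro cocycle is the value of `φ` on a conjugate of `g`. -/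
theorem shapiro_apply_fixed (φ : Additive (stabilizer G x0) →+ A) (g : G) (x : X)
    (hfix : g • x = x) : shapiro x0 s φ g x = extZero x0 φ ((s x)⁻¹ * g * s x) := by
  unfold shapiro
  have : g⁻¹ • x = x := by rw [inv_smul_eq_iff, hfix]
  rw [this]

/-- if `φ` kills the elements of order dividing `N` and `g ^ N = 1`, then the Shapiro cocycle of
`φ` vanishes at `(g ^ r, x)` whenever `g ^ r` fixes `x`. -/
theorem shapiro_zpow_eq_zero (φ : Additive (stabilizer G x0) →+ A) {N : ℕ}
    (hφ : ∀ γ : stabilizer G x0, γ ^ N = 1 → φ (Additive.ofMul γ) = 0)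
    {g : G} (hg : g ^ N = 1) (x : X) (r : ℤ) (hfix : g ^ r • x = x) :
    shapiro x0 s φ (g ^ r) x = 0 := by
  rw [shapiro_apply_fixed φ _ x hfix]
  unfold extZero
  split_ifs with h
  · apply hφ
    apply Subtype.ext
    show ((s x)⁻¹ * g ^ r * s x) ^ N = 1
    have : ((s x)⁻¹ * g ^ r * s x) ^ N = (s x)⁻¹ * (g ^ r) ^ N * s x := by
      have := conj_pow (a := (s x)⁻¹) (b := g ^ r) (i := N)
      rwa [inv_inv] at this
    rw [this, ← zpow_natCast, ← zpow_mul, mul_comm, zpow_mul, zpow_natCast, hg, one_zpow, mul_one,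
      inv_mul_cancel]
  · rfl

end Shapiro

/-! ### Cocycles on a cyclic group -/

section Cyclic

variable {c : G → X → A}

/-- well-definedness of `k ↦ c (g ^ k) x` modulo the stabiliser of the target point. -/
theorem zpow_congr (hc : IsCoc c) (g : G)
    (h : ∀ (x : X) (r : ℤ), g ^ r • x = x → c (g ^ r) x = 0) (x : X) (k k' : ℤ)
    (hk : (g ^ k)⁻¹ • x = (g ^ k')⁻¹ • x) : c (g ^ k) x = c (g ^ k') x := by
  have e : g ^ k = g ^ k' * g ^ (k - k') := by rw [← zpow_add]; congr 1; ring
  rw [e, hc]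
  have hfix : g ^ (k - k') • (g ^ k')⁻¹ • x = (g ^ k')⁻¹ • x := by
    calc g ^ (k - k') • (g ^ k')⁻¹ • x = g ^ (k - k') • (g ^ k)⁻¹ • x := by rw [hk]
      _ = (g ^ k')⁻¹ • x := by
        rw [← zpow_neg, ← zpow_neg, ← mul_smul, ← zpow_add]
        congr 2
        ring
  rw [h _ _ hfix, add_zero]

/-- **Cyclic coboundary lemma.** If `c (g ^ r) x = 0` whenever `g ^ r` fixes `x`, then `c g` is a
coboundary: `c g x = m (g⁻¹ • x) - m x`. -/
theorem exists_cobdry_of_zpow (hc : IsCoc c) (g : G)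
    (h : ∀ (x : X) (r : ℤ), g ^ r • x = x → c (g ^ r) x = 0) :
    ∃ m : X → A, ∀ x, c g x = m (g⁻¹ • x) - m x := by
  classical
  -- orbit representatives
  let Q := MulAction.orbitRel.Quotient (Subgroup.zpowers g) X
  let rep : X → X := fun y => Quotient.out (Quotient.mk'' y : Q)
  have hrep : ∀ y, ∃ k : ℤ, (g ^ k)⁻¹ • rep y = y := by
    intro y
    have h1 : (MulAction.orbitRel (Subgroup.zpowers g) X) (rep y) y :=
      Quotient.exact' (Quotient.out_eq' (Quotient.mk'' y : Q))
    rw [MulAction.orbitRel_apply] at h1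
    obtain ⟨⟨t, ht⟩, h2⟩ := h1
    obtain ⟨k, rfl⟩ := Subgroup.mem_zpowers_iff.mp ht
    refine ⟨k, ?_⟩
    rw [inv_smul_eq_iff]
    exact h2.symm
  have hrep_smul : ∀ y, rep (g⁻¹ • y) = rep y := by
    intro y
    show Quotient.out (Quotient.mk'' (g⁻¹ • y) : Q) = Quotient.out (Quotient.mk'' y : Q)
    congr 1
    apply Quotient.sound'
    exact ⟨⟨g⁻¹, inv_mem (Subgroup.mem_zpowers g)⟩, rfl⟩
  choose k hk using hrep
  refine ⟨fun y => c (g ^ k y) (rep y), fun y => ?_⟩
  simp only
  rw [hrep_smul]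
  have h3 : (g ^ k (g⁻¹ • y))⁻¹ • rep y = (g ^ (k y + 1))⁻¹ • rep y := by
    have := hk (g⁻¹ • y)
    rw [hrep_smul] at this
    rw [this, zpow_add_one, mul_inv_rev, mul_smul, hk y]
  rw [zpow_congr hc g h (rep y) _ _ h3, hc.zpow_succ', hk y]
  abel

end Cyclic

end Coc
end Fermat.Agent.Eis
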