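import Mathlib
import Fermat.Agent.X0.Ana.QExp

/-!
# S16 / conjugates layer, part 1: `q`-expansions of width `h` as a ring homomorphism

* `holInfSubring h`: the ring of holomorphic `h`-periodic functions on `ℍ` bounded at `i∞`;
  `qExpHom h hh : holInfSubring h →+* ℂ⟦X⟧` the `q`-expansion of width `h`.
* `qExpansion_esymm`: the expansion of an elementary symmetric function of finitely many such functions.
* `qExpansion_nat_width`: a function of period `1` has period `p`, and its expansion of width `p` is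
  `PowerSeries.expand p` of its expansion of width `1`.
-/

set_option autoImplicit false

noncomputable section

namespace Fermat.Agent.Eis

open Function Complex Filter Topology Fermat.Agent.X0
open UpperHalfPlane hiding I
open scoped Manifold Real

/-- holomorphic `h`-periodic functions bounded at `i∞` -/
def holInfSubring (h : ℝ) : Subring (ℍ → ℂ) where
  carrier := {f | IsHolInf h f}
  mul_mem' hf hg := hf.mul hg
  one_mem' := IsHolInf.one h
  add_mem' hf hg := hf.add hg
  zero_mem' := IsHolInf.const h 0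
  neg_mem' hf := hf.neg

theorem mem_holInfSubring {h : ℝ} {f : ℍ → ℂ} : f ∈ holInfSubring h ↔ IsHolInf h f := Iff.rfl

/-- the `q`-expansion of width `h` as a ring homomorphism -/
def qExpHom (h : ℝ) (hh : 0 < h) : holInfSubring h →+* PowerSeries ℂ where
  toFun f := qExpansion h f.1
  map_one' := qExpansion_one h
  map_mul' f g := qExpansion_mul (f.2.analyticAt hh) (g.2.analyticAt hh)
  map_zero' := qExpansion_zero h
  map_add' f g := qExpansion_add (f.2.analyticAt hh) (g.2.analyticAt hh)

@[simp] theorem qExpHom_apply {h : ℝ} (hh : 0 < h) (f : holInfSubring h) :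
    qExpHom h hh f = qExpansion h f.1 := rfl

theorem isHolInf_smul {h : ℝ} {f : ℍ → ℂ} (hf : IsHolInf h f) (c : ℂ) : IsHolInf h (c • f) := by
  have : c • f = (fun _ => c) * f := by
    ext τ
    simp
  rw [this]
  exact (IsHolInf.const h c).mul hf

theorem isHolInf_sum {h : ℝ} {ι : Type*} (s : Finset ι) (φ : ι → ℍ → ℂ) (hφ : ∀ j ∈ s, IsHolInf h (φ j)) :
    IsHolInf h (∑ j ∈ s, φ j) :=
  Subring.sum_mem (holInfSubring h) hφ

theorem isHolInf_prod {h : ℝ} {ι : Type*} (s : Finset ι) (φ : ι → ℍ → ℂ) (hφ : ∀ j ∈ s, IsHolInf h (φ j)) :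
    IsHolInf h (∏ j ∈ s, φ j) :=
  Subring.prod_mem (holInfSubring h) hφ

theorem qExpansion_sum {h : ℝ} (hh : 0 < h) {ι : Type*} (s : Finset ι) (φ : ι → ℍ → ℂ)
    (hφ : ∀ j ∈ s, IsHolInf h (φ j)) :
    qExpansion h (∑ j ∈ s, φ j) = ∑ j ∈ s, qExpansion h (φ j) := by
  classical
  induction s using Finset.induction_on with
  | empty => simpa using qExpansion_zero h
  | insert a s ha ih =>
    have h1 : IsHolInf h (φ a) := hφ a (Finset.mem_insert_self a s)
    have h2 : ∀ j ∈ s, IsHolInf h (φ j) := fun j hj => hφ j (Finset.mem_insert_of_mem hj)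
    rw [Finset.sum_insert ha, Finset.sum_insert ha,
      qExpansion_add (h1.analyticAt hh) ((isHolInf_sum s φ h2).analyticAt hh), ih h2]

theorem qExpansion_prod {h : ℝ} (hh : 0 < h) {ι : Type*} (s : Finset ι) (φ : ι → ℍ → ℂ)
    (hφ : ∀ j ∈ s, IsHolInf h (φ j)) :
    qExpansion h (∏ j ∈ s, φ j) = ∏ j ∈ s, qExpansion h (φ j) := by
  classical
  induction s using Finset.induction_on with
  | empty => simpa using qExpansion_one h
  | insert a s ha ih =>
    have h1 : IsHolInf h (φ a) := hφ a (Finset.mem_insert_self a s)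
    have h2 : ∀ j ∈ s, IsHolInf h (φ j) := fun j hj => hφ j (Finset.mem_insert_of_mem hj)
    rw [Finset.prod_insert ha, Finset.prod_insert ha,
      qExpansion_mul (h1.analyticAt hh) ((isHolInf_prod s φ h2).analyticAt hh), ih h2]

/-- the pointwise elementary symmetric function of a finite family of functions -/
def esymmFun {ι : Type*} [Fintype ι] (φ : ι → ℍ → ℂ) (i : ℕ) : ℍ → ℂ :=
  fun τ => (Finset.univ.val.map fun j => φ j τ).esymm i

theorem esymmFun_eq_sum {ι : Type*} [Fintype ι] (φ : ι → ℍ → ℂ) (i : ℕ) :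
    esymmFun φ i = ∑ t ∈ Finset.powersetCard i (Finset.univ : Finset ι), ∏ j ∈ t, φ j := by
  ext τ
  rw [esymmFun, Finset.esymm_map_val, Finset.sum_apply]
  refine Finset.sum_congr rfl fun t _ => ?_
  rw [Finset.prod_apply]

theorem isHolInf_esymmFun {h : ℝ} {ι : Type*} [Fintype ι] (φ : ι → ℍ → ℂ) (hφ : ∀ j, IsHolInf h (φ j)) (i : ℕ) :
    IsHolInf h (esymmFun φ i) := by
  rw [esymmFun_eq_sum]
  exact isHolInf_sum _ _ fun t _ => isHolInf_prod _ _ fun j _ => hφ j

/-- **The expansion of an elementary symmetric function.** -/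
theorem qExpansion_esymm {h : ℝ} (hh : 0 < h) {ι : Type*} [Fintype ι] (φ : ι → ℍ → ℂ)
    (hφ : ∀ j, IsHolInf h (φ j)) (i : ℕ) :
    qExpansion h (esymmFun φ i) = (Finset.univ.val.map fun j => qExpansion h (φ j)).esymm i := by
  rw [esymmFun_eq_sum, Finset.esymm_map_val,
    qExpansion_sum hh _ _ fun t _ => isHolInf_prod _ _ fun j _ => hφ j]
  refine Finset.sum_congr rfl fun t _ => ?_
  rw [qExpansion_prod hh _ _ fun j _ => hφ j]

/-! ### change of width -/

theorem qParam_one_eq_pow {p : ℕ} (hp : p ≠ 0) (z : ℂ) :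
    Periodic.qParam 1 z = Periodic.qParam (p : ℝ) z ^ p := by
  have hpC : (p : ℂ) ≠ 0 := Nat.cast_ne_zero.mpr hp
  simp only [Periodic.qParam]
  rw [← Complex.exp_nat_mul]
  congr 1
  push_cast
  field_simp

theorem isHolInf_nat_width {f : ℍ → ℂ} (hf : IsHolInf 1 f) (p : ℕ) : IsHolInf (p : ℝ) f where
  mdiff := hf.mdiff
  periodic := by
    have := hf.periodic.nat_mul p
    simpa using this
  bdd := hf.bdd

/-- **Change of width**: the expansion of width `p` of a function of period `1`. -/
theorem qExpansion_nat_width {f : ℍ → ℂ} (hf : IsHolInf 1 f) {p : ℕ} (hp : p ≠ 0) :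
    qExpansion (p : ℝ) f = PowerSeries.expand p hp (qExpansion 1 f) := by
  have hpR : (0 : ℝ) < p := Nat.cast_pos.mpr (Nat.pos_of_ne_zero hp)
  ext m
  rw [← qExpansion_coeff_unique_fun hpR ((isHolInf_nat_width hf p).analyticAt hpR)
    (c := fun m => (PowerSeries.expand p hp (qExpansion 1 f)).coeff m)]
  intro τ
  have h1 := hasSum_qExpansion one_pos hf.periodic hf.mdiff hf.bdd τ
  have hinj : Function.Injective (fun n : ℕ => p * n) := fun a b hab =>
    Nat.eq_of_mul_eq_mul_left (Nat.pos_of_ne_zero hp) hab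
  rw [← hinj.hasSum_iff]
  · convert h1 using 2 with n
    simp only [Function.comp_apply, PowerSeries.coeff_expand_mul]
    rw [qParam_one_eq_pow hp, pow_mul]
  · intro m hm
    have : ¬ p ∣ m := fun ⟨n, hn⟩ => hm ⟨n, hn.symm⟩
    simp only [PowerSeries.coeff_expand_of_not_dvd p hp _ this, zero_smul]

end Fermat.Agent.Eis
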