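import Mathlib
import Fermat.Agent.Eis.ConjSeries

/-!
# S16 / conjugates layer, part 2: elementary symmetric functions of the conjugates of a modular form

* `esymmSIF`, `esymmMF ℋ f i : ModularForm ℋ (k * i)`: the `i`-th elementary symmetric function of the conjugates
  `f ∣[k] g⁻¹`, `g ∈ ℋ / 𝒢 ⊓ ℋ` (Mathlib's `SlashInvariantForm.quotientFunc`), modelled on `ModularForm.norm`.
* for `𝒢 = Γ₀(N)`, `ℋ = SL(2,ℤ)`: every conjugate is holomorphic, `N`-periodic, bounded at `i∞`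
  (`isHolInf_quotientFunc`); `conjSeries N f q` its expansion in `q^(1/N)`;
  `expand_qExpansion_esymmMF`: `expand N (qExpansion 1 (esymmMF 𝒮ℒ f i)) = esymm_i (conjSeries N f q)_q`.
* algebra of the conjugates (`quotientFunc_add'`, `_mul'`, `_smul'`, `_levelOne`, `conjSeries_…`).
* `coeff_qExpansion_esymmMF_mem`: integrality of the coefficients of `esymmMF` from that of the conjugate series.
-/

set_option autoImplicit false

noncomputable section

namespace Fermat.Agent.Eis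

open UpperHalfPlane Finset SlashInvariantForm CongruenceSubgroup Matrix.SpecialLinearGroup ConjAct
  Fermat.Agent.X0
open scoped ModularForm MatrixGroups Topology Filter Manifold Pointwise

section general

variable {𝒢 ℋ : Subgroup (GL (Fin 2) ℝ)} {F : Type*} (f : F) [FunLike F ℍ ℂ] {k : ℤ}

local notation "𝒬" => ℋ ⧸ (𝒢.subgroupOf ℋ)

section SIF

variable [SlashInvariantFormClass F 𝒢 k] (ℋ) [𝒢.IsFiniteRelIndex ℋ]

/-- the `i`-th elementary symmetric function of the conjugates of `f`, as a slash-invariant form -/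
def esymmSIF [ℋ.HasDetPlusMinusOne] (i : ℕ) : SlashInvariantForm ℋ (k * i) where
  toFun := let := Fintype.ofFinite 𝒬
    ∑ t ∈ powersetCard i (univ : Finset 𝒬), ∏ q ∈ t, quotientFunc f q
  slash_action_eq' h hh := by
    let := Fintype.ofFinite 𝒬
    classical
    show ((∑ t ∈ powersetCard i (univ : Finset 𝒬), ∏ q ∈ t, quotientFunc f q) ∣[k * i] h) =
      ∑ t ∈ powersetCard i (univ : Finset 𝒬), ∏ q ∈ t, quotientFunc f q
    rw [SlashAction.sum_slash]
    set σ : Equiv.Perm 𝒬 := MulAction.toPerm ((⟨h, hh⟩ : ℋ)⁻¹) with hσ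
    have key : ∀ t ∈ powersetCard i (univ : Finset 𝒬),
        (∏ q ∈ t, quotientFunc f q) ∣[k * i] h = ∏ q ∈ t.map σ.toEmbedding, quotientFunc f q := by
      intro t ht
      have hc : #t = i := (mem_powersetCard.mp ht).2
      rw [← hc, ModularForm.prod_slash, Finset.prod_map]
      simp only [Subgroup.HasDetPlusMinusOne.abs_det hh, one_zpow, one_smul]
      refine prod_congr rfl fun q _ => ?_
      rw [quotientFunc_smul f hh q]
      rfl
    rw [sum_congr rfl key]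
    have h1 : (powersetCard i (univ : Finset 𝒬)).map (mapEmbedding σ.toEmbedding).toEmbedding =
        powersetCard i (univ : Finset 𝒬) := by
      rw [← powersetCard_map, Finset.map_univ_equiv]
    conv_rhs => rw [← h1]
    rw [Finset.sum_map]
    rfl

end SIF

section MF

variable [ModularFormClass F 𝒢 k] (ℋ) [𝒢.IsFiniteRelIndex ℋ] [ℋ.HasDetPlusMinusOne]

/-- the `i`-th elementary symmetric function of the conjugates of a modular form `f`, as a modular form -/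
def esymmMF (i : ℕ) : ModularForm ℋ (k * i) where
  __ := esymmSIF ℋ f i
  holo' := by
    let := Fintype.ofFinite 𝒬
    show MDiff (∑ t ∈ powersetCard i (univ : Finset 𝒬), ∏ q ∈ t, quotientFunc f q)
    exact .sum fun t _ => .prod (Quotient.forall.mpr fun ⟨r, hr⟩ _ ↦ (ModularForm.translate f r⁻¹).holo')
  bdd_at_cusps' h γ := by
    rintro rfl
    let := Fintype.ofFinite 𝒬
    classical
    show IsBoundedAtImInfty
      ((∑ t ∈ powersetCard i (univ : Finset 𝒬), ∏ q ∈ t, quotientFunc f q) ∣[k * i] γ)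
    rw [IsBoundedAtImInfty, Filter.BoundedAtFilter, SlashAction.sum_slash, Finset.sum_fn]
    refine .fun_sum fun t ht => ?_
    have hc : #t = i := (mem_powersetCard.mp ht).2
    rw [← hc, ModularForm.prod_slash]
    apply Asymptotics.IsBigO.const_smul_left
    rw [show (1 : ℍ → ℝ) = (fun x ↦ ∏ _q ∈ t, (1 : ℝ)) by ext; simp, Finset.prod_fn]
    refine .finsetProd (Quotient.forall.mpr fun ⟨r, hr⟩ _ ↦
      (ModularForm.translate f _).bdd_at_cusps' ?_ γ rfl)
    simpa using h.of_isFiniteRelIndex_conj hr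

theorem esymmMF_apply [inst : Fintype 𝒬] (i : ℕ) (τ : ℍ) :
    esymmMF ℋ f i τ = ((univ : Finset 𝒬).val.map fun q => quotientFunc f q τ).esymm i := by
  obtain rfl : inst = Fintype.ofFinite 𝒬 := Subsingleton.elim _ _
  let := Fintype.ofFinite 𝒬
  show (∑ t ∈ powersetCard i (univ : Finset 𝒬), ∏ q ∈ t, quotientFunc f q) τ = _
  rw [Finset.esymm_map_val, Finset.sum_apply]
  refine Finset.sum_congr rfl fun t _ => ?_
  rw [Finset.prod_apply]

end MF


end general

section Gamma0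

variable (N : ℕ) [NeZero N]

omit [NeZero N] in
theorem Gamma_le_Gamma0 : Gamma N ≤ Gamma0 N := by
  intro γ hγ
  rw [Gamma_mem] at hγ
  rw [Gamma0_mem]
  exact hγ.2.2.1

/-- `N` is a strict period of every `SL(2,ℤ)`-conjugate of `Γ₀(N)` -/
theorem nat_mem_strictPeriods_conj_Gamma0 (γ : SL(2, ℤ)) :
    (N : ℝ) ∈ (toConjAct (mapGL ℝ γ) • ((Gamma0 N : Subgroup SL(2, ℤ)) : Subgroup (GL (Fin 2) ℝ))).strictPeriods := by
  have hT : ModularGroup.T ^ N ∈ Gamma N := by
    have := ModularGroup_T_pow_mem_Gamma (N : ℤ) (N : ℤ) dvd_rfl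
    simpa using this
  have hconj : γ⁻¹ * ModularGroup.T ^ N * γ ∈ Gamma0 N := by
    apply Gamma_le_Gamma0
    have := (Gamma_normal N).conj_mem _ hT γ⁻¹
    simpa using this
  have hU0 : ∀ m : ℤ, Matrix.GeneralLinearGroup.upperRightHom ((m : ℝ)) =
      mapGL ℝ (ModularGroup.T ^ m) := by
    intro m
    simp only [Units.ext_iff, mapGL_coe_matrix, map_apply_coe]
    ext i j
    fin_cases i <;> fin_cases j <;> simp [ModularGroup.coe_T_zpow]
  have hU := hU0 N
  rw [zpow_natCast, Int.cast_natCast] at hU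
  rw [Subgroup.mem_strictPeriods_iff, Subgroup.mem_pointwise_smul_iff_inv_smul_mem, ← toConjAct_inv,
    toConjAct_smul, inv_inv, hU, ← map_inv, ← map_mul, ← map_mul]
  exact Subgroup.mem_map_of_mem _ hconj

/-- the image of `Γ₀(N)` in `GL(2, ℝ)` -/
abbrev lvl : Subgroup (GL (Fin 2) ℝ) := ((Gamma0 N : Subgroup SL(2, ℤ)) : Subgroup (GL (Fin 2) ℝ))

/-- the index set of the conjugates: `SL(2,ℤ) / Γ₀(N)` -/
abbrev ConjIdx : Type := ↥𝒮ℒ ⧸ (Subgroup.subgroupOf (lvl N) 𝒮ℒ)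

local notation "𝒢" => lvl N

local notation "𝒬" => ConjIdx N

variable {F : Type*} [FunLike F ℍ ℂ] {k : ℤ}

/-- every conjugate of a modular form on `Γ₀(N)` is holomorphic, `N`-periodic and bounded at `i∞` -/
theorem isHolInf_quotientFunc [ModularFormClass F 𝒢 k] (f : F) (q : 𝒬) :
    IsHolInf (N : ℝ) (quotientFunc f q) := by
  induction q using Quotient.inductionOn with
  | h r =>
    obtain ⟨r, γ, rfl⟩ := r
    have hN : (0 : ℝ) < N := Nat.cast_pos.mpr (Nat.pos_of_ne_zero (NeZero.ne N))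
    have hΓ : (N : ℝ) ∈ (toConjAct ((mapGL ℝ γ)⁻¹)⁻¹ • 𝒢).strictPeriods := by
      rw [inv_inv]
      exact nat_mem_strictPeriods_conj_Gamma0 N γ
    have hc : IsCusp OnePoint.infty (toConjAct ((mapGL ℝ γ)⁻¹)⁻¹ • 𝒢) :=
      Subgroup.isCusp_of_mem_strictPeriods hN hΓ
    refine ⟨(ModularForm.translate f (mapGL ℝ γ)⁻¹).holo', ?_, ?_⟩
    · exact SlashInvariantFormClass.periodic_comp_ofComplex (ModularForm.translate f (mapGL ℝ γ)⁻¹) hΓ
    · exact OnePoint.isBoundedAt_infty_iff.mp ((ModularForm.translate f (mapGL ℝ γ)⁻¹).bdd_at_cusps' hc)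


/-- the expansion in `q^(1/N)` of a conjugate -/
def conjSeries [ModularFormClass F 𝒢 k] (f : F) (q : 𝒬) : PowerSeries ℂ :=
  qExpansion (N : ℝ) (quotientFunc f q)

omit [NeZero N] in
/-- a modular form of level one is holomorphic, `1`-periodic and bounded at `i∞` -/
theorem isHolInf_levelOne {F' : Type*} [FunLike F' ℍ ℂ] {k' : ℤ} [ModularFormClass F' 𝒮ℒ k'] (g : F') :
    IsHolInf 1 ⇑g := by
  have hc : IsCusp OnePoint.infty 𝒮ℒ :=
    Subgroup.isCusp_of_mem_strictPeriods one_pos _root_.one_mem_strictPeriods_SL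
  exact ⟨ModularFormClass.holo g,
    SlashInvariantFormClass.periodic_comp_ofComplex g _root_.one_mem_strictPeriods_SL,
    OnePoint.isBoundedAt_infty_iff.mp (ModularFormClass.bdd_at_cusps g hc)⟩

omit [NeZero N] in
/-- a modular form on `Γ₀(N)` is holomorphic, `1`-periodic and bounded at `i∞` -/
theorem isHolInf_one_Gamma0 [ModularFormClass F 𝒢 k] (f : F) : IsHolInf 1 ⇑f := by
  have hT : ModularGroup.T ∈ Gamma0 N := by
    rw [Gamma0_mem]
    simp [ModularGroup.T]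
  have hΓ : (1 : ℝ) ∈ (𝒢).strictPeriods := by
    rw [Subgroup.strictPeriods_eq_zmultiples_one_of_T_mem hT]
    exact AddSubgroup.mem_zmultiples (1 : ℝ)
  have hc : IsCusp OnePoint.infty 𝒢 := Subgroup.isCusp_of_mem_strictPeriods one_pos hΓ
  exact ⟨ModularFormClass.holo f, SlashInvariantFormClass.periodic_comp_ofComplex f hΓ,
    OnePoint.isBoundedAt_infty_iff.mp (ModularFormClass.bdd_at_cusps f hc)⟩

/-- **Theorem A**: the `q`-expansion of `esymmMF` in terms of the conjugate series. -/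
theorem expand_qExpansion_esymmMF [ModularFormClass F 𝒢 k] (f : F) [Fintype 𝒬] (i : ℕ) :
    PowerSeries.expand N (NeZero.ne N) (qExpansion 1 (esymmMF 𝒮ℒ f i)) =
      ((univ : Finset 𝒬).val.map fun q => conjSeries N f q).esymm i := by
  have hN : (0 : ℝ) < N := Nat.cast_pos.mpr (Nat.pos_of_ne_zero (NeZero.ne N))
  have h1 : (⇑(esymmMF 𝒮ℒ f i) : ℍ → ℂ) = esymmFun (fun q : 𝒬 => quotientFunc f q) i := by
    ext τ
    exact esymmMF_apply 𝒮ℒ f i τ
  rw [← qExpansion_nat_width (isHolInf_levelOne (esymmMF 𝒮ℒ f i)) (NeZero.ne N), h1,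
    qExpansion_esymm hN _ (fun q => isHolInf_quotientFunc N f q)]
  rfl

/-! ### algebra of the conjugates -/

section algebra

variable {F₁ F₂ F₃ : Type*} [FunLike F₁ ℍ ℂ] [FunLike F₂ ℍ ℂ] [FunLike F₃ ℍ ℂ] {k₁ k₂ k₃ : ℤ}

omit [NeZero N] in
theorem quotientFunc_mk_SL [SlashInvariantFormClass F 𝒢 k] (f : F) (γ : SL(2, ℤ)) :
    quotientFunc f ((⟦⟨mapGL ℝ γ, γ, rfl⟩⟧ : 𝒬)) = ⇑f ∣[k] γ⁻¹ := by
  rw [quotientFunc_mk]
  show ⇑f ∣[k] (mapGL ℝ γ)⁻¹ = ⇑f ∣[k] (mapGL ℝ γ⁻¹)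
  rw [map_inv]

omit [NeZero N] in
theorem quotientFunc_congr [SlashInvariantFormClass F₁ 𝒢 k] [SlashInvariantFormClass F₂ 𝒢 k]
    (f₁ : F₁) (f₂ : F₂) (h : (⇑f₁ : ℍ → ℂ) = ⇑f₂) (q : 𝒬) : quotientFunc f₁ q = quotientFunc f₂ q := by
  induction q using Quotient.inductionOn with
  | h r => rw [quotientFunc_mk, quotientFunc_mk, h]

omit [NeZero N] in
theorem quotientFunc_add' [SlashInvariantFormClass F₁ 𝒢 k] [SlashInvariantFormClass F₂ 𝒢 k]
    [SlashInvariantFormClass F₃ 𝒢 k] (f₁ : F₁) (f₂ : F₂) (f₃ : F₃) (h : (⇑f₃ : ℍ → ℂ) = ⇑f₁ + ⇑f₂) (q : 𝒬) :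
    quotientFunc f₃ q = quotientFunc f₁ q + quotientFunc f₂ q := by
  induction q using Quotient.inductionOn with
  | h r => rw [quotientFunc_mk, quotientFunc_mk, quotientFunc_mk, h, SlashAction.add_slash]

omit [NeZero N] in
theorem quotientFunc_smul' [SlashInvariantFormClass F₁ 𝒢 k] [SlashInvariantFormClass F₂ 𝒢 k]
    (f₁ : F₁) (f₂ : F₂) (c : ℂ) (h : (⇑f₂ : ℍ → ℂ) = c • ⇑f₁) (q : 𝒬) :
    quotientFunc f₂ q = c • quotientFunc f₁ q := by
  induction q using Quotient.inductionOn with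
  | h r =>
    obtain ⟨r, γ, rfl⟩ := r
    rw [quotientFunc_mk_SL, quotientFunc_mk_SL, h, ModularForm.SL_smul_slash]

omit [NeZero N] in
theorem quotientFunc_mul' [SlashInvariantFormClass F₁ 𝒢 k₁] [SlashInvariantFormClass F₂ 𝒢 k₂]
    [SlashInvariantFormClass F₃ 𝒢 k₃] (hk : k₃ = k₁ + k₂) (f₁ : F₁) (f₂ : F₂) (f₃ : F₃)
    (h : (⇑f₃ : ℍ → ℂ) = ⇑f₁ * ⇑f₂) (q : 𝒬) :
    quotientFunc f₃ q = quotientFunc f₁ q * quotientFunc f₂ q := by
  subst hk
  induction q using Quotient.inductionOn with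
  | h r =>
    obtain ⟨r, γ, rfl⟩ := r
    rw [quotientFunc_mk_SL, quotientFunc_mk_SL, quotientFunc_mk_SL, h, ModularForm.mul_slash_SL2]

omit [NeZero N] in
/-- the conjugates of (the restriction of) a form of level one are all equal to it -/
theorem quotientFunc_levelOne [SlashInvariantFormClass F₁ 𝒢 k] [SlashInvariantFormClass F₂ 𝒮ℒ k]
    (f₁ : F₁) (L : F₂) (h : (⇑f₁ : ℍ → ℂ) = ⇑L) (q : 𝒬) : quotientFunc f₁ q = ⇑L := by
  induction q using Quotient.inductionOn with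
  | h r =>
    rw [quotientFunc_mk, h]
    exact SlashInvariantFormClass.slash_action_eq L _ (inv_mem r.2)

omit [NeZero N] in
/-- the conjugate at the trivial coset -/
theorem quotientFunc_one [SlashInvariantFormClass F 𝒢 k] (f : F) :
    quotientFunc f ((⟦1⟧ : 𝒬)) = ⇑f := by
  rw [quotientFunc_mk]
  simp

theorem conjSeries_congr [ModularFormClass F₁ 𝒢 k] [ModularFormClass F₂ 𝒢 k]
    (f₁ : F₁) (f₂ : F₂) (h : (⇑f₁ : ℍ → ℂ) = ⇑f₂) (q : 𝒬) : conjSeries N f₁ q = conjSeries N f₂ q := by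
  rw [conjSeries, conjSeries, quotientFunc_congr N f₁ f₂ h]

theorem conjSeries_add' [ModularFormClass F₁ 𝒢 k] [ModularFormClass F₂ 𝒢 k]
    [ModularFormClass F₃ 𝒢 k] (f₁ : F₁) (f₂ : F₂) (f₃ : F₃) (h : (⇑f₃ : ℍ → ℂ) = ⇑f₁ + ⇑f₂) (q : 𝒬) :
    conjSeries N f₃ q = conjSeries N f₁ q + conjSeries N f₂ q := by
  have hN : (0 : ℝ) < N := Nat.cast_pos.mpr (Nat.pos_of_ne_zero (NeZero.ne N))
  rw [conjSeries, conjSeries, conjSeries, quotientFunc_add' N f₁ f₂ f₃ h,
    qExpansion_add ((isHolInf_quotientFunc N f₁ q).analyticAt hN) ((isHolInf_quotientFunc N f₂ q).analyticAt hN)]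

theorem conjSeries_smul' [ModularFormClass F₁ 𝒢 k] [ModularFormClass F₂ 𝒢 k]
    (f₁ : F₁) (f₂ : F₂) (c : ℂ) (h : (⇑f₂ : ℍ → ℂ) = c • ⇑f₁) (q : 𝒬) :
    conjSeries N f₂ q = c • conjSeries N f₁ q := by
  have hN : (0 : ℝ) < N := Nat.cast_pos.mpr (Nat.pos_of_ne_zero (NeZero.ne N))
  rw [conjSeries, conjSeries, quotientFunc_smul' N f₁ f₂ c h,
    qExpansion_smul ((isHolInf_quotientFunc N f₁ q).analyticAt hN)]

theorem conjSeries_mul' [ModularFormClass F₁ 𝒢 k₁] [ModularFormClass F₂ 𝒢 k₂]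
    [ModularFormClass F₃ 𝒢 k₃] (hk : k₃ = k₁ + k₂) (f₁ : F₁) (f₂ : F₂) (f₃ : F₃)
    (h : (⇑f₃ : ℍ → ℂ) = ⇑f₁ * ⇑f₂) (q : 𝒬) :
    conjSeries N f₃ q = conjSeries N f₁ q * conjSeries N f₂ q := by
  have hN : (0 : ℝ) < N := Nat.cast_pos.mpr (Nat.pos_of_ne_zero (NeZero.ne N))
  rw [conjSeries, conjSeries, conjSeries, quotientFunc_mul' N hk f₁ f₂ f₃ h,
    qExpansion_mul ((isHolInf_quotientFunc N f₁ q).analyticAt hN) ((isHolInf_quotientFunc N f₂ q).analyticAt hN)]

theorem conjSeries_levelOne [ModularFormClass F₁ 𝒢 k] [ModularFormClass F₂ 𝒮ℒ k]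
    (f₁ : F₁) (L : F₂) (h : (⇑f₁ : ℍ → ℂ) = ⇑L) (q : 𝒬) :
    conjSeries N f₁ q = PowerSeries.expand N (NeZero.ne N) (qExpansion 1 L) := by
  rw [conjSeries, quotientFunc_levelOne N f₁ L h, qExpansion_nat_width (isHolInf_levelOne L) (NeZero.ne N)]

theorem conjSeries_one [ModularFormClass F 𝒢 k] (f : F) :
    conjSeries N f ((⟦1⟧ : 𝒬)) = PowerSeries.expand N (NeZero.ne N) (qExpansion 1 f) := by
  rw [conjSeries, quotientFunc_one, qExpansion_nat_width (isHolInf_one_Gamma0 N f) (NeZero.ne N)]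

end algebra

/-! ### integrality -/

/-- if all conjugate series have coefficients in the subring `R'`, so has the `q`-expansion of `esymmMF` -/
theorem coeff_qExpansion_esymmMF_mem [ModularFormClass F 𝒢 k] (f : F) (R' : Subring ℂ)
    (h : ∀ (q : 𝒬) (n : ℕ), (conjSeries N f q).coeff n ∈ R') (i n : ℕ) :
    (qExpansion 1 (esymmMF 𝒮ℒ f i)).coeff n ∈ R' := by
  classical
  letI := Fintype.ofFinite 𝒬
  -- the subring of power series with coefficients in `R'`
  let S : Subring (PowerSeries ℂ) := (PowerSeries.map R'.subtype).range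
  have hS : ∀ P : PowerSeries ℂ, (∀ n, P.coeff n ∈ R') → P ∈ S := by
    intro P hP
    refine ⟨PowerSeries.mk fun n => ⟨P.coeff n, hP n⟩, ?_⟩
    ext n
    simp
  have hS' : ∀ P ∈ S, ∀ n, P.coeff n ∈ R' := by
    rintro P ⟨Q, rfl⟩ n
    simp
  have hmem : ((univ : Finset 𝒬).val.map fun q => conjSeries N f q).esymm i ∈ S := by
    rw [Finset.esymm_map_val]
    exact Subring.sum_mem _ fun t _ => Subring.prod_mem _ fun q _ => hS _ (h q)
  rw [← expand_qExpansion_esymmMF] at hmem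
  have := hS' _ hmem (N * n)
  rwa [PowerSeries.coeff_expand_mul] at this

end Gamma0

end Fermat.Agent.Eis
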