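import Mathlib
import Fermat.Agent.Eis.ConjForms

/-!
# S16 / conjugates layer, part 4: the cosets `SL(2,ℤ) / Γ₀(p)`

`cosetEquiv p : Option (Fin p) ≃ ConjIdx p`, `none ↦ [1]`, `some j ↦ [(S T^j)⁻¹]`.
-/

set_option autoImplicit false

noncomputable section

namespace Fermat.Agent.Eis

open UpperHalfPlane Finset SlashInvariantForm CongruenceSubgroup Matrix.SpecialLinearGroup ConjAct
  Fermat.Agent.X0 ModularGroup
open scoped ModularForm MatrixGroups Topology Filter Manifold Pointwise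

variable (p : ℕ) [Fact p.Prime]

/-- the class of `γ ∈ SL(2,ℤ)` in `SL(2,ℤ) / Γ₀(p)` -/
def toIdx (γ : SL(2, ℤ)) : ConjIdx p := QuotientGroup.mk ⟨mapGL ℝ γ, γ, rfl⟩

theorem toIdx_surjective : Function.Surjective (toIdx p) := by
  intro q
  induction q using Quotient.inductionOn with
  | h r =>
    obtain ⟨r, γ, rfl⟩ := r
    exact ⟨γ, rfl⟩

theorem toIdx_eq_iff (a b : SL(2, ℤ)) : toIdx p a = toIdx p b ↔ a⁻¹ * b ∈ Gamma0 p := by
  unfold toIdx
  rw [QuotientGroup.eq, Subgroup.mem_subgroupOf]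
  show (mapGL ℝ a)⁻¹ * mapGL ℝ b ∈ Subgroup.map (mapGL ℝ) (Gamma0 p) ↔ _
  rw [← map_inv, ← map_mul]
  constructor
  · rintro ⟨c, hc, hcab⟩
    rwa [← mapGL_injective hcab]
  · intro h
    exact Subgroup.mem_map_of_mem _ h

/-- the coset representatives `1`, `(S T^j)⁻¹` (`j < p`) -/
def cosetRep : Option (Fin p) → SL(2, ℤ)
  | none => 1
  | some j => (S * T ^ ((j : ℕ) : ℤ))⁻¹

theorem coe_S_mul_T_zpow (n : ℤ) : ((S * T ^ n : SL(2, ℤ)) : Matrix (Fin 2) (Fin 2) ℤ) = !![0, -1; 1, n] := by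
  rw [Matrix.SpecialLinearGroup.coe_mul, coe_T_zpow, coe_S]
  ext i j
  fin_cases i <;> fin_cases j <;> simp [Matrix.mul_apply, Fin.sum_univ_two]

theorem S_mul_T_zpow_mul_apply_one_zero (n : ℤ) (γ : SL(2, ℤ)) :
    ((S * T ^ n * γ : SL(2, ℤ))) 1 0 = γ 0 0 + n * γ 1 0 := by
  rw [Matrix.SpecialLinearGroup.coe_mul, coe_S_mul_T_zpow]
  simp [Matrix.mul_apply, Fin.sum_univ_two]

theorem natCast_ne_zero_zmod_one : ((1 : ℤ) : ZMod p) ≠ 0 := by
  have : Fact (1 < p) := ⟨(Fact.out : p.Prime).one_lt⟩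
  simp

theorem cosetRep_injective : Function.Injective (toIdx p ∘ cosetRep p) := by
  have hp : p.Prime := Fact.out
  intro x y hxy
  simp only [Function.comp_apply, toIdx_eq_iff, Gamma0_mem] at hxy
  rcases x with _ | i <;> rcases y with _ | j
  · rfl
  · exfalso
    simp only [cosetRep, inv_one, one_mul] at hxy
    -- `(S T^j)⁻¹ ∈ Γ₀(p)` iff `S T^j ∈ Γ₀(p)`
    have h1 : (S * T ^ ((j : ℕ) : ℤ))⁻¹ ∈ Gamma0 p := Gamma0_mem.mpr hxy
    have h2 : S * T ^ ((j : ℕ) : ℤ) ∈ Gamma0 p := by simpa using (Gamma0 p).inv_mem h1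
    rw [Gamma0_mem, coe_S_mul_T_zpow] at h2
    exact natCast_ne_zero_zmod_one p (by simpa using h2)
  · exfalso
    simp only [cosetRep, inv_inv, mul_one] at hxy
    rw [coe_S_mul_T_zpow] at hxy
    exact natCast_ne_zero_zmod_one p (by simpa using hxy)
  · simp only [cosetRep, inv_inv] at hxy
    rw [S_mul_T_zpow_mul_apply_one_zero] at hxy
    -- entries of `(S T^j)⁻¹ = [[j, 1], [-1, 0]]`
    have h00 : ((S * T ^ ((j : ℕ) : ℤ))⁻¹ : SL(2, ℤ)) 0 0 = (j : ℕ) := by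
      rw [Matrix.SpecialLinearGroup.coe_inv, coe_S_mul_T_zpow, Matrix.adjugate_fin_two]
      simp
    have h10 : ((S * T ^ ((j : ℕ) : ℤ))⁻¹ : SL(2, ℤ)) 1 0 = -1 := by
      rw [Matrix.SpecialLinearGroup.coe_inv, coe_S_mul_T_zpow, Matrix.adjugate_fin_two]
      simp
    rw [h00, h10] at hxy
    have h3 : ((j : ℕ) : ZMod p) = ((i : ℕ) : ZMod p) := by
      have : (((j : ℕ) : ℤ) + ((i : ℕ) : ℤ) * (-1) : ZMod p) = 0 := by exact_mod_cast hxy
      push_cast at this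
      linear_combination this
    have h4 : (j : ℕ) = (i : ℕ) := by
      have := congrArg ZMod.val h3
      rwa [ZMod.val_natCast_of_lt j.2, ZMod.val_natCast_of_lt i.2] at this
    exact congrArg some (Fin.ext h4.symm)

theorem cosetRep_surjective : Function.Surjective (toIdx p ∘ cosetRep p) := by
  have hp : p.Prime := Fact.out
  intro q
  obtain ⟨γ, rfl⟩ := toIdx_surjective p q
  by_cases hc : ((γ 1 0 : ℤ) : ZMod p) = 0
  · refine ⟨none, ?_⟩
    simp only [Function.comp_apply, toIdx_eq_iff, cosetRep, inv_one, one_mul, Gamma0_mem]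
    exact hc
  · -- `j = -a / c`
    set j : ZMod p := -((γ 0 0 : ℤ) : ZMod p) * (((γ 1 0 : ℤ) : ZMod p))⁻¹ with hj
    refine ⟨some ⟨j.val, ZMod.val_lt j⟩, ?_⟩
    simp only [Function.comp_apply, toIdx_eq_iff, cosetRep, inv_inv, Gamma0_mem]
    rw [S_mul_T_zpow_mul_apply_one_zero]
    push_cast
    rw [ZMod.natCast_zmod_val, hj]
    field_simp
    ring

/-- **The enumeration of the cosets** `SL(2,ℤ) / Γ₀(p)`. -/
def cosetEquiv : Option (Fin p) ≃ ConjIdx p :=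
  Equiv.ofBijective (toIdx p ∘ cosetRep p) ⟨cosetRep_injective p, cosetRep_surjective p⟩

theorem cosetEquiv_none : cosetEquiv p none = toIdx p 1 := rfl

theorem cosetEquiv_some (j : Fin p) : cosetEquiv p (some j) = toIdx p (S * T ^ ((j : ℕ) : ℤ))⁻¹ := rfl

end Fermat.Agent.Eis
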