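import Mathlib
import Fermat.Agent.Eis.ConjSeries
import Fermat.Agent.X0.Ana.QExpSubst

/-!
# S16 / conjugates layer, part 3: scaling `z ↦ p z` and translations `z ↦ z + j` on expansions

* `qExpansion_comp_scale`: for `φ` of period `p`, `z ↦ φ (p z)` has period `1` and its expansion of width `1` is the
  expansion of width `p` of `φ`.
* `qExpansion_comp_shift`: the expansion of width `p` of `z ↦ φ (z + j)` is `rescale (exp (2πi/p) ^ j)` of that of `φ`.
-/

set_option autoImplicit false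

noncomputable section

namespace Fermat.Agent.Eis

open Function Complex Filter Topology Fermat.Agent.X0
open UpperHalfPlane hiding I
open scoped Manifold Real

/-- `z ↦ p z` on the upper half plane -/
def scaleH (p : ℕ) [NeZero p] (z : ℍ) : ℍ :=
  ⟨(p : ℂ) * z, by
    have hp : (0 : ℝ) < p := Nat.cast_pos.mpr (Nat.pos_of_ne_zero (NeZero.ne p))
    simpa using mul_pos hp z.im_pos⟩

@[simp] theorem coe_scaleH (p : ℕ) [NeZero p] (z : ℍ) : ((scaleH p z : ℍ) : ℂ) = (p : ℂ) * z := rfl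

theorem im_scaleH (p : ℕ) [NeZero p] (z : ℍ) : (scaleH p z).im = (p : ℝ) * z.im := by
  show ((p : ℂ) * (z : ℂ)).im = _
  simp

theorem tendsto_scaleH_atImInfty (p : ℕ) [NeZero p] : Tendsto (scaleH p) atImInfty atImInfty := by
  have hp : (0 : ℝ) < p := Nat.cast_pos.mpr (Nat.pos_of_ne_zero (NeZero.ne p))
  rw [atImInfty, tendsto_comap_iff]
  have : (UpperHalfPlane.im ∘ scaleH p) = fun z : ℍ => (p : ℝ) * z.im := by
    ext z
    exact im_scaleH p z
  rw [this]
  exact Tendsto.const_mul_atTop hp tendsto_comap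

theorem qParam_scaleH (p : ℕ) [NeZero p] (z : ℍ) :
    Periodic.qParam (p : ℝ) (scaleH p z) = Periodic.qParam 1 z := by
  have hpC : (p : ℂ) ≠ 0 := Nat.cast_ne_zero.mpr (NeZero.ne p)
  simp only [Periodic.qParam, coe_scaleH]
  congr 1
  push_cast
  field_simp

variable {p : ℕ} [NeZero p] {φ : ℍ → ℂ}

/-- `z ↦ φ (p z)` is holomorphic, `1`-periodic and bounded at `i∞` if `φ` is so with period `p` -/
theorem isHolInf_comp_scale (hφ : IsHolInf (p : ℝ) φ) : IsHolInf 1 (fun z => φ (scaleH p z)) where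
  mdiff := by
    have := mdiff_comp_affine (a := p) (d := 1) (b := 0) (σ := scaleH p) hφ.mdiff (fun τ => by simp)
    exact this
  periodic := by
    intro z
    simp only [Function.comp_apply]
    by_cases hz : 0 < z.im
    · have hz' : 0 < (z + ((1 : ℝ) : ℂ)).im := by simpa using hz
      have hp : (0 : ℝ) < p := Nat.cast_pos.mpr (Nat.pos_of_ne_zero (NeZero.ne p))
      have h1 : 0 < ((p : ℂ) * z).im := by simpa using mul_pos hp hz
      have h2 : 0 < ((p : ℂ) * z + ((p : ℝ) : ℂ)).im := by simpa using mul_pos hp hz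
      rw [ofComplex_apply_of_im_pos hz, ofComplex_apply_of_im_pos hz']
      have e1 : scaleH p ⟨z, hz⟩ = ofComplex ((p : ℂ) * z) := by
        ext
        rw [ofComplex_apply_of_im_pos h1]
        rfl
      have e2 : scaleH p ⟨z + ((1 : ℝ) : ℂ), hz'⟩ = ofComplex ((p : ℂ) * z + ((p : ℝ) : ℂ)) := by
        ext
        rw [ofComplex_apply_of_im_pos h2]
        show (p : ℂ) * (z + ((1 : ℝ) : ℂ)) = _
        push_cast
        ring
      rw [e1, e2]
      exact hφ.periodic ((p : ℂ) * z)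
    · have hz' : ¬ 0 < (z + ((1 : ℝ) : ℂ)).im := by simpa using hz
      rw [ofComplex_apply_of_im_nonpos (not_lt.mp hz), ofComplex_apply_of_im_nonpos (not_lt.mp hz')]
  bdd := hφ.bdd.comp_tendsto (tendsto_scaleH_atImInfty p)

/-- **Scaling**: the expansion of width `1` of `z ↦ φ (p z)` is the expansion of width `p` of `φ`. -/
theorem qExpansion_comp_scale (hφ : IsHolInf (p : ℝ) φ) :
    qExpansion 1 (fun z => φ (scaleH p z)) = qExpansion (p : ℝ) φ := by
  have hp : (0 : ℝ) < p := Nat.cast_pos.mpr (Nat.pos_of_ne_zero (NeZero.ne p))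
  ext m
  rw [← qExpansion_coeff_unique_fun one_pos ((isHolInf_comp_scale hφ).analyticAt one_pos)
    (c := fun m => (qExpansion (p : ℝ) φ).coeff m)]
  intro τ
  have h1 := hasSum_qExpansion hp hφ.periodic hφ.mdiff hφ.bdd (scaleH p τ)
  rw [qParam_scaleH] at h1
  exact h1

/-- the `p`-th root of unity `exp (2πi/p)` -/
theorem qParam_shift (p : ℕ) [NeZero p] (j : ℕ) {z w : ℍ} (h : (w : ℂ) = z + j) :
    Periodic.qParam (p : ℝ) w = Complex.exp (2 * π * I / p) ^ j * Periodic.qParam (p : ℝ) z := by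
  have hpC : (p : ℂ) ≠ 0 := Nat.cast_ne_zero.mpr (NeZero.ne p)
  simp only [Periodic.qParam, h]
  rw [← Complex.exp_nat_mul, ← Complex.exp_add]
  congr 1
  push_cast
  field_simp
  ring

/-- **Translation**: the expansion of width `p` of `z ↦ φ (z + j)`. -/
theorem qExpansion_comp_shift {χ : ℍ → ℂ} (hφ : IsHolInf (p : ℝ) φ) (hχ : IsHolInf (p : ℝ) χ) (j : ℕ)
    (σ : ℍ → ℍ) (hσ : ∀ z, (σ z : ℂ) = z + j) (h : ∀ z, χ z = φ (σ z)) :
    qExpansion (p : ℝ) χ =
      PowerSeries.rescale (Complex.exp (2 * π * I / p) ^ j) (qExpansion (p : ℝ) φ) := by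
  have hp : (0 : ℝ) < p := Nat.cast_pos.mpr (Nat.pos_of_ne_zero (NeZero.ne p))
  ext m
  rw [← qExpansion_coeff_unique_fun hp (hχ.analyticAt hp)
    (c := fun m => (PowerSeries.rescale (Complex.exp (2 * π * I / p) ^ j) (qExpansion (p : ℝ) φ)).coeff m)]
  intro τ
  have h1 := hasSum_qExpansion hp hφ.periodic hφ.mdiff hφ.bdd (σ τ)
  rw [qParam_shift p j (hσ τ), ← h τ] at h1
  convert h1 using 2 with m
  rw [PowerSeries.coeff_rescale, mul_pow, smul_eq_mul, smul_eq_mul, ← pow_mul]
  ring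

end Fermat.Agent.Eis
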