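import Mathlib
import Fermat.Agent.Eis.ConjCosets
import Fermat.Agent.Eis.ConjShift

/-!
# S16 / conjugates layer, part 5: the `p + 1` conjugates of a form on `Γ₀(p)` and their series

For `G` a modular form of weight `k` on `Γ₀(p)`:
* the conjugates are `G` and `G ∣[k] (S T^j)`, `j < p` (`quotientFunc_cosetEquiv_none/_some`);
* `cuspSeries p k H : Option (Fin p) → ℂ⟦X⟧`: `none ↦ a(t^p)`, `some j ↦ b(ζ^j t)`, where `a = qExp H`,
  `b = qExp (z ↦ (H ∣[k] S)(p z))` the expansion at the cusp `0` and `ζ = exp(2πi/p)`;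
* `conjSeries_cosetEquiv`: the conjugate series are the `cuspSeries`;
* `exists_esymm_forms_of_form` (**A3**): the elementary symmetric functions of the conjugates are level one forms
  whose `q`-expansions are the elementary symmetric functions of the `cuspSeries`;
* `qExpansion_levelOne_comp_scale` (**A2**): for `g` of level one, `z ↦ g (p z)` has `q`-expansion `g(q^p)`.
-/

set_option autoImplicit false

noncomputable section

namespace Fermat.Agent.Eis

open UpperHalfPlane Finset SlashInvariantForm CongruenceSubgroup Matrix.SpecialLinearGroup ConjAct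
  Fermat.Agent.X0 ModularGroup
open scoped ModularForm MatrixGroups Topology Filter Manifold Pointwise Real

variable (p : ℕ) [Fact p.Prime] {F : Type*} [FunLike F ℍ ℂ] {k : ℤ}

/-- the expansion at the cusp `0`, as a `1`-periodic function: `z ↦ (H ∣[k] S)(p z)` -/
def cuspFun (k : ℤ) (H : ℍ → ℂ) : ℍ → ℂ := fun z => (H ∣[k] S) (scaleH p z)

/-- the `p + 1` conjugate series in the variable `t = q^(1/p)` -/
def cuspSeries (k : ℤ) (H : ℍ → ℂ) : Option (Fin p) → PowerSeries ℂ
  | none => PowerSeries.expand p (NeZero.ne p) (qExpansion 1 H)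
  | some j => PowerSeries.rescale (Complex.exp (2 * π * Complex.I / p) ^ (j : ℕ)) (qExpansion 1 (cuspFun p k H))

theorem quotientFunc_cosetEquiv_none [SlashInvariantFormClass F (lvl p) k] (G : F) :
    quotientFunc G (cosetEquiv p none) = ⇑G := by
  rw [cosetEquiv_none, toIdx, quotientFunc_mk_SL]
  simp

theorem quotientFunc_cosetEquiv_some [SlashInvariantFormClass F (lvl p) k] (G : F) (j : Fin p) :
    quotientFunc G (cosetEquiv p (some j)) = ⇑G ∣[k] (S * T ^ ((j : ℕ) : ℤ)) := by
  rw [cosetEquiv_some, toIdx, quotientFunc_mk_SL, inv_inv]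

/-- the translation `z ↦ z + j` -/
def shiftH (j : ℕ) (z : ℍ) : ℍ := (T ^ (j : ℤ)) • z

theorem coe_shiftH (j : ℕ) (z : ℍ) : ((shiftH j z : ℍ) : ℂ) = z + j := by
  rw [shiftH, ModularGroup.coe_T_zpow_smul_eq]
  push_cast
  ring

theorem slash_S_mul_T_zpow_apply (H : ℍ → ℂ) (j : ℕ) (z : ℍ) :
    (H ∣[k] (S * T ^ (j : ℤ))) z = (H ∣[k] S) (shiftH j z) := by
  rw [SlashAction.slash_mul, ModularForm.SL_slash_apply (f := H ∣[k] S) (k := k) (T ^ (j : ℤ)) z]
  have hd : denom ((T ^ (j : ℤ) : SL(2, ℤ)) : GL (Fin 2) ℝ) z = 1 := by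
    rw [ModularGroup.denom_apply]
    have h10 : (T ^ (j : ℤ) : SL(2, ℤ)) 1 0 = 0 := by
      rw [ModularGroup.coe_T_zpow]
      rfl
    have h11 : (T ^ (j : ℤ) : SL(2, ℤ)) 1 1 = 1 := by
      rw [ModularGroup.coe_T_zpow]
      rfl
    rw [h10, h11]
    simp
  rw [hd, one_zpow, mul_one]
  rfl

theorem isHolInf_slash_S [ModularFormClass F (lvl p) k] (G : F) : IsHolInf (p : ℝ) (⇑G ∣[k] S) := by
  have h := isHolInf_quotientFunc p G (toIdx p S⁻¹)
  rwa [toIdx, quotientFunc_mk_SL, inv_inv] at h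

/-- **The conjugate series.** -/
theorem conjSeries_cosetEquiv [ModularFormClass F (lvl p) k] (G : F) (x : Option (Fin p)) :
    conjSeries p G (cosetEquiv p x) = cuspSeries p k ⇑G x := by
  rcases x with _ | j
  · show qExpansion (p : ℝ) (quotientFunc G (cosetEquiv p none)) = _
    rw [quotientFunc_cosetEquiv_none, qExpansion_nat_width (isHolInf_one_Gamma0 p G) (NeZero.ne p)]
    rfl
  · show qExpansion (p : ℝ) (quotientFunc G (cosetEquiv p (some j))) = _
    have hχ := isHolInf_quotientFunc p G (cosetEquiv p (some j))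
    rw [quotientFunc_cosetEquiv_some] at hχ ⊢
    rw [qExpansion_comp_shift (isHolInf_slash_S p G) hχ (j : ℕ) (shiftH (j : ℕ)) (coe_shiftH (j : ℕ))
      (slash_S_mul_T_zpow_apply ⇑G (j : ℕ)), ← qExpansion_comp_scale (isHolInf_slash_S p G)]
    rfl

/-- **A3**: the elementary symmetric functions of the `p + 1` conjugates of a form on `Γ₀(p)`. -/
theorem exists_esymm_forms_of_form [ModularFormClass F (lvl p) k] (G : F) :
    ∃ (Hc : Option (Fin p) → ℍ → ℂ) (e : ∀ i : ℕ, ModularForm 𝒮ℒ (k * i)),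
      Hc none = ⇑G ∧
      (∀ j : Fin p, Hc (some j) = ⇑G ∣[k] (S * T ^ ((j : ℕ) : ℤ))) ∧
      (∀ i τ, e i τ = (Finset.univ.val.map fun j => Hc j τ).esymm i) ∧
      (∀ i, PowerSeries.expand p (NeZero.ne p) (qExpansion 1 (e i)) =
        (Finset.univ.val.map fun j => cuspSeries p k ⇑G j).esymm i) := by
  letI : Fintype (ConjIdx p) := Fintype.ofEquiv _ (cosetEquiv p)
  refine ⟨fun x => quotientFunc G (cosetEquiv p x), fun i => esymmMF 𝒮ℒ G i,
    quotientFunc_cosetEquiv_none p G, quotientFunc_cosetEquiv_some p G, fun i τ => ?_, fun i => ?_⟩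
  · rw [esymmMF_apply 𝒮ℒ G i τ, ← Multiset.map_univ_val_equiv (cosetEquiv p), Multiset.map_map]
    rfl
  · rw [expand_qExpansion_esymmMF p G i, ← Multiset.map_univ_val_equiv (cosetEquiv p), Multiset.map_map]
    congr 1
    refine Multiset.map_congr rfl fun x _ => ?_
    exact conjSeries_cosetEquiv p G x

/-- **A2**: for `g` of level one, `z ↦ g (p z)` has `q`-expansion `g(q^p)`. -/
theorem qExpansion_cuspFun_levelOne (g : ModularForm 𝒮ℒ k) :
    qExpansion 1 (cuspFun p k ⇑g) = PowerSeries.expand p (NeZero.ne p) (qExpansion 1 g) := by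
  have hS : (⇑g ∣[k] S) = ⇑g := by
    rw [ModularForm.SL_slash]
    exact SlashInvariantFormClass.slash_action_eq g _ ⟨S, rfl⟩
  have hg : IsHolInf (p : ℝ) ⇑g := isHolInf_nat_width (isHolInf_levelOne g) p
  show qExpansion 1 (fun z => (⇑g ∣[k] S) (scaleH p z)) = _
  rw [hS, qExpansion_comp_scale hg, qExpansion_nat_width (isHolInf_levelOne g) (NeZero.ne p)]

theorem cuspFun_levelOne (g : ModularForm 𝒮ℒ k) (z : ℍ) : cuspFun p k ⇑g z = g (scaleH p z) := by
  have hS : (⇑g ∣[k] S) = ⇑g := by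
    rw [ModularForm.SL_slash]
    exact SlashInvariantFormClass.slash_action_eq g _ ⟨S, rfl⟩
  show (⇑g ∣[k] S) (scaleH p z) = _
  rw [hS]

end Fermat.Agent.Eis
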