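import Mathlib
import Fermat.Prelude.Thm_CongruenceSubgroup_one_mem_strictPeriods_Gamma0

/-!
# S16 / upper bound, DEFS 2: function-level modular forms on `Γ0(p)` and the `sharp` operation

We work with FUNCTIONS `H : ℍ → ℂ` together with the predicate `IsGamma0Form p k H` ("`H` is the
underlying function of a modular form of weight `k` on `Γ0(p)`"), so that products, powers and linear
combinations need no weight casts.  `sharp p k H z = (H ∣[k] S)(p z)` is the expansion of `H` at the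
cusp `0`, written as a `1`-periodic function.
-/

set_option autoImplicit false

open UpperHalfPlane ModularForm Complex CongruenceSubgroup
open scoped MatrixGroups ModularForm

namespace Fermat.Agent.Eis

/-- `H` is the underlying function of a modular form of weight `k` on `Γ0(p)`. -/
def IsGamma0Form (p : ℕ) (k : ℤ) (H : ℍ → ℂ) : Prop :=
  ∃ G : ModularForm (Gamma0 p) k, ⇑G = H

/-- `z ↦ p z` on the upper half plane. -/
noncomputable def pScale (p : ℕ) [NeZero p] (z : ℍ) : ℍ :=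
  ⟨(p : ℂ) * z, by
    have hp : (0 : ℝ) < p := Nat.cast_pos.mpr (Nat.pos_of_ne_zero (NeZero.ne p))
    simpa using mul_pos hp z.im_pos⟩

@[simp] theorem coe_pScale (p : ℕ) [NeZero p] (z : ℍ) : ((pScale p z : ℍ) : ℂ) = (p : ℂ) * z := rfl

/-- `sharp H (z) = (H ∣[k] S)(p z)`: the expansion of `H` at the cusp `0` as a `1`-periodic
function.  The conjugates of `H` under `Γ0(p)\SL2(ℤ)` are `H` and `z ↦ sharp H ((z + j)/p)`,
`j = 0..p-1`. -/
noncomputable def sharp (p : ℕ) [NeZero p] (k : ℤ) (H : ℍ → ℂ) : ℍ → ℂ :=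
  fun z => (H ∣[k] ModularGroup.S) (pScale p z)

/-- the `q`-expansion at the other cusp. -/
noncomputable def sharpQ (p : ℕ) [NeZero p] (k : ℤ) (H : ℍ → ℂ) : PowerSeries ℂ :=
  qExpansion 1 (sharp p k H)

section formal
variable (p : ℕ) [NeZero p]

theorem sharp_apply (k : ℤ) (H : ℍ → ℂ) (z : ℍ) :
    sharp p k H z = H (ModularGroup.S • pScale p z) * ((p : ℂ) * z) ^ (-k) := by
  unfold sharp
  rw [SL_slash_apply, ModularGroup.denom_S]
  rfl

theorem sharp_mul (k₁ k₂ : ℤ) (H₁ H₂ : ℍ → ℂ) :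
    sharp p (k₁ + k₂) (H₁ * H₂) = sharp p k₁ H₁ * sharp p k₂ H₂ := by
  funext z
  simp only [sharp, mul_slash_SL2, Pi.mul_apply]

theorem sharp_add (k : ℤ) (H₁ H₂ : ℍ → ℂ) :
    sharp p k (H₁ + H₂) = sharp p k H₁ + sharp p k H₂ := by
  funext z
  simp only [sharp, SlashAction.add_slash, Pi.add_apply]

theorem sharp_smul (k : ℤ) (c : ℂ) (H : ℍ → ℂ) : sharp p k (c • H) = c • sharp p k H := by
  funext z
  simp only [sharp, SL_smul_slash, Pi.smul_apply]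

theorem sharp_neg (k : ℤ) (H : ℍ → ℂ) : sharp p k (-H) = -sharp p k H := by
  funext z
  simp only [sharp, SlashAction.neg_slash, Pi.neg_apply]

theorem sharp_sub (k : ℤ) (H₁ H₂ : ℍ → ℂ) :
    sharp p k (H₁ - H₂) = sharp p k H₁ - sharp p k H₂ := by
  rw [sub_eq_add_neg, sharp_add, sharp_neg, ← sub_eq_add_neg]

theorem sharp_one : sharp p 0 (1 : ℍ → ℂ) = 1 := by
  funext z
  simp [sharp_apply]

theorem sharp_const (c : ℂ) : sharp p 0 (fun _ => c) = fun _ => c := by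
  funext z
  simp [sharp_apply]

theorem sharp_pow (k : ℤ) (n : ℕ) (H : ℍ → ℂ) : sharp p (k * n) (H ^ n) = (sharp p k H) ^ n := by
  funext z
  simp only [sharp_apply, Pi.pow_apply, mul_pow]
  rw [← zpow_natCast (((p : ℂ) * z) ^ (-k)) n, ← zpow_mul, neg_mul]

/-- for level one `g`: `sharp g (z) = g (p z)`. -/
theorem sharp_levelOne (k : ℤ) (g : ModularForm 𝒮ℒ k) (z : ℍ) :
    sharp p k g z = g (pScale p z) := by
  have h := SlashInvariantFormClass.slash_action_eq g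
    (Matrix.SpecialLinearGroup.mapGL ℝ ModularGroup.S) ⟨ModularGroup.S, rfl⟩
  unfold sharp
  exact congrFun h (pScale p z)

theorem S_smul_pScale_S_smul_pScale (z : ℍ) :
    ModularGroup.S • pScale p (ModularGroup.S • pScale p z) = z := by
  have hp : (p : ℂ) ≠ 0 := Nat.cast_ne_zero.mpr (NeZero.ne p)
  have hz : (z : ℂ) ≠ 0 := ne_zero z
  apply UpperHalfPlane.ext
  simp only [modular_S_smul, coe_mk, coe_pScale]
  field_simp

/-- `sharp (sharp H) = (-1)^k p^(-k) H`. -/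
theorem sharp_sharp (k : ℤ) (H : ℍ → ℂ) :
    sharp p k (sharp p k H) = ((-1 : ℂ) ^ k * (p : ℂ) ^ (-k)) • H := by
  have hp : (p : ℂ) ≠ 0 := Nat.cast_ne_zero.mpr (NeZero.ne p)
  funext z
  have hz : (z : ℂ) ≠ 0 := ne_zero z
  rw [sharp_apply, sharp_apply, S_smul_pScale_S_smul_pScale, Pi.smul_apply, smul_eq_mul,
    mul_assoc, ← mul_zpow]
  have h1 : ((p : ℂ) * ((ModularGroup.S • pScale p z : ℍ) : ℂ)) * ((p : ℂ) * z) = -(p : ℂ) := by
    simp only [modular_S_smul, coe_mk, coe_pScale]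
    field_simp
  rw [h1, neg_eq_neg_one_mul, mul_zpow, zpow_neg, zpow_neg]
  have h2 : (((-1 : ℂ)) ^ k)⁻¹ = (-1 : ℂ) ^ k := by
    rw [← inv_zpow]; norm_num
  rw [h2]
  ring

end formal

/-! ### closure properties -/

section closure
variable (p : ℕ)

theorem IsGamma0Form.of_form {k : ℤ} (G : ModularForm (Gamma0 p) k) : IsGamma0Form p k G :=
  ⟨G, rfl⟩

theorem IsGamma0Form.congr_weight {k k' : ℤ} {H : ℍ → ℂ} (h : IsGamma0Form p k H)
    (hk : k = k') : IsGamma0Form p k' H := hk ▸ h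

variable {p}

theorem IsGamma0Form.mul {k₁ k₂ : ℤ} {H₁ H₂ : ℍ → ℂ} (h₁ : IsGamma0Form p k₁ H₁)
    (h₂ : IsGamma0Form p k₂ H₂) : IsGamma0Form p (k₁ + k₂) (H₁ * H₂) := by
  obtain ⟨G₁, rfl⟩ := h₁
  obtain ⟨G₂, rfl⟩ := h₂
  exact ⟨G₁.mul G₂, rfl⟩

theorem IsGamma0Form.add {k : ℤ} {H₁ H₂ : ℍ → ℂ} (h₁ : IsGamma0Form p k H₁)
    (h₂ : IsGamma0Form p k H₂) : IsGamma0Form p k (H₁ + H₂) := by
  obtain ⟨G₁, rfl⟩ := h₁
  obtain ⟨G₂, rfl⟩ := h₂
  exact ⟨G₁ + G₂, rfl⟩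

theorem IsGamma0Form.neg {k : ℤ} {H : ℍ → ℂ} (h : IsGamma0Form p k H) :
    IsGamma0Form p k (-H) := by
  obtain ⟨G, rfl⟩ := h
  exact ⟨-G, rfl⟩

theorem IsGamma0Form.sub {k : ℤ} {H₁ H₂ : ℍ → ℂ} (h₁ : IsGamma0Form p k H₁)
    (h₂ : IsGamma0Form p k H₂) : IsGamma0Form p k (H₁ - H₂) := by
  obtain ⟨G₁, rfl⟩ := h₁
  obtain ⟨G₂, rfl⟩ := h₂
  exact ⟨G₁ - G₂, rfl⟩

theorem IsGamma0Form.smul {k : ℤ} {H : ℍ → ℂ} (c : ℂ) (h : IsGamma0Form p k H) :
    IsGamma0Form p k (c • H) := by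
  obtain ⟨G, rfl⟩ := h
  exact ⟨c • G, rfl⟩

theorem IsGamma0Form.one : IsGamma0Form p 0 (1 : ℍ → ℂ) :=
  ⟨1, ModularForm.one_coe_eq_one⟩

theorem IsGamma0Form.pow {k : ℤ} {H : ℍ → ℂ} (h : IsGamma0Form p k H) (n : ℕ) :
    IsGamma0Form p (k * n) (H ^ n) := by
  obtain ⟨G, rfl⟩ := h
  exact (mul_comm (n : ℤ) k) ▸ ⟨G.pow n, ModularForm.coe_pow G n⟩

theorem IsGamma0Form.of_cuspForm {k : ℤ} (G : CuspForm (Gamma0 p) k) : IsGamma0Form p k G :=
  ⟨ModularFormClass.modularForm G, rfl⟩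

/-- restriction of a level one form to `Γ0(p)`. -/
noncomputable def restrictGamma0 (p : ℕ) [NeZero p] {k : ℤ} (g : ModularForm 𝒮ℒ k) :
    ModularForm (Gamma0 p) k where
  toFun := g
  slash_action_eq' γ hγ := g.slash_action_eq' γ (by
    obtain ⟨x, _, rfl⟩ := hγ
    exact ⟨x, rfl⟩)
  holo' := g.holo'
  bdd_at_cusps' {c} hc := g.bdd_at_cusps' (by
    rw [Subgroup.IsArithmetic.isCusp_iff_isCusp_SL2Z] at hc
    rw [Subgroup.IsArithmetic.isCusp_iff_isCusp_SL2Z]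
    exact hc)

@[simp] theorem coe_restrictGamma0 (p : ℕ) [NeZero p] {k : ℤ} (g : ModularForm 𝒮ℒ k) :
    ⇑(restrictGamma0 p g) = ⇑g := rfl

theorem IsGamma0Form.of_levelOne [NeZero p] {k : ℤ} (g : ModularForm 𝒮ℒ k) :
    IsGamma0Form p k g := ⟨restrictGamma0 p g, rfl⟩

/-! ### `q`-expansions -/

theorem IsGamma0Form.analyticAt {k : ℤ} {H : ℍ → ℂ} (h : IsGamma0Form p k H) :
    AnalyticAt ℂ (cuspFunction 1 H) 0 := by
  obtain ⟨G, rfl⟩ := h
  exact ModularFormClass.analyticAt_cuspFunction_zero G one_pos (one_mem_strictPeriods_Gamma0 p)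

theorem IsGamma0Form.qExpansion_mul {k₁ k₂ : ℤ} {H₁ H₂ : ℍ → ℂ} (h₁ : IsGamma0Form p k₁ H₁)
    (h₂ : IsGamma0Form p k₂ H₂) :
    qExpansion 1 (H₁ * H₂) = qExpansion 1 H₁ * qExpansion 1 H₂ :=
  UpperHalfPlane.qExpansion_mul h₁.analyticAt h₂.analyticAt

theorem IsGamma0Form.qExpansion_add {k₁ k₂ : ℤ} {H₁ H₂ : ℍ → ℂ} (h₁ : IsGamma0Form p k₁ H₁)
    (h₂ : IsGamma0Form p k₂ H₂) :
    qExpansion 1 (H₁ + H₂) = qExpansion 1 H₁ + qExpansion 1 H₂ :=
  UpperHalfPlane.qExpansion_add h₁.analyticAt h₂.analyticAt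

theorem IsGamma0Form.qExpansion_sub {k₁ k₂ : ℤ} {H₁ H₂ : ℍ → ℂ} (h₁ : IsGamma0Form p k₁ H₁)
    (h₂ : IsGamma0Form p k₂ H₂) :
    qExpansion 1 (H₁ - H₂) = qExpansion 1 H₁ - qExpansion 1 H₂ :=
  UpperHalfPlane.qExpansion_sub h₁.analyticAt h₂.analyticAt

theorem IsGamma0Form.qExpansion_smul {k : ℤ} {H : ℍ → ℂ} (h : IsGamma0Form p k H) (c : ℂ) :
    qExpansion 1 (c • H) = c • qExpansion 1 H :=
  UpperHalfPlane.qExpansion_smul h.analyticAt c

theorem IsGamma0Form.qExpansion_neg {k : ℤ} {H : ℍ → ℂ} (h : IsGamma0Form p k H) :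
    qExpansion 1 (-H) = -qExpansion 1 H :=
  UpperHalfPlane.qExpansion_neg h.analyticAt

theorem IsGamma0Form.qExpansion_pow {k : ℤ} {H : ℍ → ℂ} (h : IsGamma0Form p k H) (n : ℕ) :
    qExpansion 1 (H ^ n) = qExpansion 1 H ^ n := by
  induction n with
  | zero =>
    simp only [pow_zero]
    exact UpperHalfPlane.qExpansion_one 1
  | succ n ih =>
    rw [pow_succ, pow_succ, ← ih]
    exact (h.pow n).qExpansion_mul h

/-- a form is determined by its `q`-expansion. -/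
theorem IsGamma0Form.eq_of_qExpansion_eq {k : ℤ} {H₁ H₂ : ℍ → ℂ} (h₁ : IsGamma0Form p k H₁)
    (h₂ : IsGamma0Form p k H₂) (h : qExpansion 1 H₁ = qExpansion 1 H₂) : H₁ = H₂ := by
  obtain ⟨G₁, rfl⟩ := h₁
  obtain ⟨G₂, rfl⟩ := h₂
  have h3 : qExpansion 1 (G₁ - G₂) = 0 := by
    rw [ModularForm.qExpansion_sub one_pos (one_mem_strictPeriods_Gamma0 p), h, sub_self]
  have h4 : G₁ - G₂ = 0 :=
    (ModularForm.qExpansion_eq_zero_iff one_pos (one_mem_strictPeriods_Gamma0 p) (G₁ - G₂)).mp h3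
  rw [sub_eq_zero.mp h4]

end closure

end Fermat.Agent.Eis
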