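import Mathlib

/-!
# S16 / upper bound, DEFS 1: the local ring `ℤ_(ℓ) ⊆ ℂ` and its integral closure

`Zloc ℓ` = rationals `a / b` with `ℓ ∤ b`, as a subring of `ℂ`; `Rint ℓ` = its integral closure in `ℂ`
(as a `Subring ℂ`): integrally closed, contains all roots of unity, and `1 / ℓ ∉ Rint ℓ`.
`IsOneModQ ℓ s a`: the power series `a` has constant term `1` and all higher coefficients in `ℓ^s ℤ_(ℓ)`.
-/

set_option autoImplicit false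

namespace Fermat.Agent.Eis

/-- `ℤ_(ℓ)` inside `ℂ`: the rationals `a / b` with `ℓ ∤ b`. -/
def Zloc (ℓ : ℕ) [Fact ℓ.Prime] : Subring ℂ where
  carrier := {x | ∃ a b : ℤ, ¬ (ℓ : ℤ) ∣ b ∧ x = (a : ℂ) / (b : ℂ)}
  mul_mem' := by
    rintro x y ⟨a, b, hb, rfl⟩ ⟨c, d, hd, rfl⟩
    refine ⟨a * c, b * d, ?_, by push_cast; rw [div_mul_div_comm]⟩
    intro h
    rcases (Nat.prime_iff_prime_int.mp (Fact.out : ℓ.Prime)).dvd_or_dvd h with h | h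
    exacts [hb h, hd h]
  one_mem' := ⟨1, 1, by
    intro h
    exact (Nat.prime_iff_prime_int.mp (Fact.out : ℓ.Prime)).not_isUnit (isUnit_of_dvd_one h), by simp⟩
  add_mem' := by
    rintro x y ⟨a, b, hb, rfl⟩ ⟨c, d, hd, rfl⟩
    have hb0 : (b : ℂ) ≠ 0 := by
      intro h0; apply hb; rw [Int.cast_eq_zero.mp h0]; exact dvd_zero _
    have hd0 : (d : ℂ) ≠ 0 := by
      intro h0; apply hd; rw [Int.cast_eq_zero.mp h0]; exact dvd_zero _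
    refine ⟨a * d + c * b, b * d, ?_, by push_cast; rw [div_add_div _ _ hb0 hd0]; ring⟩
    intro h
    rcases (Nat.prime_iff_prime_int.mp (Fact.out : ℓ.Prime)).dvd_or_dvd h with h | h
    exacts [hb h, hd h]
  zero_mem' := ⟨0, 1, by
    intro h
    exact (Nat.prime_iff_prime_int.mp (Fact.out : ℓ.Prime)).not_isUnit (isUnit_of_dvd_one h), by simp⟩
  neg_mem' := by
    rintro x ⟨a, b, hb, rfl⟩
    exact ⟨-a, b, hb, by push_cast; ring⟩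

theorem mem_Zloc_iff (ℓ : ℕ) [Fact ℓ.Prime] (x : ℂ) :
    x ∈ Zloc ℓ ↔ ∃ a b : ℤ, ¬ (ℓ : ℤ) ∣ b ∧ x = (a : ℂ) / (b : ℂ) := Iff.rfl

theorem intCast_mem_Zloc (ℓ : ℕ) [Fact ℓ.Prime] (a : ℤ) : (a : ℂ) ∈ Zloc ℓ := intCast_mem _ a

theorem natCast_mem_Zloc (ℓ : ℕ) [Fact ℓ.Prime] (a : ℕ) : (a : ℂ) ∈ Zloc ℓ := natCast_mem _ a

/-- integers prime to `ℓ` are invertible in `ℤ_(ℓ)`. -/
theorem intCast_inv_mem_Zloc (ℓ : ℕ) [Fact ℓ.Prime] (b : ℤ) (hb : ¬ (ℓ : ℤ) ∣ b) :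
    ((b : ℂ))⁻¹ ∈ Zloc ℓ := ⟨1, b, hb, by simp⟩

theorem natCast_inv_mem_Zloc (ℓ : ℕ) [Fact ℓ.Prime] (b : ℕ) (hb : ¬ ℓ ∣ b) :
    ((b : ℂ))⁻¹ ∈ Zloc ℓ := by
  have := intCast_inv_mem_Zloc ℓ (b : ℤ) (by exact_mod_cast hb)
  simpa using this

theorem div_mem_Zloc (ℓ : ℕ) [Fact ℓ.Prime] (a b : ℤ) (hb : ¬ (ℓ : ℤ) ∣ b) :
    (a : ℂ) / (b : ℂ) ∈ Zloc ℓ := ⟨a, b, hb, rfl⟩

/-- `1 / ℓ ∉ ℤ_(ℓ)`. -/
theorem ell_inv_not_mem_Zloc (ℓ : ℕ) [Fact ℓ.Prime] : ((ℓ : ℂ))⁻¹ ∉ Zloc ℓ := by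
  rintro ⟨a, b, hb, h⟩
  have hℓ0 : (ℓ : ℂ) ≠ 0 := Nat.cast_ne_zero.mpr (Fact.out : ℓ.Prime).ne_zero
  have hb0 : (b : ℂ) ≠ 0 := by
    intro h0; apply hb; rw [Int.cast_eq_zero.mp h0]; exact dvd_zero _
  apply hb
  refine ⟨a, ?_⟩
  have : (b : ℂ) = (ℓ : ℂ) * (a : ℂ) := by
    field_simp at h
    linear_combination h
  exact_mod_cast this

/-- the integral closure of `ℤ_(ℓ)` in `ℂ`, as a subring of `ℂ`. -/
def Rint (ℓ : ℕ) [Fact ℓ.Prime] : Subring ℂ := (integralClosure (Zloc ℓ) ℂ).toSubring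

theorem mem_Rint_iff (ℓ : ℕ) [Fact ℓ.Prime] (x : ℂ) : x ∈ Rint ℓ ↔ IsIntegral (Zloc ℓ) x := Iff.rfl

theorem Zloc_le_Rint (ℓ : ℕ) [Fact ℓ.Prime] : Zloc ℓ ≤ Rint ℓ := by
  intro x hx
  rw [mem_Rint_iff]
  exact isIntegral_algebraMap (R := Zloc ℓ) (A := ℂ) (x := ⟨x, hx⟩)

theorem intCast_mem_Rint (ℓ : ℕ) [Fact ℓ.Prime] (a : ℤ) : (a : ℂ) ∈ Rint ℓ := intCast_mem _ a

theorem natCast_mem_Rint (ℓ : ℕ) [Fact ℓ.Prime] (a : ℕ) : (a : ℂ) ∈ Rint ℓ := natCast_mem _ a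

/-- `Rint ℓ` is integrally closed in `ℂ`. -/
theorem mem_Rint_of_isIntegral (ℓ : ℕ) [Fact ℓ.Prime] {x : ℂ} (hx : IsIntegral (Rint ℓ) x) :
    x ∈ Rint ℓ := by
  rw [mem_Rint_iff]
  have h1 : IsIntegral (integralClosure (Zloc ℓ) ℂ) x := hx
  have h2 : x ∈ integralClosure (integralClosure (Zloc ℓ) ℂ) ℂ := h1
  rw [integralClosure_idem, Algebra.mem_bot] at h2
  obtain ⟨y, rfl⟩ := h2
  exact y.2

/-- a root in `ℂ` of a monic polynomial with coefficients in `Rint ℓ` lies in `Rint ℓ`; convenient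
special case: `x ^ n ∈ Rint ℓ` with `n ≠ 0` implies `x ∈ Rint ℓ`. -/
theorem mem_Rint_of_pow_mem (ℓ : ℕ) [Fact ℓ.Prime] {x : ℂ} {n : ℕ} (hn : n ≠ 0)
    (hx : x ^ n ∈ Rint ℓ) : x ∈ Rint ℓ := by
  rw [mem_Rint_iff] at hx ⊢
  exact IsIntegral.of_pow (Nat.pos_of_ne_zero hn) hx

/-- roots of unity are in `Rint ℓ`. -/
theorem mem_Rint_of_pow_eq_one (ℓ : ℕ) [Fact ℓ.Prime] {x : ℂ} {n : ℕ} (hn : n ≠ 0)
    (hx : x ^ n = 1) : x ∈ Rint ℓ :=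
  mem_Rint_of_pow_mem ℓ hn (hx ▸ one_mem _)

/-- `1 / ℓ` is not integral over `ℤ_(ℓ)`. -/
theorem ell_inv_not_mem_Rint (ℓ : ℕ) [Fact ℓ.Prime] : ((ℓ : ℂ))⁻¹ ∉ Rint ℓ := by
  intro h
  rw [mem_Rint_iff] at h
  obtain ⟨f, hf, hf0⟩ := h
  have hℓ0 : (ℓ : ℂ) ≠ 0 := Nat.cast_ne_zero.mpr (Fact.out : ℓ.Prime).ne_zero
  -- reverse polynomial
  letI : Invertible ((ℓ : ℂ))⁻¹ := invertibleOfNonzero (inv_ne_zero hℓ0)
  have h1 := Polynomial.eval₂_reverse_mul_pow (algebraMap (Zloc ℓ) ℂ) ((ℓ : ℂ))⁻¹ f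
  rw [invOf_eq_inv, inv_inv, hf0] at h1
  have h2 : Polynomial.eval₂ (algebraMap (Zloc ℓ) ℂ) (ℓ : ℂ) f.reverse = 0 := by
    rcases mul_eq_zero.mp h1 with h | h
    · exact h
    · exact absurd (pow_eq_zero_iff'.mp h).1 (inv_ne_zero hℓ0)
  -- reverse f = 1 + X * g
  have h3 : f.reverse.coeff 0 = 1 := by
    rw [Polynomial.coeff_zero_reverse]; exact hf
  have h4 : f.reverse = Polynomial.C 1 + Polynomial.X * f.reverse.divX := by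
    conv_lhs => rw [← Polynomial.divX_mul_X_add f.reverse, h3]
    ring
  rw [h4] at h2
  simp only [Polynomial.eval₂_add, Polynomial.eval₂_mul, Polynomial.eval₂_X,
    map_one, Polynomial.eval₂_one] at h2
  set y := Polynomial.eval₂ (algebraMap (Zloc ℓ) ℂ) (ℓ : ℂ) f.reverse.divX with hy
  have hymem : y ∈ Zloc ℓ := by
    rw [hy, Polynomial.eval₂_eq_sum_range]
    refine Subring.sum_mem _ fun i _ => ?_
    refine Subring.mul_mem _ ?_ (Subring.pow_mem _ (natCast_mem_Zloc ℓ ℓ) _)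
    exact (f.reverse.divX.coeff i).2
  apply ell_inv_not_mem_Zloc ℓ
  have : ((ℓ : ℂ))⁻¹ = -y := by
    field_simp
    linear_combination h2
  rw [this]
  exact Subring.neg_mem _ hymem

/-- `ℤ_(ℓ)` is integrally closed in `ℚ`: a quotient of integers lying in `Rint ℓ` lies in `Zloc ℓ`. -/
theorem ratCast_mem_Zloc_of_mem_Rint (ℓ : ℕ) [Fact ℓ.Prime] (q : ℚ) (h : (q : ℂ) ∈ Rint ℓ) :
    (q : ℂ) ∈ Zloc ℓ := by
  have hℓ : ℓ.Prime := Fact.out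
  have hℓ0 : (ℓ : ℂ) ≠ 0 := Nat.cast_ne_zero.mpr hℓ.ne_zero
  have hq : (q : ℂ) = (q.num : ℂ) / ((q.den : ℤ) : ℂ) := by
    rw [Rat.cast_def]; simp
  by_cases hd : (ℓ : ℤ) ∣ (q.den : ℤ)
  · exfalso
    obtain ⟨d, hd'⟩ := hd
    have hnum : ¬ ℓ ∣ q.num.natAbs := by
      intro hdv
      have h1 : ℓ ∣ q.den := Int.natCast_dvd_natCast.mp ⟨d, hd'⟩
      have := Nat.dvd_gcd hdv h1
      rw [q.reduced] at this
      exact hℓ.one_lt.ne' (Nat.dvd_one.mp this)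
    have hcop : IsCoprime (ℓ : ℤ) q.num := by
      rw [Int.isCoprime_iff_gcd_eq_one, Int.gcd, Int.natAbs_natCast]
      exact (Nat.Prime.coprime_iff_not_dvd hℓ).2 hnum
    obtain ⟨u, v, huv⟩ := hcop
    apply ell_inv_not_mem_Rint ℓ
    have hden0 : ((q.den : ℤ) : ℂ) ≠ 0 := by
      simp [q.den_ne_zero]
    have hd0 : (d : ℂ) ≠ 0 := by
      intro h0
      apply hden0
      rw [hd']; push_cast; rw [h0, mul_zero]
    have key : ((ℓ : ℂ))⁻¹ = (u : ℂ) + (v : ℂ) * ((q : ℂ) * (d : ℂ)) := by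
      have h1 : ((u * (ℓ : ℤ) + v * q.num : ℤ) : ℂ) = 1 := by rw [huv]; simp
      push_cast at h1
      rw [hq, hd']
      push_cast
      field_simp
      linear_combination -h1
    rw [key]
    exact Subring.add_mem _ (intCast_mem_Rint ℓ u)
      (Subring.mul_mem _ (intCast_mem_Rint ℓ v) (Subring.mul_mem _ h (intCast_mem_Rint ℓ d)))
  · exact ⟨q.num, q.den, hd, hq⟩

theorem ratCast_mem_Rint_iff (ℓ : ℕ) [Fact ℓ.Prime] (q : ℚ) :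
    (q : ℂ) ∈ Rint ℓ ↔ (q : ℂ) ∈ Zloc ℓ :=
  ⟨ratCast_mem_Zloc_of_mem_Rint ℓ q, fun h => Zloc_le_Rint ℓ h⟩

/-- for a rational number `a / b` in lowest terms or not: if it lies in `Rint ℓ` and `ℓ ∣ b` then
`ℓ ∣ a`... in the convenient form: `(a : ℂ) / ℓ ∈ Rint ℓ → ℓ ∣ a`. -/
theorem dvd_of_div_mem_Rint (ℓ : ℕ) [Fact ℓ.Prime] (a : ℤ) (h : (a : ℂ) / (ℓ : ℂ) ∈ Rint ℓ) :
    (ℓ : ℤ) ∣ a := by
  have hℓ : ℓ.Prime := Fact.out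
  have hℓ0 : (ℓ : ℂ) ≠ 0 := Nat.cast_ne_zero.mpr hℓ.ne_zero
  by_contra hdv
  have hcop : IsCoprime (ℓ : ℤ) a := by
    rw [Int.isCoprime_iff_gcd_eq_one, Int.gcd, Int.natAbs_natCast]
    refine (Nat.Prime.coprime_iff_not_dvd hℓ).2 fun h' => hdv ?_
    exact Int.natCast_dvd.mpr h'
  obtain ⟨u, v, huv⟩ := hcop
  apply ell_inv_not_mem_Rint ℓ
  have key : ((ℓ : ℂ))⁻¹ = (u : ℂ) + (v : ℂ) * ((a : ℂ) / (ℓ : ℂ)) := by
    have h1 : ((u * (ℓ : ℤ) + v * a : ℤ) : ℂ) = 1 := by rw [huv]; simp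
    push_cast at h1
    field_simp
    linear_combination -h1
  rw [key]
  exact Subring.add_mem _ (intCast_mem_Rint ℓ u) (Subring.mul_mem _ (intCast_mem_Rint ℓ v) h)

/-- the primitive `p`-th root of unity `exp(2πi/p)`. -/
noncomputable def zetaP (p : ℕ) : ℂ := Complex.exp (2 * Real.pi * Complex.I / p)

theorem zetaP_pow (p : ℕ) (hp : p ≠ 0) : zetaP p ^ p = 1 := by
  rw [zetaP, ← Complex.exp_nat_mul]
  have : (p : ℂ) * (2 * Real.pi * Complex.I / p) = 2 * Real.pi * Complex.I := by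
    field_simp
  rw [this, Complex.exp_two_pi_mul_I]

theorem zetaP_mem_Rint (ℓ p : ℕ) [Fact ℓ.Prime] (hp : p ≠ 0) : zetaP p ∈ Rint ℓ :=
  mem_Rint_of_pow_eq_one ℓ hp (zetaP_pow p hp)

/-- `a` has constant term `1` and all higher coefficients in `ℓ^s ℤ_(ℓ)`. -/
def IsOneModQ (ℓ : ℕ) [Fact ℓ.Prime] (s : ℕ) (a : PowerSeries ℂ) : Prop :=
  PowerSeries.coeff 0 a = 1 ∧
    ∀ k, 1 ≤ k → ∃ x ∈ Zloc ℓ, PowerSeries.coeff k a = (ℓ : ℂ) ^ s * x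

end Fermat.Agent.Eis
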