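import Mathlib
import Fermat.Agent.Eis.ConjCusp
import Fermat.Agent.Eis.ConjDefs
import Fermat.Agent.Eis.LocalRing

/-!
# S16 / conjugates layer: the blueprint statement A3

Thin wrappers around `Eis/ConjCusp.lean` in terms of the definitions `sharp`, `sharpQ` (`Eis/ConjDefs.lean`) and
`zetaP` (`Eis/LocalRing.lean`).
-/

set_option autoImplicit false

noncomputable section

namespace Fermat.Agent.Eis

open UpperHalfPlane ModularForm Complex CongruenceSubgroup
open scoped MatrixGroups ModularForm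

variable (p : ℕ) [Fact p.Prime]

theorem sharp_eq_cuspFun (k : ℤ) (H : ℍ → ℂ) : sharp p k H = cuspFun p k H := rfl

theorem sharpQ_eq (k : ℤ) (H : ℍ → ℂ) : sharpQ p k H = qExpansion 1 (cuspFun p k H) := rfl

/-- the `p + 1` conjugate series in the variable `t = q^(1/p)`:
`none ↦ a(t^p)` (`a = qExp H`), `some j ↦ b(ζ^j t)` (`b = qExp (sharp H)`). -/
noncomputable def conjSeriesOpt (k : ℤ) (H : ℍ → ℂ) : Option (Fin p) → PowerSeries ℂ
  | none => PowerSeries.expand p (NeZero.ne p) (qExpansion 1 H)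
  | some j => PowerSeries.rescale (zetaP p ^ (j : ℕ)) (sharpQ p k H)

theorem conjSeriesOpt_eq_cuspSeries (k : ℤ) (H : ℍ → ℂ) (x : Option (Fin p)) :
    conjSeriesOpt p k H x = cuspSeries p k H x := by
  rcases x with _ | j <;> rfl

/-- **A3** (MAIN): the elementary symmetric functions of the `p + 1` conjugates `H ∣[k] γ`,
`γ ∈ Γ0(p)\SL2(ℤ)` (`γ = 1, S T^j`), are level one forms `e i` of weight `k i`, and their `q`-expansions are the
elementary symmetric functions of the conjugate series. -/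
theorem exists_esymm_forms {k : ℤ} {H : ℍ → ℂ} (h : IsGamma0Form p k H) :
    ∃ (Hc : Option (Fin p) → ℍ → ℂ) (e : ∀ i : ℕ, ModularForm 𝒮ℒ (k * i)),
      Hc none = H ∧
      (∀ i τ, e i τ = (Finset.univ.val.map fun j => Hc j τ).esymm i) ∧
      (∀ i, PowerSeries.expand p (NeZero.ne p) (qExpansion 1 (e i)) =
        (Finset.univ.val.map fun j => conjSeriesOpt p k H j).esymm i) := by
  obtain ⟨G, rfl⟩ := h
  obtain ⟨Hc, e, h0, -, h1, h2⟩ := exists_esymm_forms_of_form p G
  refine ⟨Hc, e, h0, h1, fun i => ?_⟩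
  have hfun : (fun j => conjSeriesOpt p k ⇑G j) = fun j => cuspSeries p k ⇑G j :=
    funext (conjSeriesOpt_eq_cuspSeries p k ⇑G)
  rw [hfun]
  exact h2 i

/-- the values of the conjugates (variant of A3 exposing them): `Hc (some j) = H ∣[k] (S T^j)`. -/
theorem exists_esymm_forms' {k : ℤ} {H : ℍ → ℂ} (h : IsGamma0Form p k H) :
    ∃ (Hc : Option (Fin p) → ℍ → ℂ) (e : ∀ i : ℕ, ModularForm 𝒮ℒ (k * i)),
      Hc none = H ∧
      (∀ j : Fin p, Hc (some j) = H ∣[k] (ModularGroup.S * ModularGroup.T ^ ((j : ℕ) : ℤ))) ∧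
      (∀ i τ, e i τ = (Finset.univ.val.map fun j => Hc j τ).esymm i) ∧
      (∀ i, PowerSeries.expand p (NeZero.ne p) (qExpansion 1 (e i)) =
        (Finset.univ.val.map fun j => conjSeriesOpt p k H j).esymm i) := by
  obtain ⟨G, rfl⟩ := h
  obtain ⟨Hc, e, h0, h0', h1, h2⟩ := exists_esymm_forms_of_form p G
  refine ⟨Hc, e, h0, h0', h1, fun i => ?_⟩
  have hfun : (fun j => conjSeriesOpt p k ⇑G j) = fun j => cuspSeries p k ⇑G j :=
    funext (conjSeriesOpt_eq_cuspSeries p k ⇑G)
  rw [hfun]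
  exact h2 i

end Fermat.Agent.Eis
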