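import Mathlib
import Fermat.Agent.Eis.ConjDefs
import Fermat.Agent.Eis.ConjForms
import Fermat.Prelude.Def_ModularForm_HeckeOperator

/-!
# S16, CONJ package, parts A1 and A2 (helper8)

* `IsGamma0Form.sharp` (A1, Fricke): `sharp p k H` is again a modular form on `Γ0(p)`.
* `sharpQ_levelOne` (A2, level raising): `z ↦ g (p z)` has `q`-expansion `g(q^p)`.
-/

set_option autoImplicit false

open UpperHalfPlane ModularForm Complex CongruenceSubgroup Matrix.SpecialLinearGroup
open scoped MatrixGroups ModularForm Manifold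

namespace Fermat.Agent.Eis

section fricke
variable (p : ℕ) [NeZero p]

/-- The Fricke matrix `W = S * diag(p, 1) = [[0, -1], [p, 0]]`. -/
noncomputable def frickeW : GL (Fin 2) ℝ := mapGL ℝ ModularGroup.S * heckeDiagMatrix p

theorem val_frickeW :
    ((frickeW p : GL (Fin 2) ℝ) : Matrix (Fin 2) (Fin 2) ℝ) = !![0, -1; (p : ℝ), 0] := by
  ext i j
  fin_cases i <;> fin_cases j <;>
    simp [frickeW, NeZero.ne p, Matrix.mul_apply, Fin.sum_univ_two, ModularGroup.S]

theorem heckeDiagMatrix_smul_eq_pScale (z : ℍ) : heckeDiagMatrix p • z = pScale p z :=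
  UpperHalfPlane.ext (by rw [coe_heckeDiagMatrix_smul (NeZero.ne p), coe_pScale])

/-- `sharp H = p^(1-k) • H ∣[k] W`. -/
theorem sharp_eq_smul_slash (k : ℤ) (H : ℍ → ℂ) :
    sharp p k H = ((p : ℂ) ^ (1 - k)) • (H ∣[k] frickeW p) := by
  have hp : (p : ℂ) ≠ 0 := Nat.cast_ne_zero.mpr (NeZero.ne p)
  funext z
  rw [frickeW, SlashAction.slash_mul, Pi.smul_apply, smul_eq_mul,
    slash_heckeDiagMatrix_apply k (NeZero.ne p), heckeDiagMatrix_smul_eq_pScale, ← mul_assoc,
    ← zpow_add₀ hp, show 1 - k + (k - 1) = 0 by ring, zpow_zero, one_mul]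
  rfl

/-- The Fricke conjugate of `γ ∈ Γ0(p)`: `W γ = γ' W` and `γ W = W γ'`. -/
theorem exists_fricke_conj (γ : SL(2, ℤ)) (hγ : γ ∈ Gamma0 p) :
    ∃ γ' : SL(2, ℤ), γ' ∈ Gamma0 p ∧ frickeW p * mapGL ℝ γ = mapGL ℝ γ' * frickeW p ∧
      mapGL ℝ γ * frickeW p = frickeW p * mapGL ℝ γ' := by
  rw [Gamma0_mem] at hγ
  obtain ⟨e, he⟩ := (ZMod.intCast_zmod_eq_zero_iff_dvd _ p).mp hγ
  have hdet : γ 0 0 * γ 1 1 - γ 0 1 * γ 1 0 = 1 := by
    have := γ.det_coe
    rwa [Matrix.det_fin_two] at this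
  refine ⟨⟨!![γ 1 1, -e; -(p : ℤ) * γ 0 1, γ 0 0], ?_⟩, ?_, ?_, ?_⟩
  · rw [Matrix.det_fin_two_of]
    linear_combination hdet + (γ 0 1) * he
  · rw [Gamma0_mem]
    simp
  · ext i j
    fin_cases i <;> fin_cases j <;>
      simp [val_frickeW, Matrix.mul_apply, Fin.sum_univ_two]
    all_goals first
      | (have := congrArg (Int.cast : ℤ → ℝ) he; push_cast at this ⊢; linear_combination this)
      | (have := congrArg (Int.cast : ℤ → ℝ) he; push_cast at this ⊢; linear_combination -this)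
      | ring1
  · ext i j
    fin_cases i <;> fin_cases j <;>
      simp [val_frickeW, Matrix.mul_apply, Fin.sum_univ_two]
    all_goals first
      | (have := congrArg (Int.cast : ℤ → ℝ) he; push_cast at this ⊢; linear_combination this)
      | (have := congrArg (Int.cast : ℤ → ℝ) he; push_cast at this ⊢; linear_combination -this)
      | ring1

open ConjAct Pointwise in
/-- `W⁻¹ Γ0(p) W = Γ0(p)`. -/
theorem frickeW_conj_Gamma0 :
    toConjAct (frickeW p)⁻¹ • ((Gamma0 p : Subgroup SL(2, ℤ)) : Subgroup (GL (Fin 2) ℝ)) =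
      ((Gamma0 p : Subgroup SL(2, ℤ)) : Subgroup (GL (Fin 2) ℝ)) := by
  ext A
  rw [Subgroup.mem_pointwise_smul_iff_inv_smul_mem, map_inv, inv_inv, ConjAct.toConjAct_smul]
  constructor
  · rintro ⟨γ, hγ, hA⟩
    obtain ⟨γ', hγ', -, h2⟩ := exists_fricke_conj p γ hγ
    refine ⟨γ', hγ', ?_⟩
    have h3 : frickeW p * A = frickeW p * mapGL ℝ γ' := by
      rw [← h2]
      have : mapGL ℝ γ = frickeW p * A * (frickeW p)⁻¹ := hA
      rw [this]
      group
    exact (mul_left_cancel h3).symm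
  · rintro ⟨γ, hγ, rfl⟩
    obtain ⟨γ', hγ', h1, -⟩ := exists_fricke_conj p γ hγ
    refine ⟨γ', hγ', ?_⟩
    have : frickeW p * (mapGL ℝ) γ * (frickeW p)⁻¹ = mapGL ℝ γ' := by
      rw [h1]
      group
    exact this.symm

theorem isBoundedAt_const_smul {c : OnePoint ℝ} {f : ℍ → ℂ} {k : ℤ} (a : ℂ)
    (h : c.IsBoundedAt f k) : c.IsBoundedAt (a • f) k := by
  intro g hg
  rw [ModularForm.smul_slash]
  exact (h g hg).const_smul_left _

open ConjAct Pointwise in
/-- `sharp G` as a modular form on `Γ0(p)`. -/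
noncomputable def sharpMF {k : ℤ} (G : ModularForm (Gamma0 p) k) : ModularForm (Gamma0 p) k where
  toFun := sharp p k G
  slash_action_eq' A hA := by
    obtain ⟨γ, hγ, rfl⟩ := hA
    obtain ⟨γ', hγ', h1, -⟩ := exists_fricke_conj p γ hγ
    have h2 : (⇑G ∣[k] frickeW p) ∣[k] (mapGL ℝ γ : GL (Fin 2) ℝ) = ⇑G ∣[k] frickeW p := by
      rw [← SlashAction.slash_mul, h1, SlashAction.slash_mul,
        SlashInvariantFormClass.slash_action_eq G _ (Subgroup.mem_map_of_mem _ hγ')]
    rw [sharp_eq_smul_slash]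
    have h3 : (((p : ℂ) ^ (1 - k)) • (⇑G ∣[k] frickeW p)) ∣[k] (mapGL ℝ γ : GL (Fin 2) ℝ) =
        (((p : ℂ) ^ (1 - k)) • (⇑G ∣[k] frickeW p)) ∣[k] γ := rfl
    rw [h3, SL_smul_slash]
    congr 1
  holo' := by
    show MDiff (sharp p k G)
    rw [sharp_eq_smul_slash]
    exact ((ModularFormClass.holo G).slash k _).const_smul _
  bdd_at_cusps' {c} hc := by
    show c.IsBoundedAt (sharp p k G) k
    rw [sharp_eq_smul_slash]
    apply isBoundedAt_const_smul
    have hc' : IsCusp c (ConjAct.toConjAct (frickeW p)⁻¹ •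
        ((Gamma0 p : Subgroup SL(2, ℤ)) : Subgroup (GL (Fin 2) ℝ))) := by
      rw [frickeW_conj_Gamma0]
      exact hc
    exact (ModularForm.translate G (frickeW p)).bdd_at_cusps' hc'

@[simp] theorem coe_sharpMF {k : ℤ} (G : ModularForm (Gamma0 p) k) :
    ⇑(sharpMF p G) = sharp p k G := rfl

/-- **A1** (Fricke): `sharp H` is again a modular form on `Γ0(p)`. -/
theorem IsGamma0Form.sharp {k : ℤ} {H : ℍ → ℂ} (h : IsGamma0Form p k H) :
    IsGamma0Form p k (sharp p k H) := by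
  obtain ⟨G, rfl⟩ := h
  exact ⟨sharpMF p G, rfl⟩

/-! ### A2: level raising -/

theorem qParam_pScale (z : ℍ) :
    Function.Periodic.qParam 1 (pScale p z : ℍ) = Function.Periodic.qParam 1 (z : ℂ) ^ p := by
  simp only [Function.Periodic.qParam, coe_pScale]
  rw [← Complex.exp_nat_mul]
  congr 1
  push_cast
  ring

/-- **A2** (level raising): for `g` of level one, `z ↦ g (p z)` (`= sharp g`) has `q`-expansion
`g(q^p)`. -/
theorem sharpQ_levelOne {k : ℤ} (g : ModularForm 𝒮ℒ k) :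
    sharpQ p k g = PowerSeries.expand p (NeZero.ne p) (qExpansion 1 g) := by
  have hp : p ≠ 0 := NeZero.ne p
  have hhol : Fermat.Agent.X0.IsHolInf 1 (sharp p k g) := by
    have := isHolInf_one_Gamma0 p (sharpMF p (restrictGamma0 p g))
    simpa using this
  have hg : Fermat.Agent.X0.IsHolInf 1 ⇑g := isHolInf_levelOne g
  unfold sharpQ
  ext m
  rw [← Fermat.Agent.X0.qExpansion_coeff_unique_fun one_pos (hhol.analyticAt one_pos)
    (c := fun m => (PowerSeries.expand p hp (qExpansion 1 g)).coeff m)]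
  intro τ
  rw [sharp_levelOne]
  have h1 := hasSum_qExpansion one_pos hg.periodic hg.mdiff hg.bdd (pScale p τ)
  have hinj : Function.Injective (fun n : ℕ => p * n) := fun a b hab =>
    Nat.eq_of_mul_eq_mul_left (Nat.pos_of_ne_zero hp) hab
  rw [← hinj.hasSum_iff]
  · convert h1 using 2 with n
    simp only [Function.comp_apply, PowerSeries.coeff_expand_mul]
    rw [qParam_pScale, pow_mul]
  · intro m hm
    have : ¬ p ∣ m := fun ⟨n, hn⟩ => hm ⟨n, hn.symm⟩
    simp only [PowerSeries.coeff_expand_of_not_dvd p hp _ this, zero_smul]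

end fricke

end Fermat.Agent.Eis
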