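import Mathlib
import Fermat.Prelude.Def_ModularCurve_X0
import Fermat.Agent.X0.Ana.EtaSeries

/-!
# Values of level-one modular forms at the elliptic points `i` and `ρ`

For a subring `R' ⊆ ℂ` and a level-one modular form `g` of weight `12 m` whose
`q`-expansion coefficients all lie in `R'`, the normalised values
`g(ρ) / Δ(ρ) ^ m` and `g(i) / Δ(i) ^ m` lie in `R'`.
(Induction on `m`: subtract `a₀ E₄ ^ (3 m)` resp. `a₀ E₆ ^ (2 m)`, divide by `Δ`.)
-/

set_option autoImplicit false

open UpperHalfPlane ModularForm Complex CongruenceSubgroup Matrix.SpecialLinearGroup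
open scoped MatrixGroups ModularForm

noncomputable section

namespace Fermat.Agent.Eis

/-- the elliptic point `i`. -/
def iPt : ℍ := UpperHalfPlane.I

/-- the complex number `ρ = (-1 + i√3)/2`. -/
def rhoC : ℂ := (-1 + Complex.I * Real.sqrt 3) / 2

/-- the elliptic point `ρ = (-1 + i√3)/2`. -/
def rhoPt : ℍ := ⟨rhoC, by simp [rhoC]⟩

lemma coe_rhoPt : (rhoPt : ℂ) = rhoC := rfl

lemma rhoC_sq_add : rhoC ^ 2 + rhoC + 1 = 0 := by
  have h3 : ((Real.sqrt 3 : ℝ) : ℂ) ^ 2 = 3 := by
    rw [← Complex.ofReal_pow, Real.sq_sqrt (by norm_num)]; norm_num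
  unfold rhoC
  linear_combination (-(1 : ℂ) / 4) * h3 + ((Real.sqrt 3 : ℂ) ^ 2 / 4) * Complex.I_sq

lemma rhoC_cube : rhoC ^ 3 = 1 := by
  linear_combination (rhoC - 1) * rhoC_sq_add

lemma rhoC_ne_one : rhoC ≠ 1 := by
  intro h
  have := rhoC_sq_add
  rw [h] at this
  norm_num at this

lemma rhoC_ne_zero : rhoC ≠ 0 := by
  intro h
  have := rhoC_cube
  rw [h] at this
  norm_num at this

lemma S_smul_iPt : ModularGroup.S • iPt = iPt := by
  rw [UpperHalfPlane.modular_S_smul]
  ext
  simp [iPt]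

lemma S_smul_rhoPt : ModularGroup.S • rhoPt = ModularGroup.T • rhoPt := by
  rw [UpperHalfPlane.modular_S_smul, UpperHalfPlane.modular_T_smul]
  ext
  simp only [UpperHalfPlane.coe_vadd, coe_rhoPt]
  have h := rhoC_sq_add
  have h0 := rhoC_ne_zero
  field_simp
  push_cast
  linear_combination -h

lemma denom_T_eq_one (z : ℍ) : denom (ModularGroup.T : SL(2, ℤ)) z = 1 := by
  rw [ModularGroup.denom_apply]
  simp [ModularGroup.T]

section slash

variable {F : Type*} [FunLike F ℍ ℂ] {k : ℤ} [SlashInvariantFormClass F 𝒮ℒ k]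

lemma eval_iPt_eq (f : F) : f iPt = (Complex.I) ^ k * f iPt := by
  have : SlashInvariantFormClass F Γ(1) k := Gamma_one_coe_eq_SL ▸ ‹_›
  have h := SlashInvariantForm.slash_action_eqn_SL'' f (mem_Gamma_one ModularGroup.S) iPt
  rw [S_smul_iPt, ModularGroup.denom_S] at h
  simpa [iPt] using h

lemma eval_rhoPt_eq (f : F) : f rhoPt = rhoC ^ k * f rhoPt := by
  have : SlashInvariantFormClass F Γ(1) k := Gamma_one_coe_eq_SL ▸ ‹_›
  have h := SlashInvariantForm.slash_action_eqn_SL'' f (mem_Gamma_one ModularGroup.S) rhoPt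
  have hT := SlashInvariantForm.slash_action_eqn_SL'' f (mem_Gamma_one ModularGroup.T) rhoPt
  rw [ModularGroup.denom_S] at h
  rw [S_smul_rhoPt, hT] at h
  rw [denom_T_eq_one, one_zpow, one_mul] at h
  exact h

end slash

/-- `E₆(i) = 0`. -/
theorem E6_i : E₆ iPt = 0 := by
  have h := eval_iPt_eq (k := 6) E₆
  have hI : (Complex.I : ℂ) ^ (6 : ℤ) = -1 := by
    have : (Complex.I : ℂ) ^ (6 : ℤ) = Complex.I ^ (6 : ℕ) := by norm_cast
    rw [this, show (6 : ℕ) = 2 * 3 by norm_num, pow_mul, Complex.I_sq]; norm_num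
  rw [hI] at h
  linear_combination (1 / 2 : ℂ) * h

/-- `E₄(ρ) = 0`. -/
theorem E4_rho : E₄ rhoPt = 0 := by
  have h := eval_rhoPt_eq (k := 4) E₄
  have hr : rhoC ^ (4 : ℤ) = rhoC := by
    have : rhoC ^ (4 : ℤ) = rhoC ^ (4 : ℕ) := by norm_cast
    rw [this, show (4 : ℕ) = 3 + 1 by norm_num, pow_succ, rhoC_cube, one_mul]
  rw [hr] at h
  have h1 : (1 - rhoC) * E₄ rhoPt = 0 := by linear_combination h
  rcases mul_eq_zero.mp h1 with h2 | h2
  · exact absurd (by linear_combination -h2) rhoC_ne_one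
  · exact h2

/-- `E₆(ρ)² = -1728 Δ(ρ)`. -/
theorem E6_sq_rho : E₆ rhoPt ^ 2 = -1728 * ModularForm.discriminant rhoPt := by
  rw [ModularForm.discriminant_eq_E₄_cube_sub_E₆_sq, E4_rho]
  ring

/-- `E₄(i)³ = 1728 Δ(i)`. -/
theorem E4_cube_i : E₄ iPt ^ 3 = 1728 * ModularForm.discriminant iPt := by
  rw [ModularForm.discriminant_eq_E₄_cube_sub_E₆_sq, E6_i]
  ring

/-! ## Power series with coefficients in a subring -/

/-- If `u` has coefficients in the subring `R'` and constant coefficient `1`, and `u * H` has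
coefficients in `R'`, then so does `H`. -/
lemma coeff_mem_of_mul {A : Type*} [CommRing A] (R' : Subring A) {u H : PowerSeries A}
    (hu0 : PowerSeries.coeff 0 u = 1) (hu : ∀ n, PowerSeries.coeff n u ∈ R')
    (hG : ∀ n, PowerSeries.coeff n (u * H) ∈ R') : ∀ n, PowerSeries.coeff n H ∈ R' := by
  intro n
  induction n using Nat.strong_induction_on with
  | _ n ih =>
    have h1 := hG n
    rw [PowerSeries.coeff_mul] at h1
    have hmem : ((0, n) : ℕ × ℕ) ∈ Finset.HasAntidiagonal.antidiagonal n := by simp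
    rw [← Finset.add_sum_erase _ _ hmem, hu0, one_mul] at h1
    have h2 : ∑ x ∈ (Finset.HasAntidiagonal.antidiagonal n).erase (0, n),
        PowerSeries.coeff x.1 u * PowerSeries.coeff x.2 H ∈ R' := by
      refine Subring.sum_mem _ fun x hx => ?_
      rw [Finset.mem_erase, Finset.HasAntidiagonal.mem_antidiagonal] at hx
      refine Subring.mul_mem _ (hu _) (ih _ ?_)
      have h3 : x.1 ≠ 0 := by
        intro h0
        apply hx.1
        ext
        · exact h0
        · simp; omega
      omega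
    have := Subring.sub_mem _ h1 h2
    simpa using this

/-- If `X * u * H` has coefficients in `R'` (`u` as above), so does `H`. -/
lemma coeff_mem_of_X_mul {A : Type*} [CommRing A] (R' : Subring A) {u H : PowerSeries A}
    (hu0 : PowerSeries.coeff 0 u = 1) (hu : ∀ n, PowerSeries.coeff n u ∈ R')
    (hG : ∀ n, PowerSeries.coeff n (PowerSeries.X * u * H) ∈ R') :
    ∀ n, PowerSeries.coeff n H ∈ R' := by
  refine coeff_mem_of_mul R' hu0 hu fun n => ?_
  have := hG (n + 1)
  rwa [mul_assoc, PowerSeries.coeff_succ_X_mul] at this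


/-- Power series with coefficients in a subring: closed under powers. -/
lemma coeff_pow_mem {A : Type*} [CommRing A] (R' : Subring A) {u : PowerSeries A}
    (hu : ∀ n, PowerSeries.coeff n u ∈ R') (m : ℕ) : ∀ n, PowerSeries.coeff n (u ^ m) ∈ R' := by
  induction m with
  | zero =>
    intro n
    rw [pow_zero, PowerSeries.coeff_one]
    split_ifs
    · exact Subring.one_mem _
    · exact Subring.zero_mem _
  | succ m ih =>
    intro n
    rw [pow_succ, PowerSeries.coeff_mul]
    exact Subring.sum_mem _ fun x _ => Subring.mul_mem _ (ih _) (hu _)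


/-! ## Division by `Δ` -/

local notation "Δ" => ModularForm.discriminant

/-- Dividing a cuspidal level-one form with `R'`-coefficients by `Δ` preserves `R'`-coefficients. -/
lemma coeff_mem_discriminantEquiv (R' : Subring ℂ) {k : ℤ} (f : ModularForm 𝒮ℒ k)
    (hcusp : (qExpansion 1 f).coeff 0 = 0) (hf : ∀ n, (qExpansion 1 f).coeff n ∈ R') (n : ℕ) :
    (qExpansion 1 (CuspForm.discriminantEquiv (toCuspForm f hcusp))).coeff n ∈ R' := by
  have h := ModularForm.qExpansion_eq_qExpansion_discriminant_mul f hcusp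
  rw [Fermat.Agent.X0.qExpansion_discriminant] at h
  refine coeff_mem_of_X_mul R' (u := ModularCurve.dedekindEtaUnit.map (Int.castRingHom ℂ)) ?_ ?_ ?_ n
  · rw [PowerSeries.coeff_map, PowerSeries.coeff_zero_eq_constantCoeff,
      ModularCurve.constantCoeff_dedekindEtaUnit]
    simp
  · intro n
    rw [PowerSeries.coeff_map]
    exact intCast_mem _ _
  · intro n
    rw [← h]
    exact hf n

/-- weight zero: the value is the constant coefficient. -/
lemma eval_eq_coeff_zero_of_weight_zero (g : ModularForm 𝒮ℒ 0) (z : ℍ) :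
    g z = (qExpansion 1 g).coeff 0 := by
  obtain ⟨c, hc⟩ := ModularFormClass.levelOne_weight_zero_const g
  have h1 : (g : ℍ → ℂ) = c • ((1 : ModularForm 𝒮ℒ 0) : ℍ → ℂ) := by
    rw [hc]
    funext w
    simp
  rw [h1, ModularForm.qExpansion_smul one_pos one_mem_strictPeriods_SL c (1 : ModularForm 𝒮ℒ 0),
    ModularForm.qExpansion_one]
  simp


/-- **Abstract CM-value lemma.** Let `P` be a level-one form of weight `12` with constant
coefficient `1`, all `q`-coefficients in the subring `R'`, vanishing at `z₀`.  Then every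
level-one form `g` of weight `12 m` with `q`-coefficients in `R'` has `g z₀ / Δ z₀ ^ m ∈ R'`. -/
theorem eval_div_discriminant_pow_mem (R' : Subring ℂ) (z₀ : ℍ) (P : ModularForm 𝒮ℒ 12)
    (hP0 : (qExpansion 1 P).coeff 0 = 1) (hP : ∀ n, (qExpansion 1 P).coeff n ∈ R')
    (hPz : P z₀ = 0) :
    ∀ (m : ℕ) (k : ℤ) (_ : k = 12 * m) (g : ModularForm 𝒮ℒ k),
      (∀ n, (qExpansion 1 g).coeff n ∈ R') → g z₀ / Δ z₀ ^ m ∈ R' := by
  intro m
  induction m with
  | zero =>
    intro k hk g hg
    simp only [Nat.cast_zero, mul_zero] at hk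
    subst hk
    rw [pow_zero, div_one, eval_eq_coeff_zero_of_weight_zero]
    exact hg 0
  | succ m ih =>
    intro k hk g hg
    -- the weight-`k` form `Q = P ^ (m+1)`
    have hw : ((m + 1 : ℕ) : ℤ) * 12 = k := by rw [hk]; push_cast; ring
    set Q : ModularForm 𝒮ℒ k := ModularForm.mcast hw (P.pow (m + 1)) with hQ
    have hQq : qExpansion 1 Q = (qExpansion 1 P) ^ (m + 1) := by
      rw [hQ, ModularForm.qExpansion_mcast,
        ModularForm.qExpansion_pow one_pos one_mem_strictPeriods_SL]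
    have hQz : Q z₀ = 0 := by
      rw [hQ, ModularForm.mcast_apply, ModularForm.coe_pow]
      simp [hPz]
    set a₀ : ℂ := (qExpansion 1 g).coeff 0 with ha₀
    set g' : ModularForm 𝒮ℒ k := g - a₀ • Q with hg'
    have hg'q : qExpansion 1 g' = qExpansion 1 g - a₀ • (qExpansion 1 P) ^ (m + 1) := by
      rw [hg', FunLike.coe_sub,
        ModularForm.qExpansion_sub one_pos one_mem_strictPeriods_SL g (a₀ • Q),
        FunLike.coe_smul,
        ModularForm.qExpansion_smul one_pos one_mem_strictPeriods_SL a₀ Q, hQq]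
    have hcusp : (qExpansion 1 g').coeff 0 = 0 := by
      rw [hg'q, map_sub, PowerSeries.coeff_smul, PowerSeries.coeff_zero_eq_constantCoeff,
        map_pow, ← PowerSeries.coeff_zero_eq_constantCoeff, hP0]
      simp [ha₀]
    have hg'mem : ∀ n, (qExpansion 1 g').coeff n ∈ R' := by
      intro n
      rw [hg'q, map_sub, PowerSeries.coeff_smul]
      exact Subring.sub_mem _ (hg n)
        (Subring.mul_mem _ (hg 0) (coeff_pow_mem R' hP (m + 1) n))
    set h : ModularForm 𝒮ℒ (k - 12) := CuspForm.discriminantEquiv (toCuspForm g' hcusp) with hh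
    have hhmem : ∀ n, (qExpansion 1 h).coeff n ∈ R' := coeff_mem_discriminantEquiv R' g' hcusp hg'mem
    have hk' : k - 12 = 12 * (m : ℤ) := by rw [hk]; push_cast; ring
    have key := ih (k - 12) hk' h hhmem
    have hhz : h z₀ = g z₀ / Δ z₀ := by
      rw [hh, CuspForm.discriminantEquiv_apply, ModularForm.toCuspForm_apply, hg']
      simp [hQz]
    rw [hhz] at key
    rw [pow_succ, ← div_div]
    rwa [div_div, mul_comm, ← div_div] at key


open scoped ArithmeticFunction.sigma in
lemma E4_coeff_mem (R' : Subring ℂ) (n : ℕ) : (qExpansion 1 E₄).coeff n ∈ R' := by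
  rw [EisensteinSeries.E_qExpansion_coeff _ ⟨2, rfl⟩]
  split_ifs
  · exact Subring.one_mem _
  · rw [show bernoulli 4 = -1 / 30 by decide +kernel]
    have : (-(2 * ((4 : ℕ) : ℂ) / ((-1 / 30 : ℚ) : ℂ)) : ℂ) = ((240 : ℕ) : ℂ) := by
      push_cast; norm_num
    rw [this]
    exact Subring.mul_mem _ (natCast_mem _ _) (natCast_mem _ _)

open scoped ArithmeticFunction.sigma in
lemma E6_coeff_mem (R' : Subring ℂ) (n : ℕ) : (qExpansion 1 E₆).coeff n ∈ R' := by
  rw [EisensteinSeries.E_qExpansion_coeff _ ⟨3, rfl⟩]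
  split_ifs
  · exact Subring.one_mem _
  · rw [show bernoulli 6 = 1 / 42 by decide +kernel]
    have : (-(2 * ((6 : ℕ) : ℂ) / ((1 / 42 : ℚ) : ℂ)) : ℂ) = ((-504 : ℤ) : ℂ) := by
      push_cast; norm_num
    rw [this]
    exact Subring.mul_mem _ (intCast_mem _ _) (natCast_mem _ _)

/-- `E₄ ^ 3` as a weight-`12` form. -/
def E4cube : ModularForm 𝒮ℒ 12 := ModularForm.mcast (by norm_num) (E₄.pow 3)

/-- `E₆ ^ 2` as a weight-`12` form. -/
def E6sq : ModularForm 𝒮ℒ 12 := ModularForm.mcast (by norm_num) (E₆.pow 2)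

lemma qExpansion_E4cube : qExpansion 1 E4cube = (qExpansion 1 E₄) ^ 3 := by
  rw [E4cube, ModularForm.qExpansion_mcast,
    ModularForm.qExpansion_pow one_pos one_mem_strictPeriods_SL]

lemma qExpansion_E6sq : qExpansion 1 E6sq = (qExpansion 1 E₆) ^ 2 := by
  rw [E6sq, ModularForm.qExpansion_mcast,
    ModularForm.qExpansion_pow one_pos one_mem_strictPeriods_SL]

/-- **CM-value lemma at `ρ`.** -/
theorem eval_div_discriminant_pow_mem_rho (R' : Subring ℂ) (m : ℕ) (k : ℤ) (hk : k = 12 * m)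
    (g : ModularForm 𝒮ℒ k) (hg : ∀ n, (qExpansion 1 g).coeff n ∈ R') :
    g rhoPt / Δ rhoPt ^ m ∈ R' := by
  refine eval_div_discriminant_pow_mem R' rhoPt E4cube ?_ ?_ ?_ m k hk g hg
  · rw [qExpansion_E4cube, PowerSeries.coeff_zero_eq_constantCoeff, map_pow,
      ← PowerSeries.coeff_zero_eq_constantCoeff, EisensteinSeries.E_qExpansion_coeff_zero _ ⟨2, rfl⟩,
      one_pow]
  · rw [qExpansion_E4cube]
    exact coeff_pow_mem R' (E4_coeff_mem R') 3
  · rw [E4cube, ModularForm.mcast_apply, ModularForm.coe_pow, Pi.pow_apply, E4_rho]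
    norm_num

/-- **CM-value lemma at `i`.** -/
theorem eval_div_discriminant_pow_mem_i (R' : Subring ℂ) (m : ℕ) (k : ℤ) (hk : k = 12 * m)
    (g : ModularForm 𝒮ℒ k) (hg : ∀ n, (qExpansion 1 g).coeff n ∈ R') :
    g iPt / Δ iPt ^ m ∈ R' := by
  refine eval_div_discriminant_pow_mem R' iPt E6sq ?_ ?_ ?_ m k hk g hg
  · rw [qExpansion_E6sq, PowerSeries.coeff_zero_eq_constantCoeff, map_pow,
      ← PowerSeries.coeff_zero_eq_constantCoeff, EisensteinSeries.E_qExpansion_coeff_zero _ ⟨3, rfl⟩,
      one_pow]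
  · rw [qExpansion_E6sq]
    exact coeff_pow_mem R' (E6_coeff_mem R') 2
  · rw [E6sq, ModularForm.mcast_apply, ModularForm.coe_pow, Pi.pow_apply, E6_i]
    norm_num


/-! ## Integrality from elementary symmetric functions -/

/-- homogeneity of `Multiset.esymm`. -/
lemma esymm_map_mul_left {A : Type*} [CommSemiring A] (c : A) (s : Multiset A) (k : ℕ) :
    (s.map (c * ·)).esymm k = c ^ k * s.esymm k := by
  rw [Multiset.esymm, Multiset.esymm, ← Multiset.sum_map_mul_left, Multiset.powersetCard_map,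
    Multiset.map_map]
  refine congrArg _ (Multiset.map_congr rfl fun x hx => ?_)
  rw [Function.comp_apply, Multiset.prod_map_mul, Multiset.map_const', Multiset.prod_replicate,
    (Multiset.mem_powersetCard.mp hx).2, Multiset.map_id']

/-- If all elementary symmetric functions of a multiset `s` of elements of a commutative ring `A`
lie in a subring `R'`, the members of `s` are integral over `R'`. -/
lemma isIntegral_of_esymm_mem {A : Type*} [CommRing A] [Nontrivial A] (R' : Subring A)
    (s : Multiset A) (hs : ∀ k, s.esymm k ∈ R') {x : A} (hx : x ∈ s) : IsIntegral R' x := by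
  have hlift : (s.map fun t => Polynomial.X - Polynomial.C t).prod ∈ Polynomial.lifts R'.subtype := by
    rw [Multiset.prod_X_sub_X_eq_sum_esymm]
    refine Subsemiring.sum_mem _ fun j _ => ?_
    refine Subsemiring.mul_mem _ ?_ (Subsemiring.mul_mem _ ?_ (Polynomial.X_pow_mem_lifts _ _))
    · have : ((-1 : Polynomial A) ^ j) = Polynomial.C (R'.subtype ((-1) ^ j)) := by simp
      rw [this]
      exact Polynomial.C_mem_lifts _ _
    · exact Polynomial.C_mem_lifts R'.subtype ⟨_, hs j⟩
  have hmonic : (s.map fun t => Polynomial.X - Polynomial.C t).prod.Monic :=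
    Polynomial.monic_multiset_prod_of_monic _ _ fun t _ => Polynomial.monic_X_sub_C t
  obtain ⟨q, hq, -, hqm⟩ := Polynomial.lifts_and_degree_eq_and_monic hlift hmonic
  refine ⟨q, hqm, ?_⟩
  rw [Polynomial.eval₂_eq_eval_map]
  change Polynomial.eval x (q.map R'.subtype) = 0
  rw [hq, Polynomial.eval_multiset_prod]
  apply Multiset.prod_eq_zero
  rw [Multiset.mem_map]
  exact ⟨Polynomial.X - Polynomial.C x, Multiset.mem_map.mpr ⟨x, hx, rfl⟩, by simp⟩


/-- **Integrality of CM values of conjugates.**  Let `z₀` be a point at which the CM-value lemma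
holds (`ρ` or `i`).  If the elementary symmetric functions of a finite family `F j : ℍ → ℂ` are
level-one forms `e i` of weights `12 i` with `q`-coefficients in `R'`, then each value
`F j z₀ / Δ z₀` is integral over `R'`. -/
theorem isIntegral_eval_div_discriminant_of_esymm (R' : Subring ℂ) (z₀ : ℍ)
    (hz₀ : ∀ (m : ℕ) (k : ℤ) (_ : k = 12 * m) (g : ModularForm 𝒮ℒ k),
      (∀ n, (qExpansion 1 g).coeff n ∈ R') → g z₀ / Δ z₀ ^ m ∈ R')
    {ι : Type*} [Fintype ι] (F : ι → ℍ → ℂ) (e : ∀ i : ℕ, ModularForm 𝒮ℒ (12 * i))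
    (he : ∀ i τ, e i τ = (Finset.univ.val.map fun j => F j τ).esymm i)
    (hcoeff : ∀ i n, (qExpansion 1 (e i)).coeff n ∈ R') (j : ι) :
    IsIntegral R' (F j z₀ / Δ z₀) := by
  refine isIntegral_of_esymm_mem R' (Finset.univ.val.map fun j => F j z₀ / Δ z₀) (fun i => ?_)
    (Multiset.mem_map.mpr ⟨j, Finset.mem_univ_val j, rfl⟩)
  have h1 : (Finset.univ.val.map fun j => F j z₀ / Δ z₀) =
      ((Finset.univ.val.map fun j => F j z₀).map ((Δ z₀)⁻¹ * ·)) := by
    rw [Multiset.map_map]
    refine Multiset.map_congr rfl fun j _ => ?_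
    rw [Function.comp_apply, div_eq_inv_mul]
  rw [h1, esymm_map_mul_left, ← he i z₀, inv_pow, ← div_eq_inv_mul]
  exact hz₀ i (12 * i) rfl (e i) (hcoeff i)

/-- The previous theorem at `z₀ = ρ`. -/
theorem isIntegral_eval_div_discriminant_rho (R' : Subring ℂ)
    {ι : Type*} [Fintype ι] (F : ι → ℍ → ℂ) (e : ∀ i : ℕ, ModularForm 𝒮ℒ (12 * i))
    (he : ∀ i τ, e i τ = (Finset.univ.val.map fun j => F j τ).esymm i)
    (hcoeff : ∀ i n, (qExpansion 1 (e i)).coeff n ∈ R') (j : ι) :
    IsIntegral R' (F j rhoPt / Δ rhoPt) :=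
  isIntegral_eval_div_discriminant_of_esymm R' rhoPt (eval_div_discriminant_pow_mem_rho R')
    F e he hcoeff j

/-- The previous theorem at `z₀ = i`. -/
theorem isIntegral_eval_div_discriminant_i (R' : Subring ℂ)
    {ι : Type*} [Fintype ι] (F : ι → ℍ → ℂ) (e : ∀ i : ℕ, ModularForm 𝒮ℒ (12 * i))
    (he : ∀ i τ, e i τ = (Finset.univ.val.map fun j => F j τ).esymm i)
    (hcoeff : ∀ i n, (qExpansion 1 (e i)).coeff n ∈ R') (j : ι) :
    IsIntegral R' (F j iPt / Δ iPt) :=
  isIntegral_eval_div_discriminant_of_esymm R' iPt (eval_div_discriminant_pow_mem_i R')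
    F e he hcoeff j

end Fermat.Agent.Eis
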