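import Mathlib
import Fermat.Prelude.Def_ModularCurve_X0
import Fermat.Agent.X0.Ana.EtaSeries
import Fermat.Agent.Eis.LevelOneEval

/-!
# Structure of level-one forms with `q`-coefficients in a subring `R' ⊆ ℂ`

* `qExpansion_mem_span`: the `q`-expansion of a level-one form of weight `k` with coefficients in
  `R'` is an `R'`-linear combination of the monomials `E₄ ^ a E₆ ^ b Δ ^ c`, `4a + 6b + 12c = k`.
* `qExpansion_eq_aeval_discriminant_add`, `liftSeries_qExpansion_eq`,
  `map_liftSeries_qExpansion_eq_aeval`: modulo `24` (so modulo `2` and `3`) such a `q`-expansion is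
  a polynomial in `Δ` with coefficients in `R'`.
-/

set_option autoImplicit false

open UpperHalfPlane ModularForm Complex CongruenceSubgroup Matrix.SpecialLinearGroup
open scoped MatrixGroups ModularForm

noncomputable section

namespace Fermat.Agent.Eis

local notation "Δ" => ModularForm.discriminant

/-! ## Power series with coefficients in a subring -/

/-- The subring of power series over `A` all of whose coefficients lie in the subring `R'`. -/
def seriesSubring {A : Type*} [CommRing A] (R' : Subring A) : Subring (PowerSeries A) :=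
  (PowerSeries.map R'.subtype).range

lemma mem_seriesSubring_iff {A : Type*} [CommRing A] (R' : Subring A) (f : PowerSeries A) :
    f ∈ seriesSubring R' ↔ ∀ n, PowerSeries.coeff n f ∈ R' := by
  constructor
  · rintro ⟨g, rfl⟩ n
    rw [PowerSeries.coeff_map]
    exact (PowerSeries.coeff n g).2
  · intro h
    refine ⟨PowerSeries.mk fun n => ⟨PowerSeries.coeff n f, h n⟩, ?_⟩
    ext n
    simp

/-- Lift a power series with coefficients in `R'` to a power series over `R'`. -/
def liftSeries {A : Type*} [CommRing A] (R' : Subring A) (f : PowerSeries A)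
    (hf : ∀ n, PowerSeries.coeff n f ∈ R') : PowerSeries R' :=
  PowerSeries.mk fun n => ⟨PowerSeries.coeff n f, hf n⟩

@[simp] lemma map_liftSeries {A : Type*} [CommRing A] (R' : Subring A) (f : PowerSeries A)
    (hf : ∀ n, PowerSeries.coeff n f ∈ R') :
    PowerSeries.map R'.subtype (liftSeries R' f hf) = f := by
  ext n
  simp [liftSeries]

lemma map_subtype_injective {A : Type*} [CommRing A] (R' : Subring A) :
    Function.Injective (PowerSeries.map R'.subtype) := by
  intro f g h
  ext n
  have := congrArg (PowerSeries.coeff n) h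
  simpa using this

/-! ## weights `4 a + 6 b` -/

lemma exists_four_six (k : ℤ) (hk0 : 0 ≤ k) (hev : Even k) (hk2 : k ≠ 2) :
    ∃ a b : ℕ, 4 * (a : ℤ) + 6 * (b : ℤ) = k := by
  obtain ⟨j, rfl⟩ := hev
  rcases Int.even_or_odd j with ⟨i, hi⟩ | ⟨i, hi⟩
  · refine ⟨i.toNat, 0, ?_⟩
    have : 0 ≤ i := by omega
    rw [Int.toNat_of_nonneg this]
    omega
  · refine ⟨(i - 1).toNat, 1, ?_⟩
    have : 0 ≤ i - 1 := by omega
    rw [Int.toNat_of_nonneg this]
    omega

/-- `E₄ ^ a * E₆ ^ b` as a level-one form of a given weight `k = 4 a + 6 b`. -/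
def E4E6 (a b : ℕ) (k : ℤ) (hk : 4 * (a : ℤ) + 6 * (b : ℤ) = k) : ModularForm 𝒮ℒ k :=
  ModularForm.mcast (by rw [← hk]; ring) ((E₄.pow a).mul (E₆.pow b))

lemma qExpansion_E4E6 (a b : ℕ) (k : ℤ) (hk : 4 * (a : ℤ) + 6 * (b : ℤ) = k) :
    qExpansion 1 (E4E6 a b k hk) = qExpansion 1 E₄ ^ a * qExpansion 1 E₆ ^ b := by
  rw [E4E6, ModularForm.qExpansion_mcast,
    ModularForm.qExpansion_mul one_pos one_mem_strictPeriods_SL,
    ModularForm.qExpansion_pow one_pos one_mem_strictPeriods_SL,
    ModularForm.qExpansion_pow one_pos one_mem_strictPeriods_SL]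

lemma E4E6_apply (a b : ℕ) (k : ℤ) (hk : 4 * (a : ℤ) + 6 * (b : ℤ) = k) (z : ℍ) :
    E4E6 a b k hk z = E₄ z ^ a * E₆ z ^ b := by
  rw [E4E6, ModularForm.mcast_apply]
  simp [ModularForm.coe_mul, ModularForm.coe_pow]

lemma qE4_mem (R' : Subring ℂ) : qExpansion 1 E₄ ∈ seriesSubring R' :=
  (mem_seriesSubring_iff _ _).2 (E4_coeff_mem R')

lemma qE6_mem (R' : Subring ℂ) : qExpansion 1 E₆ ∈ seriesSubring R' :=
  (mem_seriesSubring_iff _ _).2 (E6_coeff_mem R')

lemma qDelta_mem (R' : Subring ℂ) : qExpansion 1 Δ ∈ seriesSubring R' := by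
  rw [mem_seriesSubring_iff, Fermat.Agent.X0.qExpansion_discriminant]
  intro n
  have : (PowerSeries.X * (ModularCurve.dedekindEtaUnit.map (Int.castRingHom ℂ)) : PowerSeries ℂ) =
      (PowerSeries.X * ModularCurve.dedekindEtaUnit : PowerSeries ℤ).map (Int.castRingHom ℂ) := by
    simp
  rw [this, PowerSeries.coeff_map]
  exact intCast_mem _ _

lemma coeff_zero_qExpansion_E4E6 (a b : ℕ) (k : ℤ) (hk : 4 * (a : ℤ) + 6 * (b : ℤ) = k) :
    (qExpansion 1 (E4E6 a b k hk)).coeff 0 = 1 := by
  rw [qExpansion_E4E6, PowerSeries.coeff_zero_eq_constantCoeff, map_mul, map_pow, map_pow,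
    ← PowerSeries.coeff_zero_eq_constantCoeff,
    EisensteinSeries.E_qExpansion_coeff_zero _ ⟨2, rfl⟩,
    EisensteinSeries.E_qExpansion_coeff_zero _ ⟨3, rfl⟩]
  simp


/-! ## The structure theorem -/

/-- The monomials `E₄ ^ a E₆ ^ b Δ ^ c` of weight `k` (as `q`-expansions). -/
def monoSet (k : ℤ) : Set (PowerSeries ℂ) :=
  {f | ∃ a b c : ℕ, 4 * (a : ℤ) + 6 * (b : ℤ) + 12 * (c : ℤ) = k ∧
    f = qExpansion 1 E₄ ^ a * qExpansion 1 E₆ ^ b * qExpansion 1 Δ ^ c}

lemma qDelta_mul_mem_span (R' : Subring ℂ) (k : ℤ) {f : PowerSeries ℂ}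
    (hf : f ∈ Submodule.span R' (monoSet (k - 12))) :
    qExpansion 1 Δ * f ∈ Submodule.span R' (monoSet k) := by
  induction hf using Submodule.span_induction with
  | mem x hx =>
    obtain ⟨a, b, c, habc, rfl⟩ := hx
    refine Submodule.subset_span ⟨a, b, c + 1, by push_cast; omega, ?_⟩
    ring
  | zero => simp
  | add x y _ _ hx hy => rw [mul_add]; exact Submodule.add_mem _ hx hy
  | smul r x _ hx => rw [mul_smul_comm]; exact Submodule.smul_mem _ r hx

lemma eq_zero_of_weight (k : ℤ) (hk : k < 0 ∨ Odd k ∨ k = 2) (g : ModularForm 𝒮ℒ k) : g = 0 := by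
  rcases hk with hk | hk | hk
  · exact rank_zero_iff_forall_zero.mp (levelOne_neg_weight_rank_zero hk) g
  · exact ModularForm.levelOne_odd_weight_eq_zero hk g
  · subst hk
    exact rank_zero_iff_forall_zero.mp levelOne_weight_two_rank_zero g

/-- **Structure theorem** (`q`-expansion form): a level-one form with `q`-coefficients in `R'` is
an `R'`-linear combination of the monomials `E₄ ^ a E₆ ^ b Δ ^ c` of its weight. -/
theorem qExpansion_mem_span_aux (R' : Subring ℂ) :
    ∀ (n : ℕ) (k : ℤ), k < 12 * n → ∀ g : ModularForm 𝒮ℒ k,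
      (∀ m, (qExpansion 1 g).coeff m ∈ R') → qExpansion 1 g ∈ Submodule.span R' (monoSet k) := by
  intro n
  induction n with
  | zero =>
    intro k hk g _
    rw [eq_zero_of_weight k (Or.inl (by simpa using hk)) g]
    simp [qExpansion_zero]
  | succ n ih =>
    intro k hk g hg
    by_cases h0 : k < 0 ∨ Odd k ∨ k = 2
    · rw [eq_zero_of_weight k h0 g]
      simp [qExpansion_zero]
    · push Not at h0
      obtain ⟨h1, h2, h3⟩ := h0
      obtain ⟨a, b, hab⟩ := exists_four_six k h1 (Int.not_odd_iff_even.mp h2) h3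
      set Q := E4E6 a b k hab with hQ
      set a₀ : ℂ := (qExpansion 1 g).coeff 0 with ha₀
      set g' : ModularForm 𝒮ℒ k := g - a₀ • Q with hg'
      have hg'q : qExpansion 1 g' = qExpansion 1 g - a₀ • qExpansion 1 Q := by
        rw [hg', FunLike.coe_sub,
          ModularForm.qExpansion_sub one_pos one_mem_strictPeriods_SL g (a₀ • Q),
          FunLike.coe_smul,
          ModularForm.qExpansion_smul one_pos one_mem_strictPeriods_SL a₀ Q]
      have hcusp : (qExpansion 1 g').coeff 0 = 0 := by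
        rw [hg'q, map_sub, PowerSeries.coeff_smul, hQ, coeff_zero_qExpansion_E4E6]
        simp [ha₀]
      have hQmem : ∀ m, (qExpansion 1 Q).coeff m ∈ R' := by
        intro m
        rw [hQ, qExpansion_E4E6, PowerSeries.coeff_mul]
        exact Subring.sum_mem _ fun x _ => Subring.mul_mem _
          (coeff_pow_mem R' (E4_coeff_mem R') a _) (coeff_pow_mem R' (E6_coeff_mem R') b _)
      have hg'mem : ∀ m, (qExpansion 1 g').coeff m ∈ R' := by
        intro m
        rw [hg'q, map_sub, PowerSeries.coeff_smul]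
        exact Subring.sub_mem _ (hg m) (Subring.mul_mem _ (hg 0) (hQmem m))
      set h : ModularForm 𝒮ℒ (k - 12) :=
        CuspForm.discriminantEquiv (toCuspForm g' hcusp) with hh
      have hhmem : ∀ m, (qExpansion 1 h).coeff m ∈ R' :=
        coeff_mem_discriminantEquiv R' g' hcusp hg'mem
      have key := ih (k - 12) (by push_cast at hk; omega) h hhmem
      have hfac := ModularForm.qExpansion_eq_qExpansion_discriminant_mul g' hcusp
      have hsum : qExpansion 1 g = a₀ • qExpansion 1 Q + qExpansion 1 Δ * qExpansion 1 h := by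
        rw [hh, ← hfac, hg'q]; ring
      rw [hsum]
      refine Submodule.add_mem _ ?_ (qDelta_mul_mem_span R' k key)
      have : a₀ • qExpansion 1 Q = (⟨a₀, hg 0⟩ : R') • qExpansion 1 Q := rfl
      rw [this]
      refine Submodule.smul_mem _ _ (Submodule.subset_span ⟨a, b, 0, by simpa using hab, ?_⟩)
      rw [hQ, qExpansion_E4E6, pow_zero, mul_one]

theorem qExpansion_mem_span (R' : Subring ℂ) (k : ℤ) (g : ModularForm 𝒮ℒ k)
    (hg : ∀ m, (qExpansion 1 g).coeff m ∈ R') :
    qExpansion 1 g ∈ Submodule.span R' (monoSet k) :=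
  qExpansion_mem_span_aux R' (k.toNat + 1) k (by push_cast; omega) g hg


/-! ## Reduction modulo `24` -/

/-- `Δ = q ∏ (1 - qⁿ)^24` as a formal power series over any commutative ring. -/
def deltaSeries (A : Type*) [CommRing A] : PowerSeries A :=
  PowerSeries.X * ModularCurve.dedekindEtaUnit.map (Int.castRingHom A)

lemma qExpansion_discriminant_eq : qExpansion 1 Δ = deltaSeries ℂ :=
  Fermat.Agent.X0.qExpansion_discriminant

lemma map_deltaSeries {A B : Type*} [CommRing A] [CommRing B] (φ : A →+* B) :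
    (deltaSeries A).map φ = deltaSeries B := by
  rw [deltaSeries, deltaSeries, map_mul, PowerSeries.map_X]
  congr 1
  ext n
  simp

/-- series congruent to `1` modulo `24` (with quotient in `R'⟦X⟧`). -/
def OneMod24 (R' : Subring ℂ) (f : PowerSeries ℂ) : Prop :=
  ∃ U ∈ seriesSubring R', f = 1 + 24 * U

lemma OneMod24.mul {R' : Subring ℂ} {f g : PowerSeries ℂ} (hf : OneMod24 R' f)
    (hg : OneMod24 R' g) : OneMod24 R' (f * g) := by
  obtain ⟨U, hU, rfl⟩ := hf
  obtain ⟨V, hV, rfl⟩ := hg
  refine ⟨U + V + 24 * (U * V), ?_, by ring⟩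
  have h24 : (24 : PowerSeries ℂ) ∈ seriesSubring R' := by
    have : (24 : PowerSeries ℂ) = ((24 : ℕ) : PowerSeries ℂ) := by norm_num
    rw [this]; exact natCast_mem _ _
  exact Subring.add_mem _ (Subring.add_mem _ hU hV)
    (Subring.mul_mem _ h24 (Subring.mul_mem _ hU hV))

lemma OneMod24.one {R' : Subring ℂ} : OneMod24 R' 1 := ⟨0, Subring.zero_mem _, by simp⟩

lemma OneMod24.pow {R' : Subring ℂ} {f : PowerSeries ℂ} (hf : OneMod24 R' f) (n : ℕ) :
    OneMod24 R' (f ^ n) := by
  induction n with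
  | zero => simpa using OneMod24.one
  | succ n ih => rw [pow_succ]; exact ih.mul hf

open scoped ArithmeticFunction.sigma in
lemma oneMod24_qE4 (R' : Subring ℂ) : OneMod24 R' (qExpansion 1 E₄) := by
  refine ⟨PowerSeries.mk fun n => if n = 0 then 0 else ((10 * σ 3 n : ℕ) : ℂ), ?_, ?_⟩
  · rw [mem_seriesSubring_iff]
    intro n
    rw [PowerSeries.coeff_mk]
    split_ifs
    · exact Subring.zero_mem _
    · exact natCast_mem _ _
  · ext n
    rw [EisensteinSeries.E_qExpansion_coeff _ ⟨2, rfl⟩, map_add,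
      show (24 : PowerSeries ℂ) = PowerSeries.C (24 : ℂ) from (map_ofNat PowerSeries.C 24).symm, PowerSeries.coeff_C_mul,
      PowerSeries.coeff_mk, PowerSeries.coeff_one]
    by_cases hn : n = 0
    · simp [hn]
    · simp only [hn, if_false]
      rw [show bernoulli 4 = -1 / 30 by decide +kernel]
      push_cast
      ring

open scoped ArithmeticFunction.sigma in
lemma oneMod24_qE6 (R' : Subring ℂ) : OneMod24 R' (qExpansion 1 E₆) := by
  refine ⟨PowerSeries.mk fun n => if n = 0 then 0 else ((-21 * σ 5 n : ℤ) : ℂ), ?_, ?_⟩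
  · rw [mem_seriesSubring_iff]
    intro n
    rw [PowerSeries.coeff_mk]
    split_ifs
    · exact Subring.zero_mem _
    · exact intCast_mem _ _
  · ext n
    rw [EisensteinSeries.E_qExpansion_coeff _ ⟨3, rfl⟩, map_add,
      show (24 : PowerSeries ℂ) = PowerSeries.C (24 : ℂ) from (map_ofNat PowerSeries.C 24).symm, PowerSeries.coeff_C_mul,
      PowerSeries.coeff_mk, PowerSeries.coeff_one]
    by_cases hn : n = 0
    · simp [hn]
    · simp only [hn, if_false]
      rw [show bernoulli 6 = 1 / 42 by decide +kernel]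
      push_cast
      ring

/-- **Reduction mod 24.** The `q`-expansion of a level-one form with coefficients in `R'` is,
modulo `24 R'⟦q⟧`, a polynomial in `Δ` with coefficients in `R'`. -/
theorem qExpansion_eq_aeval_discriminant_add (R' : Subring ℂ) (k : ℤ) (g : ModularForm 𝒮ℒ k)
    (hg : ∀ m, (qExpansion 1 g).coeff m ∈ R') :
    ∃ (P : Polynomial ℂ) (H : PowerSeries ℂ), (∀ n, P.coeff n ∈ R') ∧ H ∈ seriesSubring R' ∧
      qExpansion 1 g = Polynomial.aeval (qExpansion 1 Δ) P + 24 * H := by
  have hmain := qExpansion_mem_span R' k g hg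
  generalize qExpansion 1 g = f at hmain ⊢
  induction hmain using Submodule.span_induction with
  | mem x hx =>
    obtain ⟨a, b, c, -, rfl⟩ := hx
    obtain ⟨U, hU, hUeq⟩ := ((oneMod24_qE4 R').pow a).mul ((oneMod24_qE6 R').pow b)
    refine ⟨Polynomial.X ^ c, U * qExpansion 1 Δ ^ c, ?_, ?_, ?_⟩
    · intro n
      rw [Polynomial.coeff_X_pow]
      split_ifs
      · exact Subring.one_mem _
      · exact Subring.zero_mem _
    · exact Subring.mul_mem _ hU (Subring.pow_mem _ (qDelta_mem R') c)
    · rw [hUeq, map_pow, Polynomial.aeval_X]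
      ring
  | zero => exact ⟨0, 0, by simp, Subring.zero_mem _, by simp⟩
  | add x y _ _ hx hy =>
    obtain ⟨P, H, hP, hH, rfl⟩ := hx
    obtain ⟨P', H', hP', hH', rfl⟩ := hy
    refine ⟨P + P', H + H', fun n => ?_, Subring.add_mem _ hH hH', ?_⟩
    · rw [Polynomial.coeff_add]; exact Subring.add_mem _ (hP n) (hP' n)
    · rw [map_add]; ring
  | smul r x _ hx =>
    obtain ⟨P, H, hP, hH, rfl⟩ := hx
    refine ⟨Polynomial.C (r : ℂ) * P, PowerSeries.C (r : ℂ) * H, fun n => ?_, ?_, ?_⟩
    · rw [Polynomial.coeff_C_mul]; exact Subring.mul_mem _ r.2 (hP n)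
    · refine Subring.mul_mem _ ?_ hH
      rw [mem_seriesSubring_iff]
      intro n
      rw [PowerSeries.coeff_C]
      split_ifs
      · exact r.2
      · exact Subring.zero_mem _
    · have hr : r • ((Polynomial.aeval (qExpansion 1 Δ)) P + 24 * H) =
          PowerSeries.C (r : ℂ) * ((Polynomial.aeval (qExpansion 1 Δ)) P + 24 * H) := by
        rw [← PowerSeries.smul_eq_C_mul]; rfl
      rw [hr, map_mul, Polynomial.aeval_C]
      have : (algebraMap ℂ (PowerSeries ℂ)) (r : ℂ) = PowerSeries.C (r : ℂ) := rfl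
      rw [this]
      ring


/-- compatibility of `PowerSeries.map` with polynomial evaluation. -/
lemma map_aeval_series {A B : Type*} [CommRing A] [CommRing B] (φ : A →+* B) (s : PowerSeries A)
    (P : Polynomial A) :
    PowerSeries.map φ (Polynomial.aeval s P) = Polynomial.aeval (s.map φ) (P.map φ) := by
  refine Polynomial.map_aeval_eq_aeval_map (φ := φ) (ψ := PowerSeries.map φ) ?_ P s
  ext r
  simp

/-- **Reduction mod 24, over `R'`.** -/
theorem liftSeries_qExpansion_eq (R' : Subring ℂ) (k : ℤ) (g : ModularForm 𝒮ℒ k)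
    (hg : ∀ m, (qExpansion 1 g).coeff m ∈ R') :
    ∃ (P : Polynomial R') (H : PowerSeries R'),
      liftSeries R' (qExpansion 1 g) hg = Polynomial.aeval (deltaSeries R') P + 24 * H := by
  obtain ⟨P₀, H₀, hP₀, hH₀, heq⟩ := qExpansion_eq_aeval_discriminant_add R' k g hg
  obtain ⟨P, hP⟩ := (Polynomial.mem_lifts _).1 ((Polynomial.lifts_iff_coeff_lifts P₀).2
    (fun n => ⟨⟨P₀.coeff n, hP₀ n⟩, rfl⟩) : P₀ ∈ Polynomial.lifts R'.subtype)
  rw [mem_seriesSubring_iff] at hH₀
  refine ⟨P, liftSeries R' H₀ hH₀, map_subtype_injective R' ?_⟩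
  rw [map_liftSeries, map_add, map_mul, map_liftSeries, map_aeval_series, map_deltaSeries, hP,
    ← qExpansion_discriminant_eq, heq, map_ofNat]

/-- **Reduction modulo a divisor of 24.**  If `φ : R' →+* K` and `24 = 0` in `K` (e.g. `K` of
characteristic `2` or `3`), the reduction of the `q`-expansion of a level-one form with
`R'`-coefficients is a polynomial in `Δ`. -/
theorem map_liftSeries_qExpansion_eq_aeval (R' : Subring ℂ) (k : ℤ) (g : ModularForm 𝒮ℒ k)
    (hg : ∀ m, (qExpansion 1 g).coeff m ∈ R') {K : Type*} [CommRing K] (φ : R' →+* K)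
    (h24 : (24 : K) = 0) :
    ∃ P : Polynomial K,
      (liftSeries R' (qExpansion 1 g) hg).map φ = Polynomial.aeval (deltaSeries K) P := by
  obtain ⟨P, H, heq⟩ := liftSeries_qExpansion_eq R' k g hg
  refine ⟨P.map φ, ?_⟩
  rw [heq, map_add, map_mul, map_aeval_series, map_deltaSeries]
  have : (PowerSeries.map φ) (24 : PowerSeries R') = 0 := by
    rw [map_ofNat]
    have : (24 : PowerSeries K) = PowerSeries.C (24 : K) := (map_ofNat PowerSeries.C 24).symm
    rw [this, h24, map_zero]
  rw [this, zero_mul, add_zero]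

end Fermat.Agent.Eis
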