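import Mathlib
import Fermat.Agent.Eis.ConjSharp
import Fermat.Agent.Eis.ConjMain
import Fermat.Agent.Eis.LevelOneEval
import Fermat.Agent.Eis.LevelOneStructure

/-!
# S16 / CALG part 2: integrality of the CM values of a weight 12 form on `Γ0(p)`

If the expansions of `H` (weight 12 on `Γ0(p)`) at both cusps have coefficients in a subring
`R' ∋ ζ_p` of `ℂ`, then `H(ρ)/Δ(ρ)` and `H(i)/Δ(i)` are integral over `R'`
(`isIntegral_eval_rho`, `isIntegral_eval_i`): A3 + the level one evaluation lemma.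
-/

set_option autoImplicit false

open UpperHalfPlane ModularForm Complex CongruenceSubgroup
open scoped MatrixGroups ModularForm

namespace Fermat.Agent.Eis

local notation "Δ" => ModularForm.discriminant

section CALG

variable (p : ℕ) [Fact p.Prime]

theorem coeff_conjSeriesOpt_mem (R' : Subring ℂ) (hζ : zetaP p ∈ R') {k : ℤ} {H : ℍ → ℂ}
    (h1 : ∀ n, PowerSeries.coeff n (qExpansion 1 H) ∈ R')
    (h2 : ∀ n, PowerSeries.coeff n (sharpQ p k H) ∈ R') (j : Option (Fin p)) :
    conjSeriesOpt p k H j ∈ seriesSubring R' := by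
  rw [mem_seriesSubring_iff]
  intro n
  cases j with
  | none =>
    show PowerSeries.coeff n (PowerSeries.expand p (NeZero.ne p) (qExpansion 1 H)) ∈ R'
    rw [PowerSeries.coeff_expand]
    split_ifs
    · exact h1 _
    · exact R'.zero_mem
  | some j =>
    show PowerSeries.coeff n (PowerSeries.rescale (zetaP p ^ (j : ℕ)) (sharpQ p k H)) ∈ R'
    rw [PowerSeries.coeff_rescale]
    exact R'.mul_mem (R'.pow_mem (R'.pow_mem hζ _) _) (h2 n)

/-- the level one forms `e i` of A3 have coefficients in `R'`. -/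
theorem coeff_esymm_forms_mem (R' : Subring ℂ) (hζ : zetaP p ∈ R') {k : ℤ} {H : ℍ → ℂ}
    (h1 : ∀ n, PowerSeries.coeff n (qExpansion 1 H) ∈ R')
    (h2 : ∀ n, PowerSeries.coeff n (sharpQ p k H) ∈ R')
    (e : ∀ i : ℕ, ModularForm 𝒮ℒ (k * i))
    (hser : ∀ i, PowerSeries.expand p (NeZero.ne p) (qExpansion 1 (e i)) =
        (Finset.univ.val.map fun j => conjSeriesOpt p k H j).esymm i) (i n : ℕ) :
    PowerSeries.coeff n (qExpansion 1 (e i)) ∈ R' := by
  rw [← PowerSeries.coeff_expand_mul p (NeZero.ne p), hser i]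
  have hmem : ((Finset.univ.val.map fun j => conjSeriesOpt p k H j).esymm i) ∈
      seriesSubring R' := by
    rw [Multiset.esymm]
    apply Subring.multiset_sum_mem
    intro c hc
    obtain ⟨t, ht, rfl⟩ := Multiset.mem_map.mp hc
    apply Subring.multiset_prod_mem
    intro x hx
    have hx' := Multiset.mem_of_le (Multiset.mem_powersetCard.mp ht).1 hx
    obtain ⟨j, -, rfl⟩ := Multiset.mem_map.mp hx'
    exact coeff_conjSeriesOpt_mem p R' hζ h1 h2 j
  exact (mem_seriesSubring_iff R' _).mp hmem _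

/-- integrality: if the expansions of `H` (weight 12) at both cusps are `R'`-integral and
`ζ_p ∈ R'`, then `H(ρ)/Δ(ρ)` is integral over `R'`. -/
theorem isIntegral_eval_rho (R' : Subring ℂ) (hζ : zetaP p ∈ R') {H : ℍ → ℂ}
    (h : IsGamma0Form p 12 H) (h1 : ∀ n, PowerSeries.coeff n (qExpansion 1 H) ∈ R')
    (h2 : ∀ n, PowerSeries.coeff n (sharpQ p 12 H) ∈ R') :
    IsIntegral R' (H rhoPt / Δ rhoPt) := by
  obtain ⟨Hc, e, hnone, hval, hser⟩ := exists_esymm_forms p h
  have := isIntegral_eval_div_discriminant_rho R' Hc e hval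
    (coeff_esymm_forms_mem p R' hζ h1 h2 e hser) none
  rwa [hnone] at this

/-- the same at `i`. -/
theorem isIntegral_eval_i (R' : Subring ℂ) (hζ : zetaP p ∈ R') {H : ℍ → ℂ}
    (h : IsGamma0Form p 12 H) (h1 : ∀ n, PowerSeries.coeff n (qExpansion 1 H) ∈ R')
    (h2 : ∀ n, PowerSeries.coeff n (sharpQ p 12 H) ∈ R') :
    IsIntegral R' (H iPt / Δ iPt) := by
  obtain ⟨Hc, e, hnone, hval, hser⟩ := exists_esymm_forms p h
  have := isIntegral_eval_div_discriminant_i R' Hc e hval
    (coeff_esymm_forms_mem p R' hζ h1 h2 e hser) none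
  rwa [hnone] at this

end CALG

end Fermat.Agent.Eis
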