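import Mathlib
import Fermat.Agent.Eis.ConjSharp
import Fermat.Agent.Eis.ConjMain
import Fermat.Agent.Eis.LevelOneStructure

/-!
# S16 / CALG part 1: the trace to level one

* `Up p a` : `U_p` on power series;
* `sum_rescale_zetaP` : `∑_j b(ζ^j t) = p • (U_p b)(t^p)`;
* `exists_trace` : `Tr H = H + p U_p (sharp H)` is a level one form;
* `sharpQ_weight_two` : in weight two, `b_n = - a_{pn} / p` for `b = qExp (sharp F)`.
-/

set_option autoImplicit false

open UpperHalfPlane ModularForm Complex CongruenceSubgroup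
open scoped MatrixGroups ModularForm

namespace Fermat.Agent.Eis

/-! ### Power series lemmas -/

section Series

variable (p : ℕ) [Fact p.Prime]

/-- `U_p` on power series. -/
noncomputable def Up (a : PowerSeries ℂ) : PowerSeries ℂ :=
  PowerSeries.mk fun n => PowerSeries.coeff (p * n) a

omit [Fact p.Prime] in
theorem coeff_Up (a : PowerSeries ℂ) (n : ℕ) :
    PowerSeries.coeff n (Up p a) = PowerSeries.coeff (p * n) a := by
  rw [Up, PowerSeries.coeff_mk]

theorem zetaP_isPrimitiveRoot : IsPrimitiveRoot (zetaP p) p :=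
  Complex.isPrimitiveRoot_exp p (NeZero.ne p)

theorem sum_zetaP_pow (n : ℕ) :
    ∑ j : Fin p, (zetaP p ^ (j : ℕ)) ^ n = if p ∣ n then (p : ℂ) else 0 := by
  have hζ := zetaP_isPrimitiveRoot p
  rw [Fin.sum_univ_eq_sum_range (fun j => (zetaP p ^ j) ^ n) p]
  have h1 : ∀ j, (zetaP p ^ j) ^ n = (zetaP p ^ n) ^ j := fun j => by
    rw [← pow_mul, ← pow_mul, mul_comm]
  simp only [h1]
  split_ifs with h
  · have : zetaP p ^ n = 1 := (hζ.pow_eq_one_iff_dvd n).mpr h
    simp [this]
  · have hne : zetaP p ^ n ≠ 1 := fun h' => h ((hζ.pow_eq_one_iff_dvd n).mp h')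
    have h2 : (zetaP p ^ n) ^ p = 1 := by rw [← pow_mul, mul_comm, pow_mul, hζ.pow_eq_one, one_pow]
    have h3 := mul_geom_sum (zetaP p ^ n) p
    rw [h2, sub_self] at h3
    exact (mul_eq_zero.mp h3).resolve_left (sub_ne_zero.mpr hne)

theorem sum_rescale_zetaP (b : PowerSeries ℂ) :
    ∑ j : Fin p, PowerSeries.rescale (zetaP p ^ (j : ℕ)) b =
      (p : ℂ) • PowerSeries.expand p (NeZero.ne p) (Up p b) := by
  ext n
  rw [map_sum, PowerSeries.coeff_smul, PowerSeries.coeff_expand]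
  simp only [PowerSeries.coeff_rescale]
  rw [← Finset.sum_mul, sum_zetaP_pow]
  split_ifs with h
  · obtain ⟨m, rfl⟩ := h
    rw [Nat.mul_div_cancel_left _ (Nat.pos_of_ne_zero (NeZero.ne p)), coeff_Up, smul_eq_mul]
  · rw [zero_mul, smul_zero]

omit [Fact p.Prime] in
theorem expand_injective (hp : p ≠ 0) :
    Function.Injective (PowerSeries.expand p hp : PowerSeries ℂ → PowerSeries ℂ) := by
  intro a b h
  ext n
  rw [← PowerSeries.coeff_expand_mul p hp a n, h, PowerSeries.coeff_expand_mul]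

theorem multiset_esymm_one {R : Type*} [CommSemiring R] (s : Multiset R) : s.esymm 1 = s.sum := by
  rw [Multiset.esymm, Multiset.powersetCard_one, Multiset.map_map]
  simp

end Series

/-! ### The trace -/

section CALG

variable (p : ℕ) [Fact p.Prime]

/-- trace formula: `Tr H = H + p U_p(sharp H)` is a level one form. -/
theorem exists_trace {k : ℤ} {H : ℍ → ℂ} (h : IsGamma0Form p k H) :
    ∃ T : ModularForm 𝒮ℒ k,
      qExpansion 1 T = qExpansion 1 H + (p : ℂ) • Up p (sharpQ p k H) := by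
  obtain ⟨Hc, e, -, -, hser⟩ := exists_esymm_forms p h
  have hk : k * ((1 : ℕ) : ℤ) = k := by simp
  refine ⟨ModularForm.mcast hk (e 1), ?_⟩
  have h1 : qExpansion 1 (ModularForm.mcast hk (e 1)) = qExpansion 1 (e 1) := rfl
  rw [h1]
  apply expand_injective p (NeZero.ne p)
  rw [hser 1, multiset_esymm_one, Finset.sum_map_val, Fintype.sum_option]
  show PowerSeries.expand p (NeZero.ne p) (qExpansion 1 H) +
    ∑ j : Fin p, PowerSeries.rescale (zetaP p ^ (j : ℕ)) (sharpQ p k H) = _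
  rw [sum_rescale_zetaP, map_add, PowerSeries.expand_smul]

/-- weight 2: `Tr F = 0` (no level one forms of weight 2), applied to `sharp F`:
`b_n = -a_{pn}/p` for `b = qExp (sharp F)`, all `n ≥ 0`. -/
theorem sharpQ_weight_two {F : ℍ → ℂ} (h : IsGamma0Form p 2 F) (n : ℕ) :
    PowerSeries.coeff n (sharpQ p 2 F) =
      -(p : ℂ)⁻¹ * PowerSeries.coeff (p * n) (qExpansion 1 F) := by
  have hp0 : (p : ℂ) ≠ 0 := Nat.cast_ne_zero.mpr (NeZero.ne p)
  obtain ⟨T, hT⟩ := exists_trace p (IsGamma0Form.sharp p h)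
  have hT0 : T = 0 := eq_zero_of_weight 2 (Or.inr (Or.inr rfl)) T
  have h0 : qExpansion 1 (T : ℍ → ℂ) = 0 := by
    rw [hT0]
    exact qExpansion_zero 1
  have h2 : sharpQ p 2 (sharp p 2 F) = ((p : ℂ) ^ (-2 : ℤ)) • qExpansion 1 F := by
    unfold sharpQ
    rw [sharp_sharp]
    have : ((-1 : ℂ) ^ (2 : ℤ) * (p : ℂ) ^ (-(2 : ℤ))) = (p : ℂ) ^ (-2 : ℤ) := by
      norm_num
    rw [this]
    exact IsGamma0Form.qExpansion_smul h _
  rw [h0, h2] at hT
  have h3 := congrArg (PowerSeries.coeff n) hT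
  rw [map_zero, map_add, PowerSeries.coeff_smul, coeff_Up, PowerSeries.coeff_smul] at h3
  have h4 : PowerSeries.coeff n (qExpansion 1 (sharp p 2 F)) = PowerSeries.coeff n (sharpQ p 2 F) :=
    rfl
  rw [h4, smul_eq_mul, smul_eq_mul] at h3
  have h5 : (p : ℂ) * ((p : ℂ) ^ (-2 : ℤ) * PowerSeries.coeff (p * n) (qExpansion 1 F)) =
      (p : ℂ)⁻¹ * PowerSeries.coeff (p * n) (qExpansion 1 F) := by
    rw [← mul_assoc]
    congr 1
    rw [zpow_neg, zpow_ofNat]
    field_simp
  rw [h5] at h3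
  linear_combination -h3

end CALG

end Fermat.Agent.Eis
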