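import Mathlib

/-!
# Residue-field core of the `ℓ = 3` upper bound (pure algebra)

* `three_core`: over a field of characteristic `3`, the polynomial
  `(X + 2S)(X + 2S + u)^p` (`p ≡ 2 mod 3`) cannot have all its coefficients of `X^(p+1-i)` equal to
  polynomials of degree `≤ i/2` in `Δ` (`S = q + q^3 + …`, `Δ = q + 0 q^3 + …`).
-/

set_option autoImplicit false

open Polynomial

namespace Fermat.Agent.Eis.Cores

/-- `choose (q^v m') (q^v) ≡ m' mod q` (iterated Lucas). -/
lemma choose_pow_mul_modEq (q : ℕ) [Fact q.Prime] (v m' : ℕ) :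
    Nat.choose (q ^ v * m') (q ^ v) ≡ m' [MOD q] := by
  induction v with
  | zero => simp [Nat.ModEq]
  | succ v ih =>
    have hq : 0 < q := (Fact.out : q.Prime).pos
    have h := Choose.choose_modEq_choose_mod_mul_choose_div_nat (p := q)
      (n := q ^ (v + 1) * m') (k := q ^ (v + 1))
    have e1 : q ^ (v + 1) * m' % q = 0 := by
      rw [pow_succ, mul_assoc, mul_comm, mul_assoc]; exact Nat.mul_mod_right _ _
    have e2 : q ^ (v + 1) % q = 0 := by rw [pow_succ]; exact Nat.mul_mod_left _ _
    have e3 : q ^ (v + 1) * m' / q = q ^ v * m' := by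
      rw [pow_succ, mul_assoc, mul_comm q m', ← mul_assoc]; exact Nat.mul_div_cancel _ hq
    have e4 : q ^ (v + 1) / q = q ^ v := by rw [pow_succ]; exact Nat.mul_div_cancel _ hq
    rw [e1, e2, e3, e4, Nat.choose_self, one_mul] at h
    exact h.trans ih

section Order

variable {K : Type*} [CommRing K]

lemma coeff_pow_eq_zero_of_lt (S : PowerSeries K) (h0 : PowerSeries.constantCoeff S = 0)
    {m n : ℕ} (h : n < m) : PowerSeries.coeff n (S ^ m) = 0 := by
  obtain ⟨U, rfl⟩ := PowerSeries.X_dvd_iff.mpr h0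
  rw [mul_pow, PowerSeries.coeff_X_pow_mul', if_neg (by omega)]

lemma coeff_pow_self (S : PowerSeries K) (h0 : PowerSeries.constantCoeff S = 0) (m : ℕ) :
    PowerSeries.coeff m (S ^ m) = (PowerSeries.coeff 1 S) ^ m := by
  obtain ⟨U, rfl⟩ := PowerSeries.X_dvd_iff.mpr h0
  rw [mul_pow, PowerSeries.coeff_X_pow_mul', if_pos le_rfl, Nat.sub_self,
    PowerSeries.coeff_zero_eq_constantCoeff, map_pow]
  congr 1
  have : PowerSeries.coeff 1 (PowerSeries.X * U) = PowerSeries.coeff 0 U := by
    rw [show (1 : ℕ) = 0 + 1 from rfl, PowerSeries.coeff_succ_X_mul]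
  rw [this, PowerSeries.coeff_zero_eq_constantCoeff]

end Order

section Triangular

variable {K : Type*} [Field K]

lemma coeff_aeval (D : PowerSeries K) (P : K[X]) (n : ℕ) :
    PowerSeries.coeff n (aeval D P) =
      ∑ i ∈ Finset.range (P.natDegree + 1), P.coeff i * PowerSeries.coeff n (D ^ i) := by
  rw [aeval_eq_sum_range, map_sum]
  refine Finset.sum_congr rfl fun i _ => ?_
  rw [PowerSeries.coeff_smul, smul_eq_mul]

/-- a polynomial in `D = q + …` of degree `≤ d` whose first `d + 1` coefficients vanish is zero. -/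
lemma eq_zero_of_coeff_low (D : PowerSeries K) (h0 : PowerSeries.constantCoeff D = 0)
    (h1 : PowerSeries.coeff 1 D = 1) (P : K[X]) (d : ℕ) (hd : P.natDegree ≤ d)
    (h : ∀ n ≤ d, PowerSeries.coeff n (aeval D P) = 0) : P = 0 := by
  have key : ∀ j, P.coeff j = 0 := by
    intro j
    induction j using Nat.strong_induction_on with
    | _ j ih =>
      by_cases hj : j ≤ d
      · have := h j hj
        rw [coeff_aeval] at this
        by_cases hjd : j ≤ P.natDegree
        · rw [Finset.sum_eq_single j] at this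
          · rwa [coeff_pow_self D h0, h1, one_pow, mul_one] at this
          · intro i _ hij
            rcases lt_or_gt_of_ne hij with hlt | hgt
            · rw [ih i hlt, zero_mul]
            · rw [coeff_pow_eq_zero_of_lt D h0 hgt, mul_zero]
          · intro hnot
            exact absurd (Finset.mem_range.mpr (by omega)) hnot
        · exact coeff_eq_zero_of_natDegree_lt (by omega)
      · exact coeff_eq_zero_of_natDegree_lt (by omega)
  exact Polynomial.ext fun j => by rw [key j, coeff_zero]

end Triangular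

section Three

variable {κ : Type*} [Field κ] [CharP κ 3]

omit [CharP κ 3] in
private lemma coeff_X_add_C_mul (a : PowerSeries κ) (Q : (PowerSeries κ)[X]) (d : ℕ) :
    ((X + C a) * Q).coeff (d + 1) = Q.coeff d + a * Q.coeff (d + 1) := by
  rw [add_mul, coeff_add, coeff_X_mul, coeff_C_mul]

private lemma two_ne_zero3 : (2 : κ) ≠ 0 := by
  intro h
  have : ((2 : ℕ) : κ) = 0 := by exact_mod_cast h
  rw [CharP.cast_eq_zero_iff κ 3] at this
  omega

private lemma three_eq_zero : (3 : PowerSeries κ) = 0 := by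
  have : ((3 : ℕ) : κ) = 0 := (CharP.cast_eq_zero_iff κ 3 3).mpr dvd_rfl
  have h3 : (3 : κ) = 0 := by exact_mod_cast this
  have h2 : (3 : PowerSeries κ) = PowerSeries.C (3 : κ) := (map_ofNat PowerSeries.C 3).symm
  rw [h2, h3, map_zero]

theorem three_core (S D : PowerSeries κ)
    (hS0 : PowerSeries.constantCoeff S = 0) (hS1 : PowerSeries.coeff 1 S = 1)
    (hS3 : PowerSeries.coeff 3 S = 1)
    (hD0 : PowerSeries.constantCoeff D = 0) (hD1 : PowerSeries.coeff 1 D = 1)
    (hD3 : PowerSeries.coeff 3 D = 0)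
    {p : ℕ} (hp3 : p % 3 = 2) (u : κ)
    (h : ∀ i ≤ p + 1, ∃ P : κ[X], P.natDegree ≤ i / 2 ∧
      ((X + C (2 * S)) * (X + C (2 * S + PowerSeries.C u)) ^ p : (PowerSeries κ)[X]).coeff
        (p + 1 - i) = aeval D P) : False := by
  have h2ne : (2 : κ) ≠ 0 := two_ne_zero3
  by_cases hu : u = 0
  · -- all conjugates equal
    subst hu
    have hn0 : p + 1 ≠ 0 := by omega
    obtain ⟨v, m', hm', hn⟩ := Nat.exists_eq_pow_mul_and_not_dvd hn0 3 (by norm_num)
    have hv : 1 ≤ v := by
      by_contra hv
      have : v = 0 := by omega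
      subst this
      rw [pow_zero, one_mul] at hn
      apply hm'
      rw [← hn]; omega
    set N := 3 ^ v with hN
    have hN3 : 3 ≤ N := by
      calc 3 = 3 ^ 1 := by norm_num
        _ ≤ 3 ^ v := Nat.pow_le_pow_right (by norm_num) hv
    have hm'pos : 0 < m' := by
      rcases Nat.eq_zero_or_pos m' with h0 | h0
      · subst h0; exact absurd (dvd_zero 3) hm'
      · exact h0
    have hNle : N ≤ p + 1 := by rw [hn]; exact Nat.le_mul_of_pos_right _ hm'pos
    obtain ⟨P, hPdeg, hP⟩ := h N hNle
    simp only [map_zero, add_zero] at hP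
    rw [← pow_succ', coeff_X_add_C_pow] at hP
    have hsub : p + 1 - (p + 1 - N) = N := by omega
    rw [hsub, Nat.choose_symm hNle] at hP
    -- the binomial coefficient is a unit
    haveI : Fact (Nat.Prime 3) := ⟨Nat.prime_three⟩
    have hch : ((Nat.choose (p + 1) N : ℕ) : κ) = (m' : κ) := by
      rw [hn]
      exact (CharP.natCast_eq_natCast κ 3).mpr (choose_pow_mul_modEq 3 v m')
    have hm'ne : (m' : κ) ≠ 0 := by
      rw [Ne, CharP.cast_eq_zero_iff κ 3]; exact hm'
    set a : PowerSeries κ := 2 * S with ha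
    have ha0 : PowerSeries.constantCoeff a = 0 := by rw [ha, map_mul, hS0, mul_zero]
    have ha1 : PowerSeries.coeff 1 a = 2 := by
      have : (2 : PowerSeries κ) = PowerSeries.C (2 : κ) := (map_ofNat PowerSeries.C 2).symm
      rw [ha, this, PowerSeries.coeff_C_mul, hS1, mul_one]
    have hcast : ((Nat.choose (p + 1) N : ℕ) : PowerSeries κ) =
        PowerSeries.C ((Nat.choose (p + 1) N : ℕ) : κ) := by simp
    -- low coefficients of the left side vanish
    have hlow : ∀ n ≤ N / 2, PowerSeries.coeff n (aeval D P) = 0 := by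
      intro n hn'
      rw [← hP, hcast, PowerSeries.coeff_mul_C, coeff_pow_eq_zero_of_lt a ha0 (by omega), zero_mul]
    have hP0 : P = 0 := eq_zero_of_coeff_low D hD0 hD1 P (N / 2) hPdeg hlow
    rw [hP0, map_zero] at hP
    have := congrArg (PowerSeries.coeff N) hP
    rw [hcast, PowerSeries.coeff_mul_C, coeff_pow_self a ha0, ha1, map_zero, hch] at this
    exact mul_ne_zero (pow_ne_zero _ h2ne) hm'ne this
  · -- `u ≠ 0`: look at `i = 2`
    obtain ⟨m, rfl⟩ : ∃ m, p = m + 2 := ⟨p - 2, by omega⟩
    obtain ⟨P, hPdeg, hP⟩ := h 2 (by omega)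
    have hsub : m + 2 + 1 - 2 = m + 1 := by omega
    rw [hsub, coeff_X_add_C_mul, coeff_X_add_C_pow, coeff_X_add_C_pow] at hP
    have e1 : m + 2 - m = 2 := by omega
    have e2 : m + 2 - (m + 1) = 1 := by omega
    rw [e1, e2, pow_one] at hP
    have hc1 : ((Nat.choose (m + 2) m : ℕ) : PowerSeries κ) = 1 := by
      have h1 : (Nat.choose (m + 2) m : ℕ) = Nat.choose (m + 2) 2 := by
        rw [← Nat.choose_symm (by omega : 2 ≤ m + 2)]; congr 1
      have h2 : 2 * Nat.choose (m + 2) 2 = (m + 2) * (m + 1) := by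
        rw [Nat.choose_two_right]
        have : Even ((m + 2) * (m + 2 - 1)) := Nat.even_mul_pred_self _
        have h3 : m + 2 - 1 = m + 1 := by omega
        rw [h3] at this ⊢
        exact Nat.mul_div_cancel' this.two_dvd
      have hmod : Nat.choose (m + 2) 2 % 3 = 1 := by
        have hm3 : m % 3 = 0 := by omega
        obtain ⟨k, rfl⟩ : ∃ k, m = 3 * k := ⟨m / 3, by omega⟩
        have : 2 * Nat.choose (3 * k + 2) 2 = 9 * (k * k) + 9 * k + 2 := by rw [h2]; ring
        omega
      have h3 : ((Nat.choose (m + 2) 2 : ℕ) : κ) = ((1 : ℕ) : κ) :=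
        (CharP.natCast_eq_natCast κ 3).mpr (by rw [Nat.ModEq, hmod])
      have : ((Nat.choose (m + 2) m : ℕ) : PowerSeries κ) =
          PowerSeries.C ((Nat.choose (m + 2) m : ℕ) : κ) := by simp
      rw [this, h1, h3, Nat.cast_one, map_one]
    have hc2 : ((Nat.choose (m + 2) (m + 1) : ℕ) : PowerSeries κ) = 2 := by
      have h1 : Nat.choose (m + 2) (m + 1) = m + 2 := by
        rw [show m + 2 = (m + 1) + 1 from rfl, Nat.choose_succ_self_right]
      have h3 : ((m + 2 : ℕ) : κ) = ((2 : ℕ) : κ) :=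
        (CharP.natCast_eq_natCast κ 3).mpr (by rw [Nat.ModEq]; omega)
      have : ((Nat.choose (m + 2) (m + 1) : ℕ) : PowerSeries κ) =
          PowerSeries.C ((Nat.choose (m + 2) (m + 1) : ℕ) : κ) := by simp
      rw [this, h1, h3, Nat.cast_ofNat]; exact map_ofNat PowerSeries.C 2
    rw [hc1, hc2] at hP
    have h3 : (3 : PowerSeries κ) = 0 := three_eq_zero
    have hL : (2 * S + PowerSeries.C u) ^ 2 * 1 + 2 * S * ((2 * S + PowerSeries.C u) * 2) =
        (2 * S + PowerSeries.C u) * PowerSeries.C u := by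
      linear_combination (2 * S * (2 * S + PowerSeries.C u)) * h3
    rw [hL] at hP
    -- `P = c0 + c1 X`
    have hPdeg1 : P.natDegree ≤ 1 := by simpa using hPdeg
    rw [eq_X_add_C_of_natDegree_le_one hPdeg1] at hP
    simp only [map_add, map_mul, aeval_C, aeval_X] at hP
    have hq1 := congrArg (PowerSeries.coeff 1) hP
    have hq3 := congrArg (PowerSeries.coeff 3) hP
    have h2C : (2 : PowerSeries κ) = PowerSeries.C (2 : κ) := (map_ofNat PowerSeries.C 2).symm
    have hA : algebraMap κ (PowerSeries κ) = PowerSeries.C := rfl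
    simp only [PowerSeries.coeff_mul_C, map_add, h2C, PowerSeries.coeff_C_mul, hS1, hS3, hD1, hD3,
      hA, PowerSeries.coeff_C, mul_one, mul_zero, add_zero] at hq1 hq3
    norm_num at hq1 hq3
    rcases hq3 with h | h
    · exact h2ne h
    · exact hu h

end Three

end Fermat.Agent.Eis.Cores
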