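/-
S16 (Eisenstein ideal), package EIS: the weight-2 Eisenstein series of level `p` as a modular form.

* `eisFun p = E₂ ∣[2] diag(p,1) - E₂`, i.e. `z ↦ p E₂(pz) - E₂(z)`; the non-modular `D₂`-terms of Mathlib's
  `E2_slash_action` cancel: for `γ ∈ SL₂(ℤ)` with `diag(p,1) γ = γ' B` (`B = diag(p,1)` if `p ∣ c`, `B = [1 j; 0 p]`
  otherwise; matrix identities from the Prelude's Hecke-operator proofs) we get `eisFun p ∣ γ = E₂ ∣ B - E₂`.
* `eisP p : ModularForm Γ₀(p) 2`, `eisP p = eisFun p / 24`, with `q`-expansion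
  `(p-1)/24 + ∑_{n ≥ 1} σ'(n) qⁿ`, `σ' = eisCoeff p` (helper5's `Eis/SigmaPrime`).
* the expansion at the other cusp: `eisFun p ∣ γ = p⁻¹ E₂((z+j)/p) - E₂(z)` for `p ∤ c`.
-/
import Mathlib
import Fermat.Prelude.Thm_ModularForm_heckeT_slash_eq_self_of_mem_Gamma0
import Fermat.Prelude.Thm_CongruenceSubgroup_one_mem_strictPeriods_Gamma0
import Fermat.Prelude.Def_ModularForm_HeckeOperator
import Fermat.Prelude.Def_FLTPrelim_Modularity
import Fermat.Agent.Eis.SigmaPrime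

set_option autoImplicit false

namespace Fermat.Agent.Eis.EisP

open UpperHalfPlane ModularForm EisensteinSeries Matrix.SpecialLinearGroup
open scoped MatrixGroups ModularForm Real Manifold

open P2MW.S_ModularForm_heckeT_slash_eq_self_of_mem_Gamma0.ModularForm.HeckeSlashInvariance

variable {p : ℕ}

/-- The function `z ↦ p E₂(p z) - E₂(z)`. -/
noncomputable def eisFun (p : ℕ) : ℍ → ℂ := E2 ∣[(2 : ℤ)] (heckeDiagMatrix p) - E2

theorem eisFun_apply (hp : p ≠ 0) (z : ℍ) :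
    eisFun p z = (p : ℂ) * E2 (heckeDiagMatrix p • z) - E2 z := by
  rw [eisFun, Pi.sub_apply, slash_heckeDiagMatrix_apply 2 hp]
  norm_num

theorem D2_apply (γ : SL(2, ℤ)) (z : ℍ) :
    D2 γ z = (2 * π * Complex.I * γ 1 0) / (denom γ z) := rfl

theorem σ_mapGL (g : SL(2, ℤ)) : σ (mapGL ℝ g : GL (Fin 2) ℝ) = .refl ℝ ℂ := by
  rw [UpperHalfPlane.σ, if_pos]
  simp

/-- denominators under `diag(p,1) * g = g' * B` -/
theorem denom_of_mul_eq (hp : p ≠ 0) (g g' : SL(2, ℤ)) (B : GL (Fin 2) ℝ) (hB : σ B = .refl ℝ ℂ)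
    (h : heckeDiagMatrix p * mapGL ℝ g = mapGL ℝ g' * B) (z : ℍ) :
    denom g z = denom g' ((B • z : ℍ) : ℂ) * denom B z := by
  have h1 := denom_cocycle_σ (heckeDiagMatrix p) (mapGL ℝ g) z
  have h2 := denom_cocycle_σ (mapGL ℝ g') B z
  rw [h] at h1
  rw [h1] at h2
  rw [denom_heckeDiagMatrix hp, σ_mapGL, hB] at h2
  simp only [ContinuousAlgEquiv.refl_apply, one_mul] at h2
  exact h2

theorem D2_slash_diag (hp : p ≠ 0) (g g' : SL(2, ℤ)) (h10 : g 1 0 = p * g' 1 0)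
    (h : heckeDiagMatrix p * mapGL ℝ g = mapGL ℝ g' * heckeDiagMatrix p) :
    (D2 g') ∣[(2 : ℤ)] (heckeDiagMatrix p) = D2 g := by
  ext z
  rw [slash_heckeDiagMatrix_apply 2 hp, D2_apply, D2_apply,
    denom_of_mul_eq hp g g' _ (σ_heckeDiagMatrix p) h z, denom_heckeDiagMatrix hp, h10]
  push_cast
  have hd : denom (g' : GL (Fin 2) ℝ) ((heckeDiagMatrix p • z : ℍ) : ℂ) ≠ 0 := denom_ne_zero _ _
  field_simp

theorem D2_slash_upper (hp : p ≠ 0) (g g' : SL(2, ℤ)) (j : ℕ) (h10 : g' 1 0 = g 1 0)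
    (h : heckeDiagMatrix p * mapGL ℝ g = mapGL ℝ g' * heckeMatrix p j) :
    (D2 g') ∣[(2 : ℤ)] (heckeMatrix p j) = D2 g := by
  ext z
  rw [slash_heckeMatrix_apply 2 hp, D2_apply, D2_apply,
    denom_of_mul_eq hp g g' _ (σ_heckeMatrix p j) h z, denom_heckeMatrix hp, h10]
  have hd : denom (g' : GL (Fin 2) ℝ) ((heckeMatrix p j • z : ℍ) : ℂ) ≠ 0 := denom_ne_zero _ _
  have hp' : (p : ℂ) ≠ 0 := by exact_mod_cast hp
  field_simp

/-- The key slash computation: the `D₂`-terms cancel. -/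
theorem eisFun_slash_of_mul_eq (g g' : SL(2, ℤ)) (B : GL (Fin 2) ℝ)
    (hB : σ B = .refl ℝ ℂ) (h : heckeDiagMatrix p * mapGL ℝ g = mapGL ℝ g' * B)
    (hD : (D2 g') ∣[(2 : ℤ)] B = D2 g) :
    eisFun p ∣[(2 : ℤ)] g = E2 ∣[(2 : ℤ)] B - E2 := by
  have h1 : (E2 ∣[(2 : ℤ)] heckeDiagMatrix p) ∣[(2 : ℤ)] (mapGL ℝ g : GL (Fin 2) ℝ) =
      E2 ∣[(2 : ℤ)] B - (1 / (2 * riemannZeta 2)) • D2 g := by
    rw [← SlashAction.slash_mul, h, SlashAction.slash_mul]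
    have h2 : E2 ∣[(2 : ℤ)] (mapGL ℝ g' : GL (Fin 2) ℝ) = E2 ∣[(2 : ℤ)] g' := rfl
    rw [h2, E2_slash_action, sub_eq_add_neg, SlashAction.add_slash, SlashAction.neg_slash,
      ModularForm.smul_slash, hB, hD]
    simp [sub_eq_add_neg]
  have h3 : eisFun p ∣[(2 : ℤ)] g =
      (E2 ∣[(2 : ℤ)] heckeDiagMatrix p) ∣[(2 : ℤ)] (mapGL ℝ g : GL (Fin 2) ℝ) - E2 ∣[(2 : ℤ)] g := by
    rw [eisFun, sub_eq_add_neg, SlashAction.add_slash, SlashAction.neg_slash, ← sub_eq_add_neg]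
    rfl
  rw [h3, h1, E2_slash_action]
  abel

theorem heckeMatrix_one_zero' (p j : ℕ) :
    ((heckeMatrix p j : GL (Fin 2) ℝ) : Matrix (Fin 2) (Fin 2) ℝ) 1 0 = 0 := by
  rcases eq_or_ne p 0 with rfl | hp
  · simp
  · rw [val_heckeMatrix hp]; rfl

theorem heckeDiagMatrix_one_zero' (p : ℕ) :
    ((heckeDiagMatrix p : GL (Fin 2) ℝ) : Matrix (Fin 2) (Fin 2) ℝ) 1 0 = 0 := by
  rcases eq_or_ne p 0 with rfl | hp
  · simp
  · rw [val_heckeDiagMatrix hp]; rfl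

/-- `eisFun p` is invariant under `Γ₀(p)`. -/
theorem eisFun_slash_of_dvd (hp : p ≠ 0) (g : SL(2, ℤ)) (hg : (p : ℤ) ∣ g 1 0) :
    eisFun p ∣[(2 : ℤ)] g = eisFun p := by
  obtain ⟨e, he⟩ := hg
  obtain ⟨g', hg', hmat⟩ := heckeDiagMatrix_mul_of_eq' hp g e he
  have hD := D2_slash_diag hp g g' (by rw [he, hg']) hmat
  rw [eisFun_slash_of_mul_eq g g' _ (σ_heckeDiagMatrix p) hmat hD]
  rfl

/-- The expansion of `eisFun p` at the other cusp: for `p ∤ c` we have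
`eisFun p ∣ γ = p⁻¹ E₂((z + j)/p) - E₂(z)` for some `j`. -/
theorem eisFun_slash_of_not_dvd (hp : p.Prime) (g : SL(2, ℤ)) (hg : ¬ (p : ℤ) ∣ g 1 0) :
    ∃ j : ℕ, eisFun p ∣[(2 : ℤ)] g = E2 ∣[(2 : ℤ)] (heckeMatrix p j) - E2 := by
  have hp0 : p ≠ 0 := hp.ne_zero
  have : Fact p.Prime := ⟨hp⟩
  have hc : ((g 1 0 : ℤ) : ZMod p) ≠ 0 := by
    rwa [Ne, ZMod.intCast_zmod_eq_zero_iff_dvd]
  set j : ℕ := (((g 1 1 : ℤ) : ZMod p) * ((g 1 0 : ℤ) : ZMod p)⁻¹).val with hj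
  have hcong : ((g 1 1 - g 1 0 * (j : ℤ) : ℤ) : ZMod p) = 0 := by
    push_cast
    rw [hj, ZMod.natCast_zmod_val, mul_comm (((g 1 1 : ℤ) : ZMod p)), ← mul_assoc,
      mul_inv_cancel₀ hc, one_mul, sub_self]
  obtain ⟨e, he⟩ := (ZMod.intCast_zmod_eq_zero_iff_dvd _ p).mp hcong
  obtain ⟨g', hg', hmat⟩ := heckeDiagMatrix_mul_of_eq hp0 g j e (by linarith)
  have hD := D2_slash_upper hp0 g g' j hg' hmat
  exact ⟨j, eisFun_slash_of_mul_eq g g' _ (σ_heckeMatrix p j) hmat hD⟩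

theorem eisFun_mdifferentiable (p : ℕ) : MDiff (eisFun p) :=
  (E2_mdifferentiable.slash 2 _).sub E2_mdifferentiable

/-- `eisFun p ∣ γ` is bounded at `i∞` for every `γ ∈ SL₂(ℤ)`. -/
theorem isBoundedAtImInfty_eisFun_slash (hp : p.Prime) (g : SL(2, ℤ)) :
    IsBoundedAtImInfty (eisFun p ∣[(2 : ℤ)] g) := by
  by_cases hg : (p : ℤ) ∣ g 1 0
  · rw [eisFun_slash_of_dvd hp.ne_zero g hg]
    exact (isBoundedAtImInfty_E2.slash 2 (heckeDiagMatrix_one_zero' p)).sub isBoundedAtImInfty_E2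
  · obtain ⟨j, hj⟩ := eisFun_slash_of_not_dvd hp g hg
    rw [hj]
    exact (isBoundedAtImInfty_E2.slash 2 (heckeMatrix_one_zero' p j)).sub isBoundedAtImInfty_E2

/-- The weight-2 Eisenstein series of level `p`: `z ↦ (p E₂(pz) - E₂(z)) / 24`, as a modular form. -/
noncomputable def eisP (p : ℕ) [hp : Fact p.Prime] : ModularForm (CongruenceSubgroup.Gamma0 p) 2 where
  toFun := (24 : ℂ)⁻¹ • eisFun p
  slash_action_eq' A hA := by
    obtain ⟨γ, hγ, rfl⟩ := hA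
    have hdvd : (p : ℤ) ∣ γ 1 0 := by
      have hγ' : γ ∈ CongruenceSubgroup.Gamma0 p := hγ
      rw [CongruenceSubgroup.Gamma0_mem] at hγ'
      exact (ZMod.intCast_zmod_eq_zero_iff_dvd _ p).mp hγ'
    have h1 : ((24 : ℂ)⁻¹ • eisFun p) ∣[(2 : ℤ)] (mapGL ℝ γ : GL (Fin 2) ℝ) =
        ((24 : ℂ)⁻¹ • eisFun p) ∣[(2 : ℤ)] γ := rfl
    rw [h1, SL_smul_slash, eisFun_slash_of_dvd hp.out.ne_zero γ hdvd]
  holo' := (eisFun_mdifferentiable p).const_smul _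
  bdd_at_cusps' {c} hc := by
    rw [Subgroup.IsArithmetic.isCusp_iff_isCusp_SL2Z] at hc
    rw [OnePoint.isBoundedAt_iff_forall_SL2Z hc]
    intro γ _
    show IsBoundedAtImInfty (((24 : ℂ)⁻¹ • eisFun p) ∣[(2 : ℤ)] γ)
    rw [SL_smul_slash]
    exact (isBoundedAtImInfty_eisFun_slash hp.out γ).const_smul_left _

/-- `σ'(n) = σ(n) - p σ(n/p)` -/
theorem eisCoeff_eq_sigma {p : ℕ} (hp : p.Prime) (n : ℕ) (hn : n ≠ 0) :
    eisCoeff p n = (ArithmeticFunction.sigma 1 n : ℤ) -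
      (if p ∣ n then (p : ℤ) * (ArithmeticFunction.sigma 1 (n / p) : ℤ) else 0) := by
  rw [ArithmeticFunction.sigma_one_apply, eisCoeff]
  have hsplit : ((∑ d ∈ n.divisors, d : ℕ) : ℤ) =
      (∑ d ∈ n.divisors, if p ∣ d then 0 else (d : ℤ)) +
        ∑ d ∈ n.divisors, if p ∣ d then (d : ℤ) else 0 := by
    rw [← Finset.sum_add_distrib]
    push_cast
    refine Finset.sum_congr rfl fun d _ => ?_
    split_ifs <;> simp
  rw [hsplit]
  suffices h : (∑ d ∈ n.divisors, if p ∣ d then (d : ℤ) else 0) =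
      if p ∣ n then (p : ℤ) * (ArithmeticFunction.sigma 1 (n / p) : ℤ) else 0 by
    rw [h]; ring
  split_ifs with hpn
  · obtain ⟨m, rfl⟩ := hpn
    have hm : m ≠ 0 := fun h => hn (by rw [h, mul_zero])
    rw [Nat.mul_div_cancel_left _ hp.pos, ArithmeticFunction.sigma_one_apply]
    rw [← Finset.sum_filter]
    have himg : (p * m).divisors.filter (fun d => p ∣ d) = m.divisors.image (p * ·) := by
      ext d
      simp only [Finset.mem_filter, Nat.mem_divisors, Finset.mem_image]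
      constructor
      · rintro ⟨⟨hd, -⟩, d', rfl⟩
        exact ⟨d', ⟨Nat.dvd_of_mul_dvd_mul_left hp.pos hd, hm⟩, rfl⟩
      · rintro ⟨d', ⟨hd', -⟩, rfl⟩
        exact ⟨⟨Nat.mul_dvd_mul_left p hd', hn⟩, dvd_mul_right p d'⟩
    rw [himg, Finset.sum_image (fun a _ b _ h => Nat.eq_of_mul_eq_mul_left hp.pos h)]
    push_cast
    rw [Finset.mul_sum]
  · apply Finset.sum_eq_zero
    intro d hd
    rw [if_neg]
    intro hpd
    exact hpn (hpd.trans (Nat.dvd_of_mem_divisors hd))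


/-! ### The `q`-expansion -/

/-- The `q`-expansion coefficients of `eisP p`: `(p-1)/24` and `σ'(n)`. -/
noncomputable def eisCoeffC (p n : ℕ) : ℂ := if n = 0 then ((p : ℂ) - 1) / 24 else (eisCoeff p n : ℂ)

/-- `E₂(pτ) = ∑ₙ [p ∣ n] a(n/p) qⁿ`. -/
theorem hasSum_E2_diag (hp : p ≠ 0) (τ : ℍ) :
    HasSum (fun n : ℕ => if p ∣ n then
        (if n / p = 0 then (1 : ℂ) else -24 * (ArithmeticFunction.sigma 1 (n / p) : ℂ)) *
          Complex.exp (2 * π * Complex.I * τ) ^ n else 0)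
      (E2 (heckeDiagMatrix p • τ)) := by
  have h := hasSum_qExpansion_E2 (z := heckeDiagMatrix p • τ)
  rw [coe_heckeDiagMatrix_smul hp τ] at h
  have hexp : Complex.exp (2 * π * Complex.I * ((p : ℂ) * (τ : ℂ))) =
      Complex.exp (2 * π * Complex.I * τ) ^ p := by
    rw [← Complex.exp_nat_mul]; congr 1; ring
  rw [hexp] at h
  have hinj : Function.Injective (fun l : ℕ => l * p) := mul_left_injective₀ hp
  refine (hinj.hasSum_iff (fun m hm => ?_)).mp ?_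
  · rw [if_neg]
    rintro ⟨l, rfl⟩
    exact hm ⟨l, mul_comm l p⟩
  · convert h using 1
    funext l
    simp only [Function.comp_apply, if_pos (dvd_mul_left p l),
      Nat.mul_div_cancel _ (Nat.pos_of_ne_zero hp), smul_eq_mul]
    rw [← pow_mul, mul_comm l p]

theorem hasSum_eisP [hp : Fact p.Prime] (τ : ℍ) :
    HasSum (fun n : ℕ => eisCoeffC p n • Function.Periodic.qParam 1 τ ^ n) (eisP p τ) := by
  have hp0 : p ≠ 0 := hp.out.ne_zero
  have h1 := hasSum_E2_diag hp0 τ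
  have h2 := hasSum_qExpansion_E2 (z := τ)
  have h3 := ((h1.mul_left (p : ℂ)).sub h2).mul_left ((24 : ℂ)⁻¹)
  have hval : eisP p τ = (24 : ℂ)⁻¹ * ((p : ℂ) * E2 (heckeDiagMatrix p • τ) - E2 τ) := by
    show ((24 : ℂ)⁻¹ • eisFun p) τ = _
    rw [Pi.smul_apply, eisFun_apply hp0, smul_eq_mul]
  have hfun : (fun n : ℕ => eisCoeffC p n • Function.Periodic.qParam 1 τ ^ n) =
      fun i : ℕ => (24 : ℂ)⁻¹ * (((p : ℂ) * if p ∣ i then
        (if i / p = 0 then (1 : ℂ) else -24 * (ArithmeticFunction.sigma 1 (i / p) : ℂ)) *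
          Complex.exp (2 * π * Complex.I * τ) ^ i else 0) -
        (if i = 0 then (1 : ℂ) else -24 * (ArithmeticFunction.sigma 1 i : ℂ)) •
          Complex.exp (2 * π * Complex.I * τ) ^ i) := by
    funext n
    simp only [Function.Periodic.qParam, Complex.ofReal_one, div_one, smul_eq_mul]
    rcases Nat.eq_zero_or_pos n with rfl | hn
    · simp [eisCoeffC]
      ring
    · have hn0 : n ≠ 0 := hn.ne'
      rw [eisCoeffC, if_neg hn0, if_neg hn0, eisCoeff_eq_sigma hp.out n hn0]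
      by_cases hpn : p ∣ n
      · have hnp : n / p ≠ 0 := by
          obtain ⟨m, rfl⟩ := hpn
          rw [Nat.mul_div_cancel_left _ hp.out.pos]
          rintro rfl
          simp at hn
        rw [if_pos hpn, if_pos hpn, if_neg hnp]
        push_cast
        ring
      · rw [if_neg hpn, if_neg hpn]
        push_cast
        ring
  rw [hval, hfun]
  exact h3

theorem qExpansion_eisP_coeff [Fact p.Prime] (n : ℕ) :
    (qExpansion 1 (eisP p)).coeff n = eisCoeffC p n :=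
  (ModularFormClass.qExpansion_coeff_unique one_pos
    (CongruenceSubgroup.one_mem_strictPeriods_Gamma0 p) (fun τ => hasSum_eisP τ) n).symm

theorem qExpansion_eisP_coeff_zero [Fact p.Prime] :
    (qExpansion 1 (eisP p)).coeff 0 = ((p : ℂ) - 1) / 24 := by
  rw [qExpansion_eisP_coeff (p := p), eisCoeffC, if_pos rfl]

theorem qExpansion_eisP_coeff_pos [Fact p.Prime] {n : ℕ} (hn : 1 ≤ n) :
    (qExpansion 1 (eisP p)).coeff n = (eisCoeff p n : ℂ) := by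
  have hn0 : n ≠ 0 := by omega
  rw [qExpansion_eisP_coeff (p := p), eisCoeffC, if_neg hn0]

theorem eisP_apply [hp : Fact p.Prime] (τ : ℍ) :
    eisP p τ = (24 : ℂ)⁻¹ * ((p : ℂ) * E2 (heckeDiagMatrix p • τ) - E2 τ) := by
  show ((24 : ℂ)⁻¹ • eisFun p) τ = _
  rw [Pi.smul_apply, eisFun_apply hp.out.ne_zero, smul_eq_mul]

theorem coe_eisP [Fact p.Prime] : (eisP p : ℍ → ℂ) = (24 : ℂ)⁻¹ • eisFun p := rfl

/-- `q`-coefficients in the Prelude's notation. -/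
theorem qCoeff_eisP [Fact p.Prime] (n : ℕ) :
    ModularFormClass.qCoeff (eisP p) n = eisCoeffC p n :=
  qExpansion_eisP_coeff n

theorem qCoeff_eisP_zero [Fact p.Prime] :
    ModularFormClass.qCoeff (eisP p) 0 = ((p : ℂ) - 1) / 24 :=
  qExpansion_eisP_coeff_zero

theorem qCoeff_eisP_pos [Fact p.Prime] {n : ℕ} (hn : 1 ≤ n) :
    ModularFormClass.qCoeff (eisP p) n = (eisCoeff p n : ℂ) :=
  qExpansion_eisP_coeff_pos hn

/-- The other cusp: for `γ ∈ SL₂(ℤ)` with `p ∤ c`,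
`eisP p ∣ γ = (p⁻¹ E₂((z+j)/p) - E₂(z)) / 24` for some `j`. -/
theorem eisP_slash_of_not_dvd [hp : Fact p.Prime] (g : SL(2, ℤ)) (hg : ¬ (p : ℤ) ∣ g 1 0) :
    ∃ j : ℕ, (eisP p : ℍ → ℂ) ∣[(2 : ℤ)] g =
      (24 : ℂ)⁻¹ • (E2 ∣[(2 : ℤ)] (heckeMatrix p j) - E2) := by
  obtain ⟨j, hj⟩ := eisFun_slash_of_not_dvd hp.out g hg
  exact ⟨j, by rw [coe_eisP, SL_smul_slash, hj]⟩

end Fermat.Agent.Eis.EisP
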