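/-
S16 (Eisenstein ideal), upper bound, case `ℓ ≥ 5`, `ℓ ∣ p + 1` (package FIVE): the power series core.

If all `N` conjugate series `s j ∈ R'⟦t⟧` reduce to `1` under `φ : R' →+* κ`, then every series `G`
with `G(t^p) = e_i(s)` has coefficients in `R'` and reduces to the constant `N.choose i`.
-/
import Mathlib
import Fermat.Agent.Eis.LevelOneStructure

set_option autoImplicit false

namespace Fermat.Agent.Eis.Five

open PowerSeries

/-- ring homomorphisms commute with elementary symmetric functions of multisets. -/
theorem map_esymm_multiset {A B : Type*} [CommSemiring A] [CommSemiring B] (f : A →+* B)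
    (s : Multiset A) (n : ℕ) : f (s.esymm n) = (s.map f).esymm n := by
  simp only [Multiset.esymm, map_multiset_sum, Multiset.map_map, Multiset.powersetCard_map]
  congr 1
  refine Multiset.map_congr rfl fun t _ => ?_
  simp only [Function.comp_apply]
  exact map_multiset_prod f t

/-- the elementary symmetric functions of a multiset all of whose elements map to `1`. -/
theorem map_esymm_eq_choose {A B : Type*} [CommSemiring A] [CommSemiring B] (f : A →+* B)
    (s : Multiset A) (h : ∀ x ∈ s, f x = 1) (n : ℕ) :
    f (s.esymm n) = ((Multiset.card s).choose n : B) := by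
  rw [map_esymm_multiset, Multiset.esymm]
  have h1 : (s.map f) = Multiset.replicate (Multiset.card s) 1 := by
    rw [Multiset.eq_replicate]
    refine ⟨by simp, ?_⟩
    intro b hb
    obtain ⟨x, hx, rfl⟩ := Multiset.mem_map.mp hb
    exact h x hx
  have h2 : ∀ t ∈ Multiset.powersetCard n (s.map f), Multiset.prod t = 1 := by
    intro t ht
    rw [Multiset.mem_powersetCard] at ht
    refine Multiset.prod_eq_one fun x hx => ?_
    have := Multiset.mem_of_le ht.1 hx
    rw [h1] at this
    exact Multiset.eq_of_mem_replicate this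
  rw [Multiset.map_congr rfl h2, Multiset.map_const', Multiset.sum_replicate,
    Multiset.card_powersetCard, Multiset.card_map]
  simp

/-- **FIVE, power series core.** -/
theorem five_core {p : ℕ} (hp : p ≠ 0) (R' : Subring ℂ) {κ : Type*} [CommRing κ] (φ : R' →+* κ)
    {ι : Type*} [Fintype ι] (s : ι → PowerSeries ℂ) (hs : ∀ j n, coeff n (s j) ∈ R')
    (hs0 : ∀ j, φ ⟨coeff 0 (s j), hs j 0⟩ = 1)
    (hsn : ∀ j n, 1 ≤ n → φ ⟨coeff n (s j), hs j n⟩ = 0)
    (i : ℕ) (G : PowerSeries ℂ) (hG : expand p hp G = (Finset.univ.val.map s).esymm i) :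
    ∃ hG' : ∀ n, coeff n G ∈ R',
      φ ⟨coeff 0 G, hG' 0⟩ = ((Fintype.card ι).choose i : κ) ∧
        ∀ n, 1 ≤ n → φ ⟨coeff n G, hG' n⟩ = 0 := by
  -- the lifted series
  set s' : ι → PowerSeries R' := fun j => liftSeries R' (s j) (hs j) with hs'
  set E' : PowerSeries R' := (Finset.univ.val.map s').esymm i with hE'
  have hmapE : PowerSeries.map R'.subtype E' = expand p hp G := by
    rw [hG, hE', map_esymm_multiset, Multiset.map_map]
    congr 2
    funext j
    simp only [Function.comp_apply, hs', map_liftSeries]
  have hcoeff : ∀ n, coeff n G = ((coeff (p * n) E' : R') : ℂ) := by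
    intro n
    have := congrArg (coeff (p * n)) hmapE
    rw [coeff_expand_mul, coeff_map] at this
    rw [← this]
    rfl
  have hG' : ∀ n, coeff n G ∈ R' := fun n => by rw [hcoeff n]; exact (coeff (p * n) E').2
  -- reduction of `E'`
  have hred : ∀ j, PowerSeries.map φ (s' j) = 1 := by
    intro j
    ext n
    rw [coeff_map, coeff_one]
    simp only [hs', liftSeries, coeff_mk]
    split_ifs with hn
    · subst hn; exact hs0 j
    · exact hsn j n (Nat.one_le_iff_ne_zero.mpr hn)
  have hE1 : PowerSeries.map φ E' = ((Fintype.card ι).choose i : PowerSeries κ) := by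
    rw [hE']
    have := map_esymm_eq_choose (PowerSeries.map φ) (Finset.univ.val.map s') (fun x hx => by
      obtain ⟨j, -, rfl⟩ := Multiset.mem_map.mp hx
      exact hred j) i
    simpa using this
  have hφ : ∀ n, φ ⟨coeff n G, hG' n⟩ = coeff (p * n) (PowerSeries.map φ E') := by
    intro n
    rw [coeff_map]
    congr 1
    exact Subtype.ext (hcoeff n)
  refine ⟨hG', ?_, ?_⟩
  · rw [hφ 0, hE1, mul_zero, ← map_natCast (C (R := κ)), coeff_zero_C]
  · intro n hn
    rw [hφ n, hE1, ← map_natCast (C (R := κ)), coeff_C, if_neg]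
    exact Nat.mul_ne_zero hp (by omega)

end Fermat.Agent.Eis.Five
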