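import Mathlib

/-!
# The Hasse form `A = num(B_{l-1}) · E_{l-1}`

From the von Staudt–Clausen theorem: for a prime `l ≥ 5`, `l` divides the denominator of
`B_{l-1}`, hence `num(B_{l-1}) · E_{l-1}` is a level-one form of weight `l - 1` with integer
`q`-coefficients, congruent to a unit constant modulo `l`.
-/

set_option autoImplicit false

open Finset UpperHalfPlane ModularForm
open scoped MatrixGroups ModularForm ArithmeticFunction.sigma

noncomputable section

namespace Fermat.Agent.Eis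

/-- von Staudt–Clausen at the prime `l`: `l` divides the denominator of `B_{l-1}`. -/
theorem dvd_den_bernoulli_pred {l : ℕ} (hl : l.Prime) (hodd : Odd l) :
    l ∣ (bernoulli (l - 1)).den := by
  have : Fact l.Prime := ⟨hl⟩
  obtain ⟨k, hk⟩ : ∃ k, l - 1 = 2 * k := by
    obtain ⟨m, hm⟩ := hodd
    exact ⟨m, by omega⟩
  obtain ⟨T, hT⟩ := Bernoulli.vonStaudt_clausen k
  rw [← hk] at hT
  by_contra hnd
  have hB : Rat.padicValuation l (bernoulli (l - 1)) ≤ 1 := Rat.padicValuation_le_one_iff.mpr hnd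
  set S : Finset ℕ := (range (l - 1 + 2)).filter fun p => p.Prime ∧ (p - 1) ∣ (l - 1) with hS
  have hlS : l ∈ S := by
    rw [hS, Finset.mem_filter, Finset.mem_range]
    exact ⟨by omega, hl, dvd_rfl⟩
  rw [← Finset.add_sum_erase _ _ hlS] at hT
  have hrest : Rat.padicValuation l (∑ p ∈ S.erase l, (1 : ℚ) / p) ≤ 1 := by
    refine (Rat.padicValuation l).map_sum_le fun p hp => ?_
    rw [Finset.mem_erase, hS, Finset.mem_filter] at hp
    obtain ⟨hne, -, hpp, -⟩ := hp
    rw [Rat.padicValuation_le_one_iff]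
    rw [show ((1 : ℚ) / p).den = p by simp [hpp.ne_zero]]
    exact fun h => hne ((Nat.prime_dvd_prime_iff_eq hl hpp).mp h).symm
  have hTv : Rat.padicValuation l (T : ℚ) ≤ 1 := by
    rw [Rat.padicValuation_cast]; exact Int.padicValuation_le_one l T
  have h1l : (1 : ℚ) / l = T - bernoulli (l - 1) - ∑ p ∈ S.erase l, (1 : ℚ) / p := by
    linarith
  have hv : Rat.padicValuation l ((1 : ℚ) / l) ≤ 1 := by
    rw [h1l]
    exact (Rat.padicValuation l).map_sub_le ((Rat.padicValuation l).map_sub_le hTv hB) hrest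
  rw [Rat.padicValuation_le_one_iff] at hv
  exact hv (by simp [hl.ne_zero])

theorem not_dvd_num_bernoulli_pred {l : ℕ} (hl : l.Prime) (hodd : Odd l) :
    ¬ (l : ℤ) ∣ (bernoulli (l - 1)).num := by
  intro h
  have h1 := dvd_den_bernoulli_pred hl hodd
  have h2 : l ∣ (bernoulli (l - 1)).num.natAbs := Int.natCast_dvd.mp h
  exact Nat.not_coprime_of_dvd_of_dvd hl.one_lt h2 h1 (bernoulli (l - 1)).reduced

/-- **The Hasse form.** For a prime `l ≥ 5` there is a level-one form `A` of weight `l - 1` with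
integer `q`-coefficients, constant coefficient prime to `l`, all higher coefficients divisible by
`l`  (`A = num(B_{l-1}) · E_{l-1}`). -/
theorem exists_hasse_form {l : ℕ} (hl : l.Prime) (h5 : 5 ≤ l) :
    ∃ (A : ModularForm 𝒮ℒ ((l : ℤ) - 1)) (a : ℕ → ℤ),
      (∀ n, (qExpansion 1 A).coeff n = a n) ∧ ¬ ((l : ℤ) ∣ a 0) ∧
        ∀ n, 1 ≤ n → (l : ℤ) ∣ a n := by
  have hodd : Odd l := hl.odd_of_ne_two (by omega)
  have hk3 : 3 ≤ l - 1 := by omega
  have hkev : Even (l - 1) := by
    obtain ⟨m, hm⟩ := hodd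
    exact ⟨m, by omega⟩
  have hw : ((l - 1 : ℕ) : ℤ) = (l : ℤ) - 1 := by
    rw [Nat.cast_sub (by omega)]; simp
  set B : ℚ := bernoulli (l - 1) with hB
  have hden : l ∣ B.den := dvd_den_bernoulli_pred hl hodd
  have hnum : ¬ (l : ℤ) ∣ B.num := not_dvd_num_bernoulli_pred hl hodd
  have hB0 : B ≠ 0 := by
    intro h0
    rw [h0] at hden
    simp at hden
    omega
  refine ⟨ModularForm.mcast hw ((B.num : ℂ) • E hk3),
    fun n => if n = 0 then B.num else -(2 * ((l - 1 : ℕ) : ℤ) * (B.den : ℤ) * (σ (l - 1 - 1) n : ℤ)),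
    ?_, ?_, ?_⟩
  · intro n
    rw [ModularForm.qExpansion_mcast, FunLike.coe_smul,
      ModularForm.qExpansion_smul one_pos one_mem_strictPeriods_SL, PowerSeries.coeff_smul,
      EisensteinSeries.E_qExpansion_coeff hk3 hkev]
    by_cases hn : n = 0
    · simp [hn]
    · simp only [hn, if_false]
      have hBC : ((B : ℚ) : ℂ) ≠ 0 := by exact_mod_cast hB0
      have hnd : ((B.num : ℤ) : ℂ) = (B : ℂ) * (B.den : ℂ) := by
        exact_mod_cast congrArg (Rat.cast (K := ℂ)) (Rat.mul_den_eq_num B).symm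
      rw [smul_eq_mul, hnd, ← hB]
      push_cast
      field_simp
  · simpa using hnum
  · intro n hn
    have hn0 : n ≠ 0 := by omega
    simp only [hn0, if_false]
    refine Dvd.dvd.neg_right (Dvd.dvd.mul_right (Dvd.dvd.mul_left ?_ _) _)
    exact_mod_cast hden

end Fermat.Agent.Eis
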