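import Mathlib
import Fermat.Agent.Eis.LevelOneStructure

/-!
# Level-one forms with `q`-coefficients in `R' ∋ 1/1728` are polynomials in `E₄`, `E₆`

* `qExpansion_discriminant_eq_E4_E6`: `Δ = (E₄³ - E₆²)/1728` on `q`-expansions.
* `exists_mvPolynomial_evalE4E6`, `exists_mvPolynomial_aeval`, `exists_mvPolynomial_map`:
  a level-one form of weight `k` with `q`-coefficients in a subring `R' ⊆ ℂ` containing `1/1728`
  is an isobaric polynomial (weights `(4, 6)`, total weight `k`) in `E₄, E₆` over `R'`;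
  also after base change `R' →+* K`.
* `E4Z`, `E6Z : PowerSeries ℤ`: the integral `q`-expansions of `E₄`, `E₆`.
-/

set_option autoImplicit false

open UpperHalfPlane ModularForm Complex CongruenceSubgroup Matrix.SpecialLinearGroup
open scoped MatrixGroups ModularForm

noncomputable section

namespace Fermat.Agent.Eis

local notation "Δ" => ModularForm.discriminant

/-- `Δ = (E₄³ - E₆²)/1728` on `q`-expansions. -/
theorem qExpansion_discriminant_eq_E4_E6 :
    qExpansion 1 Δ = (1728 : ℂ)⁻¹ • (qExpansion 1 E₄ ^ 3 - qExpansion 1 E₆ ^ 2) := by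
  have hfun : (Δ : ℍ → ℂ) = (1728 : ℂ)⁻¹ • ⇑(E4cube - E6sq) := by
    funext z
    rw [ModularForm.discriminant_eq_E₄_cube_sub_E₆_sq]
    simp only [Pi.smul_apply, sub_apply, smul_eq_mul, E4cube, E6sq,
      ModularForm.mcast_apply, ModularForm.coe_pow, Pi.pow_apply]
    ring
  rw [hfun, ModularForm.qExpansion_smul one_pos one_mem_strictPeriods_SL, FunLike.coe_sub,
    ModularForm.qExpansion_sub one_pos one_mem_strictPeriods_SL, qExpansion_E4cube,
    qExpansion_E6sq]

/-- the weights `(4, 6)` of the variables `(Q, R)`. -/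
def wtQR : Fin 2 → ℕ := ![4, 6]

/-- the polynomial `(Q³ - R²)/1728`. -/
def deltaPoly (R' : Subring ℂ) (h1728 : (1728 : ℂ)⁻¹ ∈ R') : MvPolynomial (Fin 2) R' :=
  MvPolynomial.C ⟨(1728 : ℂ)⁻¹, h1728⟩ * (MvPolynomial.X 0 ^ 3 - MvPolynomial.X 1 ^ 2)

lemma deltaPoly_isWeightedHomogeneous (R' : Subring ℂ) (h1728 : (1728 : ℂ)⁻¹ ∈ R') :
    (deltaPoly R' h1728).IsWeightedHomogeneous wtQR 12 := by
  refine MvPolynomial.IsWeightedHomogeneous.C_mul (MvPolynomial.IsWeightedHomogeneous.sub ?_ ?_) _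
  · have := (MvPolynomial.isWeightedHomogeneous_X R' wtQR 0).pow 3
    simpa [wtQR] using this
  · have := (MvPolynomial.isWeightedHomogeneous_X R' wtQR 1).pow 2
    simpa [wtQR] using this

/-- evaluation of a polynomial in `Q, R` with coefficients in `R'` at `(E₄, E₆)` (as
`q`-expansions over `ℂ`). -/
def evalE4E6 (R' : Subring ℂ) (P : MvPolynomial (Fin 2) R') : PowerSeries ℂ :=
  MvPolynomial.eval₂ ((PowerSeries.C (R := ℂ)).comp R'.subtype)
    ![qExpansion 1 E₄, qExpansion 1 E₆] P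

lemma evalE4E6_deltaPoly (R' : Subring ℂ) (h1728 : (1728 : ℂ)⁻¹ ∈ R') :
    evalE4E6 R' (deltaPoly R' h1728) = qExpansion 1 Δ := by
  rw [qExpansion_discriminant_eq_E4_E6, evalE4E6, deltaPoly, PowerSeries.smul_eq_C_mul]
  simp [MvPolynomial.eval₂_mul, MvPolynomial.eval₂_sub, MvPolynomial.eval₂_pow]

/-- **Structure theorem, polynomial form.** If `1/1728 ∈ R'`, a level-one form of weight `k` with
`q`-coefficients in `R'` is an isobaric polynomial of weight `k` in `E₄, E₆` over `R'`. -/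
theorem exists_mvPolynomial_evalE4E6 (R' : Subring ℂ) (h1728 : (1728 : ℂ)⁻¹ ∈ R') (k : ℤ)
    (g : ModularForm 𝒮ℒ k) (hg : ∀ m, (qExpansion 1 g).coeff m ∈ R') :
    ∃ P : MvPolynomial (Fin 2) R', P.IsWeightedHomogeneous wtQR k.toNat ∧
      qExpansion 1 g = evalE4E6 R' P := by
  have hmain := qExpansion_mem_span R' k g hg
  generalize qExpansion 1 g = f at hmain ⊢
  induction hmain using Submodule.span_induction with
  | mem x hx =>
    obtain ⟨a, b, c, habc, rfl⟩ := hx
    refine ⟨MvPolynomial.X 0 ^ a * MvPolynomial.X 1 ^ b * deltaPoly R' h1728 ^ c, ?_, ?_⟩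
    · have h1 := (MvPolynomial.isWeightedHomogeneous_X R' wtQR 0).pow a
      have h2 := (MvPolynomial.isWeightedHomogeneous_X R' wtQR 1).pow b
      have h3 := (deltaPoly_isWeightedHomogeneous R' h1728).pow c
      have h4 := (h1.mul h2).mul h3
      have hk : k.toNat = a • wtQR 0 + b • wtQR 1 + c • 12 := by
        simp only [wtQR, Matrix.cons_val_zero, Matrix.cons_val_one, smul_eq_mul]
        omega
      rw [hk]
      exact h4
    · have hd := evalE4E6_deltaPoly R' h1728
      unfold evalE4E6 at hd ⊢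
      rw [MvPolynomial.eval₂_mul, MvPolynomial.eval₂_mul, MvPolynomial.eval₂_pow,
        MvPolynomial.eval₂_pow, MvPolynomial.eval₂_pow, hd]
      simp
  | zero => exact ⟨0, MvPolynomial.isWeightedHomogeneous_zero _ _ _, by simp [evalE4E6]⟩
  | add x y _ _ hx hy =>
    obtain ⟨P, hP, rfl⟩ := hx
    obtain ⟨P', hP', rfl⟩ := hy
    exact ⟨P + P', hP.add hP', by simp [evalE4E6, MvPolynomial.eval₂_add]⟩
  | smul r x _ hx =>
    obtain ⟨P, hP, rfl⟩ := hx
    refine ⟨MvPolynomial.C r * P, hP.C_mul r, ?_⟩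
    rw [evalE4E6, evalE4E6, MvPolynomial.eval₂_mul, MvPolynomial.eval₂_C]
    have hr : ∀ F : PowerSeries ℂ, r • F = PowerSeries.C (r : ℂ) * F := by
      intro F
      rw [← PowerSeries.smul_eq_C_mul]; rfl
    rw [hr]
    rfl


/-! ## Integral models of `E₄`, `E₆` -/

/-- `E₄ = 1 + 240 ∑ σ₃(n) qⁿ` over `ℤ`. -/
def E4Z : PowerSeries ℤ :=
  PowerSeries.mk fun n => if n = 0 then 1 else 240 * (ArithmeticFunction.sigma 3 n : ℤ)

/-- `E₆ = 1 - 504 ∑ σ₅(n) qⁿ` over `ℤ`. -/
def E6Z : PowerSeries ℤ :=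
  PowerSeries.mk fun n => if n = 0 then 1 else -504 * (ArithmeticFunction.sigma 5 n : ℤ)

theorem qExpansion_E4_eq : qExpansion 1 E₄ = E4Z.map (Int.castRingHom ℂ) := by
  ext n
  rw [PowerSeries.coeff_map, EisensteinSeries.E_qExpansion_coeff _ ⟨2, rfl⟩, E4Z,
    PowerSeries.coeff_mk]
  by_cases hn : n = 0
  · simp [hn]
  · simp only [hn, if_false]
    rw [show bernoulli 4 = -1 / 30 by decide +kernel, eq_intCast]
    push_cast
    ring

theorem qExpansion_E6_eq : qExpansion 1 E₆ = E6Z.map (Int.castRingHom ℂ) := by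
  ext n
  rw [PowerSeries.coeff_map, EisensteinSeries.E_qExpansion_coeff _ ⟨3, rfl⟩, E6Z,
    PowerSeries.coeff_mk]
  by_cases hn : n = 0
  · simp [hn]
  · simp only [hn, if_false]
    rw [show bernoulli 6 = 1 / 42 by decide +kernel, eq_intCast]
    push_cast
    ring

lemma constantCoeff_E4Z : PowerSeries.constantCoeff E4Z = 1 := by
  rw [← PowerSeries.coeff_zero_eq_constantCoeff]; simp [E4Z]

lemma constantCoeff_E6Z : PowerSeries.constantCoeff E6Z = 1 := by
  rw [← PowerSeries.coeff_zero_eq_constantCoeff]; simp [E6Z]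

lemma coeff_one_E4Z : PowerSeries.coeff 1 E4Z = 240 := by simp [E4Z]

lemma coeff_one_E6Z : PowerSeries.coeff 1 E6Z = -504 := by simp [E6Z]

/-- the lift of the `q`-expansion of `E₄` to `R'⟦q⟧` is the base change of `E4Z`. -/
lemma liftSeries_qE4 (R' : Subring ℂ) :
    liftSeries R' (qExpansion 1 E₄) (E4_coeff_mem R') = E4Z.map (Int.castRingHom R') := by
  apply map_subtype_injective R'
  rw [map_liftSeries, qExpansion_E4_eq]
  ext n
  simp

lemma liftSeries_qE6 (R' : Subring ℂ) :
    liftSeries R' (qExpansion 1 E₆) (E6_coeff_mem R') = E6Z.map (Int.castRingHom R') := by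
  apply map_subtype_injective R'
  rw [map_liftSeries, qExpansion_E6_eq]
  ext n
  simp

lemma isWeightedHomogeneous_map {σ A B M : Type*} [CommSemiring A] [CommSemiring B]
    [AddCommMonoid M] (φ : A →+* B) {w : σ → M} {P : MvPolynomial σ A} {m : M}
    (hP : P.IsWeightedHomogeneous w m) : (MvPolynomial.map φ P).IsWeightedHomogeneous w m := by
  intro d hd
  rw [MvPolynomial.coeff_map] at hd
  exact hP fun h => hd (by rw [h, map_zero])

/-- **Structure theorem over `R'`.** -/
theorem exists_mvPolynomial_aeval (R' : Subring ℂ) (h1728 : (1728 : ℂ)⁻¹ ∈ R') (k : ℤ)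
    (g : ModularForm 𝒮ℒ k) (hg : ∀ m, (qExpansion 1 g).coeff m ∈ R') :
    ∃ P : MvPolynomial (Fin 2) R', P.IsWeightedHomogeneous wtQR k.toNat ∧
      liftSeries R' (qExpansion 1 g) hg =
        MvPolynomial.aeval ![E4Z.map (Int.castRingHom R'), E6Z.map (Int.castRingHom R')] P := by
  obtain ⟨P, hP, heq⟩ := exists_mvPolynomial_evalE4E6 R' h1728 k g hg
  refine ⟨P, hP, map_subtype_injective R' ?_⟩
  rw [map_liftSeries, heq, evalE4E6, MvPolynomial.aeval_def, MvPolynomial.eval₂_comp_left]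
  congr 1
  · ext r
    simp
  · funext i
    fin_cases i
    · simp [qExpansion_E4_eq]
      ext n; simp
    · simp [qExpansion_E6_eq]
      ext n; simp

/-- **Structure theorem after base change** along `φ : R' →+* K`: the reduction of the
`q`-expansion of a level-one form of weight `k` with `R'`-coefficients (`1/1728 ∈ R'`) is an
isobaric polynomial of weight `k` in the reductions of `E₄`, `E₆`. -/
theorem exists_mvPolynomial_map (R' : Subring ℂ) (h1728 : (1728 : ℂ)⁻¹ ∈ R') (k : ℤ)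
    (g : ModularForm 𝒮ℒ k) (hg : ∀ m, (qExpansion 1 g).coeff m ∈ R') {K : Type*} [CommRing K]
    (φ : R' →+* K) :
    ∃ P : MvPolynomial (Fin 2) K, P.IsWeightedHomogeneous wtQR k.toNat ∧
      (liftSeries R' (qExpansion 1 g) hg).map φ =
        MvPolynomial.aeval ![E4Z.map (Int.castRingHom K), E6Z.map (Int.castRingHom K)] P := by
  obtain ⟨P, hP, heq⟩ := exists_mvPolynomial_aeval R' h1728 k g hg
  refine ⟨MvPolynomial.map φ P, isWeightedHomogeneous_map φ hP, ?_⟩
  rw [heq, MvPolynomial.aeval_def, MvPolynomial.aeval_def, MvPolynomial.eval₂_comp_left,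
    MvPolynomial.eval₂_map]
  congr 1
  · ext r
    simp
  · funext i
    fin_cases i
    · simp
      ext n; simp
    · simp
      ext n; simp

end Fermat.Agent.Eis
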