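/-
S16 (Eisenstein ideal) / Swinnerton-Dyer package: Ramanujan's identities as identities of formal power series over `ℤ`.

* `ramanujan_E₂`: the analytic identity `D E₂ = (E₂² - E₄)/12` (`D E₂ - E₂²/12` is a level one form of weight `4`).
* `qExpansion_D`: the `q`-expansion of `D f` is `X · d/dX` of the `q`-expansion of `f`.
* `E2Z`, `thetaZ`, `ramanujan_E2Z`, `ramanujan_E4Z`, `ramanujan_E6Z`: the identities
  `12 θ P = P² - Q`, `3 θ Q = P Q - R`, `2 θ R = P R - Q²` in `ℤ⟦q⟧`.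
-/
import Mathlib
import Fermat.Agent.X0.Ana.JFunction
import Fermat.Agent.X0.Ana.QExp
import Fermat.Agent.Eis.LevelOneMvPoly

set_option autoImplicit false

open UpperHalfPlane ModularForm EisensteinSeries MatrixGroups Complex Filter Function Derivative
open scoped Real Topology Manifold

namespace Fermat.Agent.Eis.Ram

open Fermat.Agent.X0

local notation "𝕢" => Periodic.qParam
local notation "Dn" => Derivative.normalizedDerivOfComplex

/-- `D E₂ - E₂²/12`, the weight-4 combination. -/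
noncomputable def ramFun : ℍ → ℂ := Dn E2 - (12⁻¹ : ℂ) • (E2 * E2)

theorem ramFun_apply (z : ℍ) : ramFun z = Dn E2 z - 12⁻¹ * (E2 z * E2 z) := rfl

theorem D_D2 (γ : SL(2, ℤ)) (z : ℍ) :
    Dn (D2 γ) z = - ((γ 1 0 : ℤ) : ℂ) ^ 2 / (denom γ z) ^ 2 := by
  have hz := denom_ne_zero γ z
  have h2pi : (2 * π * Complex.I : ℂ) ≠ 0 := by simp [Real.pi_ne_zero]
  have hden : HasDerivAt (fun w : ℂ => denom γ w) ((γ 1 0 : ℤ) : ℂ) (z : ℂ) := by
    have := hasDerivAt_denom_zpow (γ : GL (Fin 2) ℝ) 1 z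
    simpa using this
  have hcomp : (D2 γ ∘ ofComplex) =ᶠ[𝓝 (z : ℂ)]
      fun w => (2 * π * Complex.I * ((γ 1 0 : ℤ) : ℂ)) / denom γ w := by
    filter_upwards [isOpen_upperHalfPlaneSet.mem_nhds z.im_pos] with w hw
    simp [D2, ofComplex_apply_of_im_pos hw]
  have hd : HasDerivAt (fun w : ℂ => (2 * π * Complex.I * ((γ 1 0 : ℤ) : ℂ)) / denom γ w)
      (-(2 * π * Complex.I * ((γ 1 0 : ℤ) : ℂ)) * ((γ 1 0 : ℤ) : ℂ) / (denom γ z) ^ 2) (z : ℂ) := by
    have := (hasDerivAt_const (z : ℂ) (2 * π * Complex.I * ((γ 1 0 : ℤ) : ℂ))).fun_div hden hz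
    exact this.congr_deriv (by ring)
  rw [Derivative.normalizedDerivOfComplex, hcomp.deriv_eq, hd.deriv]
  field_simp

theorem D2_mdifferentiable (γ : SL(2, ℤ)) : MDiff (D2 γ) := by
  have h : D2 γ = fun z : ℍ => (2 * π * Complex.I * ((γ 1 0 : ℤ) : ℂ)) * (denom γ z)⁻¹ := by
    funext z; simp [D2, div_eq_mul_inv]
  rw [h]
  exact mdifferentiable_const.mul (mdifferentiable_inv_denom _)

theorem ramFun_slash (γ : SL(2, ℤ)) : ramFun ∣[(4 : ℤ)] γ = ramFun := by
  ext z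
  have hE2 : MDiff E2 := E2_mdifferentiable
  have h1 : (ramFun ∣[(4 : ℤ)] γ) z =
      (Dn E2 ∣[((2 : ℤ) + 2)] γ) z - 12⁻¹ * ((E2 ∣[(2 : ℤ)] γ) z * (E2 ∣[(2 : ℤ)] γ) z) := by
    have hm := congrFun (ModularForm.mul_slash_SL2 2 2 γ E2 E2) z
    simp only [Pi.mul_apply] at hm
    rw [← hm]
    simp only [ramFun, ModularForm.SL_slash_apply, Pi.sub_apply, Pi.smul_apply, Pi.mul_apply,
      smul_eq_mul]
    norm_num
    ring
  have hD : (Dn (E2 ∣[(2 : ℤ)] γ)) z = (Dn E2 ∣[((2 : ℤ) + 2)] γ) z -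
      (((2 : ℤ) : ℂ) * (2 * π * Complex.I)⁻¹ * (γ 1 0 / denom γ z) * (E2 ∣[(2 : ℤ)] γ) z) := by
    simp [normalizedDerivOfComplex_SL_slash hE2]
  have hE2z : (E2 ∣[(2 : ℤ)] γ) = E2 - (1 / (2 * riemannZeta 2)) • D2 γ := E2_slash_action γ
  have hD' : (Dn (E2 ∣[(2 : ℤ)] γ)) z = Dn E2 z - (1 / (2 * riemannZeta 2)) * Dn (D2 γ) z := by
    rw [hE2z, normalizedDerivOfComplex_sub _ _ hE2 ((D2_mdifferentiable γ).const_smul _),
      normalizedDerivOfComplex_smul _ _ (D2_mdifferentiable γ)]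
    simp
  rw [D_D2] at hD'
  have hz := denom_ne_zero γ z
  have hpi : (π : ℂ) ≠ 0 := by simp [Real.pi_ne_zero]
  have hEz := congrFun hE2z z
  simp only [Pi.sub_apply, Pi.smul_apply, smul_eq_mul, D2] at hEz
  rw [h1, ramFun_apply]
  rw [riemannZeta_two] at hEz hD'
  rw [hEz] at hD ⊢
  have hI : Complex.I ^ 2 = -1 := Complex.I_sq
  have hI' : Complex.I ≠ 0 := Complex.I_ne_zero
  have key : (Dn E2 ∣[((2 : ℤ) + 2)] γ) z = Dn E2 z - 1 / (2 * (↑π ^ 2 / 6)) * (-((γ 1 0 : ℤ) : ℂ) ^ 2 / denom γ z ^ 2)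
     + (((2 : ℤ) : ℂ) * (2 * π * Complex.I)⁻¹ * (γ 1 0 / denom γ z) * (E2 z - 1 / (2 * (↑π ^ 2 / 6)) * (2 * ↑π * Complex.I * ↑(γ 1 0) / denom γ z))) := by
    rw [← hD', hD]; ring
  rw [key]
  field_simp
  linear_combination (-72 * ((γ 1 0 : ℤ) : ℂ) ^ 2 * Complex.I
    + 24 * π * denom γ z * ((γ 1 0 : ℤ) : ℂ) * E2 z) * hI

theorem ramFun_mdifferentiable : MDiff ramFun := by
  have hE2 : MDiff E2 := E2_mdifferentiable
  exact (normalizedDerivOfComplex_mdifferentiable hE2).sub ((hE2.mul hE2).const_smul _)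

theorem tendsto_ramFun : Tendsto ramFun atImInfty (𝓝 (-(12⁻¹ : ℂ))) := by
  have hD : Tendsto (Dn E2) atImInfty (𝓝 0) :=
    isZeroAtImInfty_D E2_periodic E2_mdifferentiable isBoundedAtImInfty_E2
  have h2 := (tendsto_const_nhds (x := (12⁻¹ : ℂ))).mul (tendsto_E2.mul tendsto_E2)
  have h3 := hD.sub h2
  simp only [mul_one, zero_sub] at h3
  exact h3

/-- `D E₂ - E₂²/12` as a modular form of weight `4` and level one. -/
noncomputable def ramMF : ModularForm 𝒮ℒ 4 where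
  toFun := ramFun
  slash_action_eq' A hA := by
    obtain ⟨A, rfl⟩ := hA
    exact ramFun_slash A
  holo' := ramFun_mdifferentiable
  bdd_at_cusps' {c} hc := by
    rw [Subgroup.IsArithmetic.isCusp_iff_isCusp_SL2Z] at hc
    rw [OnePoint.isBoundedAt_iff_forall_SL2Z hc]
    intro γ _
    rw [ramFun_slash]
    exact tendsto_ramFun.isBigO_one ℝ

theorem ramMF_apply (z : ℍ) : ramMF z = Dn E2 z - 12⁻¹ * (E2 z * E2 z) := rfl

theorem ramMF_coeff_zero : (qExpansion 1 ramMF).coeff 0 = -(12⁻¹ : ℂ) :=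
  tendsto_nhds_unique (tendsto_modForm ramMF) tendsto_ramFun

/-- **Ramanujan's identity for `E₂`**: `D E₂ = (E₂² - E₄)/12`. -/
theorem ramanujan_E₂ (z : ℍ) : Dn E2 z = (E2 z ^ 2 - E₄ z) / 12 := by
  have key := eq_smul_of_rank_one levelOne_weight_four_rank_one ramMF E₄
    (E_qExpansion_coeff_zero _ ⟨2, rfl⟩)
  have hz := congrArg (fun F : ModularForm 𝒮ℒ 4 ↦ F z) key
  simp only [ramMF_coeff_zero, smul_apply, ramMF_apply, smul_eq_mul] at hz
  linear_combination hz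

/-- termwise differentiation of the `q`-expansion: `D f = ∑ n aₙ qⁿ`. -/
theorem hasSum_D {f : ℍ → ℂ} (hf : IsHolInf 1 f) (τ : ℍ) :
    HasSum (fun n : ℕ => ((n : ℂ) * (qExpansion 1 f).coeff n) • 𝕢 1 τ ^ n) (Dn f τ) := by
  set F := cuspFunction 1 f with hF
  have hdiff : DifferentiableOn ℂ F (Metric.ball 0 1) :=
    differentiableOn_cuspFunction_ball one_pos hf.periodic hf.mdiff hf.bdd
  have hdiff' : DifferentiableOn ℂ (deriv F) (Metric.ball 0 1) := hdiff.deriv Metric.isOpen_ball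
  have hq : 𝕢 1 (τ : ℂ) ∈ Metric.ball (0 : ℂ) 1 := by
    simpa using Periodic.norm_qParam_lt_one one_pos τ.im_pos
  have h1 := Complex.hasSum_taylorSeries_on_ball hdiff' hq
  rw [D_eq_qParam_mul_deriv_cuspFunction hf.periodic hf.mdiff hf.bdd τ]
  have h2 := h1.mul_left (𝕢 1 (τ : ℂ))
  have h3 : ∀ n : ℕ, 𝕢 1 (τ : ℂ) * ((n.factorial : ℂ)⁻¹ • (𝕢 1 (τ : ℂ) - 0) ^ n •
      iteratedDeriv n (deriv F) 0) =
      (((n + 1 : ℕ) : ℂ) * (qExpansion 1 f).coeff (n + 1)) • 𝕢 1 (τ : ℂ) ^ (n + 1) := by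
    intro n
    rw [qExpansion_coeff, ← iteratedDeriv_succ', Nat.factorial_succ]
    have hn : ((n + 1 : ℕ) : ℂ) ≠ 0 := by exact_mod_cast Nat.succ_ne_zero n
    have hn' : (n.factorial : ℂ) ≠ 0 := by exact_mod_cast Nat.factorial_ne_zero n
    simp only [sub_zero, smul_eq_mul]
    push_cast
    field_simp
    ring
  simp only [h3] at h2
  have h4 := (hasSum_nat_add_iff (f := fun n : ℕ => ((n : ℂ) * (qExpansion 1 f).coeff n) •
    𝕢 1 (τ : ℂ) ^ n) 1).mp h2
  simpa using h4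

theorem periodic_D {f : ℍ → ℂ} (hf : Periodic (f ∘ ofComplex) 1) :
    Periodic (Dn f ∘ ofComplex) 1 := by
  intro w
  by_cases hw : 0 < im w
  · have hw1 : 0 < im (w + 1) := by simpa using hw
    simp only [comp_apply, ofComplex_apply_of_im_pos hw1, ofComplex_apply_of_im_pos hw,
      Derivative.normalizedDerivOfComplex]
    congr 1
    have : (f ∘ ofComplex) = fun x => (f ∘ ofComplex) (x + 1) := by
      funext x; exact (hf x).symm
    conv_rhs => rw [this]
    rw [deriv_comp_add_const]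
  · have hw' : im w ≤ 0 := not_lt.mp hw
    have hw1 : im (w + 1) ≤ 0 := by simpa using hw'
    simp [ofComplex_apply_of_im_nonpos hw1, ofComplex_apply_of_im_nonpos hw']

theorem isHolInf_D {f : ℍ → ℂ} (hf : IsHolInf 1 f) : IsHolInf 1 (Dn f) where
  mdiff := normalizedDerivOfComplex_mdifferentiable hf.mdiff
  periodic := periodic_D hf.periodic
  bdd := (isZeroAtImInfty_D hf.periodic hf.mdiff hf.bdd).isBoundedAtImInfty

/-- `q`-expansion of `D f`: `coeff n (D f) = n · coeff n f`. -/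
theorem qExpansion_D_coeff {f : ℍ → ℂ} (hf : IsHolInf 1 f) (n : ℕ) :
    (qExpansion 1 (Dn f)).coeff n = (n : ℂ) * (qExpansion 1 f).coeff n :=
  (qExpansion_coeff_unique_fun one_pos ((isHolInf_D hf).analyticAt one_pos) (hasSum_D hf) n).symm

/-- `q`-expansion of `D f` is `X · d/dX` of the `q`-expansion of `f`. -/
theorem qExpansion_D {f : ℍ → ℂ} (hf : IsHolInf 1 f) :
    qExpansion 1 (Dn f) = PowerSeries.X * PowerSeries.derivative ℂ (qExpansion 1 f) := by
  ext n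
  rw [qExpansion_D_coeff hf]
  rcases n with _ | n
  · simp
  · rw [PowerSeries.coeff_succ_X_mul, PowerSeries.coeff_derivative]
    push_cast
    ring


/-! ### formal identities -/

theorem isHolInf_E2 : IsHolInf 1 E2 := ⟨E2_mdifferentiable, E2_periodic, isBoundedAtImInfty_E2⟩

theorem isHolInf_modForm {k : ℤ} (f : ModularForm 𝒮ℒ k) : IsHolInf 1 (f : ℍ → ℂ) :=
  ⟨ModularFormClass.holo f, periodic_modForm f, isBoundedAtImInfty_modForm f⟩

/-- `E₂ = 1 - 24 ∑ σ₁(n) qⁿ` over `ℤ`. -/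
def E2Z : PowerSeries ℤ :=
  PowerSeries.mk fun n => if n = 0 then 1 else -24 * (ArithmeticFunction.sigma 1 n : ℤ)

theorem qExpansion_E2_eq : qExpansion 1 E2 = E2Z.map (Int.castRingHom ℂ) := by
  ext n
  rw [PowerSeries.coeff_map, E2Z, PowerSeries.coeff_mk]
  have := qExpansion_coeff_unique_fun
    (c := fun m : ℕ ↦ (if m = 0 then 1 else -24 * (ArithmeticFunction.sigma 1 m : ℂ)))
    one_pos (isHolInf_E2.analyticAt one_pos) (fun τ ↦ by
      simpa only [Function.Periodic.qParam, ofReal_one, div_one] using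
        hasSum_qExpansion_E2 (z := τ)) n
  rw [← this]
  by_cases hn : n = 0
  · simp [hn]
  · simp [hn]

/-- `θ = q d/dq` on `ℤ⟦q⟧`. -/
noncomputable def thetaZ (f : PowerSeries ℤ) : PowerSeries ℤ := PowerSeries.X * PowerSeries.derivative ℤ f

theorem coeff_thetaZ (f : PowerSeries ℤ) (n : ℕ) :
    (thetaZ f).coeff n = (n : ℤ) * f.coeff n := by
  rcases n with _ | n
  · simp [thetaZ]
  · rw [thetaZ, PowerSeries.coeff_succ_X_mul, PowerSeries.coeff_derivative]
    push_cast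
    ring

theorem map_thetaZ (f : PowerSeries ℤ) :
    (thetaZ f).map (Int.castRingHom ℂ) =
      PowerSeries.X * PowerSeries.derivative ℂ (f.map (Int.castRingHom ℂ)) := by
  ext n
  rw [PowerSeries.coeff_map, coeff_thetaZ]
  rcases n with _ | n
  · simp
  · rw [PowerSeries.coeff_succ_X_mul, PowerSeries.coeff_derivative, PowerSeries.coeff_map]
    simp only [eq_intCast]
    push_cast
    ring

private theorem an_E2 : AnalyticAt ℂ (cuspFunction 1 E2) 0 := isHolInf_E2.analyticAt one_pos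

private theorem an_mf {k : ℤ} (f : ModularForm 𝒮ℒ k) : AnalyticAt ℂ (cuspFunction 1 (f : ℍ → ℂ)) 0 :=
  (isHolInf_modForm f).analyticAt one_pos

/-- `12 θ P = P² - Q` in `ℂ⟦q⟧`. -/
theorem qExpansion_ramanujan_E2 :
    PowerSeries.X * PowerSeries.derivative ℂ (qExpansion 1 E2) =
      (12⁻¹ : ℂ) • (qExpansion 1 E2 * qExpansion 1 E2 - qExpansion 1 E₄) := by
  have hfun : Dn E2 = (12⁻¹ : ℂ) • (E2 * E2 - ⇑E₄) := by
    funext z
    rw [ramanujan_E₂]
    simp only [Pi.smul_apply, Pi.sub_apply, Pi.mul_apply, smul_eq_mul]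
    ring
  have han : AnalyticAt ℂ (cuspFunction 1 (E2 * E2)) 0 :=
    (isHolInf_E2.mul isHolInf_E2).analyticAt one_pos
  have han2 : AnalyticAt ℂ (cuspFunction 1 (E2 * E2 - ⇑E₄)) 0 := by
    have := ((isHolInf_E2.mul isHolInf_E2).add (isHolInf_modForm E₄).neg).analyticAt one_pos
    rwa [← sub_eq_add_neg] at this
  rw [← qExpansion_D isHolInf_E2, hfun, qExpansion_smul han2, qExpansion_sub han (an_mf E₄),
    qExpansion_mul an_E2 an_E2]

/-- `3 θ Q = P Q - R` in `ℂ⟦q⟧`. -/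
theorem qExpansion_ramanujan_E4 :
    PowerSeries.X * PowerSeries.derivative ℂ (qExpansion 1 E₄) =
      (3⁻¹ : ℂ) • (qExpansion 1 E2 * qExpansion 1 E₄ - qExpansion 1 E₆) := by
  have hfun : Dn E₄ = (3⁻¹ : ℂ) • (E2 * ⇑E₄ - ⇑E₆) := by
    funext z
    rw [ramanujan_E₄]
    simp only [Pi.smul_apply, Pi.sub_apply, Pi.mul_apply, smul_eq_mul]
    ring
  have han : AnalyticAt ℂ (cuspFunction 1 (E2 * ⇑E₄)) 0 :=
    (isHolInf_E2.mul (isHolInf_modForm E₄)).analyticAt one_pos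
  have han2 : AnalyticAt ℂ (cuspFunction 1 (E2 * ⇑E₄ - ⇑E₆)) 0 := by
    have := ((isHolInf_E2.mul (isHolInf_modForm E₄)).add (isHolInf_modForm E₆).neg).analyticAt
      one_pos
    rwa [← sub_eq_add_neg] at this
  rw [← qExpansion_D (isHolInf_modForm E₄), hfun, qExpansion_smul han2,
    qExpansion_sub han (an_mf E₆), qExpansion_mul an_E2 (an_mf E₄)]

/-- `2 θ R = P R - Q²` in `ℂ⟦q⟧`. -/
theorem qExpansion_ramanujan_E6 :
    PowerSeries.X * PowerSeries.derivative ℂ (qExpansion 1 E₆) =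
      (2⁻¹ : ℂ) • (qExpansion 1 E2 * qExpansion 1 E₆ - qExpansion 1 E₄ * qExpansion 1 E₄) := by
  have hfun : Dn E₆ = (2⁻¹ : ℂ) • (E2 * ⇑E₆ - ⇑E₄ * ⇑E₄) := by
    funext z
    rw [ramanujan_E₆]
    simp only [Pi.smul_apply, Pi.sub_apply, Pi.mul_apply, smul_eq_mul]
    ring
  have han : AnalyticAt ℂ (cuspFunction 1 (E2 * ⇑E₆)) 0 :=
    (isHolInf_E2.mul (isHolInf_modForm E₆)).analyticAt one_pos
  have han' : AnalyticAt ℂ (cuspFunction 1 (⇑E₄ * ⇑E₄)) 0 :=
    ((isHolInf_modForm E₄).mul (isHolInf_modForm E₄)).analyticAt one_pos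
  have han2 : AnalyticAt ℂ (cuspFunction 1 (E2 * ⇑E₆ - ⇑E₄ * ⇑E₄)) 0 := by
    have := ((isHolInf_E2.mul (isHolInf_modForm E₆)).add
      ((isHolInf_modForm E₄).mul (isHolInf_modForm E₄)).neg).analyticAt one_pos
    rwa [← sub_eq_add_neg] at this
  rw [← qExpansion_D (isHolInf_modForm E₆), hfun, qExpansion_smul han2,
    qExpansion_sub han han', qExpansion_mul an_E2 (an_mf E₆),
    qExpansion_mul (an_mf E₄) (an_mf E₄)]

private theorem castC_injective :
    Function.Injective (PowerSeries.map (Int.castRingHom ℂ)) :=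
  PowerSeries.map_injective _ Int.cast_injective

/-- **Ramanujan**: `12 θ P = P² - Q` in `ℤ⟦q⟧`. -/
theorem ramanujan_E2Z : 12 * thetaZ E2Z = E2Z ^ 2 - E4Z := by
  apply castC_injective
  rw [map_mul, map_sub, map_pow, map_thetaZ, ← qExpansion_E2_eq, ← qExpansion_E4_eq,
    qExpansion_ramanujan_E2]
  rw [map_ofNat, ← map_ofNat (PowerSeries.C (R := ℂ)) 12, ← PowerSeries.smul_eq_C_mul, smul_smul]
  norm_num [pow_two]

/-- **Ramanujan**: `3 θ Q = P Q - R` in `ℤ⟦q⟧`. -/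
theorem ramanujan_E4Z : 3 * thetaZ E4Z = E2Z * E4Z - E6Z := by
  apply castC_injective
  rw [map_mul, map_sub, map_mul, map_thetaZ, ← qExpansion_E2_eq, ← qExpansion_E4_eq,
    ← qExpansion_E6_eq, qExpansion_ramanujan_E4]
  rw [map_ofNat, ← map_ofNat (PowerSeries.C (R := ℂ)) 3, ← PowerSeries.smul_eq_C_mul, smul_smul]
  norm_num

/-- **Ramanujan**: `2 θ R = P R - Q²` in `ℤ⟦q⟧`. -/
theorem ramanujan_E6Z : 2 * thetaZ E6Z = E2Z * E6Z - E4Z ^ 2 := by
  apply castC_injective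
  rw [map_mul, map_sub, map_mul, map_pow, map_thetaZ, ← qExpansion_E2_eq, ← qExpansion_E4_eq,
    ← qExpansion_E6_eq, qExpansion_ramanujan_E6]
  rw [map_ofNat, ← map_ofNat (PowerSeries.C (R := ℂ)) 2, ← PowerSeries.smul_eq_C_mul, smul_smul]
  norm_num [pow_two]

/-! ### base change to an arbitrary commutative ring -/

section BaseChange

variable (A : Type*) [CommRing A]

theorem map_thetaZ_ring (f : PowerSeries ℤ) :
    (thetaZ f).map (Int.castRingHom A) =
      PowerSeries.X * PowerSeries.derivative A (f.map (Int.castRingHom A)) := by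
  ext n
  rw [PowerSeries.coeff_map, coeff_thetaZ]
  rcases n with _ | n
  · simp
  · rw [PowerSeries.coeff_succ_X_mul, PowerSeries.coeff_derivative, PowerSeries.coeff_map]
    simp only [eq_intCast]
    push_cast
    ring

/-- `12 θ P = P² - Q` over any commutative ring. -/
theorem ramanujan_E2_map :
    12 * (PowerSeries.X * PowerSeries.derivative A (E2Z.map (Int.castRingHom A))) =
      E2Z.map (Int.castRingHom A) ^ 2 - E4Z.map (Int.castRingHom A) := by
  have := congrArg (PowerSeries.map (Int.castRingHom A)) ramanujan_E2Z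
  simpa only [map_mul, map_sub, map_pow, map_ofNat, map_thetaZ_ring] using this

/-- `3 θ Q = P Q - R` over any commutative ring. -/
theorem ramanujan_E4_map :
    3 * (PowerSeries.X * PowerSeries.derivative A (E4Z.map (Int.castRingHom A))) =
      E2Z.map (Int.castRingHom A) * E4Z.map (Int.castRingHom A) - E6Z.map (Int.castRingHom A) := by
  have := congrArg (PowerSeries.map (Int.castRingHom A)) ramanujan_E4Z
  simpa only [map_mul, map_sub, map_pow, map_ofNat, map_thetaZ_ring] using this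

/-- `2 θ R = P R - Q²` over any commutative ring. -/
theorem ramanujan_E6_map :
    2 * (PowerSeries.X * PowerSeries.derivative A (E6Z.map (Int.castRingHom A))) =
      E2Z.map (Int.castRingHom A) * E6Z.map (Int.castRingHom A) - E4Z.map (Int.castRingHom A) ^ 2 := by
  have := congrArg (PowerSeries.map (Int.castRingHom A)) ramanujan_E6Z
  simpa only [map_mul, map_sub, map_pow, map_ofNat, map_thetaZ_ring] using this

end BaseChange

/-! ### low coefficients -/

lemma constantCoeff_E2Z : PowerSeries.constantCoeff E2Z = 1 := by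
  rw [← PowerSeries.coeff_zero_eq_constantCoeff]; simp [E2Z]

lemma coeff_one_E2Z : PowerSeries.coeff 1 E2Z = -24 := by simp [E2Z]

/-- `E₄³ - E₆² = 1728 q + ⋯`: constant term. -/
lemma coeff_zero_E4Z_cube_sub_E6Z_sq : PowerSeries.coeff 0 (E4Z ^ 3 - E6Z ^ 2) = 0 := by
  simp [PowerSeries.coeff_zero_eq_constantCoeff, constantCoeff_E4Z, constantCoeff_E6Z]

/-- `E₄³ - E₆² = 1728 q + ⋯`: linear term. -/
lemma coeff_one_E4Z_cube_sub_E6Z_sq : PowerSeries.coeff 1 (E4Z ^ 3 - E6Z ^ 2) = 1728 := by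
  have h4 : PowerSeries.coeff 1 (E4Z ^ 3) = 720 := by
    rw [PowerSeries.coeff_one_pow 3 E4Z]
    simp [constantCoeff_E4Z, coeff_one_E4Z]
  have h6 : PowerSeries.coeff 1 (E6Z ^ 2) = -1008 := by
    rw [PowerSeries.coeff_one_pow 2 E6Z]
    simp [constantCoeff_E6Z, coeff_one_E6Z]
  rw [map_sub, h4, h6]
  norm_num

end Fermat.Agent.Eis.Ram
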