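import Mathlib

/-!
# The Swinnerton-Dyer lemma: the algebraic core

`𝔽` is a field of characteristic `ℓ ≥ 5`, `S = 𝔽[Q, R]` with weights `4, 6`.
Given power series `P, Q, R ∈ 𝔽⟦X⟧` satisfying Ramanujan's differential equations, we show:
if `A` (isobaric of weight `ℓ - 1`) and `K` (isobaric of weight `k`) both have constant
nonzero image in `𝔽⟦X⟧`, then `ℓ - 1 ∣ k`.
-/

set_option autoImplicit false
set_option linter.unusedSectionVars false
set_option linter.style.haveILetI false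

namespace Fermat.Agent.Eis.SWDAlg

open MvPolynomial

variable {𝔽 : Type*} [Field 𝔽]

/-- The polynomial ring `𝔽[Q, R]`. -/
abbrev S (𝔽 : Type*) [Field 𝔽] := MvPolynomial (Fin 2) 𝔽

/-- The weights `4, 6`. -/
def wt : Fin 2 → ℕ := ![4, 6]

/-- Isobaric of weight `k`. -/
abbrev Iso (Φ : S 𝔽) (k : ℕ) : Prop := IsWeightedHomogeneous wt Φ k

/-- `Q³ - R²`. -/
noncomputable def Dl : S 𝔽 := X 0 ^ 3 - X 1 ^ 2

/-- The Serre derivation `∂Q = -4R`, `∂R = -6Q²`. -/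
noncomputable def dS : Derivation 𝔽 (S 𝔽) (S 𝔽) :=
  (-4 * X 1 : S 𝔽) • pderiv 0 + (-6 * X 0 ^ 2 : S 𝔽) • pderiv 1

/-- The Euler derivation `E Q = 4 Q`, `E R = 6 R`. -/
noncomputable def eu : Derivation 𝔽 (S 𝔽) (S 𝔽) :=
  (4 * X 0 : S 𝔽) • pderiv 0 + (6 * X 1 : S 𝔽) • pderiv 1

theorem dS_apply (f : S 𝔽) : dS f = -4 * X 1 * pderiv 0 f + -6 * X 0 ^ 2 * pderiv 1 f := by
  simp [dS]

theorem eu_apply (f : S 𝔽) : eu f = 4 * X 0 * pderiv 0 f + 6 * X 1 * pderiv 1 f := by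
  simp [eu]

theorem dS_X0 : dS (X 0 : S 𝔽) = -4 * X 1 := by
  simp [dS_apply, pderiv_X]

theorem dS_X1 : dS (X 1 : S 𝔽) = -6 * X 0 ^ 2 := by
  simp [dS_apply, pderiv_X]

theorem eu_X0 : eu (X 0 : S 𝔽) = 4 * X 0 := by
  simp [eu_apply, pderiv_X]

theorem eu_X1 : eu (X 1 : S 𝔽) = 6 * X 1 := by
  simp [eu_apply, pderiv_X]

/-- The determinant relations between `E`, `∂` and the partial derivatives. -/
theorem four_Dl_pderiv0 (f : S 𝔽) : 4 * Dl * pderiv 0 f = X 0 ^ 2 * eu f + X 1 * dS f := by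
  rw [eu_apply, dS_apply, Dl]; ring

theorem six_Dl_pderiv1 (f : S 𝔽) : -6 * Dl * pderiv 1 f = X 1 * eu f + X 0 * dS f := by
  rw [eu_apply, dS_apply, Dl]; ring

theorem dS_Dl : dS (Dl : S 𝔽) = 0 := by
  simp only [Dl, map_sub, Derivation.leibniz_pow, dS_X0, dS_X1, smul_eq_mul, nsmul_eq_mul]
  push_cast
  ring

theorem weight_eq (d : Fin 2 →₀ ℕ) : Finsupp.weight wt d = 4 * d 0 + 6 * d 1 := by
  rw [Finsupp.weight_apply, Finsupp.sum_fintype _ _ (by simp)]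
  simp [Fin.sum_univ_two, wt, mul_comm]

theorem monomial_eq' (d : Fin 2 →₀ ℕ) (r : 𝔽) :
    monomial d r = C r * X 0 ^ d 0 * X 1 ^ d 1 := by
  rw [monomial_eq, Finsupp.prod_fintype _ _ (by simp)]
  simp [Fin.prod_univ_two, mul_assoc]

theorem iso_mono (a b : ℕ) (r : 𝔽) : Iso (C r * X 0 ^ a * X 1 ^ b) (4 * a + 6 * b) := by
  have h0 : Iso (X 0 : S 𝔽) 4 := isWeightedHomogeneous_X 𝔽 wt 0
  have h1 : Iso (X 1 : S 𝔽) 6 := isWeightedHomogeneous_X 𝔽 wt 1
  have := ((isWeightedHomogeneous_C wt r).mul (h0.pow a)).mul (h1.pow b)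
  convert this using 1
  simp [mul_comm]

theorem iso_induction {k : ℕ} {motive : S 𝔽 → Prop} (zero : motive 0)
    (add : ∀ p q, motive p → motive q → motive (p + q))
    (mono : ∀ (a b : ℕ) (r : 𝔽), 4 * a + 6 * b = k → motive (C r * X 0 ^ a * X 1 ^ b))
    {Φ : S 𝔽} (h : Iso Φ k) : motive Φ := by
  refine IsWeightedHomogeneous.induction_on (motive := fun p _ => motive p) zero
    (fun p q _ _ hp hq => add p q hp hq) (fun d r hr => ?_) h
  rw [monomial_eq']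
  exact mono _ _ _ (by rw [← hr, weight_eq])

theorem eu_mono (a b : ℕ) (r : 𝔽) :
    eu (C r * X 0 ^ a * X 1 ^ b) = ((4 * a + 6 * b : ℕ) : S 𝔽) * (C r * X 0 ^ a * X 1 ^ b) := by
  simp only [Derivation.leibniz, Derivation.leibniz_pow, eu_X0, eu_X1, derivation_C, smul_eq_mul,
    nsmul_eq_mul, smul_zero, add_zero]
  rcases a with _ | a <;> rcases b with _ | b <;> push_cast <;> ring

theorem eu_of_iso {Φ : S 𝔽} {k : ℕ} (h : Iso Φ k) : eu Φ = (k : S 𝔽) * Φ := by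
  refine iso_induction (motive := fun p => eu p = (k : S 𝔽) * p) (by simp)
    (fun p q hp hq => by rw [map_add, hp, hq, mul_add]) (fun a b r hk => ?_) h
  rw [eu_mono, hk]

theorem dS_mono (a b : ℕ) (r : 𝔽) :
    dS (C r * X 0 ^ a * X 1 ^ b) = C r * (-4 * (a : S 𝔽)) * X 0 ^ (a - 1) * X 1 ^ (b + 1)
      + C r * (-6 * (b : S 𝔽)) * X 0 ^ (a + 2) * X 1 ^ (b - 1) := by
  simp only [Derivation.leibniz, Derivation.leibniz_pow, dS_X0, dS_X1, derivation_C, smul_eq_mul,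
    nsmul_eq_mul, smul_zero, add_zero]
  rcases a with _ | a <;> rcases b with _ | b <;> simp <;> ring

theorem iso_zero (k : ℕ) : Iso (0 : S 𝔽) k := isWeightedHomogeneous_zero 𝔽 wt k

theorem iso_dS {Φ : S 𝔽} {k : ℕ} (h : Iso Φ k) : Iso (dS Φ) (k + 2) := by
  refine iso_induction (motive := fun p => Iso (dS p) (k + 2)) (by simpa using iso_zero (k + 2))
    (fun p q hp hq => by rw [map_add]; exact hp.add hq) (fun a b r hk => ?_) h
  rw [dS_mono]
  refine IsWeightedHomogeneous.add ?_ ?_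
  · rcases a with _ | a
    · simpa using iso_zero (k + 2)
    · have e : (C r * (-4 * ((a + 1 : ℕ) : S 𝔽))) = C (r * (-4 * (a + 1 : ℕ))) := by
        simp [map_ofNat]
      rw [e]
      convert iso_mono (𝔽 := 𝔽) (a + 1 - 1) (b + 1) _ using 1
      omega
  · rcases b with _ | b
    · simpa using iso_zero (k + 2)
    · have e : (C r * (-6 * ((b + 1 : ℕ) : S 𝔽))) = C (r * (-6 * (b + 1 : ℕ))) := by
        simp [map_ofNat]
      rw [e]
      convert iso_mono (𝔽 := 𝔽) (a + 2) (b + 1 - 1) _ using 1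
      omega

/-- `(Q³)^s = R^{2s} + (Q³ - R²) G` with `G` isobaric of weight `12 s - 12`. -/
theorem exists_pow_decomp (s : ℕ) : ∃ G : S 𝔽, (X 0 ^ 3) ^ s = X 1 ^ (2 * s) + Dl * G ∧
    (∀ j, j + 12 = 12 * s → Iso G j) ∧ (s = 0 → G = 0) := by
  induction s with
  | zero => exact ⟨0, by simp, fun j hj => by omega, fun _ => rfl⟩
  | succ s ih =>
    obtain ⟨G, hG, hiso, h0⟩ := ih
    refine ⟨X 1 ^ (2 * s) + X 0 ^ 3 * G, ?_, fun j hj => ?_, fun h => by omega⟩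
    · rw [pow_succ, hG, Dl]; ring
    · have hj' : j = 12 * s := by omega
      subst hj'
      refine IsWeightedHomogeneous.add ?_ ?_
      · have := iso_mono (𝔽 := 𝔽) 0 (2 * s) 1
        simp only [map_one, pow_zero, mul_one, one_mul] at this
        convert this using 1
        omega
      · rcases s with _ | s
        · rw [h0 rfl, mul_zero]; exact iso_zero _
        · have h3 := iso_mono (𝔽 := 𝔽) 3 0 1
          simp only [map_one, pow_zero, mul_one, one_mul] at h3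
          have := h3.mul (hiso (12 * s) (by omega))
          convert this using 1
          omega

/-- Evaluation at `Q = R = 1`. -/
noncomputable def e1 : S 𝔽 →+* 𝔽 := eval (fun _ => 1)

@[simp] theorem e1_C (r : 𝔽) : e1 (C r : S 𝔽) = r := by simp [e1]
@[simp] theorem e1_X (i : Fin 2) : e1 (X i : S 𝔽) = 1 := by simp [e1]

/-- The canonical monomial of weight `k`. -/
noncomputable def Mk (𝔽 : Type*) [Field 𝔽] (k : ℕ) : S 𝔽 := X 0 ^ (k % 3) * X 1 ^ ((k - 4 * (k % 3)) / 6)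

/-- Every isobaric polynomial is congruent to a multiple of the canonical monomial modulo
`Q³ - R²`, with isobaric quotient. -/
theorem exists_decomp {Φ : S 𝔽} {k : ℕ} (h : Iso Φ k) :
    ∃ Ψ : S 𝔽, Φ = C (e1 Φ) * Mk 𝔽 k + Dl * Ψ ∧
      (∀ j, j + 12 = k → Iso Ψ j) ∧ (k < 12 → Ψ = 0) := by
  refine iso_induction (motive := fun Φ => ∃ Ψ : S 𝔽, Φ = C (e1 Φ) * Mk 𝔽 k + Dl * Ψ ∧
      (∀ j, j + 12 = k → Iso Ψ j) ∧ (k < 12 → Ψ = 0)) ?_ ?_ ?_ h
  · exact ⟨0, by simp, fun j _ => iso_zero j, fun _ => rfl⟩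
  · rintro p q ⟨Ψ₁, h1, h1', h1''⟩ ⟨Ψ₂, h2, h2', h2''⟩
    refine ⟨Ψ₁ + Ψ₂, ?_, fun j hj => (h1' j hj).add (h2' j hj), fun hk => by
      rw [h1'' hk, h2'' hk, add_zero]⟩
    rw [map_add, map_add, add_mul, mul_add]
    nth_rewrite 1 [h1, h2]
    ring
  · intro a b r hk
    obtain ⟨G, hG, hiso, h0⟩ := exists_pow_decomp (𝔽 := 𝔽) (a / 3)
    have ha : a = k % 3 + 3 * (a / 3) := by omega
    have hb : (k - 4 * (k % 3)) / 6 = 2 * (a / 3) + b := by omega
    refine ⟨C r * X 0 ^ (k % 3) * X 1 ^ b * G, ?_, fun j hj => ?_, fun hk' => ?_⟩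
    · have hev : e1 (C r * X 0 ^ a * X 1 ^ b) = r := by simp
      rw [hev, Mk, hb]
      nth_rewrite 1 [ha]
      rw [pow_add, pow_mul, hG]
      ring
    · rcases Nat.eq_zero_or_pos (a / 3) with hs | hs
      · rw [h0 hs, mul_zero]; exact iso_zero _
      · have := (iso_mono (𝔽 := 𝔽) (k % 3) b r).mul (hiso (12 * (a / 3) - 12) (by omega))
        convert this using 1
        omega
    · rw [h0 (by omega), mul_zero]

/-- `θ = X d/dX` on power series. -/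
noncomputable def th (f : PowerSeries 𝔽) : PowerSeries 𝔽 :=
  PowerSeries.X * PowerSeries.derivative 𝔽 f

theorem th_add (f g : PowerSeries 𝔽) : th (f + g) = th f + th g := by
  simp [th, mul_add]

theorem th_mul (f g : PowerSeries 𝔽) : th (f * g) = th f * g + f * th g := by
  simp only [th, Derivation.leibniz, smul_eq_mul]; ring

theorem th_C (a : 𝔽) : th (PowerSeries.C a) = 0 := by
  simp [th]

theorem th_C_mul (a : 𝔽) (f : PowerSeries 𝔽) : th (PowerSeries.C a * f) = PowerSeries.C a * th f := by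
  rw [th_mul, th_C]; ring

theorem coeff_th (f : PowerSeries 𝔽) (n : ℕ) :
    PowerSeries.coeff n (th f) = (n : 𝔽) * PowerSeries.coeff n f := by
  rcases n with _ | n
  · simp [th]
  · rw [th, PowerSeries.coeff_succ_X_mul, PowerSeries.coeff_derivative]
    push_cast; ring

/-- Power series `P, Q, R` with constant term `1` satisfying Ramanujan's differential equations. -/
structure RamData (𝔽 : Type*) [Field 𝔽] where
  /-- `E₂` -/
  P : PowerSeries 𝔽
  /-- `E₄` -/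
  Q : PowerSeries 𝔽
  /-- `E₆` -/
  R : PowerSeries 𝔽
  hP0 : PowerSeries.constantCoeff P = 1
  hQ0 : PowerSeries.constantCoeff Q = 1
  hR0 : PowerSeries.constantCoeff R = 1
  ramP : 12 * th P = P ^ 2 - Q
  ramQ : 3 * th Q = P * Q - R
  ramR : 2 * th R = P * R - Q ^ 2
  hD : Q ^ 3 - R ^ 2 ≠ 0

variable (T : RamData 𝔽)

/-- Evaluation `Q ↦ T.Q`, `R ↦ T.R`. -/
noncomputable def RamData.ev : S 𝔽 →ₐ[𝔽] PowerSeries 𝔽 := aeval ![T.Q, T.R]

@[simp] theorem ev_X0 : T.ev (X 0) = T.Q := by simp [RamData.ev]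
@[simp] theorem ev_X1 : T.ev (X 1) = T.R := by simp [RamData.ev]
@[simp] theorem ev_C (a : 𝔽) : T.ev (C a) = PowerSeries.C a := by
  simp [RamData.ev]

theorem constantCoeff_ev (Φ : S 𝔽) : PowerSeries.constantCoeff (T.ev Φ) = e1 Φ := by
  induction Φ using MvPolynomial.induction_on with
  | C a => simp
  | add p q hp hq => simp [hp, hq]
  | mul_X p i hp =>
    fin_cases i <;> simp [hp, T.hQ0, T.hR0]

theorem ev_Dl : T.ev Dl = T.Q ^ 3 - T.R ^ 2 := by simp [Dl]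


/-- The key compatibility: `ev (∂Φ) = 12 θ(ev Φ) - P · ev (EΦ)`. -/
theorem ev_dS (Φ : S 𝔽) : T.ev (dS Φ) = 12 * th (T.ev Φ) - T.P * T.ev (eu Φ) := by
  induction Φ using MvPolynomial.induction_on with
  | C a => simp [th_C]
  | add p q hp hq => simp only [map_add, hp, hq, th_add]; ring
  | mul_X p i hp =>
    have hX : T.ev (dS (X i)) = 12 * th (T.ev (X i)) - T.P * T.ev (eu (X i)) := by
      fin_cases i
      · simp only [Fin.zero_eta, dS_X0, eu_X0, map_mul, map_neg, ev_X0, ev_X1, map_ofNat]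
        linear_combination (-4 : PowerSeries 𝔽) * T.ramQ
      · simp only [Fin.mk_one, dS_X1, eu_X1, map_mul, map_neg, map_pow, ev_X0, ev_X1, map_ofNat]
        linear_combination (-6 : PowerSeries 𝔽) * T.ramR
    simp only [Derivation.leibniz, smul_eq_mul, map_add, map_mul, hp, hX, th_mul]
    ring

theorem ev_dS_of_iso {Φ : S 𝔽} {k : ℕ} (h : Iso Φ k) :
    T.ev (dS Φ) = 12 * th (T.ev Φ) - (k : PowerSeries 𝔽) * T.P * T.ev Φ := by
  rw [ev_dS, eu_of_iso h, map_mul, map_natCast]; ring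

theorem eq_zero_of_ev_eq_zero : ∀ (k : ℕ) {Φ : S 𝔽}, Iso Φ k → T.ev Φ = 0 → Φ = 0 := by
  intro k
  induction k using Nat.strong_induction_on with
  | _ k ih =>
    intro Φ h hev
    obtain ⟨Ψ, hΦ, hΨiso, hΨ0⟩ := exists_decomp h
    have h1 : e1 Φ = 0 := by rw [← constantCoeff_ev T, hev]; simp
    rw [h1, map_zero, zero_mul, zero_add] at hΦ
    rcases lt_or_ge k 12 with hk | hk
    · rw [hΦ, hΨ0 hk, mul_zero]
    · have hΨ := hΨiso (k - 12) (by omega)
      have : T.ev Dl * T.ev Ψ = 0 := by rw [← map_mul, ← hΦ, hev]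
      rcases mul_eq_zero.mp this with h0 | h0
      · exact absurd (by rw [← ev_Dl T, h0]) T.hD
      · rw [hΦ, ih (k - 12) (by omega) hΨ h0, mul_zero]

theorem eq_of_ev_eq {k : ℕ} {Φ Ψ : S 𝔽} (hΦ : Iso Φ k) (hΨ : Iso Ψ k) (h : T.ev Φ = T.ev Ψ) :
    Φ = Ψ := by
  have := eq_zero_of_ev_eq_zero T k (hΦ.sub hΨ) (by rw [map_sub, h, sub_self])
  exact sub_eq_zero.mp this

/-! ### Degree lemmas -/

theorem sum_eq (d : Fin 2 →₀ ℕ) : (d.sum fun _ e => e) = d 0 + d 1 := by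
  rw [Finsupp.sum_fintype _ _ (by simp)]
  simp [Fin.sum_univ_two]

theorem totalDegree_le_of_iso {Φ : S 𝔽} {k : ℕ} (h : Iso Φ k) : Φ.totalDegree ≤ k := by
  refine Finset.sup_le fun d hd => ?_
  have := h (mem_support_iff.mp hd)
  rw [weight_eq] at this
  rw [sum_eq]
  omega

theorem totalDegree_pderiv_lt {π : S 𝔽} {i : Fin 2} (h : pderiv i π ≠ 0) :
    (pderiv i π).totalDegree + 1 ≤ π.totalDegree := by
  have hne : (pderiv i π).support.Nonempty := by
    rwa [Finset.nonempty_iff_ne_empty, Ne, support_eq_empty]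
  obtain ⟨d, hd, hsup⟩ := Finset.exists_mem_eq_sup _ hne (fun s : Fin 2 →₀ ℕ => s.sum fun _ e => e)
  have hd' := mem_support_iff.mp hd
  rw [coeff_pderiv] at hd'
  have h2 : coeff (d + Finsupp.single i 1) π ≠ 0 := fun h0 => hd' (by rw [h0, zero_mul])
  have h3 := le_totalDegree (mem_support_iff.mpr h2)
  have h4 : ((d + Finsupp.single i 1).sum fun _ e => e) = (d.sum fun _ e => e) + 1 := by
    rw [Finsupp.sum_add_index' (by simp) (by simp), Finsupp.sum_single_index (by simp)]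
  rw [h4] at h3
  show (pderiv i π).support.sup _ + 1 ≤ _
  rw [hsup]
  exact h3

theorem pderiv_eq_zero_of_dvd {π : S 𝔽} {i : Fin 2} (h : π ∣ pderiv i π) : pderiv i π = 0 := by
  by_contra hne
  have h1 := totalDegree_le_of_dvd_of_isDomain h hne
  have h2 := totalDegree_pderiv_lt hne
  omega

theorem eq_C_of_pderiv_eq_zero (ℓ : ℕ) [CharP 𝔽 ℓ] {π : S 𝔽} (h : ∀ i, pderiv i π = 0)
    (hdeg : π.totalDegree < ℓ) : π = C (coeff 0 π) := by
  ext d
  rw [coeff_C]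
  split_ifs with h0
  · rw [h0]
  · by_contra hne
    have hd : ∃ i, d i ≠ 0 := by
      by_contra hall
      push Not at hall
      exact h0 (by ext i; simp [hall i])
    obtain ⟨i, hi⟩ := hd
    obtain ⟨d', hd'⟩ : ∃ d' : Fin 2 →₀ ℕ, d' = d - Finsupp.single i 1 := ⟨_, rfl⟩
    have hd'i : d' i + 1 = d i := by rw [hd']; simp; omega
    have hdeq : d = d' + Finsupp.single i 1 := by
      ext j
      by_cases hj : j = i
      · subst hj; simp [hd'i]
      · simp [hd', Finsupp.single_apply, Ne.symm hj]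
    have h1 := coeff_pderiv (i := i) π d'
    rw [h i, coeff_zero, ← hdeq] at h1
    have h2 : ((d' i : ℕ) + 1 : 𝔽) = ((d i : ℕ) : 𝔽) := by
      rw [← hd'i]; push_cast; ring
    rw [h2] at h1
    have h3 : ((d i : ℕ) : 𝔽) ≠ 0 := by
      rw [Ne, CharP.cast_eq_zero_iff 𝔽 ℓ]
      intro hdvd
      have h4 := Nat.le_of_dvd (Nat.pos_of_ne_zero hi) hdvd
      have h5 := le_totalDegree (mem_support_iff.mpr hne)
      rw [sum_eq] at h5
      have h6 : d i ≤ d 0 + d 1 := by fin_cases i <;> simp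
      omega
    rcases mul_eq_zero.mp h1.symm with h4 | h4
    · exact hne h4
    · exact h3 h4

/-! ### Multiplicity arguments -/

theorem isUnit_natCast (ℓ : ℕ) [CharP 𝔽 ℓ] {n : ℕ} (h0 : 0 < n) (hn : n < ℓ) :
    IsUnit ((n : ℕ) : S 𝔽) := by
  rw [← map_natCast (C : 𝔽 →+* S 𝔽)]
  refine (IsUnit.mk0 _ ?_).map C
  rw [Ne, CharP.cast_eq_zero_iff 𝔽 ℓ]
  intro h
  have := Nat.le_of_dvd h0 h
  omega

/-- If `D A = c A` and `π^{m+1} ∥ A` with `m + 1` invertible then `π ∣ D π`. -/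
theorem dvd_of_eigen (D : Derivation 𝔽 (S 𝔽) (S 𝔽)) {π u A c : S 𝔽} {m : ℕ} (hπ : Prime π)
    (hA : A = π ^ (m + 1) * u) (hu : ¬ π ∣ u) (hm : IsUnit ((m + 1 : ℕ) : S 𝔽))
    (hD : D A = c * A) : π ∣ D π := by
  have h1 : D A = π ^ m * (((m + 1 : ℕ) : S 𝔽) * D π * u + π * D u) := by
    rw [hA, Derivation.leibniz, Derivation.leibniz_pow]
    simp only [smul_eq_mul, nsmul_eq_mul, Nat.add_sub_cancel]
    ring
  have h2 : π ^ m * (((m + 1 : ℕ) : S 𝔽) * D π * u + π * D u) = π ^ m * (c * π * u) := by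
    rw [← h1, hD, hA]; ring
  have h3 := mul_left_cancel₀ (pow_ne_zero m hπ.ne_zero) h2
  have h4 : π ∣ ((m + 1 : ℕ) : S 𝔽) * (D π * u) := ⟨c * u - D u, by linear_combination h3⟩
  rw [hm.dvd_mul_left] at h4
  exact (hπ.dvd_or_dvd h4).resolve_right hu

/-- If `D (D A) = g A` and `π^{m+2} ∥ A` with `m + 1`, `m + 2` invertible then `π ∣ D π`. -/
theorem dvd_of_sq (D : Derivation 𝔽 (S 𝔽) (S 𝔽)) {π u A g : S 𝔽} {m : ℕ} (hπ : Prime π)
    (hA : A = π ^ (m + 2) * u) (hu : ¬ π ∣ u) (hm1 : IsUnit ((m + 1 : ℕ) : S 𝔽))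
    (hm2 : IsUnit ((m + 2 : ℕ) : S 𝔽)) (hD : D (D A) = g * A) : π ∣ D π := by
  obtain ⟨w, hw⟩ : ∃ w, w = ((m + 2 : ℕ) : S 𝔽) * D π * u + π * D u := ⟨_, rfl⟩
  have h1 : D A = π ^ (m + 1) * w := by
    rw [hA, Derivation.leibniz, Derivation.leibniz_pow, hw]
    simp only [smul_eq_mul, nsmul_eq_mul, show m + 2 - 1 = m + 1 from rfl]
    ring
  have h2 : D (D A) = π ^ m * (((m + 1 : ℕ) : S 𝔽) * D π * w + π * D w) := by
    rw [h1, Derivation.leibniz, Derivation.leibniz_pow]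
    simp only [smul_eq_mul, nsmul_eq_mul, Nat.add_sub_cancel]
    ring
  have h3 : π ^ m * (((m + 1 : ℕ) : S 𝔽) * D π * w + π * D w) = π ^ m * (g * π ^ 2 * u) := by
    rw [← h2, hD, hA]; ring
  have h4 := mul_left_cancel₀ (pow_ne_zero m hπ.ne_zero) h3
  have h5 : π ∣ ((m + 1 : ℕ) : S 𝔽) * (D π * w) := ⟨g * π * u - D w, by linear_combination h4⟩
  rw [hm1.dvd_mul_left] at h5
  rcases hπ.dvd_or_dvd h5 with h6 | h6
  · exact h6
  · have h7 : π ∣ ((m + 2 : ℕ) : S 𝔽) * (D π * u) := by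
      obtain ⟨v, hv⟩ := h6
      exact ⟨v - D u, by linear_combination hv - hw⟩
    rw [hm2.dvd_mul_left] at h7
    exact (hπ.dvd_or_dvd h7).resolve_right hu

theorem not_dvd_X0_X1 {π : S 𝔽} (hπ : Prime π) (h0 : π ∣ X 0) (h1 : π ∣ X 1) : False := by
  obtain ⟨h, hh⟩ := h0
  have hπ0 := hπ.ne_zero
  have hh0 : h ≠ 0 := by
    rintro rfl
    rw [mul_zero] at hh
    exact X_ne_zero (R := 𝔽) (0 : Fin 2) hh
  have hdeg := congrArg totalDegree hh
  rw [totalDegree_X, totalDegree_mul_of_isDomain hπ0 hh0] at hdeg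
  have hπd : π.totalDegree ≠ 0 := by
    intro h0
    apply hπ.not_isUnit
    rw [isUnit_iff_totalDegree_of_isReduced]
    refine ⟨?_, h0⟩
    rw [totalDegree_eq_zero_iff_eq_C] at h0
    rw [isUnit_iff_ne_zero]
    intro hc
    rw [hc, map_zero] at h0
    exact hπ0 h0
  have hhd : h.totalDegree = 0 := by omega
  rw [totalDegree_eq_zero_iff_eq_C] at hhd
  obtain ⟨c, hc⟩ : ∃ c, h = C c := ⟨_, hhd⟩
  subst hc
  have hc : c ≠ 0 := by
    rintro rfl
    exact hh0 (map_zero _)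
  have hX : (X 0 : S 𝔽) ∣ π := by
    refine ⟨C c⁻¹, ?_⟩
    rw [hh, mul_assoc, ← map_mul, mul_inv_cancel₀ hc, map_one, mul_one]
  have := X_dvd_X.mp (hX.trans h1)
  exact absurd this (by decide)

theorem not_dvd_Dl_of_dvd {A : S 𝔽} {k : ℕ} (hA : Iso A k) (h1 : e1 A ≠ 0) {π : S 𝔽}
    (hπ : Prime π) (hπA : π ∣ A) : ¬ π ∣ Dl := by
  intro hD
  obtain ⟨Ψ, hdec, -, -⟩ := exists_decomp hA
  have h2 : π ∣ C (e1 A) * Mk 𝔽 k := by
    have : C (e1 A) * Mk 𝔽 k = A - Dl * Ψ := by rw [eq_sub_iff_add_eq, ← hdec]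
    rw [this]
    exact dvd_sub hπA (hD.mul_right _)
  have hu : IsUnit (C (e1 A) : S 𝔽) := (IsUnit.mk0 _ h1).map C
  rw [hu.dvd_mul_left, Mk] at h2
  have hX0 : π ∣ X 0 → π ∣ X 1 := by
    intro h0
    have : (X 1 : S 𝔽) ^ 2 = X 0 ^ 3 - Dl := by rw [Dl]; ring
    exact hπ.dvd_of_dvd_pow (this ▸ dvd_sub (dvd_pow h0 (by norm_num)) hD)
  have hX1 : π ∣ X 1 → π ∣ X 0 := by
    intro h0
    have : (X 0 : S 𝔽) ^ 3 = X 1 ^ 2 + Dl := by rw [Dl]; ring
    exact hπ.dvd_of_dvd_pow (this ▸ dvd_add (dvd_pow h0 (by norm_num)) hD)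
  rcases hπ.dvd_or_dvd h2 with h3 | h3
  · have h0 := hπ.dvd_of_dvd_pow h3
    exact not_dvd_X0_X1 hπ h0 (hX0 h0)
  · have h0 := hπ.dvd_of_dvd_pow h3
    exact not_dvd_X0_X1 hπ (hX1 h0) h0

/-! ### The Hasse differential equation and squarefreeness -/

variable (ℓ : ℕ) [CharP 𝔽 ℓ]

theorem natCast_ell_ps : ((ℓ : ℕ) : PowerSeries 𝔽) = 0 := by
  rw [← map_natCast (PowerSeries.C (R := 𝔽)), CharP.cast_eq_zero, map_zero]

theorem hasse_ode (hℓ : 1 ≤ ℓ) {A : S 𝔽} {ν : 𝔽} (hA : Iso A (ℓ - 1))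
    (hev : T.ev A = PowerSeries.C ν) : dS (dS A) = -X 0 * A := by
  have hB : T.ev (dS A) = PowerSeries.C ν * T.P := by
    rw [ev_dS_of_iso T hA, hev, th_C]
    have : ((ℓ - 1 : ℕ) : PowerSeries 𝔽) = -1 := by
      rw [Nat.cast_sub hℓ, natCast_ell_ps]; simp
    rw [this]; ring
  have hB' : Iso (dS A) (ℓ + 1) := by
    convert iso_dS hA using 1; omega
  have hC : T.ev (dS (dS A)) = T.ev (-X 0 * A) := by
    rw [ev_dS_of_iso T hB', hB, th_C_mul, map_mul, map_neg, ev_X0, hev]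
    have : ((ℓ + 1 : ℕ) : PowerSeries 𝔽) = 1 := by
      push_cast; rw [natCast_ell_ps]; simp
    rw [this]
    linear_combination (PowerSeries.C ν) * T.ramP
  refine eq_of_ev_eq T (k := ℓ + 1 + 2) (iso_dS hB') ?_ hC
  have h0 : Iso (-X 0 : S 𝔽) 4 := (isWeightedHomogeneous_X 𝔽 wt 0).neg
  convert h0.mul hA using 1
  omega

theorem le_totalDegree_pow {π : S 𝔽} (h0 : π ≠ 0) (h1 : 1 ≤ π.totalDegree) (n : ℕ) :
    n ≤ (π ^ n).totalDegree := by
  induction n with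
  | zero => simp
  | succ n ih =>
    rw [pow_succ, totalDegree_mul_of_isDomain (pow_ne_zero n h0) h0]
    omega

theorem one_le_totalDegree_of_prime {π : S 𝔽} (hπ : Prime π) : 1 ≤ π.totalDegree := by
  by_contra h
  have h0 : π.totalDegree = 0 := by omega
  apply hπ.not_isUnit
  rw [isUnit_iff_totalDegree_of_isReduced]
  refine ⟨?_, h0⟩
  rw [totalDegree_eq_zero_iff_eq_C] at h0
  rw [isUnit_iff_ne_zero]
  intro hc
  rw [hc, map_zero] at h0
  exact hπ.ne_zero h0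

theorem not_sq_dvd (hℓ : 5 ≤ ℓ) {A : S 𝔽} {ν : 𝔽} (hA : Iso A (ℓ - 1))
    (hev : T.ev A = PowerSeries.C ν) (hν : ν ≠ 0) {π : S 𝔽} (hπ : Prime π) : ¬ π ^ 2 ∣ A := by
  intro hsq
  have hA0 : A ≠ 0 := by
    rintro rfl
    rw [map_zero] at hev
    exact hν (by simpa using hev.symm)
  obtain ⟨n, u, hu, hAn⟩ := WfDvdMonoid.max_power_factor hA0 hπ.irreducible
  have hn2 : 2 ≤ n := by
    by_contra hlt
    push Not at hlt
    apply hu
    interval_cases n
    · rw [pow_zero, one_mul] at hAn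
      rw [hAn] at hsq
      exact (dvd_pow_self π two_ne_zero).trans hsq
    · rw [pow_one] at hAn
      rw [hAn, pow_two] at hsq
      exact (mul_dvd_mul_iff_left hπ.ne_zero).mp hsq
  have hdegA : A.totalDegree < ℓ := lt_of_le_of_lt (totalDegree_le_of_iso hA) (by omega)
  have hπdeg := one_le_totalDegree_of_prime hπ
  have hπA : π ∣ A := (dvd_pow_self π two_ne_zero).trans hsq
  have hndeg : n ≤ A.totalDegree :=
    (le_totalDegree_pow hπ.ne_zero hπdeg n).trans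
      (totalDegree_le_of_dvd_of_isDomain (Dvd.intro _ hAn.symm) hA0)
  have hπdeg' : π.totalDegree < ℓ :=
    lt_of_le_of_lt (totalDegree_le_of_dvd_of_isDomain hπA hA0) hdegA
  obtain ⟨m, rfl⟩ : ∃ m, n = m + 2 := ⟨n - 2, by omega⟩
  have hm1 : IsUnit ((m + 1 : ℕ) : S 𝔽) := isUnit_natCast ℓ (by omega) (by omega)
  have hm2 : IsUnit ((m + 2 : ℕ) : S 𝔽) := isUnit_natCast ℓ (by omega) (by omega)
  have hdS : π ∣ dS π := dvd_of_sq dS hπ hAn hu hm1 hm2 (hasse_ode T ℓ (by omega) hA hev)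
  have heu : π ∣ eu π := dvd_of_eigen eu (m := m + 1) hπ hAn hu hm2 (eu_of_iso hA)
  have h4 : π ∣ 4 * Dl * pderiv 0 π := by
    rw [four_Dl_pderiv0]; exact dvd_add (heu.mul_left _) (hdS.mul_left _)
  have h6 : π ∣ -6 * Dl * pderiv 1 π := by
    rw [six_Dl_pderiv1]; exact dvd_add (heu.mul_left _) (hdS.mul_left _)
  have he1 : e1 A ≠ 0 := by
    rw [← constantCoeff_ev T, hev]; simpa using hν
  have hnD : ¬ π ∣ Dl := not_dvd_Dl_of_dvd hA he1 hπ hπA
  have hu4 : IsUnit (4 : S 𝔽) := by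
    have := isUnit_natCast (𝔽 := 𝔽) ℓ (n := 4) (by omega) (by omega)
    simpa using this
  have hu6 : IsUnit (6 : S 𝔽) := by
    have h2 := isUnit_natCast (𝔽 := 𝔽) ℓ (n := 2) (by omega) (by omega)
    have h3 := isUnit_natCast (𝔽 := 𝔽) ℓ (n := 3) (by omega) (by omega)
    have := h2.mul h3
    convert this using 1
    push_cast; norm_num
  have hz0 : pderiv 0 π = 0 := by
    rw [mul_assoc, hu4.dvd_mul_left] at h4
    exact pderiv_eq_zero_of_dvd ((hπ.dvd_or_dvd h4).resolve_left hnD)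
  have hz1 : pderiv 1 π = 0 := by
    rw [neg_mul, neg_mul, dvd_neg, mul_assoc, hu6.dvd_mul_left] at h6
    exact pderiv_eq_zero_of_dvd ((hπ.dvd_or_dvd h6).resolve_left hnD)
  have hC := eq_C_of_pderiv_eq_zero ℓ (π := π) (fun i => by fin_cases i <;> assumption) hπdeg'
  have := one_le_totalDegree_of_prime hπ
  rw [hC, totalDegree_C] at this
  omega

/-! ### The Swinnerton-Dyer lemma, algebraic form -/

theorem pow_mul_eq_pow_mul {π a b : S 𝔽} (hπ : Prime π) (ha : ¬ π ∣ a) (hb : ¬ π ∣ b) {i j : ℕ}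
    (h : π ^ i * a = π ^ j * b) : i = j := by
  rcases lt_trichotomy i j with hij | hij | hij
  · exfalso
    obtain ⟨d, rfl⟩ : ∃ d, j = i + (d + 1) := ⟨j - i - 1, by omega⟩
    rw [pow_add, mul_assoc] at h
    have := mul_left_cancel₀ (pow_ne_zero i hπ.ne_zero) h
    exact ha ⟨π ^ d * b, by rw [this, pow_succ]; ring⟩
  · exact hij
  · exfalso
    obtain ⟨d, rfl⟩ : ∃ d, i = j + (d + 1) := ⟨i - j - 1, by omega⟩
    rw [pow_add, mul_assoc] at h
    have := mul_left_cancel₀ (pow_ne_zero j hπ.ne_zero) h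
    exact hb ⟨π ^ d * a, by rw [← this, pow_succ]; ring⟩

/-- **Swinnerton-Dyer's lemma**, algebraic form: if `A` is isobaric of weight `ℓ - 1`, `K` is
isobaric of weight `k`, and both reduce to nonzero constants, then `ℓ - 1 ∣ k`. -/
theorem dvd_of_ev_const (hℓ : 5 ≤ ℓ) {A K : S 𝔽} {ν c : 𝔽} {k : ℕ} (hA : Iso A (ℓ - 1))
    (hevA : T.ev A = PowerSeries.C ν) (hν : ν ≠ 0) (hK : Iso K k)
    (hevK : T.ev K = PowerSeries.C c) (hc : c ≠ 0) : (ℓ - 1) ∣ k := by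
  have hA0 : A ≠ 0 := by
    rintro rfl
    rw [map_zero] at hevA
    exact hν (by simpa using hevA.symm)
  have hK0 : K ≠ 0 := by
    rintro rfl
    rw [map_zero] at hevK
    exact hc (by simpa using hevK.symm)
  -- the comparison `K^(ℓ-1) = γ A^k`
  obtain ⟨γ, hγ⟩ : ∃ γ : 𝔽, γ = c ^ (ℓ - 1) / ν ^ k := ⟨_, rfl⟩
  have hγ0 : γ ≠ 0 := by rw [hγ]; positivity
  have hcmp : K ^ (ℓ - 1) = C γ * A ^ k := by
    refine eq_of_ev_eq T (k := (ℓ - 1) * k) ?_ ?_ ?_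
    · simpa using hK.pow (ℓ - 1)
    · have := (isWeightedHomogeneous_C wt γ).mul (hA.pow k)
      convert this using 1
      simp [mul_comm]
    · rw [map_pow, map_mul, map_pow, hevK, hevA, ev_C, ← map_pow, ← map_pow, ← map_mul, hγ,
        div_mul_cancel₀ _ (pow_ne_zero k hν)]
  -- a prime factor of `A`
  have hAu : ¬ IsUnit A := by
    intro hu
    obtain ⟨r, -, hr⟩ := isUnit_iff_eq_C_of_isReduced.mp hu
    have h0 : Iso A 0 := hr ▸ isWeightedHomogeneous_C wt r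
    have := IsWeightedHomogeneous.inj_right hA0 h0 hA
    omega
  obtain ⟨π, hπirr, hπA⟩ := WfDvdMonoid.exists_irreducible_factor hAu hA0
  have hπ : Prime π := UniqueFactorizationMonoid.irreducible_iff_prime.mp hπirr
  obtain ⟨u, hu⟩ := hπA
  have hπu : ¬ π ∣ u := by
    rintro ⟨v, hv⟩
    exact not_sq_dvd T ℓ hℓ hA hevA hν hπ ⟨v, by rw [hu, hv]; ring⟩
  obtain ⟨m, v, hv, hKm⟩ := WfDvdMonoid.max_power_factor hK0 hπirr
  have key : π ^ (m * (ℓ - 1)) * v ^ (ℓ - 1) = π ^ k * (C γ * u ^ k) := by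
    have := hcmp
    rw [hKm, hu] at this
    rw [pow_mul, ← mul_pow, this]; ring
  have h1 : ¬ π ∣ v ^ (ℓ - 1) := fun h => hv (hπ.dvd_of_dvd_pow h)
  have h2 : ¬ π ∣ C γ * u ^ k := by
    intro h
    rw [((IsUnit.mk0 _ hγ0).map C).dvd_mul_left] at h
    exact hπu (hπ.dvd_of_dvd_pow h)
  exact ⟨m, by rw [← pow_mul_eq_pow_mul hπ h1 h2 key]; ring⟩

end Fermat.Agent.Eis.SWDAlg
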