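import Mathlib
import Fermat.Agent.Eis.SWDAlg
import Fermat.Agent.Eis.RamanujanQ
import Fermat.Agent.Eis.HasseForm
import Fermat.Agent.Eis.LevelOneMvPoly

/-!
# The Swinnerton-Dyer weight lemma

A level-one modular form of weight `k` whose `q`-expansion has coefficients in a subring
`R' ⊆ ℂ` (containing `1/1728`) and which reduces to a nonzero constant under a ring homomorphism
`φ : R' → κ` to a field of characteristic `ℓ ≥ 5` has weight divisible by `ℓ - 1`.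
-/

set_option autoImplicit false

open UpperHalfPlane ModularForm EisensteinSeries MatrixGroups

namespace Fermat.Agent.Eis

open SWDAlg

/-- `1728 ≠ 0` in characteristic `ℓ ≥ 5`. -/
theorem swd_1728_ne_zero {ℓ : ℕ} (hℓ : ℓ.Prime) (h5 : 5 ≤ ℓ) (κ : Type*) [Field κ] [CharP κ ℓ] :
    (1728 : κ) ≠ 0 := by
  have h : ((1728 : ℕ) : κ) ≠ 0 := by
    rw [Ne, CharP.cast_eq_zero_iff κ ℓ]
    intro hdvd
    have h1 : (1728 : ℕ) = 2 ^ 6 * 3 ^ 3 := by norm_num
    rw [h1] at hdvd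
    rcases hℓ.dvd_mul.mp hdvd with h2 | h3
    · have := Nat.le_of_dvd (by norm_num) (hℓ.dvd_of_dvd_pow h2)
      omega
    · have := Nat.le_of_dvd (by norm_num) (hℓ.dvd_of_dvd_pow h3)
      omega
  simpa using h

/-- The Ramanujan data `(E₂, E₄, E₆) mod ℓ`. -/
noncomputable def swdRamData (κ : Type*) [Field κ] (h : (1728 : κ) ≠ 0) : RamData κ where
  P := Ram.E2Z.map (Int.castRingHom κ)
  Q := E4Z.map (Int.castRingHom κ)
  R := E6Z.map (Int.castRingHom κ)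
  hP0 := by
    rw [← PowerSeries.coeff_zero_eq_constantCoeff_apply, PowerSeries.coeff_map,
      PowerSeries.coeff_zero_eq_constantCoeff_apply, Ram.constantCoeff_E2Z]; simp
  hQ0 := by
    rw [← PowerSeries.coeff_zero_eq_constantCoeff_apply, PowerSeries.coeff_map,
      PowerSeries.coeff_zero_eq_constantCoeff_apply, constantCoeff_E4Z]; simp
  hR0 := by
    rw [← PowerSeries.coeff_zero_eq_constantCoeff_apply, PowerSeries.coeff_map,
      PowerSeries.coeff_zero_eq_constantCoeff_apply, constantCoeff_E6Z]; simp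
  ramP := Ram.ramanujan_E2_map κ
  ramQ := Ram.ramanujan_E4_map κ
  ramR := Ram.ramanujan_E6_map κ
  hD := by
    intro h0
    have h1 := congrArg (PowerSeries.coeff 1) h0
    rw [← map_pow, ← map_pow, ← map_sub, PowerSeries.coeff_map,
      Ram.coeff_one_E4Z_cube_sub_E6Z_sq] at h1
    apply h
    simpa using h1

theorem swdRamData_ev (κ : Type*) [Field κ] (h : (1728 : κ) ≠ 0) (P : MvPolynomial (Fin 2) κ) :
    (swdRamData κ h).ev P =
      MvPolynomial.aeval ![E4Z.map (Int.castRingHom κ), E6Z.map (Int.castRingHom κ)] P := rfl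

/-- The reduction of a series with `R'`-coefficients that is a unit constant mod `φ`. -/
theorem swd_map_liftSeries_eq_C (R' : Subring ℂ) {κ : Type*} [Field κ] (φ : R' →+* κ)
    (f : PowerSeries ℂ) (hf : ∀ n, PowerSeries.coeff n f ∈ R')
    (hn : ∀ n, 1 ≤ n → φ ⟨PowerSeries.coeff n f, hf n⟩ = 0) :
    (liftSeries R' f hf).map φ = PowerSeries.C (φ ⟨PowerSeries.coeff 0 f, hf 0⟩) := by
  ext n
  rw [PowerSeries.coeff_map, PowerSeries.coeff_C]
  split_ifs with h0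
  · subst h0; simp [liftSeries]
  · simpa [liftSeries] using hn n (by omega)

/-- **Swinnerton-Dyer's weight lemma.** -/
theorem swd_weight_of_inv_mem {ℓ : ℕ} (hℓ : ℓ.Prime) (h5 : 5 ≤ ℓ) (R' : Subring ℂ)
    (h1728 : (1728 : ℂ)⁻¹ ∈ R') {κ : Type*} [Field κ] [CharP κ ℓ] (φ : R' →+* κ) (k : ℤ)
    (g : ModularForm 𝒮ℒ k) (hg : ∀ n, (qExpansion 1 g).coeff n ∈ R')
    (h0 : φ ⟨(qExpansion 1 g).coeff 0, hg 0⟩ ≠ 0)
    (hn : ∀ n, 1 ≤ n → φ ⟨(qExpansion 1 g).coeff n, hg n⟩ = 0) : ((ℓ : ℤ) - 1) ∣ k := by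
  -- `k ≥ 0`
  have hk0 : 0 ≤ k := by
    by_contra hneg
    push Not at hneg
    have hg0 : g = 0 := eq_zero_of_weight k (Or.inl hneg) g
    apply h0
    have : (⟨(qExpansion 1 g).coeff 0, hg 0⟩ : R') = 0 := by
      apply Subtype.ext
      simp only [hg0, ZeroMemClass.coe_zero]
      rw [FunLike.coe_zero, qExpansion_zero]; simp
    rw [this, map_zero]
  have hκ := swd_1728_ne_zero hℓ h5 κ
  obtain ⟨T, hT⟩ : ∃ T, T = swdRamData κ hκ := ⟨_, rfl⟩
  -- the form `g`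
  obtain ⟨PK, hPK, hK⟩ := exists_mvPolynomial_map R' h1728 k g hg φ
  rw [swd_map_liftSeries_eq_C R' φ _ hg hn, ← swdRamData_ev κ hκ, ← hT] at hK
  -- the Hasse form
  obtain ⟨A, a, ha, ha0, han⟩ := exists_hasse_form hℓ h5
  have hAR : ∀ n, (qExpansion 1 A).coeff n ∈ R' := fun n => by
    rw [ha n]; exact intCast_mem R' (a n)
  have hAφ : ∀ n, φ ⟨(qExpansion 1 A).coeff n, hAR n⟩ = (a n : κ) := fun n => by
    have : (⟨(qExpansion 1 A).coeff n, hAR n⟩ : R') = ((a n : ℤ) : R') := by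
      apply Subtype.ext
      simp [ha n]
    rw [this, map_intCast]
  obtain ⟨PA, hPA, hA⟩ := exists_mvPolynomial_map R' h1728 ((ℓ : ℤ) - 1) A hAR φ
  have hAn : ∀ n, 1 ≤ n → φ ⟨(qExpansion 1 A).coeff n, hAR n⟩ = 0 := fun n h1 => by
    rw [hAφ n, CharP.intCast_eq_zero_iff κ ℓ]; exact han n h1
  rw [swd_map_liftSeries_eq_C R' φ _ hAR hAn, ← swdRamData_ev κ hκ, ← hT, hAφ 0] at hA
  have hν : ((a 0 : ℤ) : κ) ≠ 0 := by
    rw [Ne, CharP.intCast_eq_zero_iff κ ℓ]; exact ha0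
  have hwA : ((ℓ : ℤ) - 1).toNat = ℓ - 1 := by omega
  rw [hwA] at hPA
  have key := dvd_of_ev_const T ℓ h5 (A := PA) (K := PK) hPA hA.symm hν hPK hK.symm h0
  obtain ⟨m, hm⟩ := key
  refine ⟨m, ?_⟩
  have h1 : ((ℓ : ℤ) - 1) = ((ℓ - 1 : ℕ) : ℤ) := by omega
  rw [h1, ← Int.toNat_of_nonneg hk0, hm]
  push_cast; ring

end Fermat.Agent.Eis
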