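import Mathlib
import Fermat.Agent.Eis.SWD
import Fermat.Agent.Eis.LocalRing

/-!
# The Swinnerton-Dyer weight lemma, blueprint form (`Zloc ℓ ≤ R'`)
-/

set_option autoImplicit false

open UpperHalfPlane ModularForm EisensteinSeries MatrixGroups

namespace Fermat.Agent.Eis

/-- **SWD**, general residue field version: a level-one form of weight `k` with coefficients in a
subring `R' ⊇ ℤ_(ℓ)` of `ℂ` which reduces to a nonzero constant under `φ : R' →+* κ`
(`κ` a field of characteristic `ℓ ≥ 5`) has weight divisible by `ℓ - 1`. -/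
theorem swd_weight (ℓ : ℕ) [Fact ℓ.Prime] (hℓ : 5 ≤ ℓ) (R' : Subring ℂ) (hR : Zloc ℓ ≤ R')
    {κ : Type*} [Field κ] [CharP κ ℓ] (φ : R' →+* κ) (k : ℤ) (g : ModularForm 𝒮ℒ k)
    (hg : ∀ n, PowerSeries.coeff n (qExpansion 1 g) ∈ R')
    (h0 : φ ⟨_, hg 0⟩ ≠ 0) (hn : ∀ n, 1 ≤ n → φ ⟨_, hg n⟩ = 0) : ((ℓ : ℤ) - 1) ∣ k := by
  have hp : ℓ.Prime := Fact.out
  have h1728 : (1728 : ℂ)⁻¹ ∈ R' := by
    apply hR
    have h := natCast_inv_mem_Zloc ℓ 1728 (by
      intro hdvd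
      have h1 : (1728 : ℕ) = 2 ^ 6 * 3 ^ 3 := by norm_num
      rw [h1] at hdvd
      rcases hp.dvd_mul.mp hdvd with h2 | h3
      · have := Nat.le_of_dvd (by norm_num) (hp.dvd_of_dvd_pow h2)
        omega
      · have := Nat.le_of_dvd (by norm_num) (hp.dvd_of_dvd_pow h3)
        omega)
    simpa using h
  exact swd_weight_of_inv_mem hp hℓ R' h1728 φ k g hg h0 hn

end Fermat.Agent.Eis
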