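/-
S16 (Eisenstein ideal), upper bound, case `ℓ ≥ 5`, `ℓ ∣ p + 1` (package FIVE): there is no
`F ∈ M₂(Γ₀(p))` with `F ≡ 1 mod ℓ`.

All `p + 1` conjugate series of `F` are `≡ 1` modulo a prime `𝔪` of `Rint ℓ` above `ℓ`, so the level one
form `e_i` of weight `2 i` has `q`-expansion `≡ (p+1).choose i` (a constant) modulo `𝔪`; for `i = ℓ^v ∥ p + 1`
this constant is a unit, and Swinnerton-Dyer's weight lemma gives `(ℓ - 1) ∣ 2 ℓ^v`: impossible for `ℓ ≥ 5`.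
-/
import Mathlib
import Fermat.Agent.Eis.LocalRing
import Fermat.Agent.Eis.ConjDefs
import Fermat.Agent.Eis.ConjSharp
import Fermat.Agent.Eis.ConjTrace
import Fermat.Agent.Eis.ConjMain
import Fermat.Agent.Eis.FiveCore
import Fermat.Agent.Eis.SWDWeight

set_option autoImplicit false

open UpperHalfPlane ModularForm Complex CongruenceSubgroup
open scoped MatrixGroups ModularForm

namespace Fermat.Agent.Eis

namespace Five

/-- `(q^v m').choose (q^v) ≡ m' mod q`, in the form: its image in a ring of characteristic `q`. -/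
theorem choose_pow_mul_cast (q : ℕ) [Fact q.Prime] (v m' : ℕ) :
    (((q ^ v * m').choose (q ^ v) : ℕ) : ZMod q) = (m' : ZMod q) := by
  have h1 : ((1 + Polynomial.X : Polynomial (ZMod q)) ^ (q ^ v * m')).coeff (q ^ v) =
      (((q ^ v * m').choose (q ^ v) : ℕ) : ZMod q) := by
    rw [Polynomial.coeff_one_add_X_pow]
  have h2 : (1 + Polynomial.X : Polynomial (ZMod q)) ^ (q ^ v * m') =
      Polynomial.expand (ZMod q) (q ^ v) ((1 + Polynomial.X) ^ m') := by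
    rw [pow_mul, add_pow_char_pow, one_pow, map_pow, map_add, map_one, Polynomial.expand_X]
  rw [← h1, h2]
  have := Polynomial.coeff_expand_mul (R := ZMod q) (p := q ^ v)
    (pow_pos (Fact.out : q.Prime).pos v) ((1 + Polynomial.X : Polynomial (ZMod q)) ^ m') 1
  rw [one_mul] at this
  rw [this, Polynomial.coeff_one_add_X_pow]
  simp

theorem not_dvd_choose_pow_mul (q : ℕ) [Fact q.Prime] (v m' : ℕ) (hm : ¬ q ∣ m') :
    ¬ q ∣ (q ^ v * m').choose (q ^ v) := by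
  intro h
  have h1 := (ZMod.natCast_eq_zero_iff _ q).mpr h
  rw [choose_pow_mul_cast, ZMod.natCast_eq_zero_iff] at h1
  exact hm h1

/-- `(ℓ - 1) ∤ 2 ℓ^v` for `ℓ ≥ 5`. -/
theorem not_pred_dvd_two_mul_pow {ℓ : ℕ} (h5 : 5 ≤ ℓ) (v : ℕ) :
    ¬ ((ℓ : ℤ) - 1) ∣ (2 : ℤ) * ((ℓ ^ v : ℕ) : ℤ) := by
  intro h
  have h1 : ((ℓ : ℤ) - 1) = ((ℓ - 1 : ℕ) : ℤ) := by
    rw [Nat.cast_sub (by omega)]; simp
  rw [h1, show (2 : ℤ) * ((ℓ ^ v : ℕ) : ℤ) = ((2 * ℓ ^ v : ℕ) : ℤ) by push_cast; ring,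
    Int.natCast_dvd_natCast] at h
  have hcop : Nat.Coprime (ℓ - 1) (ℓ ^ v) := by
    apply Nat.Coprime.pow_right
    have : ℓ = (ℓ - 1) + 1 := by omega
    conv_rhs => rw [this]
    simp
  have h2 : (ℓ - 1) ∣ 2 := hcop.dvd_of_dvd_mul_right h
  have := Nat.le_of_dvd (by norm_num) h2
  omega

/-- a maximal ideal of `Rint ℓ` above `ℓ`. -/
theorem exists_maximal_above (ℓ : ℕ) [Fact ℓ.Prime] :
    ∃ 𝔪 : Ideal (Rint ℓ), 𝔪.IsMaximal ∧ ((ℓ : ℕ) : Rint ℓ) ∈ 𝔪 := by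
  have hℓ0 : (ℓ : ℂ) ≠ 0 := by exact_mod_cast (Fact.out : ℓ.Prime).ne_zero
  have hnu : ¬ IsUnit ((ℓ : ℕ) : Rint ℓ) := by
    intro hu
    obtain ⟨y, hy⟩ := hu.exists_right_inv
    apply ell_inv_not_mem_Rint ℓ
    have h := congrArg Subtype.val hy
    have h' : (ℓ : ℂ) * (y : ℂ) = 1 := by simpa using h
    have : (ℓ : ℂ)⁻¹ = (y : ℂ) := by
      field_simp
      linear_combination -h'
    rw [this]
    exact y.2
  obtain ⟨𝔪, hmax, hle⟩ := Ideal.exists_le_maximal (Ideal.span {((ℓ : ℕ) : Rint ℓ)})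
    (by rw [Ne, Ideal.span_singleton_eq_top]; exact hnu)
  exact ⟨𝔪, hmax, hle (Ideal.subset_span rfl)⟩

end Five

section FIVE
variable (p : ℕ) [Fact p.Prime]

/-- **FIVE**: `ℓ ≥ 5`, `ℓ ∣ p + 1`.  There is no `F ∈ M₂(Γ₀(p))` with `F ≡ 1 mod ℓ`. -/
theorem no_oneMod_five (hp5 : 5 ≤ p) (ℓ : ℕ) [Fact ℓ.Prime] (hℓ : 5 ≤ ℓ) (hℓp : ℓ ∣ p + 1)
    (F : ModularForm (Gamma0 p) 2) (hF : IsOneModQ ℓ 1 (qExpansion 1 F)) : False := by
  have hp : p.Prime := Fact.out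
  have hℓ' : ℓ.Prime := Fact.out
  have hp0 : (p : ℂ) ≠ 0 := by exact_mod_cast hp.ne_zero
  have hℓ0 : (ℓ : ℂ) ≠ 0 := by exact_mod_cast hℓ'.ne_zero
  have hℓp_ne : ¬ ℓ ∣ p := by
    intro h
    have := (Nat.dvd_add_right h).mp hℓp
    exact hℓ'.one_lt.ne' (Nat.dvd_one.mp this)
  obtain ⟨ha0, ha⟩ := hF
  simp only [pow_one] at ha
  have hFg : IsGamma0Form p 2 F := IsGamma0Form.of_form p F
  have hb := sharpQ_weight_two p hFg
  have pinv : (p : ℂ)⁻¹ ∈ Zloc ℓ := natCast_inv_mem_Zloc ℓ p hℓp_ne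
  have hZR := Zloc_le_Rint ℓ
  have hζ : zetaP p ∈ Rint ℓ := zetaP_mem_Rint ℓ p hp.ne_zero
  have hℓR : (ℓ : ℂ) ∈ Rint ℓ := natCast_mem_Rint ℓ ℓ
  -- the residue field
  obtain ⟨𝔪, hmax, hmem⟩ := Five.exists_maximal_above ℓ
  haveI := hmax
  letI : Field (Rint ℓ ⧸ 𝔪) := Ideal.Quotient.field 𝔪
  set φ : Rint ℓ →+* (Rint ℓ ⧸ 𝔪) := Ideal.Quotient.mk 𝔪 with hφ
  have hφℓ : φ ((ℓ : ℕ) : Rint ℓ) = 0 := Ideal.Quotient.eq_zero_iff_mem.mpr hmem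
  haveI : CharP (Rint ℓ ⧸ 𝔪) ℓ := by
    have h1 : ((ℓ : ℕ) : Rint ℓ ⧸ 𝔪) = 0 := by
      have := hφℓ
      rwa [map_natCast] at this
    have h2 : ringChar (Rint ℓ ⧸ 𝔪) ∣ ℓ := ringChar.dvd h1
    have h3 : ringChar (Rint ℓ ⧸ 𝔪) ≠ 1 := CharP.ringChar_ne_one
    have h4 : ringChar (Rint ℓ ⧸ 𝔪) = ℓ := (Nat.dvd_prime hℓ').mp h2 |>.resolve_left h3
    have := ringChar.charP (Rint ℓ ⧸ 𝔪)
    rwa [h4] at this
  have redA : ∀ (x : ℂ) (hx : x ∈ Rint ℓ), (∃ y ∈ Rint ℓ, x = (ℓ : ℂ) * y) → φ ⟨x, hx⟩ = 0 := by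
    rintro x hx ⟨y, hy, rfl⟩
    have : (⟨(ℓ : ℂ) * y, hx⟩ : Rint ℓ) = ((ℓ : ℕ) : Rint ℓ) * ⟨y, hy⟩ := Subtype.ext (by simp)
    rw [this, map_mul, hφℓ, zero_mul]
  have redB : ∀ (x : ℂ) (hx : x ∈ Rint ℓ), (∃ y ∈ Rint ℓ, x = 1 + (ℓ : ℂ) * y) → φ ⟨x, hx⟩ = 1 := by
    rintro x hx ⟨y, hy, rfl⟩
    have : (⟨1 + (ℓ : ℂ) * y, hx⟩ : Rint ℓ) = 1 + ((ℓ : ℕ) : Rint ℓ) * ⟨y, hy⟩ :=
      Subtype.ext (by simp)
    rw [this, map_add, map_one, map_mul, hφℓ, zero_mul, add_zero]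
  -- coefficients of `a` and `b`
  have haZ : ∀ n, PowerSeries.coeff n (qExpansion 1 F) ∈ Zloc ℓ := by
    intro n
    rcases Nat.eq_zero_or_pos n with rfl | hn
    · rw [ha0]; exact one_mem _
    · obtain ⟨x, hx, h⟩ := ha n hn
      rw [h]
      exact mul_mem (natCast_mem_Zloc ℓ ℓ) hx
  -- the conjugate series
  have hs : ∀ j n, PowerSeries.coeff n (conjSeriesOpt p 2 F j) ∈ Rint ℓ := by
    intro j n
    rcases j with _ | j
    · simp only [conjSeriesOpt, PowerSeries.coeff_expand]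
      split_ifs
      · exact hZR (haZ _)
      · exact zero_mem _
    · simp only [conjSeriesOpt, PowerSeries.coeff_rescale, hb]
      exact mul_mem (pow_mem (pow_mem hζ _) _)
        (hZR (mul_mem (neg_mem pinv) (haZ _)))
  have hs0 : ∀ j, φ ⟨PowerSeries.coeff 0 (conjSeriesOpt p 2 F j), hs j 0⟩ = 1 := by
    intro j
    apply redB
    rcases j with _ | j
    · refine ⟨0, zero_mem _, ?_⟩
      simp only [conjSeriesOpt, PowerSeries.coeff_zero_eq_constantCoeff,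
        PowerSeries.constantCoeff_expand]
      rw [← PowerSeries.coeff_zero_eq_constantCoeff, ha0]
      simp
    · obtain ⟨m, hm⟩ := hℓp
      refine ⟨-(m : ℂ) * (p : ℂ)⁻¹, hZR (mul_mem (neg_mem (natCast_mem_Zloc ℓ m)) pinv), ?_⟩
      simp only [conjSeriesOpt, PowerSeries.coeff_rescale, hb, mul_zero, ha0, pow_zero, one_mul,
        mul_one]
      have hm' : (p : ℂ) + 1 = (ℓ : ℂ) * m := by exact_mod_cast hm
      field_simp
      linear_combination -hm'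
  have hsn : ∀ j n, 1 ≤ n → φ ⟨PowerSeries.coeff n (conjSeriesOpt p 2 F j), hs j n⟩ = 0 := by
    intro j n hn
    apply redA
    rcases j with _ | j
    · simp only [conjSeriesOpt, PowerSeries.coeff_expand]
      split_ifs with hd
      · obtain ⟨c, rfl⟩ := hd
        have hc : 1 ≤ c := by
          rcases Nat.eq_zero_or_pos c with rfl | hc
          · simp at hn
          · exact hc
        obtain ⟨x, hx, h⟩ := ha c hc
        refine ⟨x, hZR hx, ?_⟩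
        rw [Nat.mul_div_cancel_left _ hp.pos, h]
      · exact ⟨0, zero_mem _, by simp⟩
    · obtain ⟨x, hx, h⟩ := ha (p * n) (Nat.mul_pos hp.pos hn)
      refine ⟨(zetaP p ^ (j : ℕ)) ^ n * (-(p : ℂ)⁻¹ * x),
        mul_mem (pow_mem (pow_mem hζ _) _) (hZR (mul_mem (neg_mem pinv) hx)), ?_⟩
      simp only [conjSeriesOpt, PowerSeries.coeff_rescale, hb, h]
      ring
  -- A3
  obtain ⟨Hc, e, -, -, he⟩ := exists_esymm_forms p hFg
  obtain ⟨v, m', hm', hpm⟩ := Nat.exists_eq_pow_mul_and_not_dvd (Nat.succ_ne_zero p) ℓ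
    hℓ'.one_lt.ne'
  obtain ⟨hG', h0, hn⟩ := Five.five_core (NeZero.ne p) (Rint ℓ) φ (conjSeriesOpt p 2 F) hs hs0 hsn
    (ℓ ^ v) (qExpansion 1 (e (ℓ ^ v))) (he (ℓ ^ v))
  have hcard : Fintype.card (Option (Fin p)) = p + 1 := by simp
  rw [hcard] at h0
  have h0' : φ ⟨PowerSeries.coeff 0 (qExpansion 1 (e (ℓ ^ v))), hG' 0⟩ ≠ 0 := by
    rw [h0]
    intro hz
    rw [CharP.cast_eq_zero_iff (Rint ℓ ⧸ 𝔪) ℓ] at hz
    have hpm' : p + 1 = ℓ ^ v * m' := hpm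
    rw [hpm'] at hz
    exact Five.not_dvd_choose_pow_mul ℓ v m' hm' hz
  have hdvd := swd_weight ℓ hℓ (Rint ℓ) hZR φ ((2 : ℤ) * ((ℓ ^ v : ℕ) : ℤ)) (e (ℓ ^ v)) hG' h0' hn
  exact Five.not_pred_dvd_two_mul_pow hℓ v hdvd

end FIVE

end Fermat.Agent.Eis
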