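import Mathlib
import Fermat.Agent.X0.Int.PeriodLattice

/-!
# S16 / LOW / (C1): explicit action of the Hecke operators on periods of weight two cusp forms

For `γ ∈ Γ₀(N)` and matrices `g x ∈ Γ₀(N)` with `α_x γ = g_x α_{σ x}` (the `α`'s being the usual
upper triangular representatives of `T_ℓ`, resp. `U_p`), one has
`∫_γ (T_ℓ f) = ∑_x ∫_{g_x} f`.  Unlike `S22/HeckeStable` the `g x` are *not* hidden behind an
existential, so that one can compute with their entries.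
-/

set_option autoImplicit false

open UpperHalfPlane hiding I
open Real Complex CongruenceSubgroup ModularForm ModularCurve ModularCurve.Period
open Fermat.Agent.S22 Fermat.Agent.X0 Fermat.Agent.X0.IntPeriod
open scoped Manifold MatrixGroups ModularForm Topology

namespace Fermat.Agent.Eis

noncomputable section

open P2MW.S_ModularForm_heckeT_slash_eq_self_of_mem_Gamma0.ModularForm.HeckeSlashInvariance
open Matrix.SpecialLinearGroup

/-! ## Function level relations with explicit `g` -/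

theorem heckeT_slash_sub_eq_sum_of (k : ℤ) {p : ℕ} [Fact p.Prime] (γ : SL(2, ℤ))
    (g : OnePoint (ZMod p) → SL(2, ℤ))
    (hmul : ∀ x, heckeRep p x * mapGL ℝ γ = mapGL ℝ (g x) * heckeRep p (redMatrix p γ • x))
    (F : ℍ → ℂ) :
    heckeT k p F ∣[k] mapGL ℝ γ - heckeT k p F =
      ∑ x : OnePoint (ZMod p),
        (F ∣[k] mapGL ℝ (g x) - F) ∣[k] heckeRep p (redMatrix p γ • x) := by
  have h1 : heckeT k p F ∣[k] mapGL ℝ γ =
      ∑ x : OnePoint (ZMod p), (F ∣[k] mapGL ℝ (g x)) ∣[k] heckeRep p (redMatrix p γ • x) := by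
    rw [heckeT_eq_sum_onePoint k F, SlashAction.sum_slash]
    refine Finset.sum_congr rfl fun x _ => ?_
    rw [← SlashAction.slash_mul, hmul x, SlashAction.slash_mul]
  have h2 : heckeT k p F =
      ∑ x : OnePoint (ZMod p), F ∣[k] heckeRep p (redMatrix p γ • x) := by
    rw [heckeT_eq_sum_onePoint k F]
    exact (Equiv.sum_comp (MulAction.toPerm (redMatrix p γ))
      (fun x => F ∣[k] heckeRep p x)).symm
  rw [h1]
  conv_lhs => rw [h2]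
  rw [← Finset.sum_sub_distrib]
  refine Finset.sum_congr rfl fun x _ => ?_
  rw [sub_eq_add_neg, sub_eq_add_neg, SlashAction.add_slash, SlashAction.neg_slash]

theorem heckeU_slash_sub_eq_sum_of (k : ℤ) {p : ℕ} [NeZero p] (γ : SL(2, ℤ))
    (g : ZMod p → SL(2, ℤ)) (σ : Equiv.Perm (ZMod p))
    (hmul : ∀ x, heckeMatrix p x.val * mapGL ℝ γ = mapGL ℝ (g x) * heckeMatrix p (σ x).val)
    (F : ℍ → ℂ) :
    heckeU k p F ∣[k] mapGL ℝ γ - heckeU k p F =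
      ∑ x : ZMod p, (F ∣[k] mapGL ℝ (g x) - F) ∣[k] heckeMatrix p (σ x).val := by
  have h1 : heckeU k p F ∣[k] mapGL ℝ γ =
      ∑ x : ZMod p, (F ∣[k] mapGL ℝ (g x)) ∣[k] heckeMatrix p (σ x).val := by
    rw [heckeU_eq_sum_zmod k F, SlashAction.sum_slash]
    refine Finset.sum_congr rfl fun x _ => ?_
    rw [← SlashAction.slash_mul, hmul x, SlashAction.slash_mul]
  have h2 : heckeU k p F = ∑ x : ZMod p, F ∣[k] heckeMatrix p (σ x).val := by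
    rw [heckeU_eq_sum_zmod k F]
    exact (Equiv.sum_comp σ (fun x => F ∣[k] heckeMatrix p x.val)).symm
  rw [h1]
  conv_lhs => rw [h2]
  rw [← Finset.sum_sub_distrib]
  refine Finset.sum_congr rfl fun x _ => ?_
  rw [sub_eq_add_neg, sub_eq_add_neg, SlashAction.add_slash, SlashAction.neg_slash]

/-! ## The Eichler primitive of a Hecke image -/

variable (N : ℕ) [NeZero N]

theorem hc_two_pi_I_ne_zero : (2 * π * Complex.I : ℂ) ≠ 0 := by
  simp [Real.pi_ne_zero, Complex.I_ne_zero]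

theorem hc_eichlerInt_one_eq_smul (f : CuspForm (Gamma0 N) 2) :
    eichlerInt 1 (f : ℍ → ℂ) = (2 * π * Complex.I : ℂ) • eichlerPrim N f := by
  rw [eichlerInt_one_eq]; rfl

theorem eichlerPrim_heckeTLin {ℓ : ℕ} (hℓ : ℓ.Prime) (hℓN : ¬ ℓ ∣ N)
    (f : CuspForm (Gamma0 N) 2) :
    eichlerPrim N (CuspForm.heckeTLin 2 hℓ hℓN f) = (ℓ : ℂ) • heckeT 0 ℓ (eichlerPrim N f) := by
  have h := eichlerInt_heckeTLin (N := N) (m := 1) f hℓ hℓN
  have h' : eichlerInt 1 ⇑(CuspForm.heckeTLin 2 hℓ hℓN f) =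
      (ℓ : ℂ) • heckeT 0 ℓ (eichlerInt 1 ⇑f) := by
    simpa using h
  rw [hc_eichlerInt_one_eq_smul, hc_eichlerInt_one_eq_smul, heckeT_smul, smul_comm] at h'
  exact smul_right_injective _ hc_two_pi_I_ne_zero h'

theorem eichlerPrim_heckeULin {q : ℕ} (hq : q ≠ 0) (hqN : q ∣ N)
    (f : CuspForm (Gamma0 N) 2) :
    eichlerPrim N (CuspForm.heckeULin 2 hqN f) = (q : ℂ) • heckeU 0 q (eichlerPrim N f) := by
  have h := eichlerInt_heckeULin (N := N) (m := 1) f hq hqN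
  have h' : eichlerInt 1 ⇑(CuspForm.heckeULin 2 hqN f) =
      (q : ℂ) • heckeU 0 q (eichlerInt 1 ⇑f) := by
    simpa using h
  rw [hc_eichlerInt_one_eq_smul, hc_eichlerInt_one_eq_smul, heckeU_smul, smul_comm] at h'
  exact smul_right_injective _ hc_two_pi_I_ne_zero h'

/-! ## Periods of Hecke images -/

theorem hc_const_slash_zero_heckeMatrix {ℓ : ℕ} (hℓ : ℓ ≠ 0) (c : ℂ) (j : ℕ) (z : ℍ) :
    ((fun _ : ℍ => c) ∣[(0 : ℤ)] heckeMatrix ℓ j) z = (ℓ : ℂ)⁻¹ * c := by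
  rw [slash_heckeMatrix_apply 0 hℓ]

theorem hc_const_slash_zero_heckeRep {ℓ : ℕ} (hℓ : ℓ ≠ 0) (c : ℂ) (y : OnePoint (ZMod ℓ))
    (z : ℍ) : ((fun _ : ℍ => c) ∣[(0 : ℤ)] heckeRep ℓ y) z = (ℓ : ℂ)⁻¹ * c := by
  induction y using OnePoint.rec with
  | infty =>
    rw [heckeRep_infty, slash_heckeDiagMatrix_apply 0 hℓ]
    norm_num
  | coe j =>
    rw [heckeRep_coe, slash_heckeMatrix_apply 0 hℓ]

theorem hc_slash_sub_eq_const (f : CuspForm (Gamma0 N) 2) (g : Gamma0 N) :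
    eichlerPrim N f ∣[(0 : ℤ)] mapGL ℝ (g : SL(2, ℤ)) - eichlerPrim N f =
      fun _ : ℍ => periodMap N f (Additive.ofMul g) := by
  funext z
  rw [periodMap_apply N f g z, Pi.sub_apply]
  congr 1
  exact slash_zero_SL_apply (eichlerPrim N f) (g : SL(2, ℤ)) z

theorem hc_periodMap_eq_slash_sub (f : CuspForm (Gamma0 N) 2) (g : Gamma0 N) (z : ℍ) :
    periodMap N f (Additive.ofMul g) =
      (eichlerPrim N f ∣[(0 : ℤ)] mapGL ℝ (g : SL(2, ℤ)) - eichlerPrim N f) z := by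
  rw [hc_slash_sub_eq_const]

/-- **Explicit Hecke formula on periods, `T_ℓ`.** -/
theorem periodMap_heckeTLin_eq_sum {ℓ : ℕ} [hℓ : Fact ℓ.Prime] (hℓN : ¬ ℓ ∣ N) (γ : Gamma0 N)
    (g : OnePoint (ZMod ℓ) → Gamma0 N)
    (hmul : ∀ x, heckeRep ℓ x * mapGL ℝ (γ : SL(2, ℤ)) =
      mapGL ℝ (g x : SL(2, ℤ)) * heckeRep ℓ (redMatrix ℓ (γ : SL(2, ℤ)) • x))
    (f : CuspForm (Gamma0 N) 2) :
    periodMap N (CuspForm.heckeTLin 2 hℓ.out hℓN f) (Additive.ofMul γ) =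
      ∑ x, periodMap N f (Additive.ofMul (g x)) := by
  have hℓ0 : ℓ ≠ 0 := hℓ.out.ne_zero
  have hℓ0' : (ℓ : ℂ) ≠ 0 := by exact_mod_cast hℓ0
  rw [hc_periodMap_eq_slash_sub N _ γ UpperHalfPlane.I, eichlerPrim_heckeTLin]
  have h1 : ((ℓ : ℂ) • heckeT 0 ℓ (eichlerPrim N f)) ∣[(0 : ℤ)] mapGL ℝ (γ : SL(2, ℤ)) -
      (ℓ : ℂ) • heckeT 0 ℓ (eichlerPrim N f) =
      (ℓ : ℂ) • (heckeT 0 ℓ (eichlerPrim N f) ∣[(0 : ℤ)] mapGL ℝ (γ : SL(2, ℤ)) -
        heckeT 0 ℓ (eichlerPrim N f)) := by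
    rw [smul_sub]
    exact congrArg (· - (ℓ : ℂ) • heckeT 0 ℓ (eichlerPrim N f))
      (ModularForm.SL_smul_slash (0 : ℤ) (γ : SL(2, ℤ)) (heckeT 0 ℓ (eichlerPrim N f)) (ℓ : ℂ))
  rw [h1, heckeT_slash_sub_eq_sum_of 0 (γ : SL(2, ℤ)) (fun x => (g x : SL(2, ℤ))) hmul,
    Pi.smul_apply, Finset.sum_apply, smul_eq_mul, Finset.mul_sum]
  refine Finset.sum_congr rfl fun x _ => ?_
  rw [hc_slash_sub_eq_const, hc_const_slash_zero_heckeRep hℓ0, ← mul_assoc,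
    mul_inv_cancel₀ hℓ0', one_mul]

/-- **Explicit Hecke formula on periods, `U_q`.** -/
theorem periodMap_heckeULin_eq_sum {q : ℕ} [NeZero q] (hqN : q ∣ N) (γ : Gamma0 N)
    (g : ZMod q → Gamma0 N) (σ : Equiv.Perm (ZMod q))
    (hmul : ∀ x, heckeMatrix q x.val * mapGL ℝ (γ : SL(2, ℤ)) =
      mapGL ℝ (g x : SL(2, ℤ)) * heckeMatrix q (σ x).val)
    (f : CuspForm (Gamma0 N) 2) :
    periodMap N (CuspForm.heckeULin 2 hqN f) (Additive.ofMul γ) =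
      ∑ x, periodMap N f (Additive.ofMul (g x)) := by
  have hq0 : q ≠ 0 := NeZero.ne q
  have hq0' : (q : ℂ) ≠ 0 := by exact_mod_cast hq0
  rw [hc_periodMap_eq_slash_sub N _ γ UpperHalfPlane.I, eichlerPrim_heckeULin N hq0]
  have h1 : ((q : ℂ) • heckeU 0 q (eichlerPrim N f)) ∣[(0 : ℤ)] mapGL ℝ (γ : SL(2, ℤ)) -
      (q : ℂ) • heckeU 0 q (eichlerPrim N f) =
      (q : ℂ) • (heckeU 0 q (eichlerPrim N f) ∣[(0 : ℤ)] mapGL ℝ (γ : SL(2, ℤ)) -
        heckeU 0 q (eichlerPrim N f)) := by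
    rw [smul_sub]
    exact congrArg (· - (q : ℂ) • heckeU 0 q (eichlerPrim N f))
      (ModularForm.SL_smul_slash (0 : ℤ) (γ : SL(2, ℤ)) (heckeU 0 q (eichlerPrim N f)) (q : ℂ))
  rw [h1, heckeU_slash_sub_eq_sum_of 0 (γ : SL(2, ℤ)) (fun x => (g x : SL(2, ℤ))) σ hmul,
    Pi.smul_apply, Finset.sum_apply, smul_eq_mul, Finset.mul_sum]
  refine Finset.sum_congr rfl fun x _ => ?_
  rw [hc_slash_sub_eq_const, hc_const_slash_zero_heckeMatrix hq0, ← mul_assoc,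
    mul_inv_cancel₀ hq0', one_mul]

/-! ## Existence of the representatives -/

omit [NeZero N] in
theorem exists_heckeT_reps {ℓ : ℕ} [Fact ℓ.Prime] (hℓN : ¬ ℓ ∣ N) (γ : Gamma0 N) :
    ∃ g : OnePoint (ZMod ℓ) → Gamma0 N, ∀ x, heckeRep ℓ x * mapGL ℝ (γ : SL(2, ℤ)) =
      mapGL ℝ (g x : SL(2, ℤ)) * heckeRep ℓ (redMatrix ℓ (γ : SL(2, ℤ)) • x) := by
  have hcN : (N : ℤ) ∣ (γ : SL(2, ℤ)) 1 0 :=
    (ZMod.intCast_zmod_eq_zero_iff_dvd _ _).mp (CongruenceSubgroup.Gamma0_mem.mp γ.2)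
  choose g hg hmul using fun x => heckeRep_mul hℓN (γ : SL(2, ℤ)) hcN x
  exact ⟨fun x => ⟨g x, CongruenceSubgroup.Gamma0_mem.mpr
    ((ZMod.intCast_zmod_eq_zero_iff_dvd _ _).mpr (hg x))⟩, hmul⟩

omit [NeZero N] in
theorem exists_heckeU_reps {q : ℕ} [NeZero q] (hqN : q ∣ N) (γ : Gamma0 N) :
    ∃ (g : ZMod q → Gamma0 N) (σ : Equiv.Perm (ZMod q)),
      ∀ x, heckeMatrix q x.val * mapGL ℝ (γ : SL(2, ℤ)) =
        mapGL ℝ (g x : SL(2, ℤ)) * heckeMatrix q (σ x).val := by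
  have hcN : (N : ℤ) ∣ (γ : SL(2, ℤ)) 1 0 :=
    (ZMod.intCast_zmod_eq_zero_iff_dvd _ _).mp (CongruenceSubgroup.Gamma0_mem.mp γ.2)
  have hc : (q : ℤ) ∣ (γ : SL(2, ℤ)) 1 0 := (Int.natCast_dvd_natCast.mpr hqN).trans hcN
  choose g hg hmul using fun x => heckeMatrix_mul_of_dvd (γ : SL(2, ℤ)) hc x
  refine ⟨fun x => ⟨g x, ?_⟩,
    affinePerm (γ : SL(2, ℤ)) ((ZMod.intCast_zmod_eq_zero_iff_dvd _ _).mpr hc), hmul⟩
  rw [CongruenceSubgroup.Gamma0_mem, hg x]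
  push_cast
  rw [CongruenceSubgroup.Gamma0_mem.mp γ.2, mul_zero]

end

end Fermat.Agent.Eis
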