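import Mathlib
import Fermat.Agent.Eis.HeckeCohPeriod

/-!
# S16 / LOW / (C2): the character homomorphisms `γ ↦ χ(d mod N)` are Eisenstein eigenvectors

For a character `χ` of `(ℤ/N)ˣ` with values in an abelian group `A` (written additively), the
homomorphism `charHom χ : Γ₀(N) → A`, `γ ↦ χ(d_γ mod N)` satisfies, for the explicit Hecke
representatives of `(C1)`:
* `∑_x charHom χ (g x) = (ℓ + 1) • charHom χ γ` for `T_ℓ`, `ℓ ∤ N`;
* `∑_x charHom χ (g x) = q • charHom χ γ` for `U_q`, `q ∣ N`.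
-/

set_option autoImplicit false

open UpperHalfPlane hiding I
open CongruenceSubgroup ModularForm
open scoped MatrixGroups ModularForm

namespace Fermat.Agent.Eis

noncomputable section

open P2MW.S_ModularForm_heckeT_slash_eq_self_of_mem_Gamma0.ModularForm.HeckeSlashInvariance
open Matrix.SpecialLinearGroup

/-! ## Entries of the matrix identities -/

/-- lower right entry of `heckeRep ℓ y` -/
def hcD (ℓ : ℕ) (y : OnePoint (ZMod ℓ)) : ℤ := y.elim 1 (fun _ => (ℓ : ℤ))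

/-- upper right entry of `heckeRep ℓ y` -/
def hcB (ℓ : ℕ) (y : OnePoint (ZMod ℓ)) : ℤ := y.elim 0 (fun j => (j.val : ℤ))

theorem hc_entry_one_one {ℓ : ℕ} (hℓ : ℓ ≠ 0) (x y : OnePoint (ZMod ℓ)) (γ g : SL(2, ℤ))
    (h : heckeRep ℓ x * mapGL ℝ γ = mapGL ℝ g * heckeRep ℓ y) :
    hcD ℓ x * γ 1 1 = g 1 0 * hcB ℓ y + g 1 1 * hcD ℓ y := by
  have h' := congrArg (fun M : GL (Fin 2) ℝ => (M : Matrix (Fin 2) (Fin 2) ℝ) 1 1) h
  induction x using OnePoint.rec with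
  | infty =>
    induction y using OnePoint.rec with
    | infty =>
      simp [hcD, hcB, Matrix.mul_apply, Fin.sum_univ_two, val_heckeDiagMatrix hℓ] at h' ⊢
      exact_mod_cast h'
    | coe j' =>
      simp [hcD, hcB, Matrix.mul_apply, Fin.sum_univ_two, val_heckeDiagMatrix hℓ,
        val_heckeMatrix hℓ] at h' ⊢
      exact_mod_cast h'
  | coe j =>
    induction y using OnePoint.rec with
    | infty =>
      simp [hcD, hcB, Matrix.mul_apply, Fin.sum_univ_two, val_heckeDiagMatrix hℓ,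
        val_heckeMatrix hℓ] at h' ⊢
      exact_mod_cast h'
    | coe j' =>
      simp [hcD, hcB, Matrix.mul_apply, Fin.sum_univ_two, val_heckeMatrix hℓ] at h' ⊢
      exact_mod_cast h'

theorem hc_entry_one_one_U {q : ℕ} (hq : q ≠ 0) (j j' : ℕ) (γ g : SL(2, ℤ))
    (h : heckeMatrix q j * mapGL ℝ γ = mapGL ℝ g * heckeMatrix q j') :
    (q : ℤ) * γ 1 1 = g 1 0 * j' + g 1 1 * q ∧ (q : ℤ) * γ 1 0 = g 1 0 := by
  have h' := congrArg (fun M : GL (Fin 2) ℝ => (M : Matrix (Fin 2) (Fin 2) ℝ) 1 1) h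
  have h'' := congrArg (fun M : GL (Fin 2) ℝ => (M : Matrix (Fin 2) (Fin 2) ℝ) 1 0) h
  simp [Matrix.mul_apply, Fin.sum_univ_two, val_heckeMatrix hq] at h' h''
  constructor
  · exact_mod_cast h'
  · exact_mod_cast h''

/-! ## The character homomorphisms -/

variable {N : ℕ} {A : Type*} [AddCommGroup A]

/-- `γ ↦ χ (d_γ mod N)` as an additive homomorphism on `Γ₀(N)`. -/
def charHom (χ : (ZMod N)ˣ →* Multiplicative A) : Additive (Gamma0 N) →+ A :=
  AddMonoidHom.mk' (fun γ => Multiplicative.toAdd (χ ((Gamma0Map N).toHomUnits (Additive.toMul γ))))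
    (by intro a b; simp [map_mul])

theorem charHom_apply (χ : (ZMod N)ˣ →* Multiplicative A) (γ : Gamma0 N) :
    charHom χ (Additive.ofMul γ) = Multiplicative.toAdd (χ ((Gamma0Map N).toHomUnits γ)) := rfl

theorem hc_coe_gamma0Unit (γ : Gamma0 N) :
    (((Gamma0Map N).toHomUnits γ : (ZMod N)ˣ) : ZMod N) = (((γ : SL(2, ℤ)) 1 1 : ℤ) : ZMod N) := rfl

/-- the unit `d(α_y) mod N` -/
def hcDUnit {ℓ : ℕ} (hcop : Nat.Coprime ℓ N) (y : OnePoint (ZMod ℓ)) : (ZMod N)ˣ :=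
  y.elim 1 (fun _ => ZMod.unitOfCoprime ℓ hcop)

theorem hc_coe_hcDUnit {ℓ : ℕ} (hcop : Nat.Coprime ℓ N) (y : OnePoint (ZMod ℓ)) :
    ((hcDUnit hcop y : (ZMod N)ˣ) : ZMod N) = ((hcD ℓ y : ℤ) : ZMod N) := by
  induction y using OnePoint.rec with
  | infty => simp [hcDUnit, hcD]
  | coe j => simp [hcDUnit, hcD]

theorem hc_unit_identity {ℓ : ℕ} (hℓ : ℓ ≠ 0) (hcop : Nat.Coprime ℓ N) (x y : OnePoint (ZMod ℓ))
    (γ g : Gamma0 N)
    (h : heckeRep ℓ x * mapGL ℝ (γ : SL(2, ℤ)) = mapGL ℝ (g : SL(2, ℤ)) * heckeRep ℓ y) :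
    (Gamma0Map N).toHomUnits γ * hcDUnit hcop x = (Gamma0Map N).toHomUnits g * hcDUnit hcop y := by
  apply Units.ext
  rw [Units.val_mul, Units.val_mul, hc_coe_hcDUnit, hc_coe_hcDUnit, hc_coe_gamma0Unit,
    hc_coe_gamma0Unit]
  have h1 := hc_entry_one_one hℓ x y (γ : SL(2, ℤ)) (g : SL(2, ℤ)) h
  have h2 : (((g : SL(2, ℤ)) 1 0 : ℤ) : ZMod N) = 0 := CongruenceSubgroup.Gamma0_mem.mp g.2
  have h3 := congrArg (Int.cast : ℤ → ZMod N) h1
  push_cast at h3
  rw [h2, zero_mul, zero_add] at h3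
  rw [mul_comm, h3]

/-- **Eisenstein eigenproperty for `T_ℓ`.** -/
theorem sum_charHom_heckeT (χ : (ZMod N)ˣ →* Multiplicative A) {ℓ : ℕ} [hℓ : Fact ℓ.Prime]
    (hℓN : ¬ ℓ ∣ N) (γ : Gamma0 N) (g : OnePoint (ZMod ℓ) → Gamma0 N)
    (hmul : ∀ x, heckeRep ℓ x * mapGL ℝ (γ : SL(2, ℤ)) =
      mapGL ℝ (g x : SL(2, ℤ)) * heckeRep ℓ (redMatrix ℓ (γ : SL(2, ℤ)) • x)) :
    ∑ x, charHom χ (Additive.ofMul (g x)) = (ℓ + 1) • charHom χ (Additive.ofMul γ) := by
  have hcop : Nat.Coprime ℓ N := (Nat.Prime.coprime_iff_not_dvd hℓ.out).mpr hℓN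
  set c : OnePoint (ZMod ℓ) → A := fun y => Multiplicative.toAdd (χ (hcDUnit hcop y)) with hc
  set σ : Equiv.Perm (OnePoint (ZMod ℓ)) := MulAction.toPerm (redMatrix ℓ (γ : SL(2, ℤ))) with hσ
  have key : ∀ x, charHom χ (Additive.ofMul (g x)) =
      charHom χ (Additive.ofMul γ) + c x - c (σ x) := by
    intro x
    have h1 := hc_unit_identity hℓ.out.ne_zero hcop x _ γ (g x) (hmul x)
    have h2 := congrArg (fun u => Multiplicative.toAdd (χ u)) h1
    simp only [map_mul, toAdd_mul] at h2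
    rw [charHom_apply, charHom_apply, hc]
    simp only
    rw [h2]
    simp [hσ]
  rw [Finset.sum_congr rfl fun x _ => key x, Finset.sum_sub_distrib, Finset.sum_add_distrib,
    Equiv.sum_comp σ c, add_sub_cancel_right, Finset.sum_const, Finset.card_univ]
  congr 1
  have : Fintype.card (OnePoint (ZMod ℓ)) = Fintype.card (Option (ZMod ℓ)) :=
    Fintype.card_congr (Equiv.refl _)
  rw [this, Fintype.card_option, ZMod.card]

/-- **Eisenstein eigenproperty for `U_q`.** -/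
theorem sum_charHom_heckeU (χ : (ZMod N)ˣ →* Multiplicative A) {q : ℕ} [NeZero q]
    (γ : Gamma0 N) (g : ZMod q → Gamma0 N) (σ : Equiv.Perm (ZMod q))
    (hmul : ∀ x, heckeMatrix q x.val * mapGL ℝ (γ : SL(2, ℤ)) =
      mapGL ℝ (g x : SL(2, ℤ)) * heckeMatrix q (σ x).val) :
    ∑ x, charHom χ (Additive.ofMul (g x)) = q • charHom χ (Additive.ofMul γ) := by
  have hq0 : q ≠ 0 := NeZero.ne q
  have key : ∀ x, charHom χ (Additive.ofMul (g x)) = charHom χ (Additive.ofMul γ) := by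
    intro x
    rw [charHom_apply, charHom_apply]
    congr 2
    apply Units.ext
    rw [hc_coe_gamma0Unit, hc_coe_gamma0Unit]
    obtain ⟨h1, h2⟩ := hc_entry_one_one_U hq0 x.val (σ x).val (γ : SL(2, ℤ)) (g x : SL(2, ℤ))
      (hmul x)
    have h3 : ((g x : SL(2, ℤ)) 1 1 : ℤ) = (γ : SL(2, ℤ)) 1 1 - (γ : SL(2, ℤ)) 1 0 * (σ x).val := by
      have hq' : (q : ℤ) ≠ 0 := by exact_mod_cast hq0
      apply mul_left_cancel₀ hq'
      rw [← h2] at h1
      linear_combination -h1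
    have h4 : ((((γ : SL(2, ℤ)) 1 0 : ℤ)) : ZMod N) = 0 := CongruenceSubgroup.Gamma0_mem.mp γ.2
    rw [h3]
    push_cast
    rw [h4, zero_mul, sub_zero]
  rw [Finset.sum_congr rfl fun x _ => key x, Finset.sum_const, Finset.card_univ, ZMod.card]

end

end Fermat.Agent.Eis
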