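import Mathlib
import Fermat.Agent.X0.Int.PeriodLattice
import Fermat.Agent.S20

/-!
# S16 / LOW / (C3): integral parabolic homomorphisms factor through the lattice of periods

`f ↦ Re ∘ periodMap f` is an `ℝ`-linear injection `S₂(Γ₀(N)) → Hom_par(Γ₀(N), ℝ)`; the source has
real dimension `2g` (`S20`) and the target has dimension at most `2g`, so it is onto.  Hence every
parabolic homomorphism `Γ₀(N) → ℤ` vanishes on the kernel of `perHom`.
-/

set_option autoImplicit false

open CongruenceSubgroup ModularCurve ModularCurve.Period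
open Fermat.Agent.X0 Fermat.Agent.X0.IntPeriod
open scoped MatrixGroups ModularForm

namespace Fermat.Agent.Eis

noncomputable section

variable (N : ℕ) [NeZero N]

/-- `f ↦ Re ∘ periodMap f` -/
def rePeriodHom : CuspForm (Gamma0 N) 2 →ₗ[ℝ] (Additive (Gamma0 N) →+ ℝ) where
  toFun f := Complex.reLm.toAddMonoidHom.comp (periodMap N f)
  map_add' f g := by
    ext γ
    simp [periodMap_add N]
  map_smul' c f := by
    ext γ
    have h : c • f = (c : ℂ) • f := rfl
    rw [h, periodMap_smul N]
    simp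

theorem rePeriodHom_apply (f : CuspForm (Gamma0 N) 2) (γ : Additive (Gamma0 N)) :
    rePeriodHom N f γ = (periodMap N f γ).re := rfl

theorem rePeriodHom_mem (f : CuspForm (Gamma0 N) 2) :
    rePeriodHom N f ∈ parabolicHoms ℝ (Gamma0 N) ℝ := by
  intro γ hγ
  rw [rePeriodHom_apply, periodMap_apply_eq_zero_of_trace N f γ hγ, Complex.zero_re]

/-- `f ↦ Re ∘ periodMap f` with values in the parabolic homomorphisms -/
def rePeriodPar : CuspForm (Gamma0 N) 2 →ₗ[ℝ] parabolicHoms ℝ (Gamma0 N) ℝ :=
  LinearMap.codRestrict _ (rePeriodHom N) (rePeriodHom_mem N)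

theorem rePeriodPar_injective : Function.Injective (rePeriodPar N) := by
  rw [← LinearMap.ker_eq_bot, LinearMap.ker_eq_bot']
  intro f hf
  apply eq_zero_of_periodMap_re_eq_zero' N f
  intro γ
  have := congrArg (fun φ : parabolicHoms ℝ (Gamma0 N) ℝ => (φ : Additive (Gamma0 N) →+ ℝ) γ) hf
  exact this

theorem rePeriodPar_surjective : Function.Surjective (rePeriodPar N) := by
  have := finite_cuspForm_Gamma0_two N
  obtain ⟨hfin, hle⟩ := PD.finrank_parabolicHoms_Gamma0_le N ℝ
  have h20 := Fermat.Agent.S20.result N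
  have h1 : Module.finrank ℝ (CuspForm (Gamma0 N) 2) =
      2 * Module.finrank ℂ (CuspForm (Gamma0 N) 2) := finrank_real_of_complex _
  have h2 : Module.finrank ℝ (parabolicHoms ℝ (Gamma0 N) ℝ) ≤
      Module.finrank ℝ (CuspForm (Gamma0 N) 2) := by
    rw [h1]
    have : (Module.finrank ℝ (parabolicHoms ℝ (Gamma0 N) ℝ) : ℚ) ≤
        ((2 * Module.finrank ℂ (CuspForm (Gamma0 N) 2) : ℕ) : ℚ) := by
      push_cast
      rw [h20]
      exact hle
    exact_mod_cast this
  have h3 : Module.finrank ℝ (CuspForm (Gamma0 N) 2) ≤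
      Module.finrank ℝ (parabolicHoms ℝ (Gamma0 N) ℝ) :=
    LinearMap.finrank_le_finrank_of_injective (rePeriodPar_injective N)
  exact (LinearMap.injective_iff_surjective_of_finrank_eq_finrank (le_antisymm h3 h2)).mp
    (rePeriodPar_injective N)

/-- **(C3)** every integral parabolic homomorphism vanishes on the kernel of the period
homomorphism. -/
theorem eq_zero_of_perHom_eq_zero (δt : Additive (Gamma0 N) →+ ℤ)
    (hpar : δt ∈ parabolicHoms ℤ (Gamma0 N) ℤ) (γ : Additive (Gamma0 N))
    (hγ : perHom N γ = 0) : δt γ = 0 := by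
  have hmem : (Int.castAddHom ℝ).comp δt ∈ parabolicHoms ℝ (Gamma0 N) ℝ := by
    intro g hg
    show ((δt (Additive.ofMul g) : ℤ) : ℝ) = 0
    rw [hpar g hg, Int.cast_zero]
  obtain ⟨f, hf⟩ := rePeriodPar_surjective N ⟨_, hmem⟩
  have h1 : rePeriodHom N f γ = ((δt γ : ℤ) : ℝ) := by
    have := congrArg (fun φ : parabolicHoms ℝ (Gamma0 N) ℝ => (φ : Additive (Gamma0 N) →+ ℝ) γ) hf
    exact this
  have h2 : periodMap N f γ = 0 := by
    have := congrArg (fun l : Module.Dual ℂ (CuspForm (Gamma0 N) 2) => l f) hγ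
    exact this
  rw [rePeriodHom_apply, h2, Complex.zero_re] at h1
  exact_mod_cast h1.symm

end

end Fermat.Agent.Eis
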