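import Mathlib
import Fermat.Prelude.Def_CuspForm_HeckeEvalForms
import Fermat.Agent.Eis.HeckeCohEigen
import Fermat.Agent.Eis.HeckeCohReal

/-!
# S16 / LOW / (C4): the lower bound from an integral parabolic lift of a character homomorphism

Let `χ : (ℤ/p)ˣ → ℤ/m` be a surjective character with `m ∣ p - 1` such that the homomorphism
`charHom χ : Γ₀(p) → ℤ/m`, `γ ↦ χ(d_γ)` lifts to a parabolic homomorphism `Γ₀(p) → ℤ`.  Then every
polynomial `P` in the Hecke operators which kills `S₂(Γ₀(p))` satisfies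
`m ∣ P(1 + ℓ, 1)`.
-/

set_option autoImplicit false

open CongruenceSubgroup ModularForm ModularCurve ModularCurve.Period CuspForm
open Fermat.Agent.X0 Fermat.Agent.X0.IntPeriod
open scoped MatrixGroups ModularForm

namespace Fermat.Agent.Eis

noncomputable section

open P2MW.S_ModularForm_heckeT_slash_eq_self_of_mem_Gamma0.ModularForm.HeckeSlashInvariance
open Matrix.SpecialLinearGroup

/-- the "sum" of a finite family in a (non commutative) additive monoid, in some order -/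
def hcSum {ι : Type*} [Fintype ι] {G : Type*} [AddMonoid G] (u : ι → G) : G :=
  ((Finset.univ : Finset ι).toList.map u).sum

theorem map_hcSum {ι : Type*} [Fintype ι] {G A : Type*} [AddMonoid G] [AddCommMonoid A]
    (φ : G →+ A) (u : ι → G) : φ (hcSum u) = ∑ x, φ (u x) := by
  rw [hcSum, map_list_sum, List.map_map]
  exact Finset.sum_map_toList _ _

variable (p : ℕ) [Fact p.Prime]

/-- `perHom γ ∘ T_ℓ = ∑_x perHom (g x)` -/
theorem perHom_comp_heckeTLin {ℓ : ℕ} [hℓ : Fact ℓ.Prime] (hℓN : ¬ ℓ ∣ p) (γ : Gamma0 p)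
    (g : OnePoint (ZMod ℓ) → Gamma0 p)
    (hmul : ∀ x, heckeRep ℓ x * mapGL ℝ (γ : SL(2, ℤ)) =
      mapGL ℝ (g x : SL(2, ℤ)) * heckeRep ℓ (redMatrix ℓ (γ : SL(2, ℤ)) • x)) :
    perHom p (Additive.ofMul γ) ∘ₗ CuspForm.heckeTLin 2 hℓ.out hℓN =
      perHom p (hcSum fun x => Additive.ofMul (g x)) := by
  ext f
  rw [LinearMap.comp_apply, perHom_apply, map_hcSum, LinearMap.sum_apply]
  simp only [perHom_apply]
  exact periodMap_heckeTLin_eq_sum p hℓN γ g hmul f

/-- `perHom γ ∘ U_q = ∑_x perHom (g x)` -/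
theorem perHom_comp_heckeULin {q : ℕ} [NeZero q] (hqN : q ∣ p) (γ : Gamma0 p)
    (g : ZMod q → Gamma0 p) (σ : Equiv.Perm (ZMod q))
    (hmul : ∀ x, heckeMatrix q x.val * mapGL ℝ (γ : SL(2, ℤ)) =
      mapGL ℝ (g x : SL(2, ℤ)) * heckeMatrix q (σ x).val) :
    perHom p (Additive.ofMul γ) ∘ₗ CuspForm.heckeULin 2 hqN =
      perHom p (hcSum fun x => Additive.ofMul (g x)) := by
  ext f
  rw [LinearMap.comp_apply, perHom_apply, map_hcSum, LinearMap.sum_apply]
  simp only [perHom_apply]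
  exact periodMap_heckeULin_eq_sum p hqN γ g σ hmul f

/-! ## The induction -/

section main

variable {m : ℕ} (χ : (ZMod p)ˣ →* Multiplicative (ZMod m))

theorem hc_exists_perHom_comp {t : Module.End ℂ (CuspForm (Gamma0 p) 2)}
    (ht : t ∈ CuspForm.heckeAlgebra p 2 (∅ : Set ℕ)) (γ : Additive (Gamma0 p)) :
    ∃ γ' : Additive (Gamma0 p), perHom p γ' = perHom p γ ∘ₗ t :=
  (mem_perLattice p).mp (comp_mem_perLattice_of_mem_heckeAlgebra p ht _ ⟨γ, rfl⟩)

/-- the value of a polynomial in the Hecke operators on the Eisenstein system, mod `m` -/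
def hcEv (m : ℕ) (P : ModularCurve.HeckeAlg) : ZMod m :=
  ((MvPolynomial.aeval (R := ℤ) (eisensteinSystem p) P : ℤ) : ZMod m)

omit [Fact p.Prime] in
theorem hcEv_C (a : ℤ) : hcEv p m (MvPolynomial.C a) = (a : ZMod m) := by
  rw [hcEv, MvPolynomial.aeval_C]
  rfl

omit [Fact p.Prime] in
theorem hcEv_add (P Q : ModularCurve.HeckeAlg) : hcEv p m (P + Q) = hcEv p m P + hcEv p m Q := by
  rw [hcEv, map_add, Int.cast_add]
  rfl

omit [Fact p.Prime] in
theorem hcEv_mul_X (P : ModularCurve.HeckeAlg) (ℓ : Nat.Primes) :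
    hcEv p m (P * MvPolynomial.X ℓ) = hcEv p m P * ((eisensteinSystem p ℓ : ℤ) : ZMod m) := by
  rw [hcEv, map_mul, MvPolynomial.aeval_X, Int.cast_mul]
  rfl

theorem charHom_eq_of_perHom_eq (hpm : ((p : ℕ) : ZMod m) = 1)
    (h0 : ∀ γ : Additive (Gamma0 p), perHom p γ = 0 → charHom χ γ = 0)
    (P : ModularCurve.HeckeAlg) :
    ∀ γ γ' : Additive (Gamma0 p),
      perHom p γ' = perHom p γ ∘ₗ
        ((heckeEvalForms p 2 P : CuspForm.heckeAlgebra p 2 (∅ : Set ℕ)) :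
          Module.End ℂ (CuspForm (Gamma0 p) 2)) →
      charHom χ γ' = hcEv p m P * charHom χ γ := by
  have h0' : ∀ γ γ' : Additive (Gamma0 p), perHom p γ = perHom p γ' →
      charHom χ γ = charHom χ γ' := by
    intro γ γ' h
    have h1 : perHom p (γ - γ') = 0 := by rw [map_sub, h, sub_self]
    have h2 := h0 _ h1
    rw [map_sub, sub_eq_zero] at h2
    exact h2
  induction P using MvPolynomial.induction_on with
  | C a =>
    intro γ γ' h
    have h1 : perHom p γ' = perHom p (a • γ) := by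
      rw [h, heckeEvalForms_C, Subalgebra.coe_algebraMap, Algebra.algebraMap_eq_smul_one, map_zsmul]
      ext f
      simp
    rw [h0' _ _ h1, map_zsmul, hcEv_C, zsmul_eq_mul]
  | add P Q hP hQ =>
    intro γ γ' h
    obtain ⟨γP, hγP⟩ := hc_exists_perHom_comp p (heckeEvalForms p 2 P).2 γ
    obtain ⟨γQ, hγQ⟩ := hc_exists_perHom_comp p (heckeEvalForms p 2 Q).2 γ
    have h1 : perHom p γ' = perHom p (γP + γQ) := by
      rw [h, map_add, Subalgebra.coe_add, LinearMap.comp_add, map_add, hγP, hγQ]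
    rw [h0' _ _ h1, map_add, hP γ γP hγP, hQ γ γQ hγQ, hcEv_add, add_mul]
  | mul_X P ℓ hP =>
    intro γ γ' h
    obtain ⟨γP, hγP⟩ := hc_exists_perHom_comp p (heckeEvalForms p 2 P).2 γ
    have hgen : heckeEvalForms p 2 (MvPolynomial.X ℓ) = heckeFormsGen p 2 ℓ :=
      heckeEvalForms_heckeGen p 2 ℓ
    have h1 : perHom p γ' = perHom p γP ∘ₗ
        ((heckeFormsGen p 2 ℓ : CuspForm.heckeAlgebra p 2 (∅ : Set ℕ)) :
          Module.End ℂ (CuspForm (Gamma0 p) 2)) := by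
      rw [h, map_mul, hgen, Subalgebra.coe_mul, Module.End.mul_eq_comp, ← LinearMap.comp_assoc,
        hγP]
    rw [hcEv_mul_X, mul_assoc, mul_left_comm, ← hP γ γP hγP]
    obtain ⟨gP, rfl⟩ := Additive.ofMul.surjective γP
    by_cases hℓp : (ℓ : ℕ) ∣ p
    · -- `U_p`
      have : NeZero (ℓ : ℕ) := ⟨ℓ.2.ne_zero⟩
      obtain ⟨g, σ, hmul⟩ := exists_heckeU_reps p hℓp gP
      rw [heckeFormsGen_of_dvd hℓp, heckeAlgebra.coe_U, perHom_comp_heckeULin p hℓp gP g σ hmul]
        at h1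
      have hℓeq : (ℓ : ℕ) = p := (Nat.prime_dvd_prime_iff_eq ℓ.2 Fact.out).mp hℓp
      rw [h0' _ _ h1, map_hcSum, sum_charHom_heckeU χ gP g σ hmul, eisensteinSystem_of_dvd hℓp,
        nsmul_eq_mul, hℓeq, hpm, Int.cast_one]
    · -- `T_ℓ`
      have : Fact (ℓ : ℕ).Prime := ⟨ℓ.2⟩
      obtain ⟨g, hmul⟩ := exists_heckeT_reps p hℓp gP
      rw [heckeFormsGen_of_not_dvd hℓp, heckeAlgebra.coe_T, perHom_comp_heckeTLin p hℓp gP g hmul]
        at h1
      rw [h0' _ _ h1, map_hcSum, sum_charHom_heckeT χ hℓp gP g hmul,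
        eisensteinSystem_of_not_dvd hℓp, nsmul_eq_mul]
      push_cast
      ring

/-- **(C4)** the lower bound from an integral parabolic lift of a surjective character
homomorphism. -/
theorem low_bound_of (hpm : ((p : ℕ) : ZMod m) = 1)
    (δt : Additive (Gamma0 p) →+ ℤ) (hpar : δt ∈ parabolicHoms ℤ (Gamma0 p) ℤ)
    (hδ : ∀ γ : Additive (Gamma0 p), ((δt γ : ℤ) : ZMod m) = charHom χ γ)
    (hsurj : ∃ γ : Additive (Gamma0 p), charHom χ γ = 1)
    (P : ModularCurve.HeckeAlg) (hP : heckeEvalForms p 2 P = 0) :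
    (m : ℤ) ∣ MvPolynomial.aeval (R := ℤ) (eisensteinSystem p) P := by
  have h0 : ∀ γ : Additive (Gamma0 p), perHom p γ = 0 → charHom χ γ = 0 := by
    intro γ hγ
    rw [← hδ γ, eq_zero_of_perHom_eq_zero p δt hpar γ hγ, Int.cast_zero]
  obtain ⟨γ, hγ⟩ := hsurj
  have h1 := charHom_eq_of_perHom_eq p χ hpm h0 P γ 0 (by
    rw [hP, map_zero, ZeroMemClass.coe_zero, LinearMap.comp_zero])
  rw [map_zero, hγ, mul_one] at h1
  exact (ZMod.intCast_zmod_eq_zero_iff_dvd _ _).mp h1.symm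

/-- the same with the hypothesis `m ∣ p - 1` -/
theorem low_bound_of_dvd (hm : m ∣ p - 1)
    (δt : Additive (Gamma0 p) →+ ℤ) (hpar : δt ∈ parabolicHoms ℤ (Gamma0 p) ℤ)
    (hδ : ∀ γ : Additive (Gamma0 p), ((δt γ : ℤ) : ZMod m) = charHom χ γ)
    (hsurj : ∃ γ : Additive (Gamma0 p), charHom χ γ = 1)
    (P : ModularCurve.HeckeAlg) (hP : heckeEvalForms p 2 P = 0) :
    (m : ℤ) ∣ MvPolynomial.aeval (R := ℤ) (eisensteinSystem p) P := by
  refine low_bound_of p χ ?_ δt hpar hδ hsurj P hP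
  have hp1 : 1 ≤ p := (Fact.out : p.Prime).one_lt.le
  have h1 : ((p - 1 : ℕ) : ZMod m) = 0 := (ZMod.natCast_eq_zero_iff _ _).mpr hm
  have h2 : p = (p - 1) + 1 := by omega
  rw [h2, Nat.cast_add, h1, zero_add, Nat.cast_one]

end main

end

end Fermat.Agent.Eis
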