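import Mathlib

/-!
# S16 / reduction, part 2: the Eisenstein coefficients `σ'(k) = ∑_{d ∣ k, p ∤ d} d`

and their Hecke recursion.
-/

set_option autoImplicit false

namespace Fermat.Agent.Eis

open Finset

/-- `σ'_p(k)`: the sum of the divisors of `k` prime to `p` -/
def eisCoeff (p k : ℕ) : ℤ := ∑ d ∈ k.divisors, if p ∣ d then 0 else (d : ℤ)

lemma eisCoeff_one {p : ℕ} (hp : p.Prime) : eisCoeff p 1 = 1 := by
  have h : ¬ p ∣ 1 := hp.one_lt.ne' ∘ Nat.dvd_one.mp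
  simp [eisCoeff, h]

/-- the divisors of `k * ℓ` -/
lemma divisors_mul_prime {k ℓ : ℕ} (hk : k ≠ 0) (hℓ : ℓ.Prime) :
    (k * ℓ).divisors = k.divisors ∪ k.divisors.image (ℓ * ·) := by
  ext d
  simp only [Nat.mem_divisors, mem_union, mem_image]
  constructor
  · rintro ⟨hd, -⟩
    by_cases hℓd : ℓ ∣ d
    · right
      obtain ⟨d', rfl⟩ := hℓd
      refine ⟨d', ⟨?_, hk⟩, rfl⟩
      rw [mul_comm k ℓ] at hd
      exact Nat.dvd_of_mul_dvd_mul_left hℓ.pos hd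
    · left
      refine ⟨?_, hk⟩
      have hcop : Nat.Coprime d ℓ := (Nat.Coprime.symm ((Nat.Prime.coprime_iff_not_dvd hℓ).mpr hℓd))
      exact hcop.dvd_of_dvd_mul_right hd
  · rintro (⟨hd, -⟩ | ⟨d', ⟨hd', -⟩, rfl⟩)
    · exact ⟨Dvd.dvd.mul_right hd ℓ, mul_ne_zero hk hℓ.ne_zero⟩
    · refine ⟨?_, mul_ne_zero hk hℓ.ne_zero⟩
      rw [mul_comm k ℓ]
      exact Nat.mul_dvd_mul_left ℓ hd'

lemma divisors_inter_image {k ℓ : ℕ} (hk : k ≠ 0) (hℓ : ℓ.Prime) :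
    k.divisors ∩ k.divisors.image (ℓ * ·) =
      if ℓ ∣ k then (k / ℓ).divisors.image (ℓ * ·) else ∅ := by
  ext d
  simp only [mem_inter, Nat.mem_divisors, mem_image]
  split_ifs with h
  · simp only [mem_image, Nat.mem_divisors]
    obtain ⟨k', rfl⟩ := h
    have hk' : k' ≠ 0 := fun h0 => hk (by rw [h0, mul_zero])
    rw [Nat.mul_div_cancel_left _ hℓ.pos]
    constructor
    · rintro ⟨⟨hd, -⟩, d', -, rfl⟩
      exact ⟨d', ⟨Nat.dvd_of_mul_dvd_mul_left hℓ.pos hd, hk'⟩, rfl⟩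
    · rintro ⟨d', ⟨hd', -⟩, rfl⟩
      exact ⟨⟨Nat.mul_dvd_mul_left ℓ hd', hk⟩, d', ⟨Dvd.dvd.mul_left hd' ℓ, hk⟩, rfl⟩
  · simp only [notMem_empty, iff_false, not_and, not_exists]
    rintro ⟨hd, -⟩ d' - rfl
    exact h (dvd_trans (dvd_mul_right ℓ d') hd)

/-- **Hecke recursion at `ℓ ≠ p`** -/
theorem eisCoeff_mul_prime {p ℓ : ℕ} (hp : p.Prime) (hℓ : ℓ.Prime) (hℓp : ℓ ≠ p) {k : ℕ} (hk : k ≠ 0) :
    eisCoeff p (k * ℓ) + (if ℓ ∣ k then (ℓ : ℤ) * eisCoeff p (k / ℓ) else 0) =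
      (1 + (ℓ : ℤ)) * eisCoeff p k := by
  have hinj : Function.Injective (ℓ * · : ℕ → ℕ) := fun a b h => Nat.eq_of_mul_eq_mul_left hℓ.pos h
  have hpℓ : ∀ d : ℕ, p ∣ ℓ * d ↔ p ∣ d := by
    intro d
    constructor
    · intro h
      rcases (Nat.Prime.dvd_mul hp).mp h with h1 | h1
      · exact absurd ((Nat.prime_dvd_prime_iff_eq hp hℓ).mp h1).symm hℓp
      · exact h1
    · exact fun h => Dvd.dvd.mul_left h ℓ
  have himage : ∀ m : ℕ, (∑ d ∈ m.divisors.image (ℓ * ·), if p ∣ d then (0 : ℤ) else (d : ℤ)) =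
      (ℓ : ℤ) * eisCoeff p m := by
    intro m
    rw [sum_image (fun a _ b _ h => hinj h), eisCoeff, mul_sum]
    refine sum_congr rfl fun d _ => ?_
    by_cases hpd : p ∣ d
    · rw [if_pos ((hpℓ d).mpr hpd), if_pos hpd, mul_zero]
    · rw [if_neg (fun h => hpd ((hpℓ d).mp h)), if_neg hpd]; push_cast; ring
  have h1 := sum_union_inter (s₁ := k.divisors) (s₂ := k.divisors.image (ℓ * ·))
    (f := fun d : ℕ => if p ∣ d then (0 : ℤ) else (d : ℤ))
  rw [← divisors_mul_prime hk hℓ, divisors_inter_image hk hℓ, himage k] at h1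
  unfold eisCoeff at h1 ⊢
  split_ifs with h
  · rw [if_pos h, himage (k / ℓ)] at h1
    unfold eisCoeff at h1
    linarith
  · rw [if_neg h, sum_empty] at h1
    linarith

/-- **Hecke recursion at `p`** -/
theorem eisCoeff_mul_self {p : ℕ} (hp : p.Prime) {k : ℕ} (hk : k ≠ 0) :
    eisCoeff p (k * p) = eisCoeff p k := by
  unfold eisCoeff
  rw [divisors_mul_prime hk hp]
  symm
  refine sum_subset subset_union_left fun x hx hx' => ?_
  rcases mem_union.mp hx with h | h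
  · exact absurd h hx'
  · obtain ⟨d, -, rfl⟩ := mem_image.mp h
    rw [if_pos (dvd_mul_right p d)]

end Fermat.Agent.Eis
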