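import Mathlib
import Fermat.Agent.S49_Lattice
import Fermat.Agent.Eis.SigmaPrime
import Fermat.Prelude.Def_CuspForm_HeckeEvalForms

/-!
# S16 / reduction, part 3: the Hecke operators `t_k` with `a₁(t_k g) = a_k(g)` on `S₂(Γ₀(p))`
-/

set_option autoImplicit false

namespace Fermat.Agent.Eis

open CongruenceSubgroup ModularFormClass CuspForm Fermat.Agent.S49

variable (p : ℕ) [Fact p.Prime]

/-- the generator `T_ℓ` (`ℓ ≠ p`) resp. `U_p` of the Hecke algebra, as an endomorphism -/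
noncomputable abbrev gen (ℓ : Nat.Primes) : heckeAlgebra p 2 (∅ : Set ℕ) := heckeFormsGen p 2 ℓ

/-- the Eisenstein eigenvalues -/
abbrev eisVal (ℓ : Nat.Primes) : ℤ := ModularCurve.eisensteinSystem p ℓ

lemma prime_dvd_iff (ℓ : Nat.Primes) : (ℓ : ℕ) ∣ p ↔ (ℓ : ℕ) = p :=
  Nat.prime_dvd_prime_iff_eq ℓ.2 (Fact.out : p.Prime)

/-- `q`-coefficients of `gen ℓ g` -/
theorem qCoeff_gen (ℓ : Nat.Primes) (g : CuspForm (Gamma0 p) 2) (n : ℕ) :
    qCoeff ⇑((gen p ℓ).1 g) n =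
      if (ℓ : ℕ) = p then qCoeff ⇑g (n * p)
      else qCoeff ⇑g (n * ℓ) + if (ℓ : ℕ) ∣ n then (ℓ : ℂ) * qCoeff ⇑g (n / ℓ) else 0 := by
  by_cases h : (ℓ : ℕ) = p
  · rw [if_pos h]
    have hd : (ℓ : ℕ) ∣ p := (prime_dvd_iff p ℓ).mpr h
    rw [gen, heckeFormsGen_of_dvd hd]
    show qCoeff ⇑(CuspForm.heckeULin 2 hd g) n = _
    rw [qCoeff_heckeULin hd ℓ.2.ne_zero, h]
  · rw [if_neg h]
    have hd : ¬ (ℓ : ℕ) ∣ p := fun hd => h ((prime_dvd_iff p ℓ).mp hd)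
    rw [gen, heckeFormsGen_of_not_dvd hd]
    show qCoeff ⇑(CuspForm.heckeTLin 2 ℓ.2 hd g) n = _
    rw [qCoeff_heckeTLin ℓ.2 hd]
    norm_num

/-- **The operators `t_k`.**  For every `k ≥ 1` there is a Hecke operator `t` with `a₁(t g) = a_k(g)`, whose image under
every Eisenstein character is `σ'(k)`. -/
theorem exists_heckeN (k : ℕ) (hk : 1 ≤ k) :
    ∃ t : heckeAlgebra p 2 (∅ : Set ℕ), (∀ g : CuspForm (Gamma0 p) 2, qCoeff ⇑(t.1 g) 1 = qCoeff ⇑g k) ∧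
      ∀ (A : Type) [CommRing A] (χ : heckeAlgebra p 2 (∅ : Set ℕ) →+* A),
        (∀ ℓ : Nat.Primes, χ (gen p ℓ) = (eisVal p ℓ : A)) → χ t = (eisCoeff p k : A) := by
  have hp : p.Prime := Fact.out
  induction k using Nat.strong_induction_on with
  | _ k ih =>
  rcases Nat.lt_or_ge 1 k with hk1 | hk1
  swap
  · -- `k = 1`
    have : k = 1 := le_antisymm hk1 hk
    subst this
    refine ⟨1, fun g => rfl, fun A _ χ _ => ?_⟩
    rw [map_one, eisCoeff_one hp, Int.cast_one]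
  -- `k = k' * ℓ`
  have hℓ : (k.minFac).Prime := Nat.minFac_prime hk1.ne'
  obtain ⟨k', hk'⟩ : ∃ k', k = k' * k.minFac := ⟨k / k.minFac, (Nat.div_mul_cancel (Nat.minFac_dvd k)).symm⟩
  set ℓ : Nat.Primes := ⟨k.minFac, hℓ⟩ with hℓdef
  have hℓval : (ℓ : ℕ) = k.minFac := rfl
  have hk'pos : 1 ≤ k' := by
    rcases Nat.eq_zero_or_pos k' with h | h
    · rw [h, zero_mul] at hk'; omega
    · exact h
  have hk'lt : k' < k := by
    rw [hk']
    exact lt_mul_of_one_lt_right hk'pos hℓ.one_lt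
  obtain ⟨t', ht', hχ'⟩ := ih k' hk'lt hk'pos
  by_cases hℓp : (ℓ : ℕ) = p
  · -- `ℓ = p`: `t = t' * U_p`
    refine ⟨t' * gen p ℓ, fun g => ?_, fun A _ χ hχ => ?_⟩
    · show qCoeff ⇑(t'.1 ((gen p ℓ).1 g)) 1 = _
      rw [ht', qCoeff_gen, if_pos hℓp, hk', ← hℓval, hℓp]
    · rw [map_mul, hχ' A χ hχ, hχ ℓ, eisVal, ModularCurve.eisensteinSystem_of_dvd ((prime_dvd_iff p ℓ).mpr hℓp),
        Int.cast_one, mul_one, hk', ← hℓval, hℓp, eisCoeff_mul_self hp (by omega)]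
  · -- `ℓ ≠ p`
    have hℓp' : k.minFac ≠ p := hℓp
    have hnd : ¬ (ℓ : ℕ) ∣ p := fun hd => hℓp ((prime_dvd_iff p ℓ).mp hd)
    by_cases hdiv : k.minFac ∣ k'
    · -- `ℓ ∣ k'`
      obtain ⟨k'', hk''⟩ := hdiv
      have hk''pos : 1 ≤ k'' := by
        rcases Nat.eq_zero_or_pos k'' with h | h
        · rw [h, mul_zero] at hk''; omega
        · exact h
      have hk''lt : k'' < k := by
        have : k'' < k' := by
          rw [hk'']
          exact lt_mul_of_one_lt_left hk''pos hℓ.one_lt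
        omega
      have hk''div : k' / k.minFac = k'' := by rw [hk'', Nat.mul_div_cancel_left _ hℓ.pos]
      obtain ⟨t'', ht'', hχ''⟩ := ih k'' hk''lt hk''pos
      refine ⟨t' * gen p ℓ - (k.minFac : ℤ) • t'', fun g => ?_, fun A _ χ hχ => ?_⟩
      · show qCoeff ⇑(t'.1 ((gen p ℓ).1 g) - ((k.minFac : ℤ) • t'').1 g) 1 = _
        have h2 : ((k.minFac : ℤ) • t'').1 g = ((k.minFac : ℕ) : ℂ) • t''.1 g := by
          show ((k.minFac : ℤ) • t''.1) g = _
          rw [LinearMap.smul_apply, natCast_zsmul, ← Nat.cast_smul_eq_nsmul ℂ]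
        rw [qCoeff_sub, ht', h2, qCoeff_smul, ht'', qCoeff_gen, if_neg hℓp, hℓval, if_pos ⟨k'', hk''⟩, hk''div,
          ← hk']
        ring
      · have h1 := eisCoeff_mul_prime hp hℓ hℓp' (k := k') (by omega)
        rw [if_pos ⟨k'', hk''⟩, hk''div, ← hk'] at h1
        rw [map_sub, map_mul, map_zsmul, hχ' A χ hχ, hχ'' A χ hχ, hχ ℓ, eisVal,
          ModularCurve.eisensteinSystem_of_not_dvd hnd, hℓval]
        have h2 : (eisCoeff p k : A) = ((1 + (k.minFac : ℤ)) * eisCoeff p k' - (k.minFac : ℤ) * eisCoeff p k'' : ℤ) := by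
          rw [← h1]; push_cast; ring
        rw [h2]
        push_cast
        rw [zsmul_eq_mul]
        push_cast
        ring
    · -- `ℓ ∤ k'`
      refine ⟨t' * gen p ℓ, fun g => ?_, fun A _ χ hχ => ?_⟩
      · show qCoeff ⇑(t'.1 ((gen p ℓ).1 g)) 1 = _
        rw [ht', qCoeff_gen, if_neg hℓp, hℓval, if_neg hdiv, add_zero, ← hk']
      · have h1 := eisCoeff_mul_prime hp hℓ hℓp' (k := k') (by omega)
        rw [if_neg hdiv, add_zero, ← hk'] at h1
        rw [map_mul, hχ' A χ hχ, hχ ℓ, eisVal, ModularCurve.eisensteinSystem_of_not_dvd hnd, hℓval, h1]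
        push_cast
        ring

end Fermat.Agent.Eis
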