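import Mathlib
import Fermat.Agent.Eis.LevelOneMvPoly

/-!
# Further forms of the level-one structure theorem

* `qExpansion_eq_aeval_discriminant_add_natDegree`: reduction mod `24` to a polynomial in `Δ` of
  degree `≤ k / 12`.
* `exists_coeffs_discriminant_mod`: coefficient form modulo `N ∣ 24` (used for `ℓ = 2, 3`).
* `exists_mvPolynomial_of_coeff_mem`: `MvPolynomial (Fin 3)` form in `E₄, E₆, Δ` over any subring.
-/

set_option autoImplicit false

open UpperHalfPlane ModularForm Complex CongruenceSubgroup Matrix.SpecialLinearGroup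
open scoped MatrixGroups ModularForm

noncomputable section

namespace Fermat.Agent.Eis

local notation "Δ" => ModularForm.discriminant

/-- **Reduction mod 24 with degree bound.** -/
theorem qExpansion_eq_aeval_discriminant_add_natDegree (R' : Subring ℂ) (k : ℤ)
    (g : ModularForm 𝒮ℒ k) (hg : ∀ m, (qExpansion 1 g).coeff m ∈ R') :
    ∃ (P : Polynomial ℂ) (H : PowerSeries ℂ), (∀ n, P.coeff n ∈ R') ∧ H ∈ seriesSubring R' ∧
      P.natDegree ≤ k.toNat / 12 ∧
      qExpansion 1 g = Polynomial.aeval (qExpansion 1 Δ) P + 24 * H := by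
  have hmain := qExpansion_mem_span R' k g hg
  generalize qExpansion 1 g = f at hmain ⊢
  induction hmain using Submodule.span_induction with
  | mem x hx =>
    obtain ⟨a, b, c, habc, rfl⟩ := hx
    obtain ⟨U, hU, hUeq⟩ := ((oneMod24_qE4 R').pow a).mul ((oneMod24_qE6 R').pow b)
    refine ⟨Polynomial.X ^ c, U * qExpansion 1 Δ ^ c, ?_, ?_, ?_, ?_⟩
    · intro n
      rw [Polynomial.coeff_X_pow]
      split_ifs
      · exact Subring.one_mem _
      · exact Subring.zero_mem _
    · exact Subring.mul_mem _ hU (Subring.pow_mem _ (qDelta_mem R') c)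
    · rw [Polynomial.natDegree_X_pow]
      omega
    · rw [hUeq, map_pow, Polynomial.aeval_X]
      ring
  | zero => exact ⟨0, 0, by simp, Subring.zero_mem _, by simp, by simp⟩
  | add x y _ _ hx hy =>
    obtain ⟨P, H, hP, hH, hd, rfl⟩ := hx
    obtain ⟨P', H', hP', hH', hd', rfl⟩ := hy
    refine ⟨P + P', H + H', fun n => ?_, Subring.add_mem _ hH hH', ?_, ?_⟩
    · rw [Polynomial.coeff_add]; exact Subring.add_mem _ (hP n) (hP' n)
    · exact (Polynomial.natDegree_add_le _ _).trans (max_le hd hd')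
    · rw [map_add]; ring
  | smul r x _ hx =>
    obtain ⟨P, H, hP, hH, hd, rfl⟩ := hx
    refine ⟨Polynomial.C (r : ℂ) * P, PowerSeries.C (r : ℂ) * H, fun n => ?_, ?_, ?_, ?_⟩
    · rw [Polynomial.coeff_C_mul]; exact Subring.mul_mem _ r.2 (hP n)
    · refine Subring.mul_mem _ ?_ hH
      rw [mem_seriesSubring_iff]
      intro n
      rw [PowerSeries.coeff_C]
      split_ifs
      · exact r.2
      · exact Subring.zero_mem _
    · exact (Polynomial.natDegree_C_mul_le _ _).trans hd
    · have hr : r • ((Polynomial.aeval (qExpansion 1 Δ)) P + 24 * H) =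
          PowerSeries.C (r : ℂ) * ((Polynomial.aeval (qExpansion 1 Δ)) P + 24 * H) := by
        rw [← PowerSeries.smul_eq_C_mul]; rfl
      rw [hr, map_mul, Polynomial.aeval_C]
      have : (algebraMap ℂ (PowerSeries ℂ)) (r : ℂ) = PowerSeries.C (r : ℂ) := rfl
      rw [this]
      ring

/-- **Reduction modulo `N ∣ 24`, coefficient form** (the shape used for `ℓ = 2, 3`): there are
`a_0, …, a_{⌊k/12⌋} ∈ R'` such that every `q`-coefficient of `g - ∑ a_j Δ^j` is `N` times an element
of `R'`. -/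
theorem exists_coeffs_discriminant_mod (R' : Subring ℂ) (k : ℤ) (g : ModularForm 𝒮ℒ k)
    (hg : ∀ m, (qExpansion 1 g).coeff m ∈ R') (N : ℕ) (hN : N ∣ 24) :
    ∃ a : ℕ → ℂ, (∀ j, a j ∈ R') ∧ ∀ n, ∃ r ∈ R',
      (qExpansion 1 g - ∑ j ∈ Finset.range (k.toNat / 12 + 1), a j • qExpansion 1 Δ ^ j).coeff n =
        (N : ℂ) * r := by
  obtain ⟨P, H, hP, hH, hd, heq⟩ := qExpansion_eq_aeval_discriminant_add_natDegree R' k g hg
  obtain ⟨M, hM⟩ := hN
  refine ⟨fun j => P.coeff j, hP, fun n => ⟨(M : ℂ) * H.coeff n, ?_, ?_⟩⟩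
  · exact Subring.mul_mem _ (natCast_mem _ _) ((mem_seriesSubring_iff _ _).1 hH n)
  · rw [heq, Polynomial.aeval_eq_sum_range' (Nat.lt_succ_of_le hd), add_sub_cancel_left]
    have h24 : (24 : PowerSeries ℂ) = PowerSeries.C (24 : ℂ) := (map_ofNat PowerSeries.C 24).symm
    rw [h24, PowerSeries.coeff_C_mul]
    have : (24 : ℂ) = (N : ℂ) * (M : ℂ) := by exact_mod_cast congrArg (Nat.cast (R := ℂ)) hM
    rw [this]
    ring

/-- the weights `(4, 6, 12)` of the variables `(Q, R, Δ)`. -/
def wtQRD : Fin 3 → ℕ := ![4, 6, 12]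

/-- **Structure theorem, `MvPolynomial (Fin 3)` form** (any subring `R'`): a level-one form of
weight `k` with `q`-coefficients in `R'` is an isobaric polynomial of weight `k` in `E₄, E₆, Δ`
with coefficients in `R'`. -/
theorem exists_mvPolynomial_of_coeff_mem (R' : Subring ℂ) {k : ℤ} (g : ModularForm 𝒮ℒ k)
    (hg : ∀ m, (qExpansion 1 g).coeff m ∈ R') :
    ∃ P : MvPolynomial (Fin 3) R', P.IsWeightedHomogeneous wtQRD k.toNat ∧
      qExpansion 1 g =
        MvPolynomial.aeval ![qExpansion 1 E₄, qExpansion 1 E₆, qExpansion 1 Δ] P := by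
  have hmain := qExpansion_mem_span R' k g hg
  generalize qExpansion 1 g = f at hmain ⊢
  induction hmain using Submodule.span_induction with
  | mem x hx =>
    obtain ⟨a, b, c, habc, rfl⟩ := hx
    refine ⟨MvPolynomial.X 0 ^ a * MvPolynomial.X 1 ^ b * MvPolynomial.X 2 ^ c, ?_, ?_⟩
    · have h1 := (MvPolynomial.isWeightedHomogeneous_X R' wtQRD 0).pow a
      have h2 := (MvPolynomial.isWeightedHomogeneous_X R' wtQRD 1).pow b
      have h3 := (MvPolynomial.isWeightedHomogeneous_X R' wtQRD 2).pow c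
      have h4 := (h1.mul h2).mul h3
      have hk : k.toNat = a • wtQRD 0 + b • wtQRD 1 + c • wtQRD 2 := by
        simp only [wtQRD, Matrix.cons_val_zero, Matrix.cons_val_one, Matrix.cons_val_two,
          smul_eq_mul]
        simp
        omega
      rw [hk]
      exact h4
    · simp
  | zero => exact ⟨0, MvPolynomial.isWeightedHomogeneous_zero _ _ _, by simp⟩
  | add x y _ _ hx hy =>
    obtain ⟨P, hP, rfl⟩ := hx
    obtain ⟨P', hP', rfl⟩ := hy
    exact ⟨P + P', hP.add hP', by simp⟩
  | smul r x _ hx =>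
    obtain ⟨P, hP, rfl⟩ := hx
    refine ⟨MvPolynomial.C r * P, hP.C_mul r, ?_⟩
    rw [map_mul, MvPolynomial.aeval_C, Algebra.smul_def]

end Fermat.Agent.Eis
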