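import Mathlib
import Fermat.Agent.Eis.Cocycle
import Fermat.Agent.X0.ES.Presentation
import Fermat.Agent.X0.ES.Primitive

/-!
# S16 / LOW: the lifting lemma

Let `X` be a finite transitive `SL(2, ℤ)`-set with base point `x0`, on which `-1` acts trivially,
`T` fixes `x0` and is transitive on the complement of `x0` (`X = SL(2, ℤ) / Γ₀(p)`).  Let
`δ : Stab(x0) → ℤ / n` be a homomorphism which kills `T` and all elements `γ` with `γ ^ 12 = 1`.
Then `δ` lifts to a *parabolic* homomorphism `Stab(x0) → ℤ` (`exists_parabolic_lift`).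

Proof: Shapiro cocycle of `δ`; it is a coboundary on `⟨S⟩` and on `⟨U⟩`; after subtracting a
coboundary, `c (U) = 0`, `c (S) = (S - 1) v`; lift `v` to `ℤ`; the presentation
`⟨S, U | S⁴, U³ = S²⟩` of `SL(2, ℤ)` (homomorphism to the semidirect product
`(X → ℤ) ⋊ SL(2, ℤ)`) gives an integral cocycle with the same values on `S`, `U`.
-/

set_option autoImplicit false

open MulAction Matrix Matrix.SpecialLinearGroup ModularGroup
open scoped MatrixGroups

namespace Fermat.Agent.Eis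
namespace Lift

open Coc Fermat.Agent.X0

/-! ### The semidirect product `(X → A) ⋊ G` -/

section Semidirect

variable {G X : Type*} [Group G] [MulAction G X] (A : Type*) [AddCommGroup A]

/-- translation of functions as an automorphism of `Multiplicative (X → A)` -/
def trAut (g : G) : MulAut (Multiplicative (X → A)) where
  toFun n := Multiplicative.ofAdd fun x => Multiplicative.toAdd n (g⁻¹ • x)
  invFun n := Multiplicative.ofAdd fun x => Multiplicative.toAdd n (g • x)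
  left_inv n := by
    apply Multiplicative.toAdd.injective
    funext x
    simp
  right_inv n := by
    apply Multiplicative.toAdd.injective
    funext x
    simp
  map_mul' _ _ := rfl

@[simp] theorem toAdd_trAut (g : G) (n : Multiplicative (X → A)) (x : X) :
    Multiplicative.toAdd (trAut A g n) x = Multiplicative.toAdd n (g⁻¹ • x) := rfl

/-- the action homomorphism `G →* MulAut (X → A)` -/
def trHom : G →* MulAut (Multiplicative (X → A)) where
  toFun := trAut A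
  map_one' := by
    apply MulEquiv.ext
    intro n
    apply Multiplicative.toAdd.injective
    funext x
    show Multiplicative.toAdd n ((1 : G)⁻¹ • x) = Multiplicative.toAdd n x
    rw [inv_one, one_smul]
  map_mul' g h := by
    apply MulEquiv.ext
    intro n
    apply Multiplicative.toAdd.injective
    funext x
    show Multiplicative.toAdd n ((g * h)⁻¹ • x) = Multiplicative.toAdd n (h⁻¹ • g⁻¹ • x)
    rw [_root_.mul_inv_rev, mul_smul]

@[simp] theorem toAdd_trHom (g : G) (n : Multiplicative (X → A)) (x : X) :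
    Multiplicative.toAdd (trHom (X := X) A g n) x = Multiplicative.toAdd n (g⁻¹ • x) := rfl

end Semidirect

/-! ### Integral cocycles from the presentation of `SL(2, ℤ)` -/

section Presentation

variable {X : Type*} [MulAction SL(2, ℤ) X] {A : Type*} [AddCommGroup A]

theorem inv_smul_inv_smul_S (hneg : ∀ x : X, (-1 : SL(2, ℤ)) • x = x) (x : X) :
    (S : SL(2, ℤ))⁻¹ • (S : SL(2, ℤ))⁻¹ • x = x := by
  rw [inv_smul_eq_iff, inv_smul_eq_iff, ← mul_smul, ← pow_two, SL2Pres.S_sq, hneg]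

/-- **Cocycles with prescribed values on the generators.** -/
theorem exists_coc_of_presentation (hneg : ∀ x : X, (-1 : SL(2, ℤ)) • x = x) (w : X → A) :
    ∃ c : SL(2, ℤ) → X → A, IsCoc c ∧ (∀ x, c S x = w ((S : SL(2, ℤ))⁻¹ • x) - w x) ∧
      ∀ x, c SL2Pres.U x = 0 := by
  let Q := SemidirectProduct (Multiplicative (X → A)) SL(2, ℤ) (trHom (X := X) A)
  let s : Q := ⟨Multiplicative.ofAdd fun x => w ((S : SL(2, ℤ))⁻¹ • x) - w x, S⟩
  let u : Q := SemidirectProduct.inr SL2Pres.U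
  have hs2 : s ^ 2 = SemidirectProduct.inr (S ^ 2) := by
    rw [pow_two]
    refine SemidirectProduct.ext ?_ ?_
    · rw [SemidirectProduct.mul_left, SemidirectProduct.left_inr]
      apply Multiplicative.toAdd.injective
      funext x
      show (w ((S : SL(2, ℤ))⁻¹ • x) - w x) +
        (w ((S : SL(2, ℤ))⁻¹ • (S : SL(2, ℤ))⁻¹ • x) - w ((S : SL(2, ℤ))⁻¹ • x)) = 0
      rw [inv_smul_inv_smul_S hneg]
      abel
    · rw [SemidirectProduct.mul_right, SemidirectProduct.right_inr, pow_two]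
  have hs : s ^ 4 = 1 := by
    have : s ^ 4 = (s ^ 2) ^ 2 := by rw [← pow_mul]
    rw [this, hs2, ← map_pow, ← pow_mul, SL2Pres.S_pow_four, map_one]
  have hu : u ^ 3 = s ^ 2 := by
    rw [hs2, ← map_pow, SL2Pres.U_pow_three]
  obtain ⟨φ, hφS, hφU⟩ := SL2Pres.exists_hom s u hs hu
  have hright : ∀ g, (φ g).right = g := by
    have : (SemidirectProduct.rightHom.comp φ) = MonoidHom.id SL(2, ℤ) := by
      apply SL2Pres.hom_ext
      · show (φ S).right = S
        rw [hφS]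
      · show (φ SL2Pres.U).right = SL2Pres.U
        rw [hφU]
        rfl
    intro g
    exact DFunLike.congr_fun this g
  refine ⟨fun g x => Multiplicative.toAdd (φ g).left x, ?_, ?_, ?_⟩
  · intro g h x
    simp only
    rw [map_mul, SemidirectProduct.mul_left, toAdd_mul, Pi.add_apply, toAdd_trHom, hright]
  · intro x
    simp only
    rw [hφS]
    rfl
  · intro x
    simp only
    rw [hφU]
    rfl

end Presentation

/-! ### Consequences of the values on the generators -/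

section Values

variable {X : Type*} [MulAction SL(2, ℤ) X] {A : Type*} [AddCommGroup A]
variable {c : SL(2, ℤ) → X → A} {w : X → A}

theorem coc_T_apply (hc : IsCoc c) (hS : ∀ x, c S x = w ((S : SL(2, ℤ))⁻¹ • x) - w x)
    (hU : ∀ x, c SL2Pres.U x = 0) (x : X) : c T x = w ((S : SL(2, ℤ)) • x) - w x := by
  rw [SL2Pres.T_eq, hc, hc.inv, hS, inv_inv, hU, inv_smul_smul]
  abel

theorem coc_neg_one_apply (hneg : ∀ x : X, (-1 : SL(2, ℤ)) • x = x) (hc : IsCoc c)
    (hS : ∀ x, c S x = w ((S : SL(2, ℤ))⁻¹ • x) - w x) (x : X) : c (-1) x = 0 := by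
  rw [← SL2Pres.S_sq, pow_two, hc, hS, hS, inv_smul_inv_smul_S hneg]
  abel

theorem sum_coc_eq_zero [Fintype X] (hc : IsCoc c)
    (hS : ∀ x, c S x = w ((S : SL(2, ℤ))⁻¹ • x) - w x) (hU : ∀ x, c SL2Pres.U x = 0)
    (g : SL(2, ℤ)) : ∑ x, c g x = 0 := by
  let Λ : SL(2, ℤ) →* Multiplicative A :=
    { toFun := fun g => Multiplicative.ofAdd (∑ x, c g x)
      map_one' := by
        simp only [hc.one, Finset.sum_const_zero]
        rfl
      map_mul' := fun g h => by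
        rw [hc.sum_mul, ofAdd_add] }
  have hΛ : Λ = 1 := by
    apply SL2Pres.hom_ext
    · show Multiplicative.ofAdd (∑ x, c S x) = 1
      have h1 : ∑ x, w ((S : SL(2, ℤ))⁻¹ • x) = ∑ x, w x :=
        Equiv.sum_comp (MulAction.toPerm (S : SL(2, ℤ))⁻¹) w
      simp only [hS, Finset.sum_sub_distrib]
      rw [h1, sub_self]
      rfl
    · show Multiplicative.ofAdd (∑ x, c SL2Pres.U x) = 1
      simp only [hU, Finset.sum_const_zero]
      rfl
  have := DFunLike.congr_fun hΛ g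
  exact Multiplicative.ofAdd.injective this

end Values

/-! ### Parabolic elements -/

section Parabolic

variable {X : Type*} [MulAction SL(2, ℤ) X]

theorem eq_T_zpow_or_neg (g : SL(2, ℤ)) (hc : g 1 0 = 0) :
    ∃ n : ℤ, g = T ^ n ∨ g = -T ^ n := by
  have had := g.det_coe
  replace had : g 0 0 * g 1 1 = 1 := by rw [det_fin_two, hc] at had; linarith
  rcases Int.eq_one_or_neg_one_of_mul_eq_one' had with (⟨ha, hd⟩ | ⟨ha, hd⟩)
  · refine ⟨g 0 1, Or.inl ?_⟩
    ext i j; fin_cases i <;> fin_cases j <;>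
      simp [ha, hc, hd, coe_T_zpow, show (1 : Fin (0 + 2)) = (1 : Fin 2) from rfl]
  · refine ⟨-(g 0 1), Or.inr ?_⟩
    ext i j; fin_cases i <;> fin_cases j <;>
      simp [ha, hc, hd, coe_T_zpow, show (1 : Fin (0 + 2)) = (1 : Fin 2) from rfl]

variable [Fintype X] {c : SL(2, ℤ) → X → ℤ}

/-- the value of an integral cocycle with vanishing total sums at `(T ^ j, y)`, `T ^ j • y = y`. -/
theorem coc_T_zpow_eq_zero (x0 : X) (hT0 : (T : SL(2, ℤ)) • x0 = x0)
    (htrans : ∀ y z : X, y ≠ x0 → z ≠ x0 → ∃ i : ℤ, (T : SL(2, ℤ)) ^ i • y = z)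
    (hc : IsCoc c) (hsum : ∀ g, ∑ x, c g x = 0) (hTx0 : c T x0 = 0)
    (j : ℤ) (y : X) (hy : (T : SL(2, ℤ)) ^ j • y = y) : c (T ^ j) y = 0 := by
  have hTmem : (T : SL(2, ℤ)) ∈ stabilizer SL(2, ℤ) x0 := mem_stabilizer_iff.mpr hT0
  -- the base point
  have hbase : ∀ i : ℤ, c (T ^ i) x0 = 0 := by
    intro i
    have h1 : hc.resHom x0 (Additive.ofMul ((⟨T, hTmem⟩ : stabilizer SL(2, ℤ) x0) ^ i)) =
        c (T ^ i) x0 := by
      rw [IsCoc.resHom_apply]
      rfl
    rw [← h1, ofMul_zpow, map_zsmul, IsCoc.resHom_apply]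
    show i • c T x0 = 0
    rw [hTx0, smul_zero]
  by_cases hyx : y = x0
  · rw [hyx]; exact hbase j
  -- `T ^ j` acts trivially
  have hfix0 : ∀ i : ℤ, (T : SL(2, ℤ)) ^ i • x0 = x0 := fun i =>
    mem_stabilizer_iff.mp (zpow_mem hTmem i)
  have hall : ∀ z : X, (T : SL(2, ℤ)) ^ j • z = z := by
    intro z
    by_cases hz : z = x0
    · rw [hz]; exact hfix0 j
    · obtain ⟨i, rfl⟩ := htrans y z hyx hz
      rw [← mul_smul, ← _root_.zpow_add, add_comm, _root_.zpow_add, mul_smul, hy]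
  -- invariance
  have hinv : ∀ (i : ℤ) (z : X), c (T ^ j) (((T : SL(2, ℤ)) ^ i)⁻¹ • z) = c (T ^ j) z := by
    intro i z
    have h1 := hc (T ^ i) (T ^ j) z
    have h2 := hc (T ^ j) (T ^ i) z
    have h3 : ((T : SL(2, ℤ)) ^ j)⁻¹ • z = z := by rw [inv_smul_eq_iff, hall]
    rw [h3] at h2
    have h4 : (T : SL(2, ℤ)) ^ i * T ^ j = T ^ j * T ^ i := by
      rw [← _root_.zpow_add, ← _root_.zpow_add, add_comm]
    rw [h4, h2] at h1
    linarith
  have hconst : ∀ z : X, z ≠ x0 → c (T ^ j) z = c (T ^ j) y := by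
    intro z hz
    obtain ⟨i, rfl⟩ := htrans y z hyx hz
    have := hinv (-i) y
    rw [_root_.zpow_neg, inv_inv] at this
    exact this
  have h5 := hsum (T ^ j)
  classical
  rw [← Finset.add_sum_erase Finset.univ _ (Finset.mem_univ x0), hbase j, zero_add,
    Finset.sum_congr rfl (fun z hz => hconst z (Finset.ne_of_mem_erase hz)), Finset.sum_const,
    nsmul_eq_mul] at h5
  rcases mul_eq_zero.mp h5 with h6 | h6
  · exfalso
    have : y ∈ Finset.univ.erase x0 := Finset.mem_erase.mpr ⟨hyx, Finset.mem_univ y⟩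
    have hpos : 0 < (Finset.univ.erase x0).card := Finset.card_pos.mpr ⟨y, this⟩
    have : ((Finset.univ.erase x0).card : ℤ) ≠ 0 := by exact_mod_cast hpos.ne'
    exact this h6
  · exact h6

/-- **An integral cocycle with `c (S) = (S - 1) w`, `c (U) = 0`, `w (S x0) = w x0` restricts to a
parabolic homomorphism on the stabiliser of `x0`.** -/
theorem coc_apply_eq_zero_of_trace (hneg : ∀ x : X, (-1 : SL(2, ℤ)) • x = x)
    (x0 : X) (hT0 : (T : SL(2, ℤ)) • x0 = x0)
    (htrans : ∀ y z : X, y ≠ x0 → z ≠ x0 → ∃ i : ℤ, (T : SL(2, ℤ)) ^ i • y = z)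
    {w : X → ℤ} (hc : IsCoc c) (hS : ∀ x, c S x = w ((S : SL(2, ℤ))⁻¹ • x) - w x)
    (hU : ∀ x, c SL2Pres.U x = 0) (hw : w ((S : SL(2, ℤ)) • x0) = w x0)
    (γ : SL(2, ℤ)) (hγ : γ • x0 = x0)
    (htr : (γ : Matrix (Fin 2) (Fin 2) ℤ).trace ^ 2 = 4) : c γ x0 = 0 := by
  obtain ⟨σ, hσ⟩ := exists_conj_lowerLeft_eq_zero γ htr
  obtain ⟨n, hn⟩ := eq_T_zpow_or_neg _ hσ
  have hTx0 : c T x0 = 0 := by
    rw [coc_T_apply hc hS hU, hw, sub_self]
  have hsum := sum_coc_eq_zero hc hS hU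
  have hγeq : γ = σ * (σ⁻¹ * γ * σ) * σ⁻¹ := by group
  have hfix : (σ * (σ⁻¹ * γ * σ) * σ⁻¹) • x0 = x0 := by rw [← hγeq]; exact hγ
  rw [hγeq, hc.conj_apply σ _ x0 hfix]
  have hfix' : (σ⁻¹ * γ * σ) • σ⁻¹ • x0 = σ⁻¹ • x0 := by
    rw [← mul_smul, mul_assoc, mul_inv_cancel, mul_one, mul_smul, hγ]
  rcases hn with hn | hn
  · rw [hn] at hfix' ⊢
    exact coc_T_zpow_eq_zero x0 hT0 htrans hc hsum hTx0 n _ hfix'
  · have hneg' : -(T : SL(2, ℤ)) ^ n = (-1) * T ^ n := by rw [neg_one_mul]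
    rw [hn, hneg'] at hfix' ⊢
    rw [mul_smul, hneg] at hfix'
    rw [hc, coc_neg_one_apply hneg hc hS, zero_add]
    have : (-1 : SL(2, ℤ))⁻¹ • σ⁻¹ • x0 = σ⁻¹ • x0 := by rw [inv_smul_eq_iff, hneg]
    rw [this]
    exact coc_T_zpow_eq_zero x0 hT0 htrans hc hsum hTx0 n _ hfix'

end Parabolic

/-! ### The lifting lemma -/

section Main

variable {X : Type*} [MulAction SL(2, ℤ) X] [Fintype X] [IsPretransitive SL(2, ℤ) X]

/-- **Lifting lemma.** -/
theorem exists_parabolic_lift (hneg : ∀ x : X, (-1 : SL(2, ℤ)) • x = x)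
    (x0 : X) (hT0 : (T : SL(2, ℤ)) • x0 = x0)
    (htrans : ∀ y z : X, y ≠ x0 → z ≠ x0 → ∃ i : ℤ, (T : SL(2, ℤ)) ^ i • y = z)
    (n : ℕ) [NeZero n] (δ : Additive (stabilizer SL(2, ℤ) x0) →+ ZMod n)
    (hfin : ∀ γ : stabilizer SL(2, ℤ) x0, γ ^ 12 = 1 → δ (Additive.ofMul γ) = 0)
    (hT : δ (Additive.ofMul ⟨T, mem_stabilizer_iff.mpr hT0⟩) = 0) :
    ∃ δt : Additive (stabilizer SL(2, ℤ) x0) →+ ℤ,
      (∀ γ, ((δt γ : ℤ) : ZMod n) = δ γ) ∧
      ∀ γ : stabilizer SL(2, ℤ) x0,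
        ((γ : SL(2, ℤ)) : Matrix (Fin 2) (Fin 2) ℤ).trace ^ 2 = 4 → δt (Additive.ofMul γ) = 0 := by
  choose s hs using fun x => MulAction.exists_smul_eq SL(2, ℤ) x0 x
  -- the Shapiro cocycle
  set csh := shapiro x0 s δ with hcsh
  have hcshc : IsCoc csh := shapiro_isCoc hs δ
  have hU6 : SL2Pres.U ^ 12 = 1 := by
    have : SL2Pres.U ^ 12 = (SL2Pres.U ^ 3) ^ 4 := by rw [← pow_mul]
    rw [this, SL2Pres.U_pow_three, ← pow_mul]
    have : (S : SL(2, ℤ)) ^ (2 * 4) = (S ^ 4) ^ 2 := by rw [← pow_mul]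
    rw [this, SL2Pres.S_pow_four, one_pow]
  have hS12 : (S : SL(2, ℤ)) ^ 12 = 1 := by
    have : (S : SL(2, ℤ)) ^ 12 = (S ^ 4) ^ 3 := by rw [← pow_mul]
    rw [this, SL2Pres.S_pow_four, one_pow]
  obtain ⟨m₁, hm₁⟩ := exists_cobdry_of_zpow hcshc SL2Pres.U
    (fun x r hfix => shapiro_zpow_eq_zero δ hfin hU6 x r hfix)
  obtain ⟨m₂, hm₂⟩ := exists_cobdry_of_zpow hcshc S
    (fun x r hfix => shapiro_zpow_eq_zero δ hfin hS12 x r hfix)
  -- the normalised cocycle
  set c' : SL(2, ℤ) → X → ZMod n := fun g x => csh g x - (m₁ (g⁻¹ • x) - m₁ x) with hc'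
  have hc'c : IsCoc c' := hcshc.sub_cobdry m₁
  set v : X → ZMod n := fun x => m₂ x - m₁ x with hv
  have hc'U : ∀ x, c' SL2Pres.U x = 0 := by
    intro x
    simp only [hc']
    rw [hm₁, sub_self]
  have hc'S : ∀ x, c' S x = v ((S : SL(2, ℤ))⁻¹ • x) - v x := by
    intro x
    simp only [hc', hv]
    rw [hm₂]
    abel
  have hc'base : ∀ γ : stabilizer SL(2, ℤ) x0, c' (γ : SL(2, ℤ)) x0 = δ (Additive.ofMul γ) := by
    intro γ
    simp only [hc']
    have hfix : ((γ : SL(2, ℤ)))⁻¹ • x0 = x0 := by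
      rw [inv_smul_eq_iff]
      exact (mem_stabilizer_iff.mp γ.2).symm
    rw [hfix, sub_self, sub_zero, hcsh, shapiro_apply_base hs]
  have hvS : v ((S : SL(2, ℤ)) • x0) = v x0 := by
    have h1 := coc_T_apply hc'c hc'S hc'U x0
    have h2 := hc'base ⟨T, mem_stabilizer_iff.mpr hT0⟩
    rw [hT] at h2
    have h3 : c' T x0 = 0 := h2
    rw [h3] at h1
    exact (sub_eq_zero.mp h1.symm)
  -- the integral lift
  set w : X → ℤ := fun x => ((v x).val : ℤ) with hw
  have hwv : ∀ x, ((w x : ℤ) : ZMod n) = v x := by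
    intro x
    simp only [hw]
    rw [Int.cast_natCast, ZMod.natCast_zmod_val]
  have hwS : w ((S : SL(2, ℤ)) • x0) = w x0 := by
    simp only [hw]
    rw [hvS]
  obtain ⟨ct, hctc, hctS, hctU⟩ := exists_coc_of_presentation (A := ℤ) hneg w
  -- reduction
  have hred : (fun g x => ((ct g x : ℤ) : ZMod n)) = c' := by
    refine IsCoc.eq_of_closure (hctc.map (Int.castAddHom (ZMod n))) hc'c _ SL2Pres.closure_S_U ?_
    rintro g (rfl | rfl)
    · funext x
      show ((ct S x : ℤ) : ZMod n) = c' S x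
      rw [hctS, hc'S, Int.cast_sub, hwv, hwv]
    · funext x
      show ((ct SL2Pres.U x : ℤ) : ZMod n) = c' SL2Pres.U x
      rw [hctU, hc'U, Int.cast_zero]
  refine ⟨hctc.resHom x0, ?_, ?_⟩
  · intro γ
    obtain ⟨γ, rfl⟩ := Additive.ofMul.surjective γ
    rw [IsCoc.resHom_apply, ← hc'base γ, ← hred]
  · intro γ htr
    rw [IsCoc.resHom_apply]
    exact coc_apply_eq_zero_of_trace hneg x0 hT0 htrans hctc hctS hctU hwS (γ : SL(2, ℤ))
      (mem_stabilizer_iff.mp γ.2) htr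

/-- the lifting lemma, for a subgroup identified with the stabiliser. -/
theorem exists_parabolic_lift' (hneg : ∀ x : X, (-1 : SL(2, ℤ)) • x = x)
    (x0 : X) (hT0 : (T : SL(2, ℤ)) • x0 = x0)
    (htrans : ∀ y z : X, y ≠ x0 → z ≠ x0 → ∃ i : ℤ, (T : SL(2, ℤ)) ^ i • y = z)
    (Γ : Subgroup SL(2, ℤ)) (hΓ : stabilizer SL(2, ℤ) x0 = Γ)
    (n : ℕ) [NeZero n] (δ : Additive Γ →+ ZMod n)
    (hfin : ∀ γ : Γ, γ ^ 12 = 1 → δ (Additive.ofMul γ) = 0)
    (hT : ∀ hTm : (T : SL(2, ℤ)) ∈ Γ, δ (Additive.ofMul ⟨T, hTm⟩) = 0) :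
    ∃ δt : Additive Γ →+ ℤ,
      (∀ γ, ((δt γ : ℤ) : ZMod n) = δ γ) ∧
      ∀ γ : Γ,
        ((γ : SL(2, ℤ)) : Matrix (Fin 2) (Fin 2) ℤ).trace ^ 2 = 4 → δt (Additive.ofMul γ) = 0 := by
  subst hΓ
  exact exists_parabolic_lift hneg x0 hT0 htrans n δ hfin (hT _)

end Main

end Lift
end Fermat.Agent.Eis
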