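import Mathlib
import Fermat.Prelude.Def_ModularCurve_PeriodMap
import Fermat.Prelude.Def_ModularCurve_ModularUnit
import Fermat.Agent.Eis.LiftHom

/-!
# S16 / LOW: the Shimura homomorphism `Γ₀(p) → ℤ / n`, `n = num ((p - 1) / 12)`

* `gamma0Unit p : Gamma0 p →* (ZMod p)ˣ`, `γ ↦ (γ 1 1 mod p)`;
* `shimuraChar p : (ZMod p)ˣ →* Multiplicative (ZMod n)`: surjective, kills `u` with `u ^ 12 = 1`;
* `shimuraHom p : Additive (Gamma0 p) →+ ZMod n`;
* `exists_shimuraLift p` : it lifts to a parabolic homomorphism `Γ₀(p) → ℤ`.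
-/

set_option autoImplicit false

open MulAction Matrix Matrix.SpecialLinearGroup ModularGroup CongruenceSubgroup
open ModularCurve ModularCurve.Period
open scoped MatrixGroups

namespace Fermat.Agent.Eis

/-! ### The coset space `SL(2, ℤ) ⧸ Γ₀(p)` -/

section CosetSpace

variable (p : ℕ) [Fact p.Prime]

theorem neg_one_mem_Gamma0 (N : ℕ) : (-1 : SL(2, ℤ)) ∈ Gamma0 N := by
  rw [Gamma0_mem]
  simp

theorem T_mem_Gamma0 (N : ℕ) : (T : SL(2, ℤ)) ∈ Gamma0 N := by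
  rw [Gamma0_mem, coe_T]
  simp

theorem neg_one_smul_quotient (N : ℕ) (x : SL(2, ℤ) ⧸ Gamma0 N) : (-1 : SL(2, ℤ)) • x = x := by
  induction x using QuotientGroup.induction_on with
  | H g =>
    rw [MulAction.Quotient.smul_mk, smul_eq_mul, QuotientGroup.eq]
    have h : (-1 : SL(2, ℤ)) * g = g * (-1) := by rw [neg_one_mul, mul_neg_one]
    rw [h, _root_.mul_inv_rev, mul_assoc, inv_mul_cancel, mul_one]
    exact inv_mem (neg_one_mem_Gamma0 N)

theorem T_smul_base (N : ℕ) :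
    (T : SL(2, ℤ)) • ((1 : SL(2, ℤ)) : SL(2, ℤ) ⧸ Gamma0 N) = ((1 : SL(2, ℤ)) : SL(2, ℤ) ⧸ Gamma0 N) := by
  rw [MulAction.Quotient.smul_mk, QuotientGroup.eq, smul_eq_mul, mul_one, mul_one]
  exact inv_mem (T_mem_Gamma0 N)

theorem mk_ne_base_iff (N : ℕ) (g : SL(2, ℤ)) :
    (g : SL(2, ℤ) ⧸ Gamma0 N) ≠ ((1 : SL(2, ℤ)) : SL(2, ℤ) ⧸ Gamma0 N) ↔
      ((g 1 0 : ℤ) : ZMod N) ≠ 0 := by
  rw [Ne, QuotientGroup.eq, mul_one, inv_mem_iff, Gamma0_mem]

/-- lower left entry of `(T ^ i * g)⁻¹ * g'` -/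
theorem lowerLeft_conj (i : ℤ) (g g' : SL(2, ℤ)) :
    ((T ^ i * g)⁻¹ * g' : SL(2, ℤ)) 1 0 = - g 1 0 * g' 0 0 + g 0 0 * g' 1 0 + i * g 1 0 * g' 1 0 := by
  rw [SL2_inv_expl]
  simp only [coe_mul, coe_T_zpow]
  simp [Matrix.mul_apply, Fin.sum_univ_two]
  ring

theorem T_transitive (y z : SL(2, ℤ) ⧸ Gamma0 p)
    (hy : y ≠ ((1 : SL(2, ℤ)) : SL(2, ℤ) ⧸ Gamma0 p))
    (hz : z ≠ ((1 : SL(2, ℤ)) : SL(2, ℤ) ⧸ Gamma0 p)) :
    ∃ i : ℤ, (T : SL(2, ℤ)) ^ i • y = z := by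
  induction y using QuotientGroup.induction_on with
  | H g =>
  induction z using QuotientGroup.induction_on with
  | H g' =>
  rw [mk_ne_base_iff] at hy hz
  set c : ZMod p := ((g 1 0 : ℤ) : ZMod p) with hc
  set c' : ZMod p := ((g' 1 0 : ℤ) : ZMod p) with hc'
  set i : ZMod p := (c * ((g' 0 0 : ℤ) : ZMod p) - ((g 0 0 : ℤ) : ZMod p) * c') * (c * c')⁻¹ with hi
  refine ⟨(i.val : ℤ), ?_⟩
  rw [MulAction.Quotient.smul_mk, QuotientGroup.eq, smul_eq_mul, Gamma0_mem, lowerLeft_conj]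
  push_cast
  rw [ZMod.natCast_zmod_val, ← hc, ← hc', hi]
  field_simp
  ring

end CosetSpace

/-! ### The character -/

section Char

variable (p : ℕ) [Fact p.Prime]

/-- `γ ↦ γ 1 1 mod p`, with values in the units -/
noncomputable def gamma0Unit : Gamma0 p →* (ZMod p)ˣ := (Gamma0Map p).toHomUnits

@[simp] theorem coe_gamma0Unit (γ : Gamma0 p) :
    ((gamma0Unit p γ : (ZMod p)ˣ) : ZMod p) = (((γ : SL(2, ℤ)) 1 1 : ℤ) : ZMod p) := rfl

instance neZero_eisensteinNumerator : NeZero (eisensteinNumerator p) := by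
  refine ⟨?_⟩
  unfold eisensteinNumerator
  have hp := (Fact.out : p.Prime).two_le
  have h1 : 0 < Nat.gcd (p - 1) 12 := Nat.gcd_pos_of_pos_right _ (by norm_num)
  have h2 : Nat.gcd (p - 1) 12 ≤ p - 1 := Nat.le_of_dvd (by omega) (Nat.gcd_dvd_left _ _)
  exact (Nat.div_pos h2 h1).ne'

theorem eisensteinNumerator_dvd_card_units :
    eisensteinNumerator p ∣ Nat.card (ZMod p)ˣ := by
  rw [Nat.card_eq_fintype_card, ZMod.card_units]
  exact eisensteinNumerator_dvd p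

/-- the surjection `(ℤ / p)ˣ → ℤ / n`, `n = (p - 1) / gcd (p - 1, 12)` -/
noncomputable def shimuraChar : (ZMod p)ˣ →* Multiplicative (ZMod (eisensteinNumerator p)) :=
  (AddMonoidHom.toMultiplicative
    (ZMod.castHom (eisensteinNumerator_dvd_card_units p) (ZMod (eisensteinNumerator p))).toAddMonoidHom).comp
    (zmodCyclicMulEquiv (G := (ZMod p)ˣ) inferInstance).symm.toMonoidHom

theorem shimuraChar_apply (u : (ZMod p)ˣ) :
    shimuraChar p u = Multiplicative.ofAdd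
      ((ZMod.castHom (eisensteinNumerator_dvd_card_units p) (ZMod (eisensteinNumerator p)))
        (Multiplicative.toAdd ((zmodCyclicMulEquiv (G := (ZMod p)ˣ) inferInstance).symm u))) := rfl

theorem shimuraChar_surjective : Function.Surjective (shimuraChar p) := by
  unfold shimuraChar
  rw [MonoidHom.coe_comp]
  refine Function.Surjective.comp ?_ (MulEquiv.surjective _)
  intro x
  obtain ⟨y, hy⟩ := ZMod.castHom_surjective (eisensteinNumerator_dvd_card_units p)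
    (Multiplicative.toAdd x)
  exact ⟨Multiplicative.ofAdd y, congrArg Multiplicative.ofAdd hy⟩

theorem eisensteinNumerator_dvd_of_dvd_twelve_mul {m k : ℕ} (hm : 0 < m) (h : m ∣ 12 * k) :
    m / Nat.gcd m 12 ∣ k := by
  set g := Nat.gcd m 12 with hg
  have hgpos : 0 < g := Nat.gcd_pos_of_pos_left _ hm
  have hcop : Nat.Coprime (m / g) (12 / g) := Nat.coprime_div_gcd_div_gcd hgpos
  have h3 : m / g * g ∣ 12 / g * g * k := by
    rw [Nat.div_mul_cancel (Nat.gcd_dvd_left _ _), Nat.div_mul_cancel (Nat.gcd_dvd_right _ _)]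
    exact h
  have h4 : m / g ∣ 12 / g * k := by
    have : 12 / g * g * k = (12 / g * k) * g := by ring
    rw [this] at h3
    exact Nat.dvd_of_mul_dvd_mul_right hgpos h3
  exact hcop.dvd_of_dvd_mul_left h4

theorem shimuraChar_eq_one_of_pow_twelve (u : (ZMod p)ˣ) (hu : u ^ 12 = 1) :
    shimuraChar p u = 1 := by
  have hm1 : Nat.card (ZMod p)ˣ = p - 1 := by rw [Nat.card_eq_fintype_card, ZMod.card_units]
  have hmpos : 0 < Nat.card (ZMod p)ˣ := by
    have := (Fact.out : p.Prime).two_le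
    omega
  have : NeZero (Nat.card (ZMod p)ˣ) := ⟨hmpos.ne'⟩
  rw [shimuraChar_apply]
  generalize hk : Multiplicative.toAdd
    ((zmodCyclicMulEquiv (G := (ZMod p)ˣ) inferInstance).symm u) = k
  have h12 : (12 : ℕ) • k = 0 := by
    have : (zmodCyclicMulEquiv (G := (ZMod p)ˣ) inferInstance).symm (u ^ 12) = 1 := by
      rw [hu, map_one]
    rw [map_pow] at this
    have h2 := congrArg Multiplicative.toAdd this
    rw [toAdd_pow, toAdd_one, hk] at h2
    exact h2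
  have hdvd : Nat.card (ZMod p)ˣ ∣ 12 * k.val := by
    rw [← ZMod.natCast_eq_zero_iff]
    push_cast
    rw [ZMod.natCast_zmod_val]
    rw [nsmul_eq_mul] at h12
    exact_mod_cast h12
  have hn : eisensteinNumerator p ∣ k.val := by
    unfold eisensteinNumerator
    rw [← hm1]
    exact eisensteinNumerator_dvd_of_dvd_twelve_mul hmpos hdvd
  rw [ZMod.castHom_apply, ZMod.cast_eq_val, (ZMod.natCast_eq_zero_iff _ _).mpr hn]
  rfl

/-- **the Shimura homomorphism** `Γ₀(p) → ℤ / n` -/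
noncomputable def shimuraHom : Additive (Gamma0 p) →+ ZMod (eisensteinNumerator p) :=
  MonoidHom.toAdditiveLeft ((shimuraChar p).comp (gamma0Unit p))

theorem shimuraHom_apply (γ : Gamma0 p) :
    shimuraHom p (Additive.ofMul γ) = Multiplicative.toAdd (shimuraChar p (gamma0Unit p γ)) := rfl

theorem gamma0Unit_surjective : Function.Surjective (gamma0Unit p) := by
  intro u
  -- integers `a`, `d` with `a d ≡ 1 mod p`
  set d : ℤ := ((u : ZMod p).val : ℤ) with hd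
  set a : ℤ := (((u⁻¹ : (ZMod p)ˣ) : ZMod p).val : ℤ) with ha
  have hdu : ((d : ℤ) : ZMod p) = u := by rw [hd, Int.cast_natCast, ZMod.natCast_zmod_val]
  have hau : ((a : ℤ) : ZMod p) = ((u⁻¹ : (ZMod p)ˣ) : ZMod p) := by
    rw [ha, Int.cast_natCast, ZMod.natCast_zmod_val]
  have h1 : (((a * d - 1 : ℤ)) : ZMod p) = 0 := by
    push_cast
    rw [hdu, hau, Units.inv_mul, sub_self]
  obtain ⟨k, hk⟩ := (ZMod.intCast_zmod_eq_zero_iff_dvd _ _).mp h1
  let γ : SL(2, ℤ) := ⟨!![a, k; (p : ℤ), d], by rw [Matrix.det_fin_two_of]; linarith⟩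
  have hγ : γ ∈ Gamma0 p := by
    rw [Gamma0_mem]
    show (((p : ℤ) : ℤ) : ZMod p) = 0
    simp
  refine ⟨⟨γ, hγ⟩, ?_⟩
  apply Units.ext
  rw [coe_gamma0Unit]
  show ((d : ℤ) : ZMod p) = u
  exact hdu

theorem shimuraHom_surjective : Function.Surjective (shimuraHom p) := by
  intro x
  obtain ⟨u, hu⟩ := shimuraChar_surjective p (Multiplicative.ofAdd x)
  obtain ⟨γ, rfl⟩ := gamma0Unit_surjective p u
  refine ⟨Additive.ofMul γ, ?_⟩
  rw [shimuraHom_apply, hu]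
  rfl

theorem shimuraHom_eq_zero_of_pow_twelve (γ : Gamma0 p) (h : γ ^ 12 = 1) :
    shimuraHom p (Additive.ofMul γ) = 0 := by
  rw [shimuraHom_apply, shimuraChar_eq_one_of_pow_twelve]
  · rfl
  · rw [← map_pow, h, map_one]

theorem shimuraHom_T (hT : (T : SL(2, ℤ)) ∈ Gamma0 p) :
    shimuraHom p (Additive.ofMul ⟨T, hT⟩) = 0 := by
  rw [shimuraHom_apply]
  have : gamma0Unit p ⟨T, hT⟩ = 1 := by
    apply Units.ext
    rw [coe_gamma0Unit]
    show (((T : SL(2, ℤ)) 1 1 : ℤ) : ZMod p) = 1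
    rw [coe_T]
    simp
  rw [this, map_one]
  rfl

/-- **The Shimura homomorphism lifts to a parabolic homomorphism `Γ₀(p) → ℤ`.** -/
theorem exists_shimuraLift :
    ∃ δt : Additive (Gamma0 p) →+ ℤ, δt ∈ parabolicHoms ℤ (Gamma0 p) ℤ ∧
      ∀ γ, ((δt γ : ℤ) : ZMod (eisensteinNumerator p)) = shimuraHom p γ := by
  let _ : Fintype (SL(2, ℤ) ⧸ Gamma0 p) := Fintype.ofFinite _
  obtain ⟨δt, h1, h2⟩ := Lift.exists_parabolic_lift' (X := SL(2, ℤ) ⧸ Gamma0 p)
    (neg_one_smul_quotient p) ((1 : SL(2, ℤ)) : SL(2, ℤ) ⧸ Gamma0 p) (T_smul_base p)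
    (T_transitive p) (Gamma0 p) (MulAction.stabilizer_quotient (Gamma0 p))
    (eisensteinNumerator p) (shimuraHom p) (shimuraHom_eq_zero_of_pow_twelve p)
    (fun hT => shimuraHom_T p hT)
  exact ⟨δt, fun γ hγ => h2 γ hγ, h1⟩

end Char

end Fermat.Agent.Eis
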