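import Mathlib
import Fermat.Agent.Eis.ShimuraHom
import Fermat.Agent.Eis.HeckeCohLow

/-!
# S16 / LOW: the lower bound `n ∣ P(1 + ℓ, 1)` for `P` killing `S₂(Γ₀(p))`

Wiring of the parabolic integral lift of the Shimura homomorphism (`Eis/ShimuraHom.lean`) with the
cohomological Hecke computation (`Eis/HeckeCohLow.lean`).
-/

set_option autoImplicit false

open CongruenceSubgroup ModularCurve ModularCurve.Period CuspForm

namespace Fermat.Agent.Eis

theorem shimuraHom_eq_charHom (p : ℕ) [Fact p.Prime] (γ : Additive (Gamma0 p)) :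
    shimuraHom p γ = charHom (shimuraChar p) γ := rfl

/-- **Lower bound for S16**: a polynomial in the Hecke operators which vanishes on `S₂(Γ₀(p))`
takes at the Eisenstein system a value divisible by `num ((p - 1) / 12)`. -/
theorem low_bound (p : ℕ) [Fact p.Prime] (P : ModularCurve.HeckeAlg)
    (hP : heckeEvalForms p 2 P = 0) :
    ((ModularCurve.eisensteinNumerator p : ℕ) : ℤ) ∣
      MvPolynomial.aeval (R := ℤ) (eisensteinSystem p) P := by
  obtain ⟨δt, hpar, hδ⟩ := exists_shimuraLift p
  obtain ⟨γ, hγ⟩ := shimuraHom_surjective p 1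
  exact low_bound_of_dvd p (shimuraChar p) (eisensteinNumerator_dvd p) δt hpar
    (fun γ => by rw [hδ, shimuraHom_eq_charHom]) ⟨γ, by rw [← shimuraHom_eq_charHom, hγ]⟩ P hP

end Fermat.Agent.Eis
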