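/-
S16 (Eisenstein ideal), upper bound, case `ℓ = p ≥ 5` (package PEQ): the power series core.

Let `a = 1 + p(…)` be the `q`-expansion of `F ∈ M₂(Γ₀(p))`, `b` the expansion at the other cusp
(`bₙ = -a_{pn}/p`).  The traces of `F·E₄(pz)`, `F·E₆(pz)` are level one forms of weights `6`, `8`,
i.e. multiples of `E₆`, `E₄²`.  Comparing the coefficients of `q⁰`, `q¹` gives
`744 ∈ p R'` and `984 ∈ p R'`, hence `24 ∈ p R'` and `p⁻¹ ∈ R'` (as `p ∤ 24`).
-/
import Mathlib
import Fermat.Agent.Eis.LevelOneMvPoly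

set_option autoImplicit false

namespace Fermat.Agent.Eis.PEq

open PowerSeries

/-- the coefficients of a product, up to the term of the constant coefficient of the first factor,
lie in a subring containing the higher coefficients of the first and all coefficients of the second
factor. -/
theorem coeff_mul_sub_mem (R' : Subring ℂ) (b Q : PowerSeries ℂ)
    (hb : ∀ i, 1 ≤ i → coeff i b ∈ R') (hQ : ∀ j, coeff j Q ∈ R') (n : ℕ) :
    coeff n (b * Q) - coeff 0 b * coeff n Q ∈ R' := by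
  rw [coeff_mul, Finset.Nat.sum_antidiagonal_eq_sum_range_succ_mk, Finset.sum_range_succ']
  simp only [Nat.sub_zero, add_sub_cancel_right]
  exact Subring.sum_mem _ fun i _ => Subring.mul_mem _ (hb _ (by omega)) (hQ _)

/-- integer power series have coefficients in every subring. -/
theorem coeff_map_int_mem (R' : Subring ℂ) (f : PowerSeries ℤ) (n : ℕ) :
    coeff n (f.map (Int.castRingHom ℂ)) ∈ R' := by
  rw [coeff_map]
  exact intCast_mem _ _

theorem not_dvd_24 {p : ℕ} (hp : p.Prime) (hp5 : 5 ≤ p) : ¬ p ∣ 24 := by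
  intro h
  have h24 : (24 : ℕ) = 2 ^ 3 * 3 := by norm_num
  rw [h24] at h
  rcases (Nat.Prime.dvd_mul hp).mp h with h | h
  · have := Nat.le_of_dvd (by norm_num) (hp.dvd_of_dvd_pow h)
    omega
  · have := Nat.le_of_dvd (by norm_num) h
    omega

/-- from `744, 984 ∈ p R'` to `p⁻¹ ∈ R'`. -/
theorem inv_mem_of_744_984 {p : ℕ} (hp : p.Prime) (hp5 : 5 ≤ p) (R' : Subring ℂ)
    {s6 s8 : ℂ} (hs6 : s6 ∈ R') (hs8 : s8 ∈ R') (h6 : (744 : ℂ) = p * s6) (h8 : (984 : ℂ) = p * s8) :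
    (p : ℂ)⁻¹ ∈ R' := by
  have hcop : IsCoprime (24 : ℤ) (p : ℤ) := by
    have : Nat.Coprime 24 p := ((Nat.Prime.coprime_iff_not_dvd hp).mpr (not_dvd_24 hp hp5)).symm
    exact_mod_cast Nat.isCoprime_iff_coprime.mpr this
  obtain ⟨u, v, huv⟩ := hcop
  have hp0 : (p : ℂ) ≠ 0 := by exact_mod_cast hp.ne_zero
  have huvC : (u : ℂ) * 24 + (v : ℂ) * p = 1 := by exact_mod_cast huv
  have : (p : ℂ)⁻¹ = u * (4 * s6 - 3 * s8) + v := by
    have h24 : (24 : ℂ) = p * (4 * s6 - 3 * s8) := by linear_combination 4 * h6 - 3 * h8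
    field_simp
    linear_combination -huvC + (u : ℂ) * h24
  rw [this]
  refine Subring.add_mem _ (Subring.mul_mem _ (intCast_mem _ _) ?_) (intCast_mem _ _)
  refine Subring.sub_mem _ (Subring.mul_mem _ ?_ hs6) (Subring.mul_mem _ ?_ hs8)
  · exact_mod_cast natCast_mem R' 4
  · exact_mod_cast natCast_mem R' 3

/-- **One weight.**  `G` an integral series with constant term `1` (`E₄` or `E₆`), `t` the
coefficients of the normalised generator of the level one space (`t 0 = 1`), and the trace identity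
`c t = a · G(q^p) + d · U_p(b G)` with `d = p^(1-e)`, `e ≥ 1`: then `G_p - t₁ ∈ p R'`. -/
theorem core_step {p : ℕ} (hp : p.Prime) (R' : Subring ℂ) (a b : PowerSeries ℂ)
    (ha0 : coeff 0 a = 1) (ha : ∀ n, 1 ≤ n → ∃ x ∈ R', coeff n a = (p : ℂ) * x)
    (hb : ∀ n, coeff n b = -(p : ℂ)⁻¹ * coeff (p * n) a)
    (G : PowerSeries ℤ) (hG0 : coeff 0 G = 1) (e' : ℕ) (d c : ℂ) (hd : d * (p : ℂ) ^ (e' + 1) = p)
    (t : ℕ → ℂ) (ht0 : t 0 = 1) (ht1 : t 1 ∈ R')
    (h : ∀ n, c * t n = coeff n (a * expand p hp.ne_zero (G.map (Int.castRingHom ℂ))) +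
      d * coeff (p * n) (b * G.map (Int.castRingHom ℂ))) :
    ∃ s ∈ R', ((coeff p G : ℤ) : ℂ) - t 1 = (p : ℂ) * s := by
  have hp0 : (p : ℂ) ≠ 0 := by exact_mod_cast hp.ne_zero
  have hpR : (p : ℂ) ∈ R' := natCast_mem R' p
  set Gc := G.map (Int.castRingHom ℂ) with hGc
  have hGc0 : coeff 0 Gc = 1 := by rw [hGc, coeff_map, hG0]; simp
  have hGcp : coeff p Gc = ((coeff p G : ℤ) : ℂ) := by rw [hGc, coeff_map]; simp
  have hb0 : coeff 0 b = -(p : ℂ)⁻¹ := by rw [hb 0, mul_zero, ha0, mul_one]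
  have hpb0 : (p : ℂ) * coeff 0 b = -1 := by rw [hb0]; field_simp
  have hbR : ∀ i, 1 ≤ i → coeff i b ∈ R' := by
    intro i hi
    obtain ⟨x, hx, hxe⟩ := ha (p * i) (Nat.mul_pos hp.pos hi |> Nat.succ_le_of_lt)
    rw [hb i, hxe]
    have : -(p : ℂ)⁻¹ * ((p : ℂ) * x) = -x := by field_simp
    rw [this]
    exact Subring.neg_mem _ hx
  obtain ⟨x1, hx1, ha1⟩ := ha 1 le_rfl
  -- the two coefficient identities
  have E0 : c = 1 + d * coeff 0 b := by
    have := h 0
    rw [ht0, mul_one, mul_zero] at this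
    rw [this]
    simp only [coeff_zero_eq_constantCoeff, map_mul, constantCoeff_expand]
    simp only [← coeff_zero_eq_constantCoeff, ha0, hGc0, mul_one]
  have hS := coeff_mul_sub_mem R' b Gc hbR (fun j => coeff_map_int_mem R' G j) p
  set S := coeff p (b * Gc) - coeff 0 b * coeff p Gc with hSdef
  have E1 : c * t 1 = coeff 1 a + d * (coeff 0 b * coeff p Gc + S) := by
    have := h 1
    rw [mul_one] at this
    rw [this]
    congr 1
    · rw [coeff_mul, Finset.Nat.antidiagonal_succ]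
      simp only [Finset.Nat.antidiagonal_zero, Finset.map_singleton, Function.Embedding.coeFn_mk,
        Function.Embedding.prodMap, Prod.map, Function.Embedding.refl_apply, Nat.succ_eq_add_one,
        zero_add, Finset.sum_cons, Finset.sum_singleton]
      rw [coeff_expand_of_not_dvd p hp.ne_zero _ (Nat.Prime.one_lt hp |> Nat.not_dvd_of_pos_of_lt Nat.one_pos)]
      simp only [coeff_zero_eq_constantCoeff, constantCoeff_expand]
      simp only [← coeff_zero_eq_constantCoeff, hGc0]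
      ring
    · rw [hSdef]; ring
  set P := (p : ℂ) ^ (e' + 1) with hP
  have hc : c * P = P - 1 := by linear_combination P * E0 + coeff 0 b * hd + hpb0
  refine ⟨P * x1 + S - (p : ℂ) ^ e' * t 1, ?_, ?_⟩
  · refine Subring.sub_mem _ (Subring.add_mem _ (Subring.mul_mem _ (Subring.pow_mem _ hpR _) hx1) hS)
      (Subring.mul_mem _ (Subring.pow_mem _ hpR _) ht1)
  · rw [← hGcp]
    have hPp : P = p * (p : ℂ) ^ e' := by rw [hP, pow_succ]; ring
    linear_combination P * E1 - t 1 * hc + (coeff 0 b * coeff p Gc + S) * hd + coeff p Gc * hpb0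
      + P * ha1 + t 1 * hPp

theorem sigma_prime {p : ℕ} (hp : p.Prime) (k : ℕ) : ArithmeticFunction.sigma k p = 1 + p ^ k := by
  rw [ArithmeticFunction.sigma_apply, hp.divisors, Finset.sum_pair hp.one_lt.ne]
  simp

theorem coeff_E4Z_prime {p : ℕ} (hp : p.Prime) : coeff p E4Z = 240 * (1 + (p : ℤ) ^ 3) := by
  rw [E4Z, coeff_mk, if_neg hp.ne_zero, sigma_prime hp]
  push_cast
  ring

theorem coeff_E6Z_prime {p : ℕ} (hp : p.Prime) : coeff p E6Z = -504 * (1 + (p : ℤ) ^ 5) := by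
  rw [E6Z, coeff_mk, if_neg hp.ne_zero, sigma_prime hp]
  push_cast
  ring

/-- **PEQ, power series core.**  `Q, R` the `q`-expansions of `E₄, E₆`. -/
theorem peq_core {p : ℕ} (hp : p.Prime) (hp5 : 5 ≤ p) (R' : Subring ℂ) (hinv : (p : ℂ)⁻¹ ∉ R')
    (a b : PowerSeries ℂ)
    (ha0 : coeff 0 a = 1) (ha : ∀ n, 1 ≤ n → ∃ x ∈ R', coeff n a = (p : ℂ) * x)
    (hb : ∀ n, coeff n b = -(p : ℂ)⁻¹ * coeff (p * n) a)
    (c6 d6 c8 d8 : ℂ) (hd6 : d6 * (p : ℂ) ^ 4 = p) (hd8 : d8 * (p : ℂ) ^ 6 = p)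
    (h6 : ∀ n, c6 * coeff n (E6Z.map (Int.castRingHom ℂ)) =
      coeff n (a * expand p hp.ne_zero (E4Z.map (Int.castRingHom ℂ))) +
        d6 * coeff (p * n) (b * E4Z.map (Int.castRingHom ℂ)))
    (h8 : ∀ n, c8 * coeff n (E4Z.map (Int.castRingHom ℂ) * E4Z.map (Int.castRingHom ℂ)) =
      coeff n (a * expand p hp.ne_zero (E6Z.map (Int.castRingHom ℂ))) +
        d8 * coeff (p * n) (b * E6Z.map (Int.castRingHom ℂ))) : False := by
  have hpR : (p : ℂ) ∈ R' := natCast_mem R' p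
  -- weight 6
  obtain ⟨s6, hs6, e6⟩ := core_step hp R' a b ha0 ha hb E4Z (by simp [E4Z]) 3 d6 c6 hd6
    (fun n => coeff n (E6Z.map (Int.castRingHom ℂ))) (by simp [E6Z])
    (coeff_map_int_mem R' E6Z 1) h6
  -- weight 8
  have h44 : E4Z.map (Int.castRingHom ℂ) * E4Z.map (Int.castRingHom ℂ) =
      (E4Z * E4Z).map (Int.castRingHom ℂ) := by rw [map_mul]
  have h44_0 : coeff 0 (E4Z * E4Z) = 1 := by
    simp [coeff_zero_eq_constantCoeff, constantCoeff_E4Z]
  have h44_1 : coeff 1 (E4Z * E4Z) = 480 := by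
    have := coeff_one_pow 2 E4Z
    rw [pow_two] at this
    rw [this, coeff_one_E4Z, constantCoeff_E4Z]
    norm_num
  obtain ⟨s8, hs8, e8⟩ := core_step hp R' a b ha0 ha hb E6Z (by simp [E6Z]) 5 d8 c8 hd8
    (fun n => coeff n (E4Z.map (Int.castRingHom ℂ) * E4Z.map (Int.castRingHom ℂ)))
    (by simp only [h44, coeff_map, h44_0]; simp)
    (by simp only [h44]; exact coeff_map_int_mem R' _ 1) h8
  simp only [coeff_E4Z_prime hp, coeff_map, coeff_one_E6Z, eq_intCast] at e6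
  simp only [coeff_E6Z_prime hp, h44, coeff_map, h44_1, eq_intCast] at e8
  push_cast at e6 e8
  refine hinv (inv_mem_of_744_984 hp hp5 R' (s6 := s6 - 240 * (p : ℂ) ^ 2)
    (s8 := -s8 - 504 * (p : ℂ) ^ 4) ?_ ?_ ?_ ?_)
  · refine Subring.sub_mem _ hs6 (Subring.mul_mem _ ?_ (Subring.pow_mem _ hpR _))
    exact_mod_cast natCast_mem R' 240
  · refine Subring.sub_mem _ (Subring.neg_mem _ hs8) (Subring.mul_mem _ ?_ (Subring.pow_mem _ hpR _))
    exact_mod_cast natCast_mem R' 504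
  · linear_combination e6
  · linear_combination -e8

end Fermat.Agent.Eis.PEq
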