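/-
S16 (Eisenstein ideal), upper bound, case `ℓ = p ≥ 5` (package PEQ): there is no
`F ∈ M₂(Γ₀(p))` with `F ≡ 1 mod p`.  Wiring of `Eis/PEqCore.lean` with the trace formula.
-/
import Mathlib
import Fermat.Agent.Eis.LocalRing
import Fermat.Agent.Eis.ConjDefs
import Fermat.Agent.Eis.ConjSharp
import Fermat.Agent.Eis.ConjTrace
import Fermat.Agent.Eis.PEqCore
import Fermat.Agent.X0.Ana.JFunction

set_option autoImplicit false

open UpperHalfPlane ModularForm Complex CongruenceSubgroup EisensteinSeries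
open scoped MatrixGroups ModularForm

namespace Fermat.Agent.Eis

section PEQ
variable (p : ℕ) [Fact p.Prime]

/-- a level one form of weight `6` is a multiple of `E₆`. -/
theorem PEq.qExpansion_weight_six (T : ModularForm 𝒮ℒ 6) :
    qExpansion 1 T = (qExpansion 1 T).coeff 0 • E6Z.map (Int.castRingHom ℂ) := by
  have key := Fermat.Agent.X0.eq_smul_of_rank_one levelOne_weight_six_rank_one T E₆
    (E_qExpansion_coeff_zero _ ⟨3, rfl⟩)
  conv_lhs => rw [key]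
  have h2 : (((qExpansion 1 T).coeff 0 • E₆ : ModularForm 𝒮ℒ 6) : ℍ → ℂ) =
      (qExpansion 1 T).coeff 0 • (E₆ : ℍ → ℂ) := rfl
  rw [h2, ModularForm.qExpansion_smul one_pos one_mem_strictPeriods_SL, qExpansion_E6_eq]

/-- a level one form of weight `8` is a multiple of `E₄²`. -/
theorem PEq.qExpansion_weight_eight (T : ModularForm 𝒮ℒ 8) :
    qExpansion 1 T = (qExpansion 1 T).coeff 0 •
      (E4Z.map (Int.castRingHom ℂ) * E4Z.map (Int.castRingHom ℂ)) := by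
  have h8 : (4 + 4 : ℤ) = 8 := by norm_num
  have hrank : Module.rank ℂ (ModularForm 𝒮ℒ 8) = 1 := by
    have h := dimension_level_one 8 ⟨4, rfl⟩
    have h8' : ((8 : ℕ) : ℤ) = 8 := by norm_num
    rw [h8'] at h
    rw [h]
    have : ¬ (8 ≡ 2 [MOD 12]) := by decide
    rw [if_neg this]
    norm_num
  have hE44q : qExpansion 1 (ModularForm.mcast h8 (E₄.mul E₄)) =
      E4Z.map (Int.castRingHom ℂ) * E4Z.map (Int.castRingHom ℂ) := by
    rw [ModularForm.coe_mcast, ModularForm.coe_mul,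
      ModularForm.qExpansion_mul_coe one_pos one_mem_strictPeriods_SL E₄ E₄, qExpansion_E4_eq]
  have hE44 : (qExpansion 1 (ModularForm.mcast h8 (E₄.mul E₄))).coeff 0 = 1 := by
    rw [hE44q, ← map_mul, PowerSeries.coeff_map]
    simp [PowerSeries.coeff_zero_eq_constantCoeff, constantCoeff_E4Z]
  have key := Fermat.Agent.X0.eq_smul_of_rank_one hrank T (ModularForm.mcast h8 (E₄.mul E₄)) hE44
  conv_lhs => rw [key]
  have h2 : (((qExpansion 1 T).coeff 0 • ModularForm.mcast h8 (E₄.mul E₄) : ModularForm 𝒮ℒ 8) :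
      ℍ → ℂ) = (qExpansion 1 T).coeff 0 • (ModularForm.mcast h8 (E₄.mul E₄) : ℍ → ℂ) := rfl
  rw [h2, ModularForm.qExpansion_smul one_pos one_mem_strictPeriods_SL, hE44q]

/-- the trace of `F · g(pz)` (`F` of weight `2` on `Γ₀(p)`, `g` of level one and weight `k`):
a level one form of weight `2 + k` with an explicit `q`-expansion. -/
theorem PEq.exists_trace_mul_levelOne (F : ModularForm (Gamma0 p) 2) (k : ℤ) (g : ModularForm 𝒮ℒ k) :
    ∃ T : ModularForm 𝒮ℒ (2 + k), ∀ n, (qExpansion 1 T).coeff n =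
      (qExpansion 1 F * PowerSeries.expand p (NeZero.ne p) (qExpansion 1 g)).coeff n +
        ((p : ℂ) * ((-1 : ℂ) ^ k * (p : ℂ) ^ (-k))) *
          (sharpQ p 2 F * qExpansion 1 g).coeff (p * n) := by
  have hFg : IsGamma0Form p 2 F := IsGamma0Form.of_form p F
  have hg : IsGamma0Form p k g := IsGamma0Form.of_levelOne g
  have hsg : IsGamma0Form p k (sharp p k g) := hg.sharp p
  have hH : IsGamma0Form p (2 + k) (⇑F * sharp p k ⇑g) := hFg.mul hsg
  obtain ⟨T, hT⟩ := exists_trace p hH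
  refine ⟨T, fun n => ?_⟩
  have e1 : qExpansion 1 (⇑F * sharp p k ⇑g) =
      qExpansion 1 F * PowerSeries.expand p (NeZero.ne p) (qExpansion 1 g) := by
    rw [hFg.qExpansion_mul hsg, ← sharpQ_levelOne p g]
    rfl
  have e2 : sharpQ p (2 + k) (⇑F * sharp p k ⇑g) =
      ((-1 : ℂ) ^ k * (p : ℂ) ^ (-k)) • (sharpQ p 2 F * qExpansion 1 g) := by
    unfold sharpQ
    rw [sharp_mul, sharp_sharp, (hFg.sharp p).qExpansion_mul (hg.smul _),
      hg.qExpansion_smul, mul_smul_comm]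
  rw [hT, e1, e2, map_add]
  congr 1
  rw [PowerSeries.coeff_smul, Up, PowerSeries.coeff_mk, PowerSeries.coeff_smul]
  simp only [smul_eq_mul]
  ring

/-- **PEQ**: `ℓ = p ≥ 5`.  There is no `F ∈ M₂(Γ₀(p))` with `F ≡ 1 mod p`. -/
theorem no_oneMod_self (hp5 : 5 ≤ p) (F : ModularForm (Gamma0 p) 2)
    (hF : IsOneModQ p 1 (qExpansion 1 F)) : False := by
  have hp : p.Prime := Fact.out
  have hp0 : (p : ℂ) ≠ 0 := by exact_mod_cast hp.ne_zero
  obtain ⟨ha0, ha⟩ := hF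
  have hinv : (p : ℂ)⁻¹ ∉ Zloc p := ell_inv_not_mem_Zloc p
  obtain ⟨T6, hT6⟩ := PEq.exists_trace_mul_levelOne p F 4 E₄
  obtain ⟨T8, hT8⟩ := PEq.exists_trace_mul_levelOne p F 6 E₆
  have h6 : (2 + 4 : ℤ) = 6 := by norm_num
  have h8 : (2 + 6 : ℤ) = 8 := by norm_num
  have q6 := PEq.qExpansion_weight_six (ModularForm.mcast h6 T6)
  have q8 := PEq.qExpansion_weight_eight (ModularForm.mcast h8 T8)
  rw [ModularForm.coe_mcast] at q6 q8
  have hd6 : ((p : ℂ) * ((-1 : ℂ) ^ (4 : ℤ) * (p : ℂ) ^ (-(4 : ℤ)))) * (p : ℂ) ^ 4 = p := by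
    rw [zpow_neg, show ((p : ℂ) ^ (4 : ℤ)) = (p : ℂ) ^ (4 : ℕ) from zpow_natCast _ 4]
    have : ((-1 : ℂ) ^ (4 : ℤ)) = 1 := by norm_num
    rw [this]
    field_simp
  have hd8 : ((p : ℂ) * ((-1 : ℂ) ^ (6 : ℤ) * (p : ℂ) ^ (-(6 : ℤ)))) * (p : ℂ) ^ 6 = p := by
    rw [zpow_neg, show ((p : ℂ) ^ (6 : ℤ)) = (p : ℂ) ^ (6 : ℕ) from zpow_natCast _ 6]
    have : ((-1 : ℂ) ^ (6 : ℤ)) = 1 := by norm_num
    rw [this]
    field_simp
  refine PEq.peq_core hp hp5 (Zloc p) hinv (qExpansion 1 F) (sharpQ p 2 F) ha0 ?_ ?_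
    ((qExpansion 1 T6).coeff 0) _ ((qExpansion 1 T8).coeff 0) _ hd6 hd8 ?_ ?_
  · intro n hn
    obtain ⟨x, hx, h⟩ := ha n hn
    exact ⟨x, hx, by simpa using h⟩
  · intro n
    exact sharpQ_weight_two p (IsGamma0Form.of_form p F) n
  · intro n
    rw [← smul_eq_mul, ← PowerSeries.coeff_smul, ← q6, hT6 n, qExpansion_E4_eq]
  · intro n
    rw [← smul_eq_mul, ← PowerSeries.coeff_smul, ← q8, hT8 n, qExpansion_E6_eq]

end PEQ

end Fermat.Agent.Eis
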