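import Mathlib
import Fermat.Agent.Eis.HeckeN
import Fermat.Prelude.Def_CuspForm_HeckeLocal

/-!
# S16 / reduction, part 4: the perfect pairing between the integral lattice and the Hecke lattice algebra

`L = intLattice p 2`, `T = heckeLatticeAlgebra p ∅ ⊆ End_ℤ(L)`; the pairing `T × L → ℤ`, `(t, f) ↦ a₁(t f)` is perfect:
every `ℤ`-linear functional on `T` is `t ↦ a₁(t f)` for a form `f ∈ L`.  Consequently every ring homomorphism
`T → ℤ/m` with Eisenstein values on the generators produces a cusp form with integer coefficients `≡ σ'(k)` mod `m`.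
-/

set_option autoImplicit false

namespace Fermat.Agent.Eis

open CongruenceSubgroup ModularFormClass CuspForm Fermat.Agent.S49

/-! ### abstract algebra -/

/-- two finite free `ℤ`-modules with a bilinear pairing which is nondegenerate on both sides and "saturated" on the
`L`-side: then `L → Hom(T, ℤ)` is surjective. -/
theorem flip_surjective_of_saturated {L T : Type*} [AddCommGroup L] [Module ℤ L] [AddCommGroup T] [Module ℤ T]
    [Module.Free ℤ L] [Module.Finite ℤ L] [Module.Free ℤ T] [Module.Finite ℤ T]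
    (B : T →ₗ[ℤ] L →ₗ[ℤ] ℤ) (h1 : Function.Injective B) (h2 : Function.Injective B.flip)
    (hsat : ∀ (f : L) (d : ℕ), d ≠ 0 → (∀ t, (d : ℤ) ∣ B t f) → ∃ g : L, f = d • g)
    (lam : T →ₗ[ℤ] ℤ) : ∃ f : L, ∀ t, B t f = lam t := by
  have hr1 : Module.finrank ℤ L ≤ Module.finrank ℤ T := by
    have := LinearMap.finrank_le_finrank_of_injective h2
    rwa [Module.finrank_linearMap_self] at this
  have hr2 : Module.finrank ℤ T ≤ Module.finrank ℤ L := by
    have := LinearMap.finrank_le_finrank_of_injective h1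
    rwa [Module.finrank_linearMap_self] at this
  have hr : Module.finrank ℤ (LinearMap.range B.flip) = Module.finrank ℤ (T →ₗ[ℤ] ℤ) := by
    rw [LinearMap.finrank_range_of_inj h2, Module.finrank_linearMap_self]
    omega
  haveI : Finite ((T →ₗ[ℤ] ℤ) ⧸ LinearMap.range B.flip) := Submodule.finiteQuotientOfFreeOfRankEq _ hr
  set d := Nat.card ((T →ₗ[ℤ] ℤ) ⧸ LinearMap.range B.flip) with hddef
  have hd : d ≠ 0 := Nat.card_pos.ne'
  have hmem : d • lam ∈ LinearMap.range B.flip :=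
    AddSubgroup.nsmul_index_mem (LinearMap.range B.flip).toAddSubgroup lam
  obtain ⟨f, hf⟩ := hmem
  have hft : ∀ t, B t f = (d : ℤ) * lam t := by
    intro t
    have := LinearMap.congr_fun hf t
    simpa using this
  obtain ⟨g, rfl⟩ := hsat f d hd (fun t => ⟨lam t, hft t⟩)
  refine ⟨g, fun t => ?_⟩
  have h := hft t
  rw [map_nsmul, nsmul_eq_mul] at h
  exact mul_left_cancel₀ (Nat.cast_ne_zero.mpr hd) h

variable (p : ℕ) [Fact p.Prime]

/-! ### integer `q`-coefficients on the lattice -/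

lemma exists_int_qCoeff (f : ↥(intLattice p 2)) (k : ℕ) : ∃ m : ℤ, qCoeff ⇑f.1 k = (m : ℂ) :=
  (mem_intLattice_iff f.1).mp f.2 k

/-- the `k`-th `q`-coefficient of a lattice form, as an integer -/
noncomputable def aZ (k : ℕ) : ↥(intLattice p 2) →ₗ[ℤ] ℤ where
  toFun f := Classical.choose (exists_int_qCoeff p f k)
  map_add' f g := by
    apply Int.cast_injective (α := ℂ)
    rw [Int.cast_add, ← Classical.choose_spec (exists_int_qCoeff p f k),
      ← Classical.choose_spec (exists_int_qCoeff p g k), ← Classical.choose_spec (exists_int_qCoeff p (f + g) k),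
      Submodule.coe_add, qCoeff_add]
  map_smul' c f := by
    apply Int.cast_injective (α := ℂ)
    rw [RingHom.id_apply, smul_eq_mul, Int.cast_mul, ← Classical.choose_spec (exists_int_qCoeff p f k),
      ← Classical.choose_spec (exists_int_qCoeff p (c • f) k), Submodule.coe_smul, ← Int.cast_smul_eq_zsmul ℂ,
      qCoeff_smul]

lemma aZ_spec (k : ℕ) (f : ↥(intLattice p 2)) : (aZ p k f : ℂ) = qCoeff ⇑f.1 k :=
  (Classical.choose_spec (exists_int_qCoeff p f k)).symm

lemma aZ_zero_index (f : ↥(intLattice p 2)) : aZ p 0 f = 0 := by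
  apply Int.cast_injective (α := ℂ)
  rw [aZ_spec, qCoeff_zero_index, Int.cast_zero]

lemma eq_zero_of_aZ (f : ↥(intLattice p 2)) (h : ∀ k, 1 ≤ k → aZ p k f = 0) : f = 0 := by
  apply Subtype.ext
  apply eq_zero_of_qCoeff_eq_zero
  intro k
  rcases Nat.eq_zero_or_pos k with hk | hk
  · rw [hk, qCoeff_zero_index]
  · rw [← aZ_spec, h k hk, Int.cast_zero]

/-! ### the pairing -/

/-- the pairing `(t, f) ↦ a₁(t f)` -/
noncomputable def pairing : ↥(heckeLatticeAlgebra p (∅ : Set ℕ)) →ₗ[ℤ] ↥(intLattice p 2) →ₗ[ℤ] ℤ where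
  toFun t := (aZ p 1).comp t.1
  map_add' s t := by
    ext f
    simp
  map_smul' c t := by
    ext f
    simp

lemma pairing_apply (t : ↥(heckeLatticeAlgebra p (∅ : Set ℕ))) (f : ↥(intLattice p 2)) :
    pairing p t f = aZ p 1 (t.1 f) := rfl

lemma latticeRestrictHom_apply_coe (t : heckeAlgebra p 2 (∅ : Set ℕ)) (f : ↥(intLattice p 2)) :
    (((latticeRestrictHom p (∅ : Set ℕ) t).1 f : ↥(intLattice p 2)) : CuspForm (Gamma0 p) 2) = t.1 f.1 := rfl

/-- the operators `t_k` in the lattice algebra -/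
theorem exists_tLat (k : ℕ) (hk : 1 ≤ k) :
    ∃ t : ↥(heckeLatticeAlgebra p (∅ : Set ℕ)), (∀ f : ↥(intLattice p 2), aZ p 1 (t.1 f) = aZ p k f) ∧
      ∀ (m : ℕ) (ψ : ↥(heckeLatticeAlgebra p (∅ : Set ℕ)) →+* ZMod m),
        (∀ ℓ : Nat.Primes, ψ (latticeRestrictHom p (∅ : Set ℕ) (gen p ℓ)) = (eisVal p ℓ : ZMod m)) →
          ψ t = (eisCoeff p k : ZMod m) := by
  obtain ⟨t, ht, hχ⟩ := exists_heckeN p k hk
  refine ⟨latticeRestrictHom p (∅ : Set ℕ) t, fun f => ?_, fun m ψ hψ => ?_⟩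
  · apply Int.cast_injective (α := ℂ)
    rw [aZ_spec, aZ_spec, latticeRestrictHom_apply_coe, ht]
  · exact hχ (ZMod m) (ψ.comp (latticeRestrictHom p (∅ : Set ℕ)).toRingHom) hψ

lemma pairing_flip_injective : Function.Injective (pairing p).flip := by
  rw [injective_iff_map_eq_zero]
  intro f hf
  apply eq_zero_of_aZ
  intro k hk
  obtain ⟨t, ht, -⟩ := exists_tLat p k hk
  rw [← ht f]
  exact LinearMap.congr_fun hf t

lemma pairing_injective : Function.Injective (pairing p) := by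
  rw [injective_iff_map_eq_zero]
  intro t ht
  apply Subtype.ext
  apply LinearMap.ext
  intro f
  show t.1 f = 0
  apply eq_zero_of_aZ
  intro k hk
  obtain ⟨tk, htk, -⟩ := exists_tLat p k hk
  rw [← htk (t.1 f)]
  have h1 : tk.1 (t.1 f) = t.1 (tk.1 f) := by
    have : (tk * t).1 f = (t * tk).1 f := by rw [mul_comm]
    exact this
  rw [h1]
  exact LinearMap.congr_fun ht (tk.1 f)

lemma pairing_saturated (f : ↥(intLattice p 2)) (d : ℕ) (hd : d ≠ 0) (h : ∀ t, (d : ℤ) ∣ pairing p t f) :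
    ∃ g : ↥(intLattice p 2), f = d • g := by
  have hdC : (d : ℂ) ≠ 0 := Nat.cast_ne_zero.mpr hd
  have hg : ((d : ℂ)⁻¹ • f.1) ∈ intLattice p 2 := by
    rw [mem_intLattice_iff]
    intro k
    rcases Nat.eq_zero_or_pos k with hk | hk
    · exact ⟨0, by rw [hk, qCoeff_zero_index, Int.cast_zero]⟩
    · obtain ⟨t, ht, -⟩ := exists_tLat p k hk
      obtain ⟨c, hc⟩ := h t
      refine ⟨c, ?_⟩
      rw [qCoeff_smul, ← aZ_spec, ← ht f, ← pairing_apply, hc]
      push_cast
      field_simp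
  refine ⟨⟨_, hg⟩, ?_⟩
  apply Subtype.ext
  rw [AddSubmonoidClass.coe_nsmul, ← Nat.cast_smul_eq_nsmul ℂ, smul_smul, mul_inv_cancel₀ hdC, one_smul]

/-- **Perfectness.** -/
theorem exists_form_of_functional (lam : ↥(heckeLatticeAlgebra p (∅ : Set ℕ)) →ₗ[ℤ] ℤ) :
    ∃ f : ↥(intLattice p 2), ∀ t : ↥(heckeLatticeAlgebra p (∅ : Set ℕ)), aZ p 1 (t.1 f) = lam t := by
  haveI := intLattice.moduleFinite p
  haveI := intLattice.moduleFree p
  exact flip_surjective_of_saturated (pairing p) (pairing_injective p) (pairing_flip_injective p)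
    (pairing_saturated p) lam

/-! ### congruences -/

/-- a cusp form with integer coefficients congruent to the Eisenstein coefficients `σ'(k)` modulo `m` -/
def IsEisMod (m : ℕ) (f : CuspForm (Gamma0 p) 2) : Prop :=
  ∀ k : ℕ, ∃ a : ℤ, qCoeff ⇑f k = (a : ℂ) ∧ (1 ≤ k → (m : ℤ) ∣ a - eisCoeff p k)

/-- an Eisenstein character of the lattice algebra modulo `m` gives a congruence modulo `m` -/
theorem exists_isEisMod_of_ringHom (m : ℕ) (ψ : ↥(heckeLatticeAlgebra p (∅ : Set ℕ)) →+* ZMod m)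
    (hψ : ∀ ℓ : Nat.Primes, ψ (latticeRestrictHom p (∅ : Set ℕ) (gen p ℓ)) = (eisVal p ℓ : ZMod m)) :
    ∃ f : CuspForm (Gamma0 p) 2, IsEisMod p m f := by
  obtain ⟨lam, hlam⟩ := Module.projective_lifting_property
    ((Int.castAddHom (ZMod m)).toIntLinearMap) (ψ.toAddMonoidHom.toIntLinearMap)
    (fun x => ⟨x.cast, by simp⟩)
  have hlam' : ∀ t, ((lam t : ℤ) : ZMod m) = ψ t := fun t => LinearMap.congr_fun hlam t
  obtain ⟨f, hf⟩ := exists_form_of_functional p lam
  refine ⟨f.1, fun k => ⟨aZ p k f, (aZ_spec p k f).symm, fun hk => ?_⟩⟩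
  obtain ⟨t, ht, hχ⟩ := exists_tLat p k hk
  rw [← ht f, hf t, ← ZMod.intCast_eq_intCast_iff_dvd_sub, hlam', hχ m ψ hψ]
  

end Fermat.Agent.Eis
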