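import Mathlib

/-!
# S16 / reduction, part 1: the cardinality of `T ⧸ φ(ker ev)`

`R = ℤ[X_s : s ∈ σ]`, `ev : R → ℤ` the evaluation at `e : σ → ℤ`, `φ : R → T` a surjective ring homomorphism.
Then `T ⧸ (ker ev)·T ≃ ℤ ⧸ ev(ker φ)`, so its cardinality is the nonnegative generator of the ideal `ev (ker φ)`.
-/

set_option autoImplicit false

namespace Fermat.Agent.Eis

open MvPolynomial

section

variable {σ : Type*} {T : Type*} [CommRing T] (e : σ → ℤ) (φ : MvPolynomial σ ℤ →+* T)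

/-- the ideal `ev (ker φ)` of `ℤ` -/
noncomputable def evKer : Ideal ℤ := Ideal.map (aeval (R := ℤ) e) (RingHom.ker φ)

lemma aeval_int_surjective : Function.Surjective (aeval (R := ℤ) e : MvPolynomial σ ℤ →ₐ[ℤ] ℤ) := by
  intro a
  exact ⟨C a, by simp⟩

lemma mem_evKer_iff (a : ℤ) : a ∈ evKer e φ ↔ ∃ P : MvPolynomial σ ℤ, φ P = 0 ∧ aeval e P = a := by
  unfold evKer
  rw [Ideal.mem_map_iff_of_surjective _ (aeval_int_surjective e)]
  constructor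
  · rintro ⟨P, hP, rfl⟩; exact ⟨P, RingHom.mem_ker.mp hP, rfl⟩
  · rintro ⟨P, hP, rfl⟩; exact ⟨P, RingHom.mem_ker.mpr hP, rfl⟩

variable (hφ : Function.Surjective φ)

include hφ

/-- the induced homomorphism `T → ℤ ⧸ ev(ker φ)` -/
lemma exists_quotient_hom :
    ∃ ψ : T →+* ℤ ⧸ evKer e φ, (∀ P, ψ (φ P) = Ideal.Quotient.mk _ (aeval e P)) ∧
      Function.Surjective ψ ∧ RingHom.ker ψ = Ideal.map φ (RingHom.ker (aeval (R := ℤ) e)) := by
  -- `R → ℤ → ℤ ⧸ evKer` kills `ker φ`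
  let g : MvPolynomial σ ℤ →+* ℤ ⧸ evKer e φ :=
    (Ideal.Quotient.mk (evKer e φ)).comp (aeval (R := ℤ) e : MvPolynomial σ ℤ →ₐ[ℤ] ℤ).toRingHom
  have hgdef : ∀ P, g P = Ideal.Quotient.mk _ (aeval e P) := fun P => rfl
  have hg : ∀ P, φ P = 0 → g P = 0 := by
    intro P hP
    rw [hgdef, Ideal.Quotient.eq_zero_iff_mem, mem_evKer_iff]
    exact ⟨P, hP, rfl⟩
  let ψ : T →+* ℤ ⧸ evKer e φ :=
    RingHom.liftOfSurjective φ hφ ⟨g, fun P hP => hg P (RingHom.mem_ker.mp hP)⟩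
  have hψ : ∀ P, ψ (φ P) = g P := fun P => RingHom.liftOfRightInverse_comp_apply _ _ _ _ P
  refine ⟨ψ, fun P => hψ P, ?_, ?_⟩
  · intro y
    obtain ⟨a, rfl⟩ := Ideal.Quotient.mk_surjective y
    obtain ⟨P, rfl⟩ := aeval_int_surjective e a
    exact ⟨φ P, hψ P⟩
  · ext t
    obtain ⟨P, rfl⟩ := hφ t
    rw [RingHom.mem_ker, hψ, hgdef, Ideal.Quotient.eq_zero_iff_mem, mem_evKer_iff,
      Ideal.mem_map_iff_of_surjective _ hφ]
    constructor
    · rintro ⟨Q, hQ, hQP⟩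
      refine ⟨P - Q, ?_, by rw [map_sub, hQ, sub_zero]⟩
      rw [RingHom.mem_ker, map_sub, hQP, sub_self]
    · rintro ⟨Q, hQ, hQP⟩
      refine ⟨P - Q, by rw [map_sub, hQP, sub_self], ?_⟩
      rw [map_sub, RingHom.mem_ker.mp hQ, sub_zero]

/-- **Cardinality of the quotient.** -/
theorem card_quotient_map_ker (n : ℕ) (hn : evKer e φ = Ideal.span {(n : ℤ)}) :
    Nat.card (T ⧸ Ideal.map φ (RingHom.ker (aeval (R := ℤ) e))) = n := by
  obtain ⟨ψ, -, hsurj, hker⟩ := exists_quotient_hom e φ hφ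
  have e1 : (T ⧸ RingHom.ker ψ) ≃+* (ℤ ⧸ evKer e φ) := RingHom.quotientKerEquivOfSurjective hsurj
  rw [← hker, Nat.card_congr e1.toEquiv, hn, Nat.card_congr (Int.quotientSpanNatEquivZMod n).toEquiv,
    Nat.card_zmod]

end

end Fermat.Agent.Eis
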