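import Mathlib

/-!
# S16 / upper bound: reduction of the elementary symmetric functions of the conjugate series

Pure algebra (Mathlib only).  `R` is a subring of a commutative ring `𝕂` (for us `ℂ`), `φ : R →+* κ` a
ring hom ("reduction").  If the `p + 1` conjugate series `a(t^p)`, `b(ζ^j t)` (`j < p`) of a form have
lifts `A1, B1` to `R⟦X⟧`, and the reduction of `B1` is a series in `t^p`, say `B̄(t^p)`, then the
`i`-th elementary symmetric function `E(t^p)` of the conjugates has a lift `E1` to `R⟦X⟧` whose
reduction is the coefficient of `X^(p+1-i)` in `(X + Ā)(X + B̄)^p`.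
-/

set_option autoImplicit false

open Polynomial

namespace Fermat.Agent.Eis.Red

/-- ring homs commute with `Multiset.esymm`. -/
lemma map_multiset_esymm {A B : Type*} [CommSemiring A] [CommSemiring B] (ψ : A →+* B)
    (s : Multiset A) (n : ℕ) : ψ (s.esymm n) = (s.map ψ).esymm n := by
  rw [Multiset.esymm, Multiset.esymm, map_multiset_sum, Multiset.powersetCard_map,
    Multiset.map_map, Multiset.map_map]
  congr 1
  apply Multiset.map_congr rfl
  intro t _
  simp [map_multiset_prod]

lemma expand_injective {A : Type*} [CommRing A] {p : ℕ} (hp : p ≠ 0) :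
    Function.Injective (PowerSeries.expand p hp : PowerSeries A → PowerSeries A) := by
  intro f g h
  ext n
  have := congrArg (PowerSeries.coeff (p * n)) h
  rwa [PowerSeries.coeff_expand_mul, PowerSeries.coeff_expand_mul] at this

lemma map_rescale' {A B : Type*} [CommRing A] [CommRing B] (ψ : A →+* B) (a : A)
    (f : PowerSeries A) :
    PowerSeries.map ψ (PowerSeries.rescale a f) = PowerSeries.rescale (ψ a) (PowerSeries.map ψ f) := by
  ext n
  simp [PowerSeries.coeff_rescale]

lemma rescale_expand_of_pow_eq_one {A : Type*} [CommRing A] {p : ℕ} (hp : p ≠ 0) (a : A)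
    (ha : a ^ p = 1) (f : PowerSeries A) :
    PowerSeries.rescale a (PowerSeries.expand p hp f) = PowerSeries.expand p hp f := by
  ext n
  rw [PowerSeries.coeff_rescale, PowerSeries.coeff_expand]
  split_ifs with h
  · obtain ⟨m, rfl⟩ := h
    rw [pow_mul, ha, one_pow, one_mul]
  · rw [mul_zero]

lemma univ_option_val_map {α β : Type*} [Fintype α] (f : Option α → β) :
    (Finset.univ : Finset (Option α)).val.map f =
      f none ::ₘ (Finset.univ : Finset α).val.map (fun j => f (some j)) := by
  rw [univ_option]
  simp [Finset.insertNone, Multiset.map_map]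

/-- Vieta for the multiset `{a, b, …, b}`. -/
lemma esymm_cons_replicate {A : Type*} [CommRing A] (a b : A) (p i : ℕ) (hi : i ≤ p + 1) :
    (a ::ₘ Multiset.replicate p b).esymm i =
      ((X + C a) * (X + C b) ^ p : A[X]).coeff (p + 1 - i) := by
  have hcard : Multiset.card (a ::ₘ Multiset.replicate p b) = p + 1 := by simp
  have h := Multiset.prod_X_add_C_coeff (a ::ₘ Multiset.replicate p b) (k := p + 1 - i)
    (by rw [hcard]; omega)
  rw [hcard, show p + 1 - (p + 1 - i) = i by omega] at h
  rw [← h, Multiset.map_cons, Multiset.prod_cons, Multiset.map_replicate, Multiset.prod_replicate]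

/-- **reduction of the elementary symmetric functions of the conjugates** -/
theorem reduction_esymm {𝕂 : Type*} [CommRing 𝕂] {p : ℕ} (hp : p ≠ 0) (R : Subring 𝕂) (ζ : R)
    (hζ : ζ ^ p = 1) {κ : Type*} [CommRing κ] (φ : R →+* κ)
    (A1 B1 : PowerSeries R) (Bbar : PowerSeries κ)
    (hBbar : PowerSeries.map φ B1 = PowerSeries.expand p hp Bbar)
    (s : Option (Fin p) → PowerSeries 𝕂)
    (hs0 : s none = PowerSeries.expand p hp (PowerSeries.map R.subtype A1))
    (hs1 : ∀ j : Fin p, s (some j) =
      PowerSeries.rescale ((ζ : 𝕂) ^ (j : ℕ)) (PowerSeries.map R.subtype B1))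
    (E : PowerSeries 𝕂) (i : ℕ) (hi : i ≤ p + 1)
    (he : PowerSeries.expand p hp E = ((Finset.univ : Finset (Option (Fin p))).val.map s).esymm i) :
    ∃ E1 : PowerSeries R, PowerSeries.map R.subtype E1 = E ∧
      PowerSeries.map φ E1 =
        ((X + C (PowerSeries.map φ A1)) * (X + C Bbar) ^ p : (PowerSeries κ)[X]).coeff
          (p + 1 - i) := by
  classical
  -- lifted conjugate series
  let S1 : Option (Fin p) → PowerSeries R := fun j =>
    match j with
    | none => PowerSeries.expand p hp A1
    | some j => PowerSeries.rescale (ζ ^ (j : ℕ)) B1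
  have hS1 : ∀ j, PowerSeries.map R.subtype (S1 j) = s j := by
    intro j
    cases j with
    | none => rw [hs0]; exact PowerSeries.map_expand p hp _ _
    | some j =>
      rw [hs1]
      show PowerSeries.map R.subtype (PowerSeries.rescale (ζ ^ (j : ℕ)) B1) = _
      rw [map_rescale']
      simp
  let T : PowerSeries R := ((Finset.univ : Finset (Option (Fin p))).val.map S1).esymm i
  have hT : PowerSeries.map R.subtype T = PowerSeries.expand p hp E := by
    rw [he]
    show (PowerSeries.map R.subtype) (((Finset.univ : Finset (Option (Fin p))).val.map S1).esymm i) = _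
    rw [map_multiset_esymm, Multiset.map_map]
    congr 2
    funext j
    exact hS1 j
  -- un-expand
  let E1 : PowerSeries R := PowerSeries.mk fun n => PowerSeries.coeff (p * n) T
  have hE1 : PowerSeries.expand p hp E1 = T := by
    ext n
    rw [PowerSeries.coeff_expand]
    split_ifs with h
    · obtain ⟨m, rfl⟩ := h
      rw [Nat.mul_div_cancel_left _ (Nat.pos_of_ne_zero hp)]
      simp [E1]
    · have h1 := congrArg (PowerSeries.coeff n) hT
      rw [PowerSeries.coeff_map, PowerSeries.coeff_expand_of_not_dvd p hp _ h] at h1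
      have : ((PowerSeries.coeff n T : R) : 𝕂) = 0 := h1
      rw [this]
      rfl
  have hE1' : PowerSeries.map R.subtype E1 = E := by
    apply expand_injective hp
    rw [← PowerSeries.map_expand, hE1, hT]
  refine ⟨E1, hE1', ?_⟩
  apply expand_injective hp
  rw [← PowerSeries.map_expand, hE1]
  show (PowerSeries.map φ) (((Finset.univ : Finset (Option (Fin p))).val.map S1).esymm i) = _
  rw [map_multiset_esymm, Multiset.map_map, univ_option_val_map]
  have h1 : ∀ j : Fin p, ((PowerSeries.map φ) ∘ S1) (some j) = PowerSeries.expand p hp Bbar := by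
    intro j
    show PowerSeries.map φ (PowerSeries.rescale (ζ ^ (j : ℕ)) B1) = _
    rw [map_rescale', hBbar, rescale_expand_of_pow_eq_one hp]
    rw [map_pow, ← pow_mul, mul_comm, pow_mul, ← map_pow, hζ, map_one, one_pow]
  have h0 : ((PowerSeries.map φ) ∘ S1) none = PowerSeries.expand p hp (PowerSeries.map φ A1) := by
    show PowerSeries.map φ (PowerSeries.expand p hp A1) = _
    exact PowerSeries.map_expand p hp _ _
  rw [h0]
  simp only [h1]
  rw [Multiset.map_const', Finset.card_val, Finset.card_univ, Fintype.card_fin]
  -- now Vieta on both sides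
  rw [esymm_cons_replicate _ _ _ _ hi]
  have key : (X + C (PowerSeries.expand p hp (PowerSeries.map φ A1))) *
      (X + C (PowerSeries.expand p hp Bbar)) ^ p =
      Polynomial.map (PowerSeries.expand p hp : PowerSeries κ →ₐ[κ] PowerSeries κ).toRingHom
        ((X + C (PowerSeries.map φ A1)) * (X + C Bbar) ^ p) := by
    simp [Polynomial.map_mul, Polynomial.map_pow]
  rw [key, Polynomial.coeff_map]
  rfl

end Fermat.Agent.Eis.Red
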