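import Mathlib
import Fermat.Agent.Eis.QuotCard
import Fermat.Agent.Eis.Pairing
import Fermat.Prelude.Def_ModularCurve_ModularUnit

/-!
# S16 / reduction, part 5: the Eisenstein quotient of the Hecke lattice algebra via congruences

`card_eq_of_bounds`: the cardinality of `T ⧸ I·T` (`T` the Hecke lattice algebra of level `p`, `I` the Eisenstein ideal)
equals `n` as soon as
* (lower bound) there is a cusp form with integer coefficients `≡ σ'(k)` modulo `n`, and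
* (upper bound) every `m > 0` admitting such a congruence divides `n`.
-/

set_option autoImplicit false

namespace Fermat.Agent.Eis

open CongruenceSubgroup ModularFormClass CuspForm Fermat.Agent.S49 ModularCurve

variable (p : ℕ) [Fact p.Prime]

/-! ### surjectivity of the evaluation map -/

theorem heckeEvalForms_surjective : Function.Surjective (heckeEvalForms p 2) := by
  -- the image, as a subalgebra of `End`, contains all generators
  let ι : ModularCurve.HeckeAlg →ₐ[ℤ] Module.End ℂ (CuspForm (Gamma0 p) 2) :=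
    (heckeAlgebra p 2 (∅ : Set ℕ)).val.comp (MvPolynomial.aeval (heckeFormsGen p 2))
  have hgen : heckeGenerators p 2 (∅ : Set ℕ) ⊆ (ι.range : Set (Module.End ℂ (CuspForm (Gamma0 p) 2))) := by
    rintro T (⟨ℓ, hℓ, hℓN, -, rfl⟩ | ⟨q, hqN, hq, -, rfl⟩)
    · refine ⟨MvPolynomial.X (⟨ℓ, hℓ⟩ : Nat.Primes), ?_⟩
      show ((MvPolynomial.aeval (heckeFormsGen p 2) (MvPolynomial.X (⟨ℓ, hℓ⟩ : Nat.Primes)) :
        heckeAlgebra p 2 (∅ : Set ℕ)) : Module.End ℂ (CuspForm (Gamma0 p) 2)) = _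
      rw [MvPolynomial.aeval_X, heckeFormsGen_of_not_dvd (ℓ := ⟨ℓ, hℓ⟩) hℓN]
      rfl
    · refine ⟨MvPolynomial.X (⟨q, hq⟩ : Nat.Primes), ?_⟩
      show ((MvPolynomial.aeval (heckeFormsGen p 2) (MvPolynomial.X (⟨q, hq⟩ : Nat.Primes)) :
        heckeAlgebra p 2 (∅ : Set ℕ)) : Module.End ℂ (CuspForm (Gamma0 p) 2)) = _
      rw [MvPolynomial.aeval_X, heckeFormsGen_of_dvd (q := ⟨q, hq⟩) hqN]
      rfl
  have hle : heckeAlgebra p 2 (∅ : Set ℕ) ≤ ι.range := Algebra.adjoin_le hgen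
  intro t
  obtain ⟨P, hP⟩ := hle t.2
  exact ⟨P, Subtype.ext hP⟩

/-- the map `φ` of the frozen statement -/
noncomputable abbrev phi : ModularCurve.HeckeAlg →+* ↥(heckeLatticeAlgebra p (∅ : Set ℕ)) :=
  (latticeRestrictHom p (∅ : Set ℕ)).toRingHom.comp (heckeEvalForms p 2)

theorem phi_surjective : Function.Surjective (phi p) :=
  (latticeRestrictHom_surjective p (∅ : Set ℕ)).comp (heckeEvalForms_surjective p)

/-! ### forms with coefficients divisible by `n` -/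

/-- all `q`-coefficients are integers divisible by `n` -/
def DvdCoeffs (n : ℕ) (g : CuspForm (Gamma0 p) 2) : Prop := ∀ k : ℕ, ∃ c : ℤ, qCoeff ⇑g k = (n : ℂ) * (c : ℂ)

variable {p}

lemma DvdCoeffs.add {n : ℕ} {g h : CuspForm (Gamma0 p) 2} (hg : DvdCoeffs p n g) (hh : DvdCoeffs p n h) :
    DvdCoeffs p n (g + h) := by
  intro k
  obtain ⟨c, hc⟩ := hg k
  obtain ⟨d, hd⟩ := hh k
  exact ⟨c + d, by rw [qCoeff_add, hc, hd]; push_cast; ring⟩

lemma DvdCoeffs.int_smul {n : ℕ} {g : CuspForm (Gamma0 p) 2} (hg : DvdCoeffs p n g) (a : ℤ) :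
    DvdCoeffs p n ((a : ℂ) • g) := by
  intro k
  obtain ⟨c, hc⟩ := hg k
  exact ⟨a * c, by rw [qCoeff_smul, hc]; push_cast; ring⟩

lemma DvdCoeffs.zero {n : ℕ} : DvdCoeffs p n (0 : CuspForm (Gamma0 p) 2) :=
  fun k => ⟨0, by rw [qCoeff_zero]; simp⟩

lemma DvdCoeffs.hecke {n : ℕ} (hn : n ≠ 0) {g : CuspForm (Gamma0 p) 2} (hg : DvdCoeffs p n g)
    (t : heckeAlgebra p 2 (∅ : Set ℕ)) : DvdCoeffs p n (t.1 g) := by
  have hnC : (n : ℂ) ≠ 0 := Nat.cast_ne_zero.mpr hn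
  have hh : IsInt ((n : ℂ)⁻¹ • g) := by
    intro k
    obtain ⟨c, hc⟩ := hg k
    exact ⟨c, by rw [qCoeff_smul, hc]; field_simp⟩
  have hgh : g = (n : ℂ) • ((n : ℂ)⁻¹ • g) := by rw [smul_smul, mul_inv_cancel₀ hnC, one_smul]
  intro k
  obtain ⟨c, hc⟩ := isInt_hecke t hh k
  refine ⟨c, ?_⟩
  rw [hgh, map_smul, qCoeff_smul, hc]

/-! ### lower bound -/

variable (p)

lemma isInt_of_isEisMod {n : ℕ} {f : CuspForm (Gamma0 p) 2} (hf : IsEisMod p n f) : IsInt f := fun k => by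
  obtain ⟨a, ha, -⟩ := hf k
  exact ⟨a, ha⟩

/-- `f₀` is an eigenvector modulo `n` of all generators -/
lemma dvdCoeffs_gen_sub {n : ℕ} {f : CuspForm (Gamma0 p) 2} (hf : IsEisMod p n f) (ℓ : Nat.Primes) :
    DvdCoeffs p n ((gen p ℓ).1 f - ((eisVal p ℓ : ℤ) : ℂ) • f) := by
  have hp : p.Prime := Fact.out
  intro k
  rcases Nat.eq_zero_or_pos k with hk | hk
  · exact ⟨0, by rw [hk, qCoeff_zero_index]; simp⟩
  rw [qCoeff_sub, qCoeff_smul, qCoeff_gen]
  obtain ⟨a, ha, ha'⟩ := hf k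
  obtain ⟨c, hc⟩ := ha' hk
  by_cases hℓp : (ℓ : ℕ) = p
  · rw [if_pos hℓp, eisVal, eisensteinSystem_of_dvd ((prime_dvd_iff p ℓ).mpr hℓp)]
    obtain ⟨b, hb, hb'⟩ := hf (k * p)
    obtain ⟨d, hd⟩ := hb' (Nat.mul_pos hk hp.pos)
    rw [eisCoeff_mul_self hp (by omega)] at hd
    refine ⟨d - c, ?_⟩
    rw [hb, ha]
    have : (b : ℤ) - a = n * (d - c) := by linarith
    have h2 : ((b : ℤ) : ℂ) - (a : ℂ) = (n : ℂ) * ((d : ℂ) - (c : ℂ)) := by exact_mod_cast this
    rw [Int.cast_one, one_mul, h2]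
    push_cast
    ring
  · have hnd : ¬ (ℓ : ℕ) ∣ p := fun hd => hℓp ((prime_dvd_iff p ℓ).mp hd)
    rw [if_neg hℓp, eisVal, eisensteinSystem_of_not_dvd hnd]
    obtain ⟨b, hb, hb'⟩ := hf (k * ℓ)
    obtain ⟨d, hd⟩ := hb' (Nat.mul_pos hk ℓ.2.pos)
    have hrec := eisCoeff_mul_prime hp ℓ.2 hℓp (k := k) (by omega)
    by_cases hdiv : (ℓ : ℕ) ∣ k
    · rw [if_pos hdiv] at hrec ⊢
      obtain ⟨b', hb'1, hb'2⟩ := hf (k / ℓ)
      obtain ⟨d', hd'⟩ := hb'2 (Nat.div_pos (Nat.le_of_dvd hk hdiv) ℓ.2.pos)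
      refine ⟨d + ℓ * d' - (1 + ℓ) * c, ?_⟩
      rw [hb, ha, hb'1]
      have : (b : ℤ) + (ℓ : ℕ) * b' - (1 + (ℓ : ℕ)) * a = n * (d + (ℓ : ℕ) * d' - (1 + (ℓ : ℕ)) * c) := by
        linear_combination hd + (ℓ : ℕ) * hd' - (1 + (ℓ : ℕ)) * hc + hrec
      have h2 : ((b : ℤ) : ℂ) + ((ℓ : ℕ) : ℂ) * (b' : ℂ) - (1 + ((ℓ : ℕ) : ℂ)) * (a : ℂ) =
          (n : ℂ) * ((d : ℂ) + ((ℓ : ℕ) : ℂ) * (d' : ℂ) - (1 + ((ℓ : ℕ) : ℂ)) * (c : ℂ)) := by exact_mod_cast this
      push_cast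
      linear_combination h2
    · rw [if_neg hdiv, add_zero] at hrec ⊢
      refine ⟨d - (1 + ℓ) * c, ?_⟩
      rw [hb, ha]
      have : (b : ℤ) - (1 + (ℓ : ℕ)) * a = n * (d - (1 + (ℓ : ℕ)) * c) := by
        linear_combination hd - (1 + (ℓ : ℕ)) * hc + hrec
      have h2 : ((b : ℤ) : ℂ) - (1 + ((ℓ : ℕ) : ℂ)) * (a : ℂ) =
          (n : ℂ) * ((d : ℂ) - (1 + ((ℓ : ℕ) : ℂ)) * (c : ℂ)) := by exact_mod_cast this
      push_cast
      linear_combination h2

/-- `f₀` is an eigenvector modulo `n` of the whole Hecke algebra, with the Eisenstein eigencharacter -/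
lemma dvdCoeffs_eval_sub {n : ℕ} (hn : n ≠ 0) {f : CuspForm (Gamma0 p) 2} (hf : IsEisMod p n f)
    (P : ModularCurve.HeckeAlg) :
    DvdCoeffs p n ((heckeEvalForms p 2 P).1 f -
      ((MvPolynomial.aeval (R := ℤ) (eisensteinSystem p) P : ℤ) : ℂ) • f) := by
  induction P using MvPolynomial.induction_on with
  | C a =>
    rw [heckeEvalForms_C, MvPolynomial.aeval_C, algebraMap_apply_form]
    simp only [Algebra.algebraMap_self, RingHom.id_apply, sub_self]
    exact DvdCoeffs.zero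
  | add P Q hP hQ =>
    have : (heckeEvalForms p 2 (P + Q)).1 f -
        ((MvPolynomial.aeval (R := ℤ) (eisensteinSystem p) (P + Q) : ℤ) : ℂ) • f =
        ((heckeEvalForms p 2 P).1 f - ((MvPolynomial.aeval (R := ℤ) (eisensteinSystem p) P : ℤ) : ℂ) • f) +
        ((heckeEvalForms p 2 Q).1 f - ((MvPolynomial.aeval (R := ℤ) (eisensteinSystem p) Q : ℤ) : ℂ) • f) := by
      rw [map_add, map_add, Int.cast_add, add_smul]
      show (heckeEvalForms p 2 P).1 f + (heckeEvalForms p 2 Q).1 f - _ = _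
      abel
    rw [this]
    exact hP.add hQ
  | mul_X P ℓ hP =>
    have : (heckeEvalForms p 2 (P * MvPolynomial.X ℓ)).1 f -
        ((MvPolynomial.aeval (R := ℤ) (eisensteinSystem p) (P * MvPolynomial.X ℓ) : ℤ) : ℂ) • f =
        (heckeEvalForms p 2 P).1 ((gen p ℓ).1 f - ((eisVal p ℓ : ℤ) : ℂ) • f) +
        ((eisVal p ℓ : ℤ) : ℂ) • ((heckeEvalForms p 2 P).1 f -
          ((MvPolynomial.aeval (R := ℤ) (eisensteinSystem p) P : ℤ) : ℂ) • f) := by
      have h1 : heckeEvalForms p 2 (MvPolynomial.X ℓ) = gen p ℓ := heckeEvalForms_heckeGen p 2 ℓ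
      rw [map_mul, map_mul, h1, MvPolynomial.aeval_X, map_sub, map_smul, smul_sub, smul_smul, Int.cast_mul]
      show (heckeEvalForms p 2 P).1 ((gen p ℓ).1 f) - _ = _
      rw [mul_comm ((eisVal p ℓ : ℤ) : ℂ)]
      abel
    rw [this]
    exact ((dvdCoeffs_gen_sub p hf ℓ).hecke hn _).add (hP.int_smul _)

/-- **Lower bound**: `n` divides every element of `ev (ker φ)` -/
theorem dvd_of_mem_evKer {n : ℕ} (hn : n ≠ 0) {f : CuspForm (Gamma0 p) 2} (hf : IsEisMod p n f) (a : ℤ)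
    (ha : a ∈ evKer (eisensteinSystem p) (phi p)) : (n : ℤ) ∣ a := by
  rw [mem_evKer_iff] at ha
  obtain ⟨P, hP, rfl⟩ := ha
  have hfL : f ∈ intLattice p 2 := (mem_intLattice_iff f).mpr (isInt_of_isEisMod p hf)
  have h0 : (heckeEvalForms p 2 P).1 f = 0 := by
    have h1 : ((phi p P).1 ⟨f, hfL⟩ : ↥(intLattice p 2)) = 0 := by rw [hP]; rfl
    have h2 := congrArg Subtype.val h1
    exact h2
  obtain ⟨c, hc⟩ := dvdCoeffs_eval_sub p hn hf P 1
  rw [h0, zero_sub, ← neg_smul, qCoeff_smul] at hc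
  obtain ⟨a1, ha1, ha1'⟩ := hf 1
  obtain ⟨d, hd⟩ := ha1' le_rfl
  rw [eisCoeff_one (Fact.out : p.Prime)] at hd
  rw [ha1] at hc
  have hc' : -(MvPolynomial.aeval (R := ℤ) (eisensteinSystem p) P : ℤ) * a1 = n * c := by exact_mod_cast hc
  refine ⟨-c - (MvPolynomial.aeval (R := ℤ) (eisensteinSystem p) P : ℤ) * d, ?_⟩
  have : a1 = 1 + n * d := by linarith
  rw [this] at hc'
  linear_combination -hc'

/-! ### upper bound and the final statement -/

/-- the general form: lower bound as a divisibility statement on `ev (ker φ)` (no cusp form needed) -/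
theorem card_eq_of_evKer_bounds (n : ℕ) (hn : 0 < n)
    (hLB : ∀ P : ModularCurve.HeckeAlg, phi p P = 0 →
      (n : ℤ) ∣ MvPolynomial.aeval (R := ℤ) (eisensteinSystem p) P)
    (hUB : ∀ m : ℕ, 0 < m → (∃ f : CuspForm (Gamma0 p) 2, IsEisMod p m f) → m ∣ n) :
    Nat.card (↥(heckeLatticeAlgebra p (∅ : Set ℕ)) ⧸
      Ideal.map ((latticeRestrictHom p (∅ : Set ℕ)).toRingHom.comp (heckeEvalForms p 2)) (eisensteinIdeal p)) = n := by
  -- the generator of `evKer`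
  obtain ⟨m, hm⟩ : ∃ m : ℕ, evKer (eisensteinSystem p) (phi p) = Ideal.span {(m : ℤ)} := by
    refine ⟨(Submodule.IsPrincipal.generator (evKer (eisensteinSystem p) (phi p))).natAbs, ?_⟩
    rw [Int.span_natAbs, Ideal.span_singleton_generator]
  have hnm : n ∣ m := by
    have : (m : ℤ) ∈ evKer (eisensteinSystem p) (phi p) := by
      rw [hm]; exact Ideal.mem_span_singleton_self _
    obtain ⟨P, hP, hPm⟩ := (mem_evKer_iff _ _ _).mp this
    have := hLB P hP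
    rw [hPm] at this
    exact Int.natCast_dvd_natCast.mp this
  -- the character modulo `m`
  have hker : RingHom.ker (phi p) ≤
      RingHom.ker ((Int.castRingHom (ZMod m)).comp
        (MvPolynomial.aeval (R := ℤ) (eisensteinSystem p) : ModularCurve.HeckeAlg →ₐ[ℤ] ℤ).toRingHom) := by
    intro P hP
    rw [RingHom.mem_ker] at hP ⊢
    have : (MvPolynomial.aeval (R := ℤ) (eisensteinSystem p) P : ℤ) ∈ evKer (eisensteinSystem p) (phi p) :=
      (mem_evKer_iff _ _ _).mpr ⟨P, hP, rfl⟩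
    rw [hm, Ideal.mem_span_singleton] at this
    show ((MvPolynomial.aeval (R := ℤ) (eisensteinSystem p) P : ℤ) : ZMod m) = 0
    exact (ZMod.intCast_zmod_eq_zero_iff_dvd _ _).mpr this
  let ψ : ↥(heckeLatticeAlgebra p (∅ : Set ℕ)) →+* ZMod m :=
    RingHom.liftOfSurjective (phi p) (phi_surjective p) ⟨_, hker⟩
  have hψ : ∀ P, ψ (phi p P) = ((MvPolynomial.aeval (R := ℤ) (eisensteinSystem p) P : ℤ) : ZMod m) :=
    fun P => RingHom.liftOfRightInverse_comp_apply _ _ _ _ P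
  have hψgen : ∀ ℓ : Nat.Primes, ψ (latticeRestrictHom p (∅ : Set ℕ) (gen p ℓ)) = (eisVal p ℓ : ZMod m) := by
    intro ℓ
    have := hψ (MvPolynomial.X ℓ)
    rw [MvPolynomial.aeval_X] at this
    rw [← this]
    show _ = ψ (latticeRestrictHom p (∅ : Set ℕ) (heckeEvalForms p 2 (MvPolynomial.X ℓ)))
    rw [show heckeEvalForms p 2 (MvPolynomial.X ℓ) = gen p ℓ from heckeEvalForms_heckeGen p 2 ℓ]
  obtain ⟨f, hf⟩ := exists_isEisMod_of_ringHom p m ψ hψgen
  have hmn : m ∣ n := by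
    rcases Nat.eq_zero_or_pos m with h0 | hpos
    · -- `m = 0`: exact equality of coefficients, hence a congruence modulo `2n`
      exfalso
      have h2 : IsEisMod p (2 * n) f := by
        intro k
        obtain ⟨a, ha, ha'⟩ := hf k
        refine ⟨a, ha, fun hk => ?_⟩
        have := ha' hk
        rw [h0, Nat.cast_zero, zero_dvd_iff] at this
        rw [this]
        exact dvd_zero _
      have := Nat.le_of_dvd hn (hUB (2 * n) (by omega) ⟨f, h2⟩)
      omega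
    · exact hUB m hpos ⟨f, hf⟩
  have hmeq : m = n := Nat.dvd_antisymm hmn hnm
  rw [hmeq] at hm
  exact card_quotient_map_ker (eisensteinSystem p) (phi p) (phi_surjective p) n hm

/-- **The reduction of S16 to congruences between cusp forms and the Eisenstein series.** -/
theorem card_eq_of_bounds (n : ℕ) (hn : 0 < n) (hLB : ∃ f : CuspForm (Gamma0 p) 2, IsEisMod p n f)
    (hUB : ∀ m : ℕ, 0 < m → (∃ f : CuspForm (Gamma0 p) 2, IsEisMod p m f) → m ∣ n) :
    Nat.card (↥(heckeLatticeAlgebra p (∅ : Set ℕ)) ⧸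
      Ideal.map ((latticeRestrictHom p (∅ : Set ℕ)).toRingHom.comp (heckeEvalForms p 2)) (eisensteinIdeal p)) = n := by
  obtain ⟨f₀, hf₀⟩ := hLB
  refine card_eq_of_evKer_bounds p n hn (fun P hP => ?_) hUB
  exact dvd_of_mem_evKer p hn.ne' hf₀ _ ((mem_evKer_iff _ _ _).mpr ⟨P, hP, rfl⟩)

end Fermat.Agent.Eis
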