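import Mathlib
import Fermat.Agent.Eis.Reduction
import Fermat.Agent.S23

/-!
# S16 / reduction, part 6: the lower bound hypothesis stated on `S₂(Γ₀(p))` (uses the integral structure S23)

A polynomial in the Hecke operators vanishes on the integral lattice iff it vanishes on `S₂(Γ₀(p))`.
-/

set_option autoImplicit false

namespace Fermat.Agent.Eis

open CongruenceSubgroup ModularFormClass CuspForm Fermat.Agent.S49 ModularCurve

variable (p : ℕ) [Fact p.Prime]

theorem phi_eq_zero_iff (P : ModularCurve.HeckeAlg) : phi p P = 0 ↔ heckeEvalForms p 2 P = 0 := by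
  constructor
  · intro h
    have hbij := latticeRestrictHom_bijective p (∅ : Set ℕ) (Fermat.Agent.S23.result p)
    apply hbij.1
    rw [map_zero]
    exact h
  · intro h
    show (latticeRestrictHom p (∅ : Set ℕ)) (heckeEvalForms p 2 P) = 0
    rw [h, map_zero]

/-- the reduction with the lower bound as a statement about polynomials in the Hecke operators killing `S₂(Γ₀(p))` -/
theorem card_eq_of_bounds_forms (n : ℕ) (hn : 0 < n)
    (hLB : ∀ P : ModularCurve.HeckeAlg, heckeEvalForms p 2 P = 0 →
      (n : ℤ) ∣ MvPolynomial.aeval (R := ℤ) (eisensteinSystem p) P)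
    (hUB : ∀ m : ℕ, 0 < m → (∃ f : CuspForm (Gamma0 p) 2, IsEisMod p m f) → m ∣ n) :
    Nat.card (↥(heckeLatticeAlgebra p (∅ : Set ℕ)) ⧸
      Ideal.map ((latticeRestrictHom p (∅ : Set ℕ)).toRingHom.comp (heckeEvalForms p 2)) (eisensteinIdeal p)) = n :=
  card_eq_of_evKer_bounds p n hn (fun P hP => hLB P ((phi_eq_zero_iff p P).mp hP)) hUB

end Fermat.Agent.Eis
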