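import Mathlib
import Fermat.Agent.Eis.LocalRing

/-!
# S16 / upper bound: a residue field of `Rint ℓ` above `ℓ`, and small algebra for FIVE / THREE

* `resIdeal ℓ`: a maximal ideal of `Rint ℓ` containing `ℓ` (exists since `1/ℓ ∉ Rint ℓ`);
  `ResField ℓ := Rint ℓ ⧸ resIdeal ℓ`, a field of characteristic `ℓ`; `resMap ℓ : Rint ℓ →+* ResField ℓ`.
* `map_esymm_of_forall_eq_one`: a ring hom sending all members of a multiset to `1` sends the `i`-th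
  elementary symmetric function to the binomial coefficient.
* `not_pred_dvd_two_mul_pow`: `ℓ - 1 ∤ 2 ℓ^a` for a prime `ℓ ≥ 5`.
-/

set_option autoImplicit false

namespace Fermat.Agent.Eis

/-- `ℓ` is not a unit of `Rint ℓ`. -/
theorem natCast_not_isUnit_Rint (ℓ : ℕ) [Fact ℓ.Prime] : ¬ IsUnit ((ℓ : ℕ) : Rint ℓ) := by
  rintro ⟨u, hu⟩
  apply ell_inv_not_mem_Rint ℓ
  have h0 : (u : Rint ℓ) * ((u⁻¹ : (Rint ℓ)ˣ) : Rint ℓ) = 1 := u.mul_inv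
  have h1 : ((u : Rint ℓ) : ℂ) * (((u⁻¹ : (Rint ℓ)ˣ) : Rint ℓ) : ℂ) = 1 := by
    rw [← Subring.coe_mul, h0, Subring.coe_one]
  have h2 : ((u : Rint ℓ) : ℂ) = (ℓ : ℂ) := by
    rw [hu]; simp
  rw [h2] at h1
  have h3 : ((ℓ : ℂ))⁻¹ = (((u⁻¹ : (Rint ℓ)ˣ) : Rint ℓ) : ℂ) :=
    (eq_inv_of_mul_eq_one_right h1).symm
  rw [h3]
  exact Subtype.property _

theorem exists_maximal_natCast_mem (ℓ : ℕ) [Fact ℓ.Prime] :
    ∃ 𝔪 : Ideal (Rint ℓ), 𝔪.IsMaximal ∧ ((ℓ : ℕ) : Rint ℓ) ∈ 𝔪 := by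
  have hne : Ideal.span {((ℓ : ℕ) : Rint ℓ)} ≠ ⊤ := by
    rw [Ne, Ideal.span_singleton_eq_top]
    exact natCast_not_isUnit_Rint ℓ
  obtain ⟨𝔪, hmax, hle⟩ := Ideal.exists_le_maximal _ hne
  exact ⟨𝔪, hmax, hle (Ideal.subset_span (Set.mem_singleton _))⟩

/-- a maximal ideal of `Rint ℓ` above `ℓ`. -/
noncomputable def resIdeal (ℓ : ℕ) [Fact ℓ.Prime] : Ideal (Rint ℓ) :=
  (exists_maximal_natCast_mem ℓ).choose

instance resIdeal_isMaximal (ℓ : ℕ) [Fact ℓ.Prime] : (resIdeal ℓ).IsMaximal :=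
  (exists_maximal_natCast_mem ℓ).choose_spec.1

theorem natCast_mem_resIdeal (ℓ : ℕ) [Fact ℓ.Prime] : ((ℓ : ℕ) : Rint ℓ) ∈ resIdeal ℓ :=
  (exists_maximal_natCast_mem ℓ).choose_spec.2

/-- the residue field. -/
abbrev ResField (ℓ : ℕ) [Fact ℓ.Prime] : Type := Rint ℓ ⧸ resIdeal ℓ

noncomputable instance resField_field (ℓ : ℕ) [Fact ℓ.Prime] : Field (ResField ℓ) :=
  Ideal.Quotient.field _

/-- the reduction map. -/
noncomputable def resMap (ℓ : ℕ) [Fact ℓ.Prime] : Rint ℓ →+* ResField ℓ := Ideal.Quotient.mk _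

theorem resMap_surjective (ℓ : ℕ) [Fact ℓ.Prime] : Function.Surjective (resMap ℓ) :=
  Ideal.Quotient.mk_surjective

theorem resMap_eq_zero_iff (ℓ : ℕ) [Fact ℓ.Prime] (x : Rint ℓ) : resMap ℓ x = 0 ↔ x ∈ resIdeal ℓ :=
  Ideal.Quotient.eq_zero_iff_mem

theorem resMap_natCast_ell (ℓ : ℕ) [Fact ℓ.Prime] : resMap ℓ ((ℓ : ℕ) : Rint ℓ) = 0 :=
  (resMap_eq_zero_iff ℓ _).mpr (natCast_mem_resIdeal ℓ)

instance resField_charP (ℓ : ℕ) [Fact ℓ.Prime] : CharP (ResField ℓ) ℓ := by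
  rw [CharP.charP_iff_prime_eq_zero (Fact.out : ℓ.Prime)]
  have h := resMap_natCast_ell ℓ
  rwa [map_natCast] at h

theorem resMap_eq_zero_of_eq_ell_mul (ℓ : ℕ) [Fact ℓ.Prime] {x y : Rint ℓ}
    (h : (x : ℂ) = (ℓ : ℂ) * (y : ℂ)) : resMap ℓ x = 0 := by
  have hx : x = ((ℓ : ℕ) : Rint ℓ) * y := by
    apply Subtype.ext
    rw [h]; simp
  rw [hx, map_mul, resMap_natCast_ell, zero_mul]

/-- integers prime to `ℓ` stay nonzero in the residue field. -/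
theorem resMap_intCast_ne_zero (ℓ : ℕ) [Fact ℓ.Prime] {a : ℤ} (ha : ¬ (ℓ : ℤ) ∣ a) :
    resMap ℓ ((a : ℤ) : Rint ℓ) ≠ 0 := by
  rw [map_intCast]
  intro h
  exact ha ((CharP.intCast_eq_zero_iff (ResField ℓ) ℓ a).mp h)

theorem resMap_natCast_ne_zero (ℓ : ℕ) [Fact ℓ.Prime] {a : ℕ} (ha : ¬ ℓ ∣ a) :
    resMap ℓ ((a : ℕ) : Rint ℓ) ≠ 0 := by
  rw [map_natCast]
  intro h
  exact ha ((CharP.cast_eq_zero_iff (ResField ℓ) ℓ a).mp h)

/-- a ring hom sending every member of `s` to `1` sends `esymm i` to `choose (card s) i`. -/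
theorem map_esymm_of_forall_eq_one {A B : Type*} [CommSemiring A] [CommSemiring B] (ψ : A →+* B)
    (s : Multiset A) (h : ∀ x ∈ s, ψ x = 1) (i : ℕ) :
    ψ (s.esymm i) = ((Multiset.card s).choose i : B) := by
  rw [Multiset.esymm, map_multiset_sum, Multiset.map_map]
  have h1 : ∀ t ∈ Multiset.powersetCard i s, (ψ ∘ Multiset.prod) t = 1 := by
    intro t ht
    rw [Function.comp_apply, map_multiset_prod]
    have hts : t ≤ s := (Multiset.mem_powersetCard.mp ht).1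
    have : ∀ y ∈ Multiset.map ψ t, y = 1 := by
      intro y hy
      obtain ⟨x, hx, rfl⟩ := Multiset.mem_map.mp hy
      exact h x (Multiset.mem_of_le hts hx)
    rw [Multiset.prod_eq_one this]
  rw [Multiset.map_congr rfl h1, Multiset.map_const', Multiset.sum_replicate, Multiset.card_powersetCard,
    nsmul_one]

/-- `ℓ - 1 ∤ 2 ℓ^a` for a prime `ℓ ≥ 5`. -/
theorem not_pred_dvd_two_mul_pow {ℓ : ℕ} (hℓ : ℓ.Prime) (h5 : 5 ≤ ℓ) (a : ℕ) :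
    ¬ ((ℓ : ℤ) - 1) ∣ (2 : ℤ) * ((ℓ ^ a : ℕ) : ℤ) := by
  intro h
  have h1 : ((ℓ - 1 : ℕ) : ℤ) = (ℓ : ℤ) - 1 := by
    have := hℓ.one_le
    push_cast [Nat.cast_sub this]; ring
  rw [← h1] at h
  have h2 : (ℓ - 1) ∣ 2 * ℓ ^ a := by exact_mod_cast h
  have hcop : Nat.Coprime (ℓ - 1) (ℓ ^ a) := by
    apply Nat.Coprime.pow_right
    have : Nat.Coprime (ℓ - 1) (ℓ - 1 + 1) := by simp
    rwa [Nat.sub_add_cancel hℓ.one_le] at this
  have h3 : (ℓ - 1) ∣ 2 := hcop.dvd_of_dvd_mul_right h2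
  have := Nat.le_of_dvd (by norm_num) h3
  omega

end Fermat.Agent.Eis
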