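import Mathlib
import Fermat.Agent.Eis.LevelOneStructure

/-!
# 2-adic algebra for the case `ℓ = 2` of the Eisenstein upper bound

* `twoAdic_sq_sub`, `twoAdic_cube_add`: for `b = c (1 + 8 g)`, `c = 1 + 4 m` (`m² + m = 2 v`),
  `E₄ = 1 + 240 s₃`, `E₆ = 1 - 504 s₅` (`s₃ + s₅ = 2 u`), the combinations `b² - E₄` and
  `b³ + b E₄ - 2 E₆` are `8` resp. `32` times an explicit polynomial in `m, g, s₃, u, v`.
* `twoAdic_B_mem`, `twoAdic_B''_mem`: the resulting integrality statements for power series.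
* `two_adic_endgame_rho`, `two_adic_endgame_i`: the final contradictions at the CM points.
-/

set_option autoImplicit false

open UpperHalfPlane ModularForm
open scoped MatrixGroups ModularForm ArithmeticFunction.sigma

noncomputable section

namespace Fermat.Agent.Eis

/-! ## The two 2-adic identities -/

section identities

variable {A : Type*} [CommRing A]

/-- `X₂`: the quotient `(b² - E₄)/8`. -/
def twoAdicX2 (m g s3 v : A) : A :=
  2 * g - 16 * g * m + 64 * g * v + 8 * g ^ 2 - 64 * g ^ 2 * m + 256 * g ^ 2 * v - m - 30 * s3 + 4 * v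

/-- `X₃`: the quotient `(b³ + b E₄ - 2 E₆)/32`. -/
def twoAdicX3 (m g s3 u v : A) : A :=
  g + 22 * g * m + 240 * g * m * s3 + 96 * g * m * v + 60 * g * s3 - 24 * g * v + 6 * g ^ 2
    + 168 * g ^ 2 * m + 768 * g ^ 2 * m * v - 192 * g ^ 2 * v + 16 * g ^ 3 + 448 * g ^ 3 * m
    + 2048 * g ^ 3 * m * v - 512 * g ^ 3 * v + m + 30 * m * s3 + 4 * m * v - 24 * s3 + 63 * u - v

theorem twoAdic_sq_sub (m g s3 v : A) (hm : m ^ 2 + m = 2 * v) :
    ((1 + 4 * m) * (1 + 8 * g)) ^ 2 - (1 + 240 * s3) = 8 * twoAdicX2 m g s3 v := by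
  unfold twoAdicX2
  linear_combination (16 + 256 * g + 1024 * g ^ 2) * hm

theorem twoAdic_cube_add (m g s3 s5 u v : A) (hm : m ^ 2 + m = 2 * v) (hs : s3 + s5 = 2 * u) :
    ((1 + 4 * m) * (1 + 8 * g)) ^ 3 + ((1 + 4 * m) * (1 + 8 * g)) * (1 + 240 * s3)
      - 2 * (1 - 504 * s5) = 32 * twoAdicX3 m g s3 u v := by
  unfold twoAdicX3
  linear_combination (-16 - 384 * g + 1536 * g * m - 3072 * g ^ 2 + 12288 * g ^ 2 * m
    - 8192 * g ^ 3 + 32768 * g ^ 3 * m + 64 * m) * hm + 1008 * hs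

theorem twoAdicX2_mem (S : Subring A) {m g s3 v : A} (hm : m ∈ S) (hg : g ∈ S) (hs3 : s3 ∈ S)
    (hv : v ∈ S) : twoAdicX2 m g s3 v ∈ S := by
  lift m to S using hm
  lift g to S using hg
  lift s3 to S using hs3
  lift v to S using hv
  have : twoAdicX2 (m : A) g s3 v = S.subtype (twoAdicX2 m g s3 v) := by
    simp only [twoAdicX2, map_add, map_sub, map_mul, map_pow, map_ofNat, Subring.subtype_apply]
  rw [this]
  exact Subtype.property _

theorem twoAdicX3_mem (S : Subring A) {m g s3 u v : A} (hm : m ∈ S) (hg : g ∈ S) (hs3 : s3 ∈ S)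
    (hu : u ∈ S) (hv : v ∈ S) : twoAdicX3 m g s3 u v ∈ S := by
  lift m to S using hm
  lift g to S using hg
  lift s3 to S using hs3
  lift u to S using hu
  lift v to S using hv
  have : twoAdicX3 (m : A) g s3 u v = S.subtype (twoAdicX3 m g s3 u v) := by
    simp only [twoAdicX3, map_add, map_sub, map_mul, map_pow, map_ofNat, Subring.subtype_apply]
  rw [this]
  exact Subtype.property _

end identities

/-! ## The series `∑ σ₃(n) qⁿ`, `∑ σ₅(n) qⁿ` -/

/-- `∑_{n ≥ 1} σ₃(n) qⁿ`. -/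
def sig3 : PowerSeries ℂ := PowerSeries.mk fun n => if n = 0 then 0 else (σ 3 n : ℂ)

/-- `∑_{n ≥ 1} σ₅(n) qⁿ`. -/
def sig5 : PowerSeries ℂ := PowerSeries.mk fun n => if n = 0 then 0 else (σ 5 n : ℂ)

/-- `∑_{n ≥ 1} (σ₃(n) + σ₅(n))/2 qⁿ`. -/
def sigU : PowerSeries ℂ :=
  PowerSeries.mk fun n => if n = 0 then 0 else (((σ 3 n + σ 5 n) / 2 : ℕ) : ℂ)

lemma even_sigma_three_add_five (n : ℕ) : Even (σ 3 n + σ 5 n) := by
  rw [ArithmeticFunction.sigma_apply, ArithmeticFunction.sigma_apply, ← Finset.sum_add_distrib]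
  refine Finset.even_sum _ fun d _ => ?_
  rcases Nat.even_or_odd d with h | h
  · exact (h.pow_of_ne_zero (by norm_num)).add (h.pow_of_ne_zero (by norm_num))
  · exact (h.pow).add_odd (h.pow)

lemma sig3_add_sig5 : sig3 + sig5 = 2 * sigU := by
  ext n
  have h2 : (2 : PowerSeries ℂ) = PowerSeries.C (2 : ℂ) := (map_ofNat PowerSeries.C 2).symm
  rw [map_add, h2, PowerSeries.coeff_C_mul, sig3, sig5, sigU, PowerSeries.coeff_mk,
    PowerSeries.coeff_mk, PowerSeries.coeff_mk]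
  by_cases hn : n = 0
  · simp [hn]
  · simp only [hn, if_false]
    obtain ⟨r, hr⟩ := even_sigma_three_add_five n
    have : (σ 3 n + σ 5 n) / 2 = r := by omega
    rw [this]
    have h := congrArg (Nat.cast (R := ℂ)) hr
    push_cast at h
    linear_combination h

lemma qExpansion_E4_sig3 : qExpansion 1 E₄ = 1 + 240 * sig3 := by
  ext n
  have h240 : (240 : PowerSeries ℂ) = PowerSeries.C (240 : ℂ) := (map_ofNat PowerSeries.C 240).symm
  rw [EisensteinSeries.E_qExpansion_coeff _ ⟨2, rfl⟩, map_add, h240, PowerSeries.coeff_C_mul, sig3,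
    PowerSeries.coeff_mk, PowerSeries.coeff_one]
  by_cases hn : n = 0
  · simp [hn]
  · simp only [hn, if_false]
    rw [show bernoulli 4 = -1 / 30 by decide +kernel]
    push_cast
    ring

lemma qExpansion_E6_sig5 : qExpansion 1 E₆ = 1 - 504 * sig5 := by
  ext n
  have h504 : (504 : PowerSeries ℂ) = PowerSeries.C (504 : ℂ) := (map_ofNat PowerSeries.C 504).symm
  rw [EisensteinSeries.E_qExpansion_coeff _ ⟨3, rfl⟩, map_sub, h504, PowerSeries.coeff_C_mul, sig5,
    PowerSeries.coeff_mk, PowerSeries.coeff_one]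
  by_cases hn : n = 0
  · simp [hn]
  · simp only [hn, if_false]
    rw [show bernoulli 6 = 1 / 42 by decide +kernel]
    push_cast
    ring

lemma sig3_mem (R' : Subring ℂ) : sig3 ∈ seriesSubring R' := by
  rw [mem_seriesSubring_iff]
  intro n
  rw [sig3, PowerSeries.coeff_mk]
  split_ifs
  · exact R'.zero_mem
  · exact natCast_mem _ _

lemma sig5_mem (R' : Subring ℂ) : sig5 ∈ seriesSubring R' := by
  rw [mem_seriesSubring_iff]
  intro n
  rw [sig5, PowerSeries.coeff_mk]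
  split_ifs
  · exact R'.zero_mem
  · exact natCast_mem _ _

lemma sigU_mem (R' : Subring ℂ) : sigU ∈ seriesSubring R' := by
  rw [mem_seriesSubring_iff]
  intro n
  rw [sigU, PowerSeries.coeff_mk]
  split_ifs
  · exact R'.zero_mem
  · exact natCast_mem _ _

/-- `seriesSubring` is stable under `expand`. -/
lemma expand_mem_seriesSubring (R' : Subring ℂ) (p : ℕ) (hp : p ≠ 0) {f : PowerSeries ℂ}
    (hf : f ∈ seriesSubring R') : PowerSeries.expand p hp f ∈ seriesSubring R' := by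
  rw [mem_seriesSubring_iff] at hf ⊢
  intro n
  rw [PowerSeries.coeff_expand]
  split_ifs
  · exact hf _
  · exact R'.zero_mem

/-- constants of `R'` are in `seriesSubring R'`. -/
lemma C_mem_seriesSubring (R' : Subring ℂ) {c : ℂ} (hc : c ∈ R') :
    PowerSeries.C c ∈ seriesSubring R' := by
  rw [mem_seriesSubring_iff]
  intro n
  rw [PowerSeries.coeff_C]
  split_ifs
  · exact hc
  · exact R'.zero_mem

/-! ## The two integrality statements for series -/

/-- `(b² - E)/8` has coefficients in `R'`. -/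
theorem twoAdic_B_mem (R' : Subring ℂ) {b E m g s3 v : PowerSeries ℂ}
    (hb : b = (1 + 4 * m) * (1 + 8 * g)) (hE : E = 1 + 240 * s3) (hmv : m ^ 2 + m = 2 * v)
    (hm : m ∈ seriesSubring R') (hg : g ∈ seriesSubring R') (hs3 : s3 ∈ seriesSubring R')
    (hv : v ∈ seriesSubring R') : (8 : ℂ)⁻¹ • (b ^ 2 - E) ∈ seriesSubring R' := by
  rw [hb, hE, twoAdic_sq_sub m g s3 v hmv]
  have h8 : (8 : PowerSeries ℂ) = PowerSeries.C (8 : ℂ) := (map_ofNat PowerSeries.C 8).symm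
  rw [h8, PowerSeries.smul_eq_C_mul, ← mul_assoc, ← map_mul, inv_mul_cancel₀ (by norm_num), map_one,
    one_mul]
  exact twoAdicX2_mem _ hm hg hs3 hv

/-- `(b³ + b E - 2 E')/32` has coefficients in `R'`. -/
theorem twoAdic_B''_mem (R' : Subring ℂ) {b E E' m g s3 s5 u v : PowerSeries ℂ}
    (hb : b = (1 + 4 * m) * (1 + 8 * g)) (hE : E = 1 + 240 * s3) (hE' : E' = 1 - 504 * s5)
    (hmv : m ^ 2 + m = 2 * v) (hs : s3 + s5 = 2 * u)
    (hm : m ∈ seriesSubring R') (hg : g ∈ seriesSubring R') (hs3 : s3 ∈ seriesSubring R')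
    (hu : u ∈ seriesSubring R') (hv : v ∈ seriesSubring R') :
    (32 : ℂ)⁻¹ • (b ^ 3 + b * E - 2 * E') ∈ seriesSubring R' := by
  rw [hb, hE, hE', twoAdic_cube_add m g s3 s5 u v hmv hs]
  have h32 : (32 : PowerSeries ℂ) = PowerSeries.C (32 : ℂ) := (map_ofNat PowerSeries.C 32).symm
  rw [h32, PowerSeries.smul_eq_C_mul, ← mul_assoc, ← map_mul, inv_mul_cancel₀ (by norm_num),
    map_one, one_mul]
  exact twoAdicX3_mem _ hm hg hs3 hu hv

/-! ## The endgame: contradiction in an integrally closed subring not containing `1/2` -/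

/-- a square root of an element of an integrally closed subring `S ⊆ ℂ` lies in `S`. -/
theorem mem_of_sq_mem (S : Subring ℂ) (hS : ∀ x : ℂ, IsIntegral S x → x ∈ S) {W : ℂ}
    (h : W ^ 2 ∈ S) : W ∈ S := by
  refine hS W ⟨Polynomial.X ^ 2 - Polynomial.C ⟨W ^ 2, h⟩,
    Polynomial.monic_X_pow_sub_C _ two_ne_zero, ?_⟩
  simp only [Polynomial.eval₂_sub, Polynomial.eval₂_pow, Polynomial.eval₂_X, Polynomial.eval₂_C]
  exact sub_self _

/-- **Endgame at `ρ`** (`E₄(ρ) = 0`, `E₆(ρ)² = -1728 Δ(ρ)`): with `f = F(ρ)`, `e = E₆(ρ)`,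
`d = Δ(ρ)`, integrality of `B(ρ)³/Δ(ρ)` and `B''(ρ)²/Δ(ρ)` is contradictory. -/
theorem two_adic_endgame_rho (S : Subring ℂ) (hS : ∀ x : ℂ, IsIntegral S x → x ∈ S)
    (h2 : (2 : ℂ)⁻¹ ∉ S) (f e d : ℂ) (hd : d ≠ 0) (he : e ^ 2 = -1728 * d)
    (hX : (f ^ 2 / 8) ^ 3 / d ∈ S) (hY : ((f ^ 3 - 2 * e) / 32) ^ 2 / d ∈ S) : False := by
  set X := (f ^ 2 / 8) ^ 3 / d with hXdef
  set Y := ((f ^ 3 - 2 * e) / 32) ^ 2 / d with hYdef
  set W := f ^ 3 * e / (d * 2 ^ 7) with hWdef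
  have hW2 : W ^ 2 = -54 * X := by
    rw [hWdef, hXdef]
    field_simp
    linear_combination (f ^ 6 * 8 ^ 3 : ℂ) * he
  have h54 : (-54 : ℂ) ∈ S := by
    have : (-54 : ℂ) = ((-54 : ℤ) : ℂ) := by norm_num
    rw [this]; exact intCast_mem _ _
  have hW : W ∈ S := mem_of_sq_mem S hS (by rw [hW2]; exact S.mul_mem h54 hX)
  have h27 : (27 : ℂ) = 2 * (X - W - 2 * Y) := by
    rw [hWdef, hXdef, hYdef]
    field_simp
    linear_combination (524288 : ℂ) * he
  apply h2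
  have h13 : (13 : ℂ) ∈ S := by
    have : (13 : ℂ) = ((13 : ℕ) : ℂ) := by norm_num
    rw [this]; exact natCast_mem _ _
  have h2S : (2 : ℂ) ∈ S := by
    have : (2 : ℂ) = ((2 : ℕ) : ℂ) := by norm_num
    rw [this]; exact natCast_mem _ _
  have hmem : X - W - 2 * Y - 13 ∈ S :=
    S.sub_mem (S.sub_mem (S.sub_mem hX hW) (S.mul_mem h2S hY)) h13
  have : (2 : ℂ)⁻¹ = X - W - 2 * Y - 13 := by
    linear_combination (1 / 2 : ℂ) * h27
  rw [this]
  exact hmem

/-- **Endgame at `i`** (`E₆(i) = 0`, `E₄(i)³ = 1728 Δ(i)`): if a conjugate `G` vanishes at `i`, then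
`((G² - E₄)/8)(i)³/Δ(i) = -27/8` cannot be integral. -/
theorem two_adic_endgame_i (S : Subring ℂ) (h2 : (2 : ℂ)⁻¹ ∉ S) (e4 d : ℂ) (hd : d ≠ 0)
    (he : e4 ^ 3 = 1728 * d) (hX : ((0 ^ 2 - e4) / 8) ^ 3 / d ∈ S) : False := by
  have hval : ((0 ^ 2 - e4) / 8) ^ 3 / d = -27 / 8 := by
    field_simp
    linear_combination (-1 : ℂ) * he
  rw [hval] at hX
  apply h2
  have h13 : (13 : ℂ) ∈ S := by
    have : (13 : ℂ) = ((13 : ℕ) : ℂ) := by norm_num
    rw [this]; exact natCast_mem _ _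
  have h4 : (-4 : ℂ) ∈ S := by
    have : (-4 : ℂ) = ((-4 : ℤ) : ℂ) := by norm_num
    rw [this]; exact intCast_mem _ _
  have : (2 : ℂ)⁻¹ = (-4) * (-27 / 8) - 13 := by norm_num
  rw [this]
  exact S.sub_mem (S.mul_mem h4 hX) h13

end Fermat.Agent.Eis
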