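import Mathlib
import Fermat.Agent.Eis.TwoAdic
import Fermat.Agent.Eis.LocalRing
import Fermat.Agent.Eis.ConjDefs
import Fermat.Agent.Eis.ConjSharp
import Fermat.Agent.Eis.ConjTrace
import Fermat.Agent.Eis.ConjIntegral

/-!
# RHO: the case `ℓ = 2`, `p ≡ 3 mod 4` of the Eisenstein upper bound

There is no `F ∈ M₂(Γ₀(p))` with `2`-integral `q`-expansion `≡ 1 mod 8` (`p ≡ 3 mod 4`):
`B = (F² - E₄)/8` and `B'' = (F³ + F E₄ - 2 E₆)/32` have `2`-integral expansions at both cusps, so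
`B(ρ)³/Δ(ρ)` and `B''(ρ)²/Δ(ρ)` are integral over `ℤ_(2)`; with `E₄(ρ) = 0` and
`E₆(ρ)² = -1728 Δ(ρ)` this is contradictory (`two_adic_endgame_rho`).
-/

set_option autoImplicit false

open UpperHalfPlane ModularForm Complex CongruenceSubgroup
open scoped MatrixGroups ModularForm

noncomputable section

namespace Fermat.Agent.Eis

local notation "Δ" => ModularForm.discriminant

/-- the constant `c = -1/p` for `p ≡ 3 mod 4`: `c = 1 + 4 m₀`, `m₀² + m₀ = 2 v₀` with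
`m₀, v₀ ∈ ℤ_(2)`. -/
lemma rho_const (p : ℕ) (hp0 : p ≠ 0) (hp : p % 4 = 3) :
    ∃ m₀ v₀ : ℂ, m₀ ∈ Zloc 2 ∧ v₀ ∈ Zloc 2 ∧ -(p : ℂ)⁻¹ = 1 + 4 * m₀ ∧ m₀ ^ 2 + m₀ = 2 * v₀ := by
  obtain ⟨t, ht⟩ : ∃ t : ℤ, (p : ℤ) = 4 * t - 1 := ⟨((p : ℤ) + 1) / 4, by omega⟩
  obtain ⟨w, hw⟩ : ∃ w : ℤ, t * (1 - 3 * t) = 2 * w := by
    rcases Int.even_or_odd t with ⟨r, hr⟩ | ⟨r, hr⟩
    · exact ⟨r * (1 - 3 * t), by rw [hr]; ring⟩
    · exact ⟨t * (-1 - 3 * r), by rw [hr]; ring⟩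
  have hpodd : ¬ ((2 : ℕ) : ℤ) ∣ (p : ℤ) := by
    intro h
    omega
  have hpC : (p : ℂ) ≠ 0 := by exact_mod_cast hp0
  have hpt : (p : ℂ) = 4 * (t : ℂ) - 1 := by exact_mod_cast congrArg (Int.cast (R := ℂ)) ht
  have hwC : (t : ℂ) * (1 - 3 * (t : ℂ)) = 2 * (w : ℂ) := by
    exact_mod_cast congrArg (Int.cast (R := ℂ)) hw
  refine ⟨(-t : ℤ) / (p : ℤ), (w : ℤ) / ((p : ℤ) ^ 2 : ℤ), ⟨-t, p, hpodd, by push_cast; ring⟩,
    ⟨w, (p : ℤ) ^ 2, ?_, by push_cast; ring⟩, ?_, ?_⟩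
  · intro h
    exact hpodd (Int.Prime.dvd_pow' Nat.prime_two h)
  · push_cast
    field_simp
    linear_combination (-1 : ℂ) * hpt
  · push_cast
    field_simp
    linear_combination hwC - (t : ℂ) * hpt

/-- a series `≡ 1 mod 8` is `1 + 8 g` with `g ∈ ℤ_(2)⟦q⟧`, `g(0) = 0`. -/
lemma exists_g_of_isOneModQ {a : PowerSeries ℂ} (h : IsOneModQ 2 3 a) :
    ∃ g ∈ seriesSubring (Zloc 2), PowerSeries.coeff 0 g = 0 ∧ a = 1 + 8 * g := by
  obtain ⟨h0, hk⟩ := h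
  choose x hx hax using hk
  refine ⟨PowerSeries.mk fun k => if hk : 1 ≤ k then x k hk else 0, ?_, by simp, ?_⟩
  · rw [mem_seriesSubring_iff]
    intro n
    rw [PowerSeries.coeff_mk]
    split_ifs with hn
    · exact hx n hn
    · exact (Zloc 2).zero_mem
  · ext n
    have h8 : (8 : PowerSeries ℂ) = PowerSeries.C (8 : ℂ) := (map_ofNat PowerSeries.C 8).symm
    rw [map_add, h8, PowerSeries.coeff_C_mul, PowerSeries.coeff_mk, PowerSeries.coeff_one]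
    by_cases hn : n = 0
    · subst hn
      simp [h0]
    · have hn1 : 1 ≤ n := Nat.one_le_iff_ne_zero.mpr hn
      rw [hax n hn1]
      simp only [hn, if_false, hn1, dif_pos]
      push_cast
      ring

variable (p : ℕ) [Fact p.Prime]

omit [Fact p.Prime] in
/-- `U_p` preserves `seriesSubring`. -/
lemma Up_mem_seriesSubring (R' : Subring ℂ) {f : PowerSeries ℂ} (hf : f ∈ seriesSubring R') :
    Up p f ∈ seriesSubring R' := by
  rw [mem_seriesSubring_iff] at hf ⊢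
  intro n
  rw [Up, PowerSeries.coeff_mk]
  exact hf _

/-- the expansion at the other cusp of a weight-2 form `F = 1 + 8 g`: `b = -p⁻¹ (1 + 8 U_p g)`. -/
lemma sharpQ_eq_of_isOneModQ {F : ℍ → ℂ} (hF : IsGamma0Form p 2 F) {g : PowerSeries ℂ}
    (hg : qExpansion 1 F = 1 + 8 * g) :
    sharpQ p 2 F = PowerSeries.C (-(p : ℂ)⁻¹) * (1 + 8 * Up p g) := by
  ext n
  have h8 : (8 : PowerSeries ℂ) = PowerSeries.C (8 : ℂ) := (map_ofNat PowerSeries.C 8).symm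
  rw [sharpQ_weight_two p hF n, hg, PowerSeries.coeff_C_mul, map_add, map_add, h8,
    PowerSeries.coeff_C_mul, PowerSeries.coeff_C_mul, Up, PowerSeries.coeff_mk,
    PowerSeries.coeff_one, PowerSeries.coeff_one]
  have hp0 : p ≠ 0 := (Fact.out : p.Prime).ne_zero
  by_cases hn : n = 0
  · subst hn; simp
  · have : p * n ≠ 0 := Nat.mul_ne_zero hp0 hn
    simp [hn, this]

/-- `B = (F² - E₄)/8`. -/
def rhoB (F : ℍ → ℂ) : ℍ → ℂ := (8 : ℂ)⁻¹ • (F ^ 2 - ⇑E₄)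

/-- `B'' = (F³ + F E₄ - 2 E₆)/32`. -/
def rhoB'' (F : ℍ → ℂ) : ℍ → ℂ := (32 : ℂ)⁻¹ • (F ^ 3 + F * ⇑E₄ - (2 : ℂ) • ⇑E₆)

section forms

variable {F : ℍ → ℂ} (hF : IsGamma0Form p 2 F)

include hF

omit [Fact p.Prime] in
lemma isGamma0Form_sq : IsGamma0Form p 4 (F ^ 2) :=
  (IsGamma0Form.pow hF 2).congr_weight p (by norm_num)

omit [Fact p.Prime] in
lemma isGamma0Form_cube : IsGamma0Form p 6 (F ^ 3) :=
  (IsGamma0Form.pow hF 3).congr_weight p (by norm_num)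

lemma isGamma0Form_mulE4 : IsGamma0Form p 6 (F * ⇑E₄) :=
  (IsGamma0Form.mul hF (IsGamma0Form.of_levelOne (p := p) E₄)).congr_weight p (by norm_num)

lemma isGamma0Form_rhoB : IsGamma0Form p 4 (rhoB F) :=
  IsGamma0Form.smul _ (IsGamma0Form.sub (isGamma0Form_sq p hF) (IsGamma0Form.of_levelOne (p := p) E₄))

lemma isGamma0Form_rhoB'' : IsGamma0Form p 6 (rhoB'' F) :=
  IsGamma0Form.smul _ (IsGamma0Form.sub
    (IsGamma0Form.add (isGamma0Form_cube p hF) (isGamma0Form_mulE4 p hF))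
    (IsGamma0Form.smul 2 (IsGamma0Form.of_levelOne (p := p) E₆)))

lemma qExpansion_rhoB :
    qExpansion 1 (rhoB F) = (8 : ℂ)⁻¹ • (qExpansion 1 F ^ 2 - qExpansion 1 E₄) := by
  rw [rhoB, IsGamma0Form.qExpansion_smul
      (IsGamma0Form.sub (isGamma0Form_sq p hF) (IsGamma0Form.of_levelOne (p := p) E₄)),
    IsGamma0Form.qExpansion_sub (isGamma0Form_sq p hF) (IsGamma0Form.of_levelOne (p := p) E₄),
    IsGamma0Form.qExpansion_pow hF]

lemma qExpansion_rhoB'' :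
    qExpansion 1 (rhoB'' F) = (32 : ℂ)⁻¹ •
      (qExpansion 1 F ^ 3 + qExpansion 1 F * qExpansion 1 E₄ - 2 * qExpansion 1 E₆) := by
  have h2 : (2 : ℂ) • qExpansion 1 E₆ = 2 * qExpansion 1 E₆ := by
    rw [PowerSeries.smul_eq_C_mul, map_ofNat]
  rw [rhoB'', IsGamma0Form.qExpansion_smul (IsGamma0Form.sub
      (IsGamma0Form.add (isGamma0Form_cube p hF) (isGamma0Form_mulE4 p hF))
      (IsGamma0Form.smul 2 (IsGamma0Form.of_levelOne (p := p) E₆))),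
    IsGamma0Form.qExpansion_sub
      (IsGamma0Form.add (isGamma0Form_cube p hF) (isGamma0Form_mulE4 p hF))
      (IsGamma0Form.smul 2 (IsGamma0Form.of_levelOne (p := p) E₆)),
    IsGamma0Form.qExpansion_add (isGamma0Form_cube p hF) (isGamma0Form_mulE4 p hF),
    IsGamma0Form.qExpansion_pow hF,
    IsGamma0Form.qExpansion_mul hF (IsGamma0Form.of_levelOne (p := p) E₄),
    IsGamma0Form.qExpansion_smul (IsGamma0Form.of_levelOne (p := p) E₆), h2]

omit hF in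
lemma sharp_rhoB :
    sharp p 4 (rhoB F) = (8 : ℂ)⁻¹ • ((sharp p 2 F) ^ 2 - sharp p 4 ⇑E₄) := by
  have h := sharp_pow p 2 2 F
  rw [show (2 : ℤ) * ((2 : ℕ) : ℤ) = 4 by norm_num] at h
  rw [rhoB, sharp_smul, sharp_sub, h]

omit hF in
lemma sharp_rhoB'' :
    sharp p 6 (rhoB'' F) = (32 : ℂ)⁻¹ •
      ((sharp p 2 F) ^ 3 + sharp p 2 F * sharp p 4 ⇑E₄ - (2 : ℂ) • sharp p 6 ⇑E₆) := by
  have h3 := sharp_pow p 2 3 F
  rw [show (2 : ℤ) * ((3 : ℕ) : ℤ) = 6 by norm_num] at h3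
  have hm := sharp_mul p 2 4 F ⇑E₄
  rw [show (2 : ℤ) + 4 = 6 by norm_num] at hm
  rw [rhoB'', sharp_smul, sharp_sub, sharp_add, h3, hm, sharp_smul]

lemma sharpQ_rhoB :
    sharpQ p 4 (rhoB F) = (8 : ℂ)⁻¹ •
      (sharpQ p 2 F ^ 2 - PowerSeries.expand p (NeZero.ne p) (qExpansion 1 E₄)) := by
  have hsF : IsGamma0Form p 2 (sharp p 2 F) := IsGamma0Form.sharp p hF
  have hsE : IsGamma0Form p 4 (sharp p 4 ⇑E₄) :=
    IsGamma0Form.sharp p (IsGamma0Form.of_levelOne (p := p) E₄)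
  have hE : qExpansion 1 (sharp p 4 ⇑E₄) =
      PowerSeries.expand p (NeZero.ne p) (qExpansion 1 E₄) := sharpQ_levelOne p E₄
  rw [sharpQ, sharp_rhoB, IsGamma0Form.qExpansion_smul
      (IsGamma0Form.sub (isGamma0Form_sq p hsF) hsE),
    IsGamma0Form.qExpansion_sub (isGamma0Form_sq p hsF) hsE,
    IsGamma0Form.qExpansion_pow hsF, hE, sharpQ]

lemma sharpQ_rhoB'' :
    sharpQ p 6 (rhoB'' F) = (32 : ℂ)⁻¹ •
      (sharpQ p 2 F ^ 3 + sharpQ p 2 F * PowerSeries.expand p (NeZero.ne p) (qExpansion 1 E₄)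
        - 2 * PowerSeries.expand p (NeZero.ne p) (qExpansion 1 E₆)) := by
  have hsF : IsGamma0Form p 2 (sharp p 2 F) := IsGamma0Form.sharp p hF
  have hsE4 : IsGamma0Form p 4 (sharp p 4 ⇑E₄) :=
    IsGamma0Form.sharp p (IsGamma0Form.of_levelOne (p := p) E₄)
  have hsE6 : IsGamma0Form p 6 (sharp p 6 ⇑E₆) :=
    IsGamma0Form.sharp p (IsGamma0Form.of_levelOne (p := p) E₆)
  have hE4 : qExpansion 1 (sharp p 4 ⇑E₄) =
      PowerSeries.expand p (NeZero.ne p) (qExpansion 1 E₄) := sharpQ_levelOne p E₄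
  have hE6 : qExpansion 1 (sharp p 6 ⇑E₆) =
      PowerSeries.expand p (NeZero.ne p) (qExpansion 1 E₆) := sharpQ_levelOne p E₆
  have h2 : ∀ x : PowerSeries ℂ, (2 : ℂ) • x = 2 * x := by
    intro x
    rw [PowerSeries.smul_eq_C_mul, map_ofNat]
  have hmul : IsGamma0Form p 6 (sharp p 2 F * sharp p 4 ⇑E₄) :=
    (IsGamma0Form.mul hsF hsE4).congr_weight p (by norm_num)
  rw [sharpQ, sharp_rhoB'', IsGamma0Form.qExpansion_smul (IsGamma0Form.sub
      (IsGamma0Form.add (isGamma0Form_cube p hsF) hmul) (IsGamma0Form.smul 2 hsE6)),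
    IsGamma0Form.qExpansion_sub (IsGamma0Form.add (isGamma0Form_cube p hsF) hmul)
      (IsGamma0Form.smul 2 hsE6),
    IsGamma0Form.qExpansion_add (isGamma0Form_cube p hsF) hmul,
    IsGamma0Form.qExpansion_pow hsF, IsGamma0Form.qExpansion_mul hsF hsE4,
    IsGamma0Form.qExpansion_smul hsE6, hE4, hE6, h2, sharpQ]

end forms

/-- integrality at both cusps of `B` and `B''`. -/
theorem rho_integrality (hp : p % 4 = 3) {F : ℍ → ℂ} (hF : IsGamma0Form p 2 F)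
    (hone : IsOneModQ 2 3 (qExpansion 1 F)) :
    qExpansion 1 (rhoB F) ∈ seriesSubring (Rint 2) ∧
    qExpansion 1 (rhoB'' F) ∈ seriesSubring (Rint 2) ∧
    sharpQ p 4 (rhoB F) ∈ seriesSubring (Rint 2) ∧
    sharpQ p 6 (rhoB'' F) ∈ seriesSubring (Rint 2) := by
  have hp0 : p ≠ 0 := (Fact.out : p.Prime).ne_zero
  obtain ⟨g, hgZ, -, hg⟩ := exists_g_of_isOneModQ hone
  have hle : seriesSubring (Zloc 2) ≤ seriesSubring (Rint 2) := by
    intro f hf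
    rw [mem_seriesSubring_iff] at hf ⊢
    exact fun n => Zloc_le_Rint 2 (hf n)
  have hgR : g ∈ seriesSubring (Rint 2) := hle hgZ
  have h0 : (0 : PowerSeries ℂ) ∈ seriesSubring (Rint 2) := Subring.zero_mem _
  have hE4 := qExpansion_E4_sig3
  have hE6 := qExpansion_E6_sig5
  obtain ⟨m₀, v₀, hm₀, hv₀, hc, hmv⟩ := rho_const p hp0 hp
  set m : PowerSeries ℂ := PowerSeries.C m₀ with hm
  set v : PowerSeries ℂ := PowerSeries.C v₀ with hv
  have hmR : m ∈ seriesSubring (Rint 2) := C_mem_seriesSubring _ (Zloc_le_Rint 2 hm₀)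
  have hvR : v ∈ seriesSubring (Rint 2) := C_mem_seriesSubring _ (Zloc_le_Rint 2 hv₀)
  have hmv' : m ^ 2 + m = 2 * v := by
    rw [hm, hv, ← map_pow, ← map_add, hmv, map_mul, map_ofNat]
  have hb : sharpQ p 2 F = (1 + 4 * m) * (1 + 8 * Up p g) := by
    rw [sharpQ_eq_of_isOneModQ p hF hg, hc, hm, map_add, map_one, map_mul, map_ofNat]
  have hUg : Up p g ∈ seriesSubring (Rint 2) := Up_mem_seriesSubring p _ hgR
  have hexp4 : PowerSeries.expand p (NeZero.ne p) (qExpansion 1 E₄) =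
      1 + 240 * PowerSeries.expand p (NeZero.ne p) sig3 := by
    rw [hE4, map_add, map_one, map_mul, map_ofNat]
  have hexp6 : PowerSeries.expand p (NeZero.ne p) (qExpansion 1 E₆) =
      1 - 504 * PowerSeries.expand p (NeZero.ne p) sig5 := by
    rw [hE6, map_sub, map_one, map_mul, map_ofNat]
  have hexps : PowerSeries.expand p (NeZero.ne p) sig3 + PowerSeries.expand p (NeZero.ne p) sig5 =
      2 * PowerSeries.expand p (NeZero.ne p) sigU := by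
    rw [← map_add, sig3_add_sig5, map_mul, map_ofNat]
  have hF1 : qExpansion 1 F = (1 + 4 * (0 : PowerSeries ℂ)) * (1 + 8 * g) := by
    rw [hg]; ring
  refine ⟨?_, ?_, ?_, ?_⟩
  · rw [qExpansion_rhoB p hF]
    exact twoAdic_B_mem (Rint 2) hF1 hE4 (by ring) h0 hgR (sig3_mem _) h0
  · rw [qExpansion_rhoB'' p hF]
    exact twoAdic_B''_mem (Rint 2) hF1 hE4 hE6 (by ring) sig3_add_sig5 h0 hgR (sig3_mem _)
      (sigU_mem _) h0
  · rw [sharpQ_rhoB p hF]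
    exact twoAdic_B_mem (Rint 2) hb hexp4 hmv' hmR hUg
      (expand_mem_seriesSubring _ p _ (sig3_mem _)) hvR
  · rw [sharpQ_rhoB'' p hF]
    exact twoAdic_B''_mem (Rint 2) hb hexp4 hexp6 hmv' hexps hmR hUg
      (expand_mem_seriesSubring _ p _ (sig3_mem _))
      (expand_mem_seriesSubring _ p _ (sigU_mem _)) hvR

/-- the `n`-th power of a form whose expansions at both cusps are `R'`-integral has the same
property (weight `k n`). -/
lemma pow_integrality (R' : Subring ℂ) {k : ℤ} {H : ℍ → ℂ} (hH : IsGamma0Form p k H) (n : ℕ)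
    {K : ℤ} (hK : k * n = K) (h1 : qExpansion 1 H ∈ seriesSubring R')
    (h2 : sharpQ p k H ∈ seriesSubring R') :
    IsGamma0Form p K (H ^ n) ∧ (∀ j, PowerSeries.coeff j (qExpansion 1 (H ^ n)) ∈ R') ∧
      ∀ j, PowerSeries.coeff j (sharpQ p K (H ^ n)) ∈ R' := by
  subst hK
  refine ⟨IsGamma0Form.pow hH n, ?_, ?_⟩
  · rw [IsGamma0Form.qExpansion_pow hH]
    exact (mem_seriesSubring_iff _ _).1 (Subring.pow_mem _ h1 n)
  · rw [sharpQ, sharp_pow, IsGamma0Form.qExpansion_pow (IsGamma0Form.sharp p hH)]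
    exact (mem_seriesSubring_iff _ _).1 (Subring.pow_mem _ h2 n)

/-- **RHO**: `ℓ = 2`, `p ≡ 3 mod 4`: there is no `F ∈ M₂(Γ₀(p))` with `2`-integral `q`-expansion
`≡ 1 mod 8`. -/
theorem no_oneMod_two (_hp5 : 5 ≤ p) (hp : p % 4 = 3) (F : ModularForm (Gamma0 p) 2)
    (hF : IsOneModQ 2 3 (qExpansion 1 F)) : False := by
  have hFf : IsGamma0Form p 2 (⇑F) := IsGamma0Form.of_form p F
  obtain ⟨h1, h2, h3, h4⟩ := rho_integrality p hp hFf hF
  obtain ⟨hH1, q1, s1⟩ := pow_integrality p (Rint 2) (isGamma0Form_rhoB p hFf) 3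
    (K := 12) (by norm_num) h1 h3
  obtain ⟨hH2, q2, s2⟩ := pow_integrality p (Rint 2) (isGamma0Form_rhoB'' p hFf) 2
    (K := 12) (by norm_num) h2 h4
  have hζ : zetaP p ∈ Rint 2 := zetaP_mem_Rint 2 p (Fact.out : p.Prime).ne_zero
  have m1 := mem_Rint_of_isIntegral 2 (isIntegral_eval_rho p (Rint 2) hζ hH1 q1 s1)
  have m2 := mem_Rint_of_isIntegral 2 (isIntegral_eval_rho p (Rint 2) hζ hH2 q2 s2)
  have hinv : (2 : ℂ)⁻¹ ∉ Rint 2 := by
    have := ell_inv_not_mem_Rint 2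
    simpa using this
  refine two_adic_endgame_rho (Rint 2) (fun x hx => mem_Rint_of_isIntegral 2 hx) hinv
    (F rhoPt) (E₆ rhoPt) (Δ rhoPt) (ModularForm.discriminant_ne_zero _) E6_sq_rho ?_ ?_
  · have : (rhoB (⇑F) ^ 3) rhoPt = (F rhoPt ^ 2 / 8) ^ 3 := by
      simp only [rhoB, Pi.pow_apply, Pi.smul_apply, Pi.sub_apply, smul_eq_mul, E4_rho]
      ring
    rw [← this]
    exact m1
  · have : (rhoB'' (⇑F) ^ 2) rhoPt = ((F rhoPt ^ 3 - 2 * E₆ rhoPt) / 32) ^ 2 := by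
      simp only [rhoB'', Pi.pow_apply, Pi.smul_apply, Pi.sub_apply, Pi.add_apply, Pi.mul_apply,
        smul_eq_mul, E4_rho]
      ring
    rw [← this]
    exact m2

end Fermat.Agent.Eis
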