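import Mathlib
import Fermat.Agent.Eis.ReductionForms
import Fermat.Agent.X0.Mod.Reps
import Fermat.Prelude.Thm_ModularForm_sturm_bound_Gamma0
import Fermat.Prelude.Thm_CongruenceSubgroup_one_mem_strictPeriods_Gamma0

/-!
# S16 / small primes: `p < 5`

For `p = 2, 3` there are no cusp forms of weight `2` on `Γ0(p)` (Sturm bound + index `p + 1 ≤ 4`), so a
congruence `f ≡ E mod m` with `f` cuspidal forces `m ∣ σ'(1) = 1`.  This is the upper bound `hUB` of
`card_eq_of_bounds_forms` for `p < 5`; the general arguments may therefore assume `5 ≤ p`.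
-/

set_option autoImplicit false

namespace Fermat.Agent.Eis

open CongruenceSubgroup ModularFormClass CuspForm UpperHalfPlane

/-- `ψ(p) = p + 1` for a prime `p`. -/
theorem dedekindPsi_prime {p : ℕ} (hp : p.Prime) : ModularCurve.dedekindPsi p = p + 1 := by
  rw [ModularCurve.dedekindPsi, hp.divisors]
  have h1 : (1 : ℕ) ≠ p := hp.one_lt.ne
  rw [Finset.filter_true_of_mem]
  · rw [Finset.sum_pair h1]
    simp [Nat.div_self hp.pos]
  · intro d hd
    rcases Finset.mem_insert.mp hd with rfl | hd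
    · exact squarefree_one
    · rw [Finset.mem_singleton.mp hd]
      exact hp.prime.squarefree

/-- the index of `Γ0(p)` in `SL(2, ℤ)` is `p + 1`. -/
theorem index_Gamma0_prime {p : ℕ} (hp : p.Prime) : (Gamma0 p).index = p + 1 := by
  have : NeZero p := ⟨hp.ne_zero⟩
  rw [Fermat.Agent.X0.CosetRep.index_Gamma0, dedekindPsi_prime hp]

/-- there are no cusp forms of weight `2` on `Γ0(p)` for `p < 5`. -/
theorem cuspForm_eq_zero_of_lt_five {p : ℕ} (hp : p.Prime) (hp5 : p < 5)
    (f : CuspForm (Gamma0 p) 2) : f = 0 := by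
  have : NeZero p := ⟨hp.ne_zero⟩
  have hper := CongruenceSubgroup.one_mem_strictPeriods_Gamma0 p
  have h0 : (qExpansion 1 f).coeff 0 = 0 :=
    CuspFormClass.qExpansion_coeff_zero f one_pos hper
  have key := ModularForm.sturm_bound_Gamma0 p (k := 2)
    (ModularFormClass.modularForm f : ModularForm (Gamma0 p) 2) ?_
  · ext z
    have := congrArg (fun g : ModularForm (Gamma0 p) 2 => g z) key
    simpa using this
  · intro n hn
    have hidx := index_Gamma0_prime hp
    have : n = 0 := by
      have : ((2 : ℤ) * ((Gamma0 p).index : ℤ)).toNat / 12 = 0 := by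
        have : ((2 : ℤ) * ((Gamma0 p).index : ℤ)).toNat < 12 := by
          rw [hidx]; push_cast; omega
        omega
      omega
    subst this
    exact h0

/-- the upper bound `hUB` for `p < 5`. -/
theorem upper_bound_small {p : ℕ} (hp : p.Prime) (hp5 : p < 5) (n : ℕ) :
    ∀ m : ℕ, 0 < m → (∃ f : CuspForm (Gamma0 p) 2, IsEisMod p m f) → m ∣ n := by
  rintro m - ⟨f, hf⟩
  obtain rfl := cuspForm_eq_zero_of_lt_five hp hp5 f
  obtain ⟨a, ha, hdiv⟩ := hf 1
  have ha0 : a = 0 := by
    have h : qCoeff (⇑(0 : CuspForm (Gamma0 p) 2)) 1 = 0 := by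
      simp only [ModularFormClass.qCoeff, FunLike.coe_zero]
      rw [UpperHalfPlane.qExpansion_zero, map_zero]
    rw [h] at ha
    exact_mod_cast ha.symm
  have h1 := hdiv le_rfl
  rw [ha0, eisCoeff_one hp, zero_sub] at h1
  have h2 : (m : ℤ) ∣ 1 := (dvd_neg).mp h1
  have h3 : m ∣ 1 := by exact_mod_cast h2
  exact (Nat.dvd_one.mp h3) ▸ one_dvd n

end Fermat.Agent.Eis
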