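import Mathlib

/-!
# S16 / TAU, power series core

Pure algebra over a subring `R ⊆ ℂ` and an element `M ∈ R` (later `R = ℤ_(ℓ)`, `M = ℓ^s`):
from the two trace identities
* `a · D(q^p) + p · U_p(b · κ D) = 0` (weight 14),
* `D(q^p) + p · U_p(κ D) = c · D` (weight 12),
with `a ≡ 1`, `b_n = -a_{pn}/p`, `κ = p^{-12}`, `D = q + …` with coefficients in `R`, we get
`p^11 (p + 1) ∈ M R`.
-/

set_option autoImplicit false

open PowerSeries

namespace Fermat.Agent.Eis

/-- membership in the ideal `M R` (as a subset of `ℂ`) -/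
def InI (R : Subring ℂ) (M x : ℂ) : Prop := ∃ y ∈ R, x = M * y

namespace InI

variable {R : Subring ℂ} {M x y : ℂ}

theorem zero : InI R M 0 := ⟨0, R.zero_mem, by simp⟩

theorem add (hx : InI R M x) (hy : InI R M y) : InI R M (x + y) := by
  obtain ⟨u, hu, rfl⟩ := hx
  obtain ⟨v, hv, rfl⟩ := hy
  exact ⟨u + v, R.add_mem hu hv, by ring⟩

theorem neg (hx : InI R M x) : InI R M (-x) := by
  obtain ⟨u, hu, rfl⟩ := hx
  exact ⟨-u, R.neg_mem hu, by ring⟩

theorem sub (hx : InI R M x) (hy : InI R M y) : InI R M (x - y) := by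
  rw [sub_eq_add_neg]; exact hx.add hy.neg

theorem mul_left {r : ℂ} (hr : r ∈ R) (hx : InI R M x) : InI R M (r * x) := by
  obtain ⟨u, hu, rfl⟩ := hx
  exact ⟨r * u, R.mul_mem hr hu, by ring⟩

theorem mul_right {r : ℂ} (hr : r ∈ R) (hx : InI R M x) : InI R M (x * r) := by
  rw [mul_comm]; exact hx.mul_left hr

theorem sum {ι : Type*} (s : Finset ι) (f : ι → ℂ) (h : ∀ i ∈ s, InI R M (f i)) :
    InI R M (∑ i ∈ s, f i) :=
  Finset.sum_induction _ (InI R M) (fun _ _ => add) zero h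

theorem mem (hM : M ∈ R) (hx : InI R M x) : x ∈ R := by
  obtain ⟨u, hu, rfl⟩ := hx
  exact R.mul_mem hM hu

end InI

theorem inI_coeff_mul {R : Subring ℂ} {M : ℂ} {f g : PowerSeries ℂ}
    (hf : ∀ i, InI R M (coeff i f)) (hg : ∀ j, coeff j g ∈ R) (n : ℕ) :
    InI R M (coeff n (f * g)) := by
  rw [coeff_mul]
  exact InI.sum _ _ fun ij _ => (hf ij.1).mul_right (hg ij.2)

theorem tau_core_algebra (R : Subring ℂ) (M : ℂ) (hM : M ∈ R) (p : ℕ) (hp : 2 ≤ p)
    (hp0 : p ≠ 0) (hpR : (p : ℂ)⁻¹ ∈ R)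
    (a b D : PowerSeries ℂ) (κ c : ℂ) (hκ : κ * (p : ℂ) ^ 12 = 1)
    (ha0 : coeff 0 a = 1) (ha : ∀ k, 1 ≤ k → InI R M (coeff k a))
    (hb : ∀ n, coeff n b = -(p : ℂ)⁻¹ * coeff (p * n) a)
    (hD : ∀ n, coeff n D ∈ R) (hD1 : coeff 1 D = 1)
    (h14 : ∀ n, coeff n (a * expand p hp0 D) + (p : ℂ) * coeff (p * n) (b * (κ • D)) = 0)
    (h12 : ∀ n, coeff n (expand p hp0 D) + (p : ℂ) * coeff (p * n) (κ • D) = c * coeff n D) :
    InI R M ((p : ℂ) ^ 11 * ((p : ℂ) + 1)) := by
  have hpC : (p : ℂ) ≠ 0 := by exact_mod_cast hp0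
  have hpmem : (p : ℂ) ∈ R := natCast_mem R p
  -- the expanded series
  set E := expand p hp0 D with hE
  have hEmem : ∀ n, coeff n E ∈ R := by
    intro n
    rw [hE, coeff_expand]
    split_ifs
    · exact hD _
    · exact R.zero_mem
  have hE1 : coeff 1 E = 0 := by
    rw [hE, coeff_expand_of_not_dvd]
    intro h
    have := Nat.le_of_dvd one_pos h
    omega
  have hEp : coeff p E = 1 := by
    have := coeff_expand_mul p hp0 D 1
    rw [mul_one] at this
    rw [hE, this, hD1]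
  -- `a = 1 + a'`
  set a' := a - 1 with ha'
  have ha'I : ∀ n, InI R M (coeff n a') := by
    intro n
    rcases Nat.eq_zero_or_pos n with rfl | hn
    · rw [ha', map_sub, ha0, coeff_zero_one, sub_self]; exact InI.zero
    · rw [ha', map_sub, coeff_one, if_neg (by omega), sub_zero]; exact ha n hn
  -- `b = C(-1/p) + b'`
  set b' := b - C (-(p : ℂ)⁻¹) with hb'
  have hb'I : ∀ n, InI R M (coeff n b') := by
    intro n
    rcases Nat.eq_zero_or_pos n with rfl | hn
    · rw [hb', map_sub, hb 0, mul_zero, ha0, coeff_zero_C, mul_one, sub_self]; exact InI.zero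
    · rw [hb', map_sub, coeff_C, if_neg (by omega), sub_zero, hb n]
      have : 1 ≤ p * n := Nat.mul_pos (by omega) hn
      exact (ha _ this).mul_left (R.neg_mem hpR)
  -- coefficients of the two products
  have hX : ∀ n, ∃ α, InI R M α ∧ coeff n (a * E) = coeff n E + α := by
    intro n
    refine ⟨coeff n (a' * E), inI_coeff_mul ha'I hEmem n, ?_⟩
    have : a * E = E + a' * E := by rw [ha']; ring
    rw [this, map_add]
  have hY : ∀ m, ∃ β, InI R M β ∧
      coeff m (b * (κ • D)) = κ * (-(p : ℂ)⁻¹ * coeff m D + β) := by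
    intro m
    refine ⟨coeff m (b' * D), inI_coeff_mul hb'I hD m, ?_⟩
    have : b * (κ • D) = κ • (C (-(p : ℂ)⁻¹) * D + b' * D) := by
      rw [hb']; simp only [smul_eq_C_mul]; ring
    rw [this, coeff_smul, map_add, coeff_C_mul, smul_eq_mul]
  -- consequence of the weight 14 identity
  have key14 : ∀ n, InI R M (coeff (p * n) D - (p : ℂ) ^ 12 * coeff n E) := by
    intro n
    obtain ⟨α, hα, hXn⟩ := hX n
    obtain ⟨β, hβ, hYn⟩ := hY (p * n)
    have h := h14 n
    rw [hXn, hYn] at h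
    have h2 : coeff (p * n) D - (p : ℂ) ^ 12 * coeff n E = (p : ℂ) ^ 12 * α + (p : ℂ) * β := by
      have h3 : (p : ℂ) ^ 12 * (coeff n E + α + (p : ℂ) * (κ * (-(p : ℂ)⁻¹ * coeff (p * n) D + β)))
          = 0 := by rw [h, mul_zero]
      have h4 : (p : ℂ) * (p : ℂ)⁻¹ = 1 := mul_inv_cancel₀ hpC
      linear_combination (-1 : ℂ) * h3 +
        ((p : ℂ) * β - (p : ℂ) * (p : ℂ)⁻¹ * coeff (p * n) D) * hκ - coeff (p * n) D * h4
    rw [h2]
    exact (hα.mul_left (R.pow_mem hpmem 12)).add (hβ.mul_left hpmem)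
  have hτp : InI R M (coeff p D) := by
    have := key14 1
    rwa [mul_one, hE1, mul_zero, sub_zero] at this
  have hτpp : InI R M (coeff (p * p) D - (p : ℂ) ^ 12) := by
    have := key14 p
    rwa [hEp, mul_one] at this
  -- consequence of the weight 12 identity
  have key12 : ∀ n, (p : ℂ) ^ 11 * coeff n E + coeff (p * n) D = (p : ℂ) ^ 11 * c * coeff n D := by
    intro n
    have h := h12 n
    rw [coeff_smul, smul_eq_mul] at h
    linear_combination (p : ℂ) ^ 11 * h - coeff (p * n) D * hκ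
  have h1 : coeff p D = (p : ℂ) ^ 11 * c := by
    have := key12 1
    rwa [mul_one, hE1, mul_zero, zero_add, hD1, mul_one] at this
  have h2 : (p : ℂ) ^ 11 + coeff (p * p) D = coeff p D * coeff p D := by
    have := key12 p
    rw [hEp, mul_one, ← h1] at this
    exact this
  have h3 : (p : ℂ) ^ 11 * ((p : ℂ) + 1) =
      coeff p D * coeff p D - (coeff (p * p) D - (p : ℂ) ^ 12) := by
    linear_combination h2
  rw [h3]
  exact (hτp.mul_left (hτp.mem hM)).sub hτpp

end Fermat.Agent.Eis
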