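import Mathlib
import Fermat.Agent.Eis.LocalRing
import Fermat.Agent.Eis.ConjDefs
import Fermat.Agent.Eis.LevelOneStructure
import Fermat.Agent.Eis.TauCore
import Fermat.Agent.Eis.ConjSharp
import Fermat.Agent.Eis.ConjTrace

/-!
# S16 / TAU: `F ≡ 1 mod ℓ^s`, `ℓ ≠ p` ⟹ `ℓ^s ∣ p + 1`

`Tr(F · Δ(pz)) ∈ S_14(SL₂ℤ) = 0` and `Tr(Δ(pz)) ∈ S_12(SL₂ℤ) = ℂΔ`; compare the coefficients of
`q` and `q^p`.
-/

set_option autoImplicit false

open UpperHalfPlane ModularForm Complex CongruenceSubgroup PowerSeries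
open scoped MatrixGroups ModularForm

namespace Fermat.Agent.Eis

local notation "Δ" => ModularForm.discriminant

/-- the discriminant as a level one modular form -/
noncomputable def tauDelta : ModularForm 𝒮ℒ 12 := ModularFormClass.modularForm CuspForm.discriminant

theorem coe_tauDelta : ⇑tauDelta = Δ := rfl

/-! ## Level one facts -/

theorem tau_qExpansion_eq_zero_of_weight_14 (T : ModularForm 𝒮ℒ 14)
    (h0 : (qExpansion 1 T).coeff 0 = 0) : qExpansion 1 T = 0 := by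
  rw [ModularForm.qExpansion_eq_qExpansion_discriminant_mul T h0]
  have h2 : (14 : ℤ) - 12 = 2 := by norm_num
  have hrank : Module.rank ℂ (ModularForm 𝒮ℒ (14 - 12)) = 0 := by
    rw [h2]; exact ModularForm.levelOne_weight_two_rank_zero
  have : CuspForm.discriminantEquiv (ModularForm.toCuspForm T h0) = 0 :=
    rank_zero_iff_forall_zero.mp hrank _
  rw [this]
  have : ⇑(0 : ModularForm 𝒮ℒ (14 - 12)) = (0 : ℍ → ℂ) := rfl
  rw [this, qExpansion_zero, mul_zero]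

theorem tau_exists_smul_of_weight_12 (T : ModularForm 𝒮ℒ 12)
    (h0 : (qExpansion 1 T).coeff 0 = 0) : ∃ c : ℂ, (T : ℍ → ℂ) = c • Δ := by
  obtain ⟨c, hc⟩ := CuspForm.exists_smul_discriminant_of_weight_eq_twelve
    (ModularForm.toCuspForm T h0)
  refine ⟨c, ?_⟩
  funext z
  have := congrArg (fun f : CuspForm 𝒮ℒ 12 => f z) hc
  simp only [ModularForm.toCuspForm_apply] at this
  rw [← this]
  rfl

theorem tau_coeff_delta_int (n : ℕ) : ∃ t : ℤ, (qExpansion 1 Δ).coeff n = (t : ℂ) := by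
  rw [qExpansion_discriminant_eq, ← map_deltaSeries (Int.castRingHom ℂ), PowerSeries.coeff_map]
  exact ⟨_, rfl⟩

theorem tau_coeff_delta_zero : (qExpansion 1 Δ).coeff 0 = 0 := by
  rw [qExpansion_discriminant_eq, deltaSeries]
  simp

/-! ## The two trace identities -/

section traces

variable (p : ℕ) [Fact p.Prime]

/-- the constant `(-1)^12 p^(-12)` of `sharp_sharp` -/
noncomputable def tauKappa : ℂ := (-1 : ℂ) ^ (12 : ℤ) * (p : ℂ) ^ (-(12 : ℤ))

theorem tauKappa_mul : tauKappa p * (p : ℂ) ^ 12 = 1 := by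
  have hp : (p : ℂ) ≠ 0 := by exact_mod_cast (Fact.out : p.Prime).ne_zero
  rw [tauKappa, zpow_neg, show ((12 : ℤ)) = ((12 : ℕ) : ℤ) by norm_num, zpow_natCast, zpow_natCast]
  field_simp

omit [Fact p.Prime] in
theorem tau_coeff_zero_Up (f : PowerSeries ℂ) : (Up p f).coeff 0 = f.coeff 0 := by
  rw [Up, PowerSeries.coeff_mk, mul_zero]

theorem tau_coeff_zero_expand_delta :
    (PowerSeries.expand p (NeZero.ne p) (qExpansion 1 Δ)).coeff 0 = 0 := by
  rw [PowerSeries.coeff_zero_eq_constantCoeff_apply, PowerSeries.constantCoeff_expand,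
    ← PowerSeries.coeff_zero_eq_constantCoeff_apply, tau_coeff_delta_zero]

theorem tau_coeff_zero_mul (f g : PowerSeries ℂ) : (f * g).coeff 0 = f.coeff 0 * g.coeff 0 := by
  simp [PowerSeries.coeff_zero_eq_constantCoeff_apply]

theorem tau_isGamma0Form_delta : IsGamma0Form p 12 Δ := by
  have := IsGamma0Form.of_levelOne (p := p) tauDelta
  rwa [coe_tauDelta] at this

theorem tau_sharpQ_delta :
    sharpQ p 12 Δ = PowerSeries.expand p (NeZero.ne p) (qExpansion 1 Δ) := by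
  have := sharpQ_levelOne p tauDelta
  rwa [coe_tauDelta] at this

theorem tau_sharp_sharp_delta : sharp p 12 (sharp p 12 Δ) = tauKappa p • Δ :=
  sharp_sharp p 12 Δ

/-- weight 12: `D(q^p) + p U_p(κ D) = c D`. -/
theorem tau_trace_twelve :
    ∃ c : ℂ, PowerSeries.expand p (NeZero.ne p) (qExpansion 1 Δ) +
      (p : ℂ) • Up p (tauKappa p • qExpansion 1 Δ) = c • qExpansion 1 Δ := by
  have hΔ := tau_isGamma0Form_delta p
  have hΔs : IsGamma0Form p 12 (sharp p 12 Δ) := IsGamma0Form.sharp p hΔ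
  obtain ⟨T, hT⟩ := exists_trace p hΔs
  have h1 : qExpansion 1 (sharp p 12 Δ) = PowerSeries.expand p (NeZero.ne p) (qExpansion 1 Δ) :=
    tau_sharpQ_delta p
  have h2 : sharpQ p 12 (sharp p 12 Δ) = tauKappa p • qExpansion 1 Δ := by
    rw [sharpQ, tau_sharp_sharp_delta, IsGamma0Form.qExpansion_smul hΔ]
  rw [h1, h2] at hT
  have h0 : (qExpansion 1 T).coeff 0 = 0 := by
    rw [hT, map_add, PowerSeries.coeff_smul, tau_coeff_zero_Up, PowerSeries.coeff_smul,
      tau_coeff_zero_expand_delta, tau_coeff_delta_zero]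
    simp
  obtain ⟨c, hc⟩ := tau_exists_smul_of_weight_12 T h0
  refine ⟨c, ?_⟩
  rw [← hT, hc, IsGamma0Form.qExpansion_smul hΔ]

/-- weight 14: `a D(q^p) + p U_p(b κ D) = 0`. -/
theorem tau_trace_fourteen (F : ModularForm (Gamma0 p) 2) :
    qExpansion 1 F * PowerSeries.expand p (NeZero.ne p) (qExpansion 1 Δ) +
      (p : ℂ) • Up p (sharpQ p 2 F * (tauKappa p • qExpansion 1 Δ)) = 0 := by
  have hΔ := tau_isGamma0Form_delta p
  have hΔs : IsGamma0Form p 12 (sharp p 12 Δ) := IsGamma0Form.sharp p hΔ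
  have hF : IsGamma0Form p 2 F := IsGamma0Form.of_form p F
  have hFs : IsGamma0Form p 2 (sharp p 2 F) := IsGamma0Form.sharp p hF
  have hκΔ : IsGamma0Form p 12 (tauKappa p • Δ) := IsGamma0Form.smul _ hΔ
  have hH : IsGamma0Form p 14 (⇑F * sharp p 12 Δ) :=
    (IsGamma0Form.mul hF hΔs).congr_weight p (by norm_num)
  obtain ⟨T, hT⟩ := exists_trace p hH
  have h1 : qExpansion 1 (⇑F * sharp p 12 Δ) =
      qExpansion 1 F * PowerSeries.expand p (NeZero.ne p) (qExpansion 1 Δ) := by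
    rw [IsGamma0Form.qExpansion_mul hF hΔs]
    congr 1
    exact tau_sharpQ_delta p
  have h2 : sharpQ p 14 (⇑F * sharp p 12 Δ) =
      sharpQ p 2 F * (tauKappa p • qExpansion 1 Δ) := by
    have e : (14 : ℤ) = 2 + 12 := by norm_num
    rw [sharpQ, e, sharp_mul, tau_sharp_sharp_delta, IsGamma0Form.qExpansion_mul hFs hκΔ,
      IsGamma0Form.qExpansion_smul hΔ]
    rfl
  rw [h1, h2] at hT
  have h0 : (qExpansion 1 T).coeff 0 = 0 := by
    rw [hT, map_add, PowerSeries.coeff_smul, tau_coeff_zero_Up, tau_coeff_zero_mul,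
      tau_coeff_zero_mul, PowerSeries.coeff_smul, tau_coeff_zero_expand_delta,
      tau_coeff_delta_zero]
    simp
  rw [← hT]
  exact tau_qExpansion_eq_zero_of_weight_14 T h0

end traces

/-! ## The arithmetic conclusion -/

theorem tau_dvd_of_inI (ℓ : ℕ) [hℓ : Fact ℓ.Prime] (s : ℕ) (N : ℤ)
    (h : InI (Zloc ℓ) ((ℓ : ℂ) ^ s) (N : ℂ)) : ((ℓ : ℤ) ^ s) ∣ N := by
  obtain ⟨y, ⟨a, b, hb, rfl⟩, hN⟩ := h
  have hb0 : (b : ℂ) ≠ 0 := by
    intro h0
    apply hb
    have : b = 0 := by exact_mod_cast h0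
    rw [this]; exact dvd_zero _
  have h1 : N * b = (ℓ : ℤ) ^ s * a := by
    have : (N : ℂ) * b = (ℓ : ℂ) ^ s * a := by
      rw [hN]; field_simp
    exact_mod_cast this
  have hprime : Prime (ℓ : ℤ) := Nat.prime_iff_prime_int.mp hℓ.out
  have hcop : IsCoprime ((ℓ : ℤ) ^ s) b :=
    ((hprime.irreducible.coprime_iff_not_dvd).mpr hb).pow_left
  exact hcop.dvd_of_dvd_mul_right ⟨a, h1⟩

/-- **TAU**: `ℓ ≠ p`, `F ≡ 1 mod ℓ^s` ⟹ `ℓ^s ∣ p + 1`. -/
theorem tau_bound (p : ℕ) [Fact p.Prime] (ℓ : ℕ) [Fact ℓ.Prime] (hℓp : ℓ ≠ p) (s : ℕ)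
    (F : ModularForm (Gamma0 p) 2) (hF : IsOneModQ ℓ s (qExpansion 1 F)) : ℓ ^ s ∣ p + 1 := by
  have hp : p.Prime := Fact.out
  have hℓ : ℓ.Prime := Fact.out
  have hnd : ¬ ℓ ∣ p := fun h => hℓp ((Nat.prime_dvd_prime_iff_eq hℓ hp).mp h)
  have hpC : (p : ℂ) ≠ 0 := by exact_mod_cast hp.ne_zero
  obtain ⟨c, h12⟩ := tau_trace_twelve p
  have h14 := tau_trace_fourteen p F
  have hpR : ((p : ℂ))⁻¹ ∈ Zloc ℓ := by
    refine ⟨1, (p : ℤ), ?_, ?_⟩
    · exact_mod_cast hnd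
    · simp
  have hM : (ℓ : ℂ) ^ s ∈ Zloc ℓ := Subring.pow_mem _ (natCast_mem _ ℓ) s
  have hD : ∀ n, (qExpansion 1 Δ).coeff n ∈ Zloc ℓ := by
    intro n
    obtain ⟨t, ht⟩ := tau_coeff_delta_int n
    rw [ht]; exact intCast_mem _ t
  have key := tau_core_algebra (Zloc ℓ) ((ℓ : ℂ) ^ s) hM p hp.two_le (NeZero.ne p) hpR
    (qExpansion 1 F) (sharpQ p 2 F) (qExpansion 1 Δ) (tauKappa p) c (tauKappa_mul p)
    hF.1 hF.2 (fun n => sharpQ_weight_two p (IsGamma0Form.of_form p F) n) hD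
    ModularForm.discriminant_qExpansion_coeff_one
    (fun n => by
      have := congrArg (PowerSeries.coeff n) h14
      rw [map_add, PowerSeries.coeff_smul, Up, PowerSeries.coeff_mk, map_zero, smul_eq_mul] at this
      exact this)
    (fun n => by
      have := congrArg (PowerSeries.coeff n) h12
      rw [map_add, PowerSeries.coeff_smul, Up, PowerSeries.coeff_mk, PowerSeries.coeff_smul,
        smul_eq_mul, smul_eq_mul] at this
      exact this)
  have h1 : ((p : ℂ) ^ 11 * ((p : ℂ) + 1)) = (((p : ℤ) ^ 11 * ((p : ℤ) + 1) : ℤ) : ℂ) := by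
    push_cast; ring
  rw [h1] at key
  have h2 := tau_dvd_of_inI ℓ s _ key
  have hprime : Prime (ℓ : ℤ) := Nat.prime_iff_prime_int.mp hℓ
  have hcop : IsCoprime ((ℓ : ℤ) ^ s) ((p : ℤ) ^ 11) := by
    apply IsCoprime.pow
    rw [hprime.irreducible.coprime_iff_not_dvd]
    exact_mod_cast hnd
  have h3 : ((ℓ : ℤ) ^ s) ∣ ((p : ℤ) + 1) := hcop.dvd_of_dvd_mul_left h2
  exact_mod_cast h3

end Fermat.Agent.Eis
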