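import Mathlib
import Fermat.Agent.Eis.LevelOneMvPoly
import Fermat.Agent.Eis.RamanujanQ

/-!
# S16 / upper bound, `ℓ = 3`: the coefficients `τ(1) = 1`, `τ(3) = 252` of `Δ`

`1728 Δ = E₄³ - E₆²` over `ℤ` (`deltaSeries_int_mul`), low coefficients of `E4Z`, `E6Z`, and
`coeff 1 (deltaSeries A) = 1`, `coeff 3 (deltaSeries A) = 252` over any commutative ring.
-/

set_option autoImplicit false

open ModularForm
open scoped MatrixGroups ModularForm

namespace Fermat.Agent.Eis.Tau3

open PowerSeries in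
lemma coeff_three_mul {A : Type*} [CommRing A] (f g : PowerSeries A) :
    coeff 3 (f * g) = coeff 0 f * coeff 3 g + coeff 1 f * coeff 2 g + coeff 2 f * coeff 1 g
      + coeff 3 f * coeff 0 g := by
  rw [PowerSeries.coeff_mul, Finset.Nat.sum_antidiagonal_eq_sum_range_succ_mk]
  simp [Finset.sum_range_succ]

open PowerSeries in
lemma coeff_two_mul {A : Type*} [CommRing A] (f g : PowerSeries A) :
    coeff 2 (f * g) = coeff 0 f * coeff 2 g + coeff 1 f * coeff 1 g + coeff 2 f * coeff 0 g := by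
  rw [PowerSeries.coeff_mul, Finset.Nat.sum_antidiagonal_eq_sum_range_succ_mk]
  simp [Finset.sum_range_succ]

open PowerSeries in
lemma coeff_one_mul' {A : Type*} [CommRing A] (f g : PowerSeries A) :
    coeff 1 (f * g) = coeff 0 f * coeff 1 g + coeff 1 f * coeff 0 g := by
  rw [PowerSeries.coeff_mul, Finset.Nat.sum_antidiagonal_eq_sum_range_succ_mk]
  simp [Finset.sum_range_succ]

lemma sigma3_two : ArithmeticFunction.sigma 3 2 = 9 := by decide
lemma sigma3_three : ArithmeticFunction.sigma 3 3 = 28 := by decide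
lemma sigma5_two : ArithmeticFunction.sigma 5 2 = 33 := by decide
lemma sigma5_three : ArithmeticFunction.sigma 5 3 = 244 := by decide


lemma coeff_zero_E4Z : PowerSeries.coeff 0 E4Z = 1 := by simp [E4Z]
lemma coeff_two_E4Z : PowerSeries.coeff 2 E4Z = 2160 := by simp [E4Z, sigma3_two]
lemma coeff_three_E4Z : PowerSeries.coeff 3 E4Z = 6720 := by simp [E4Z, sigma3_three]
lemma coeff_zero_E6Z : PowerSeries.coeff 0 E6Z = 1 := by simp [E6Z]
lemma coeff_two_E6Z : PowerSeries.coeff 2 E6Z = -16632 := by simp [E6Z, sigma5_two]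
lemma coeff_three_E6Z : PowerSeries.coeff 3 E6Z = -122976 := by simp [E6Z, sigma5_three]

lemma coeff_three_E4Z_cube_sub_E6Z_sq : PowerSeries.coeff 3 (E4Z ^ 3 - E6Z ^ 2) = 435456 := by
  have h0 : PowerSeries.coeff 0 (E4Z * E4Z) = 1 := by
    rw [PowerSeries.coeff_zero_eq_constantCoeff, map_mul, constantCoeff_E4Z]; norm_num
  have h1 : PowerSeries.coeff 1 (E4Z * E4Z) = 480 := by
    rw [coeff_one_mul', coeff_zero_E4Z, coeff_one_E4Z]; norm_num
  have h2 : PowerSeries.coeff 2 (E4Z * E4Z) = 61920 := by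
    rw [coeff_two_mul, coeff_zero_E4Z, coeff_one_E4Z, coeff_two_E4Z]; norm_num
  have h3 : PowerSeries.coeff 3 (E4Z * E4Z) = 1050240 := by
    rw [coeff_three_mul, coeff_zero_E4Z, coeff_one_E4Z, coeff_two_E4Z, coeff_three_E4Z]; norm_num
  have h4 : PowerSeries.coeff 3 (E4Z ^ 3) = 16954560 := by
    rw [show E4Z ^ 3 = E4Z * E4Z * E4Z by ring, coeff_three_mul, h0, h1, h2, h3, coeff_zero_E4Z,
      coeff_one_E4Z, coeff_two_E4Z, coeff_three_E4Z]
    norm_num
  have h6 : PowerSeries.coeff 3 (E6Z ^ 2) = 16519104 := by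
    rw [show E6Z ^ 2 = E6Z * E6Z by ring, coeff_three_mul, coeff_zero_E6Z, coeff_one_E6Z,
      coeff_two_E6Z, coeff_three_E6Z]
    norm_num
  rw [map_sub, h4, h6]
  norm_num

/-- `1728 Δ = E₄³ - E₆²` over `ℤ`. -/
lemma deltaSeries_int_mul : (1728 : PowerSeries ℤ) * deltaSeries ℤ = E4Z ^ 3 - E6Z ^ 2 := by
  have hinj : Function.Injective (PowerSeries.map (Int.castRingHom ℂ)) := by
    intro f g h
    ext n
    have := congrArg (PowerSeries.coeff n) h
    simpa using this
  apply hinj
  have h1 := qExpansion_discriminant_eq_E4_E6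
  rw [qExpansion_discriminant_eq, qExpansion_E4_eq, qExpansion_E6_eq] at h1
  rw [map_mul, map_deltaSeries, h1, map_sub, map_pow, map_pow]
  have h1728 : (PowerSeries.map (Int.castRingHom ℂ)) (1728 : PowerSeries ℤ) = PowerSeries.C (1728 : ℂ) := by
    rw [map_ofNat]; exact (map_ofNat PowerSeries.C 1728).symm
  rw [h1728]
  ext n
  rw [PowerSeries.coeff_C_mul, PowerSeries.coeff_smul]
  simp only [smul_eq_mul]
  rw [← mul_assoc, mul_inv_cancel₀ (by norm_num), one_mul]

lemma coeff_one_deltaSeries_int : PowerSeries.coeff 1 (deltaSeries ℤ) = 1 := by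
  have h := congrArg (PowerSeries.coeff 1) deltaSeries_int_mul
  have h1728 : (1728 : PowerSeries ℤ) = PowerSeries.C (1728 : ℤ) := (map_ofNat PowerSeries.C 1728).symm
  rw [h1728, PowerSeries.coeff_C_mul, Ram.coeff_one_E4Z_cube_sub_E6Z_sq] at h
  omega

lemma coeff_three_deltaSeries_int : PowerSeries.coeff 3 (deltaSeries ℤ) = 252 := by
  have h := congrArg (PowerSeries.coeff 3) deltaSeries_int_mul
  have h1728 : (1728 : PowerSeries ℤ) = PowerSeries.C (1728 : ℤ) := (map_ofNat PowerSeries.C 1728).symm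
  rw [h1728, PowerSeries.coeff_C_mul, coeff_three_E4Z_cube_sub_E6Z_sq] at h
  omega

lemma constantCoeff_deltaSeries (A : Type*) [CommRing A] :
    PowerSeries.constantCoeff (deltaSeries A) = 0 := by
  rw [deltaSeries, map_mul, PowerSeries.constantCoeff_X, zero_mul]

lemma coeff_one_deltaSeries (A : Type*) [CommRing A] : PowerSeries.coeff 1 (deltaSeries A) = 1 := by
  rw [← map_deltaSeries (Int.castRingHom A), PowerSeries.coeff_map, coeff_one_deltaSeries_int]
  simp

lemma coeff_three_deltaSeries (A : Type*) [CommRing A] :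
    PowerSeries.coeff 3 (deltaSeries A) = 252 := by
  rw [← map_deltaSeries (Int.castRingHom A), PowerSeries.coeff_map, coeff_three_deltaSeries_int]
  simp

end Fermat.Agent.Eis.Tau3
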