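import Mathlib
import Fermat.Agent.Eis.TwoAdic
import Fermat.Agent.Eis.LocalRing
import Fermat.Agent.Eis.ConjDefs
import Fermat.Agent.Eis.ConjSharp
import Fermat.Agent.Eis.ConjTrace

/-!
# The conjugate series of `G' = (F E₄ - E₆)/3` for `ℓ = 3`, `p ≡ 2 mod 3`

For `F ∈ M₂(Γ₀(p))` with `3`-integral `q`-expansion `≡ 1 mod 9`, the weight-6 form
`G' = (F E₄ - E₆)/3` has `3`-integral expansions at both cusps:
`G' = 2 ∑σ₃(n)qⁿ + 3 Y₁` at `∞` and `u₀ + 2 ∑σ₃(n)q^{pn} + 3 Y₂` at `0`, where `-1/p = 1 + 3 u₀`.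
-/

set_option autoImplicit false

open UpperHalfPlane ModularForm Complex CongruenceSubgroup
open scoped MatrixGroups ModularForm

noncomputable section

namespace Fermat.Agent.Eis

/-! ## The 3-adic identity -/

/-- the quotient `((b E₄ - E₆)/3 - m - 2 s₃)/3`. -/
def threeAdicY {A : Type*} [CommRing A] (m g s3 s5 : A) : A :=
  g + 3 * m * g + 26 * s3 + 80 * m * s3 + 240 * g * s3 + 720 * m * g * s3 + 56 * s5

theorem threeAdic_mul_sub {A : Type*} [CommRing A] (m g s3 s5 : A) :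
    ((1 + 3 * m) * (1 + 9 * g)) * (1 + 240 * s3) - (1 - 504 * s5) =
      3 * (m + 2 * s3 + 3 * threeAdicY m g s3 s5) := by
  unfold threeAdicY
  ring

theorem threeAdicY_mem {A : Type*} [CommRing A] (S : Subring A) {m g s3 s5 : A} (hm : m ∈ S)
    (hg : g ∈ S) (hs3 : s3 ∈ S) (hs5 : s5 ∈ S) : threeAdicY m g s3 s5 ∈ S := by
  lift m to S using hm
  lift g to S using hg
  lift s3 to S using hs3
  lift s5 to S using hs5
  have : threeAdicY (m : A) g s3 s5 = S.subtype (threeAdicY m g s3 s5) := by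
    simp only [threeAdicY, map_add, map_mul, map_ofNat, Subring.subtype_apply]
  rw [this]
  exact Subtype.property _

/-- series form: `(b E - E')/3 = m + 2 s₃ + 3 Y`. -/
theorem threeAdic_G'_eq {b E E' m g s3 s5 : PowerSeries ℂ}
    (hb : b = (1 + 3 * m) * (1 + 9 * g)) (hE : E = 1 + 240 * s3) (hE' : E' = 1 - 504 * s5) :
    (3 : ℂ)⁻¹ • (b * E - E') = m + 2 * s3 + 3 * threeAdicY m g s3 s5 := by
  rw [hb, hE, hE', threeAdic_mul_sub]
  have h3 : (3 : PowerSeries ℂ) = PowerSeries.C (3 : ℂ) := (map_ofNat PowerSeries.C 3).symm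
  rw [PowerSeries.smul_eq_C_mul]
  conv_lhs => rw [h3, ← mul_assoc, ← map_mul, inv_mul_cancel₀ (by norm_num : (3 : ℂ) ≠ 0), map_one,
    one_mul]
  rw [h3]

/-! ## The constant `c = -1/p` -/

lemma three_const (p : ℕ) (hp0 : p ≠ 0) (hp : p % 3 = 2) :
    ∃ u₀ : ℂ, u₀ ∈ Zloc 3 ∧ -(p : ℂ)⁻¹ = 1 + 3 * u₀ := by
  obtain ⟨t, ht⟩ : ∃ t : ℤ, (p : ℤ) = 3 * t - 1 := ⟨((p : ℤ) + 1) / 3, by omega⟩
  have hp3 : ¬ ((3 : ℕ) : ℤ) ∣ (p : ℤ) := by
    intro h
    omega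
  have hpC : (p : ℂ) ≠ 0 := by exact_mod_cast hp0
  have hpt : (p : ℂ) = 3 * (t : ℂ) - 1 := by exact_mod_cast congrArg (Int.cast (R := ℂ)) ht
  refine ⟨(-t : ℤ) / (p : ℤ), ⟨-t, p, hp3, by push_cast; ring⟩, ?_⟩
  push_cast
  field_simp
  linear_combination (-1 : ℂ) * hpt

/-- a series `≡ 1 mod 9` is `1 + 9 g` with `g ∈ ℤ_(3)⟦q⟧`. -/
lemma exists_g_of_isOneModQ_three {a : PowerSeries ℂ} (h : IsOneModQ 3 2 a) :
    ∃ g ∈ seriesSubring (Zloc 3), PowerSeries.coeff 0 g = 0 ∧ a = 1 + 9 * g := by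
  obtain ⟨h0, hk⟩ := h
  choose x hx hax using hk
  refine ⟨PowerSeries.mk fun k => if hk : 1 ≤ k then x k hk else 0, ?_, by simp, ?_⟩
  · rw [mem_seriesSubring_iff]
    intro n
    rw [PowerSeries.coeff_mk]
    split_ifs with hn
    · exact hx n hn
    · exact (Zloc 3).zero_mem
  · ext n
    have h9 : (9 : PowerSeries ℂ) = PowerSeries.C (9 : ℂ) := (map_ofNat PowerSeries.C 9).symm
    rw [map_add, h9, PowerSeries.coeff_C_mul, PowerSeries.coeff_mk, PowerSeries.coeff_one]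
    by_cases hn : n = 0
    · subst hn
      simp [h0]
    · have hn1 : 1 ≤ n := Nat.one_le_iff_ne_zero.mpr hn
      rw [hax n hn1]
      simp only [hn, if_false, hn1, dif_pos]
      push_cast
      ring

variable (p : ℕ) [Fact p.Prime]

omit [Fact p.Prime] in
lemma Up_mem_seriesSubring_three (R' : Subring ℂ) {f : PowerSeries ℂ}
    (hf : f ∈ seriesSubring R') : Up p f ∈ seriesSubring R' := by
  rw [mem_seriesSubring_iff] at hf ⊢
  intro n
  rw [Up, PowerSeries.coeff_mk]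
  exact hf _

/-- the expansion at the other cusp of a weight-2 form `F = 1 + 9 g`: `b = -p⁻¹ (1 + 9 U_p g)`. -/
lemma sharpQ_eq_of_isOneModQ_three {F : ℍ → ℂ} (hF : IsGamma0Form p 2 F) {g : PowerSeries ℂ}
    (hg : qExpansion 1 F = 1 + 9 * g) :
    sharpQ p 2 F = PowerSeries.C (-(p : ℂ)⁻¹) * (1 + 9 * Up p g) := by
  ext n
  have h9 : (9 : PowerSeries ℂ) = PowerSeries.C (9 : ℂ) := (map_ofNat PowerSeries.C 9).symm
  rw [sharpQ_weight_two p hF n, hg, PowerSeries.coeff_C_mul, map_add, map_add, h9,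
    PowerSeries.coeff_C_mul, PowerSeries.coeff_C_mul, Up, PowerSeries.coeff_mk,
    PowerSeries.coeff_one, PowerSeries.coeff_one]
  have hp0 : p ≠ 0 := (Fact.out : p.Prime).ne_zero
  by_cases hn : n = 0
  · subst hn; simp
  · have : p * n ≠ 0 := Nat.mul_ne_zero hp0 hn
    simp [hn, this]

/-- `G' = (F E₄ - E₆)/3`. -/
def threeG (F : ℍ → ℂ) : ℍ → ℂ := (3 : ℂ)⁻¹ • (F * ⇑E₄ - ⇑E₆)

section forms

variable {F : ℍ → ℂ} (hF : IsGamma0Form p 2 F)

include hF

lemma isGamma0Form_mulE4_three : IsGamma0Form p 6 (F * ⇑E₄) :=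
  (IsGamma0Form.mul hF (IsGamma0Form.of_levelOne (p := p) E₄)).congr_weight p (by norm_num)

lemma isGamma0Form_threeG : IsGamma0Form p 6 (threeG F) :=
  IsGamma0Form.smul _ (IsGamma0Form.sub (isGamma0Form_mulE4_three p hF)
    (IsGamma0Form.of_levelOne (p := p) E₆))

lemma qExpansion_threeG :
    qExpansion 1 (threeG F) = (3 : ℂ)⁻¹ • (qExpansion 1 F * qExpansion 1 E₄ - qExpansion 1 E₆) := by
  rw [threeG, IsGamma0Form.qExpansion_smul (IsGamma0Form.sub (isGamma0Form_mulE4_three p hF)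
      (IsGamma0Form.of_levelOne (p := p) E₆)),
    IsGamma0Form.qExpansion_sub (isGamma0Form_mulE4_three p hF)
      (IsGamma0Form.of_levelOne (p := p) E₆),
    IsGamma0Form.qExpansion_mul hF (IsGamma0Form.of_levelOne (p := p) E₄)]

omit hF in
lemma sharp_threeG :
    sharp p 6 (threeG F) = (3 : ℂ)⁻¹ • (sharp p 2 F * sharp p 4 ⇑E₄ - sharp p 6 ⇑E₆) := by
  have hm := sharp_mul p 2 4 F ⇑E₄
  rw [show (2 : ℤ) + 4 = 6 by norm_num] at hm
  rw [threeG, sharp_smul, sharp_sub, hm]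

lemma sharpQ_threeG :
    sharpQ p 6 (threeG F) = (3 : ℂ)⁻¹ •
      (sharpQ p 2 F * PowerSeries.expand p (NeZero.ne p) (qExpansion 1 E₄)
        - PowerSeries.expand p (NeZero.ne p) (qExpansion 1 E₆)) := by
  have hsF : IsGamma0Form p 2 (sharp p 2 F) := IsGamma0Form.sharp p hF
  have hsE4 : IsGamma0Form p 4 (sharp p 4 ⇑E₄) :=
    IsGamma0Form.sharp p (IsGamma0Form.of_levelOne (p := p) E₄)
  have hsE6 : IsGamma0Form p 6 (sharp p 6 ⇑E₆) :=
    IsGamma0Form.sharp p (IsGamma0Form.of_levelOne (p := p) E₆)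
  have hE4 : qExpansion 1 (sharp p 4 ⇑E₄) =
      PowerSeries.expand p (NeZero.ne p) (qExpansion 1 E₄) := sharpQ_levelOne p E₄
  have hE6 : qExpansion 1 (sharp p 6 ⇑E₆) =
      PowerSeries.expand p (NeZero.ne p) (qExpansion 1 E₆) := sharpQ_levelOne p E₆
  have hmul : IsGamma0Form p 6 (sharp p 2 F * sharp p 4 ⇑E₄) :=
    (IsGamma0Form.mul hsF hsE4).congr_weight p (by norm_num)
  rw [sharpQ, sharp_threeG, IsGamma0Form.qExpansion_smul (IsGamma0Form.sub hmul hsE6),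
    IsGamma0Form.qExpansion_sub hmul hsE6, IsGamma0Form.qExpansion_mul hsF hsE4, hE4, hE6, sharpQ]

end forms

/-- **The conjugate series of `G'` modulo 3.** -/
theorem three_conj (hp : p % 3 = 2) {F : ℍ → ℂ} (hF : IsGamma0Form p 2 F)
    (hone : IsOneModQ 3 2 (qExpansion 1 F)) :
    IsGamma0Form p 6 (threeG F) ∧
    ∃ u₀ ∈ Zloc 3, ∃ Y₁ ∈ seriesSubring (Zloc 3), ∃ Y₂ ∈ seriesSubring (Zloc 3),
      -(p : ℂ)⁻¹ = 1 + 3 * u₀ ∧
      qExpansion 1 (threeG F) = 2 * sig3 + 3 * Y₁ ∧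
      sharpQ p 6 (threeG F) =
        PowerSeries.C u₀ + 2 * PowerSeries.expand p (NeZero.ne p) sig3 + 3 * Y₂ := by
  have hp0 : p ≠ 0 := (Fact.out : p.Prime).ne_zero
  obtain ⟨g, hgZ, -, hg⟩ := exists_g_of_isOneModQ_three hone
  obtain ⟨u₀, hu₀, hc⟩ := three_const p hp0 hp
  have hE4 := qExpansion_E4_sig3
  have hE6 := qExpansion_E6_sig5
  have h0 : (0 : PowerSeries ℂ) ∈ seriesSubring (Zloc 3) := Subring.zero_mem _
  have hUg : Up p g ∈ seriesSubring (Zloc 3) := Up_mem_seriesSubring_three p _ hgZ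
  have hmR : PowerSeries.C u₀ ∈ seriesSubring (Zloc 3) := C_mem_seriesSubring _ hu₀
  have hb : sharpQ p 2 F = (1 + 3 * PowerSeries.C u₀) * (1 + 9 * Up p g) := by
    rw [sharpQ_eq_of_isOneModQ_three p hF hg, hc, map_add, map_one, map_mul, map_ofNat]
  have hexp4 : PowerSeries.expand p (NeZero.ne p) (qExpansion 1 E₄) =
      1 + 240 * PowerSeries.expand p (NeZero.ne p) sig3 := by
    rw [hE4, map_add, map_one, map_mul, map_ofNat]
  have hexp6 : PowerSeries.expand p (NeZero.ne p) (qExpansion 1 E₆) =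
      1 - 504 * PowerSeries.expand p (NeZero.ne p) sig5 := by
    rw [hE6, map_sub, map_one, map_mul, map_ofNat]
  have hF1 : qExpansion 1 F = (1 + 3 * (0 : PowerSeries ℂ)) * (1 + 9 * g) := by
    rw [hg]; ring
  refine ⟨isGamma0Form_threeG p hF, u₀, hu₀, threeAdicY 0 g sig3 sig5,
    threeAdicY_mem _ h0 hgZ (sig3_mem _) (sig5_mem _),
    threeAdicY (PowerSeries.C u₀) (Up p g) (PowerSeries.expand p (NeZero.ne p) sig3)
      (PowerSeries.expand p (NeZero.ne p) sig5),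
    threeAdicY_mem _ hmR hUg (expand_mem_seriesSubring _ p _ (sig3_mem _))
      (expand_mem_seriesSubring _ p _ (sig5_mem _)), hc, ?_, ?_⟩
  · rw [qExpansion_threeG p hF, threeAdic_G'_eq hF1 hE4 hE6, zero_add]
  · rw [sharpQ_threeG p hF, threeAdic_G'_eq hb hexp4 hexp6]

end Fermat.Agent.Eis
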