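import Mathlib
import Fermat.Agent.Eis.ConjMain
import Fermat.Agent.Eis.ResidueField
import Fermat.Agent.Eis.RedEsymm
import Fermat.Agent.Eis.Cores
import Fermat.Agent.Eis.TauThree
import Fermat.Agent.Eis.LevelOneMore
import Fermat.Agent.Eis.TwoAdic
import Fermat.Agent.Eis.ThreeConj

/-!
# S16 / upper bound, the case `ℓ = 3`, `p ≡ 2 mod 3`, `s = 2` (**THREE**)

There is no `F ∈ M₂(Γ₀(p))` with `F ≡ 1 mod 9` when `p ≡ 2 mod 3`.  With `G' = (F E₄ - E₆)/3`
(weight `6` on `Γ₀(p)`), `G' ≡ 2 S` and all other conjugates are `≡ u + 2 S mod 3`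
(`S = ∑ σ₃(n) qⁿ`); the elementary symmetric functions of the conjugates are level one forms of weight
`6 i`, hence polynomials of degree `≤ i/2` in `Δ` modulo `3`; `Cores.three_core` shows this is impossible.
-/

set_option autoImplicit false

open UpperHalfPlane ModularForm Complex CongruenceSubgroup
open scoped MatrixGroups ModularForm

namespace Fermat.Agent.Eis

local notation "Δ" => ModularForm.discriminant

/-- **Reduction with degree bound**: if `24 = 0` in `K`, the reduction of (a lift of) the `q`-expansion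
of a level one form of weight `k` with `R'`-coefficients is a polynomial of degree `≤ k/12` in `Δ`. -/
theorem map_eq_aeval_deltaSeries_natDegree (R' : Subring ℂ) {K : Type*} [CommRing K] (φ : R' →+* K)
    (h24 : (24 : K) = 0) (k : ℤ) (g : ModularForm 𝒮ℒ k) (E1 : PowerSeries R')
    (hE1 : PowerSeries.map R'.subtype E1 = qExpansion 1 g) :
    ∃ P : Polynomial K, P.natDegree ≤ k.toNat / 12 ∧
      PowerSeries.map φ E1 = Polynomial.aeval (deltaSeries K) P := by
  have hg : ∀ m, (qExpansion 1 g).coeff m ∈ R' := by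
    intro m
    rw [← hE1, PowerSeries.coeff_map]
    exact (PowerSeries.coeff m E1).2
  obtain ⟨P₀, H₀, hP₀, hH₀, hd, heq⟩ := qExpansion_eq_aeval_discriminant_add_natDegree R' k g hg
  obtain ⟨P, hP⟩ := (Polynomial.mem_lifts _).1 ((Polynomial.lifts_iff_coeff_lifts P₀).2
    (fun n => ⟨⟨P₀.coeff n, hP₀ n⟩, rfl⟩) : P₀ ∈ Polynomial.lifts R'.subtype)
  rw [mem_seriesSubring_iff] at hH₀
  have hE : E1 = Polynomial.aeval (deltaSeries R') P + 24 * liftSeries R' H₀ hH₀ := by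
    apply map_subtype_injective R'
    rw [hE1, map_add, map_mul, map_liftSeries, map_aeval_series, map_deltaSeries, hP,
      ← qExpansion_discriminant_eq, heq, map_ofNat]
  have hdeg : P.natDegree = P₀.natDegree := by
    rw [← hP]
    exact (Polynomial.natDegree_map_eq_of_injective Subtype.val_injective P).symm
  refine ⟨P.map φ, (Polynomial.natDegree_map_le).trans (hdeg ▸ hd), ?_⟩
  rw [hE, map_add, map_mul, map_aeval_series, map_deltaSeries]
  have : (PowerSeries.map φ) (24 : PowerSeries R') = 0 := by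
    rw [map_ofNat]
    have : (24 : PowerSeries K) = PowerSeries.C (24 : K) := (map_ofNat PowerSeries.C 24).symm
    rw [this, h24, map_zero]
  rw [this, zero_mul, add_zero]


section Three

private lemma resMap_ofNat_mk (n : ℕ) (hn : (n : ℂ) ∈ Rint 3) :
    resMap 3 ⟨(n : ℂ), hn⟩ = (n : ResField 3) := by
  have : (⟨(n : ℂ), hn⟩ : Rint 3) = ((n : ℕ) : Rint 3) := Subtype.ext (by push_cast; rfl)
  rw [this, map_natCast]

private lemma three_eq_zero_resField : (3 : ResField 3) = 0 := by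
  have : ((3 : ℕ) : ResField 3) = 0 := (CharP.cast_eq_zero_iff (ResField 3) 3 3).mpr dvd_rfl
  exact_mod_cast this

private lemma three_eq_zero_series : (3 : PowerSeries (ResField 3)) = 0 := by
  have h2 : (3 : PowerSeries (ResField 3)) = PowerSeries.C (3 : ResField 3) :=
    (map_ofNat PowerSeries.C 3).symm
  rw [h2, three_eq_zero_resField, map_zero]

/-- the core of THREE: a weight `6` form `G` on `Γ₀(p)` with `G ≡ 2 S mod 3` at `∞` and
`≡ u₀ + 2 S(q^p) mod 3` at `0` cannot exist when `p ≡ 2 mod 3`. -/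
theorem no_three_of_conj (p : ℕ) [Fact p.Prime] (hp : p % 3 = 2) {G : ℍ → ℂ}
    (hG : IsGamma0Form p 6 G) (u₀ : ℂ) (hu₀ : u₀ ∈ Rint 3) (Y₁ Y₂ : PowerSeries ℂ)
    (hY₁ : ∀ n, PowerSeries.coeff n Y₁ ∈ Rint 3) (hY₂ : ∀ n, PowerSeries.coeff n Y₂ ∈ Rint 3)
    (h1 : qExpansion 1 G = 2 * sig3 + 3 * Y₁)
    (h2 : sharpQ p 6 G =
      PowerSeries.C u₀ + 2 * PowerSeries.expand p (NeZero.ne p) sig3 + 3 * Y₂) : False := by
  have hp0 : p ≠ 0 := NeZero.ne p
  obtain ⟨R, hR⟩ : ∃ R : Subring ℂ, R = Rint 3 := ⟨_, rfl⟩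
  obtain ⟨φ, hφ⟩ : ∃ φ : Rint 3 →+* ResField 3, φ = resMap 3 := ⟨_, rfl⟩
  -- lifts
  have hS3 : ∀ n, PowerSeries.coeff n sig3 ∈ Rint 3 := (mem_seriesSubring_iff _ _).1 (sig3_mem _)
  obtain ⟨ζ, hζdef⟩ : ∃ ζ : Rint 3, ζ = ⟨zetaP p, zetaP_mem_Rint 3 p hp0⟩ := ⟨_, rfl⟩
  have hζ : ζ ^ p = 1 := by
    rw [hζdef]
    exact Subtype.ext (by push_cast; exact zetaP_pow p hp0)
  obtain ⟨S3R, hS3R⟩ : ∃ S3R : PowerSeries (Rint 3), S3R = liftSeries (Rint 3) sig3 hS3 := ⟨_, rfl⟩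
  obtain ⟨Y1R, hY1R⟩ : ∃ Y1R : PowerSeries (Rint 3), Y1R = liftSeries (Rint 3) Y₁ hY₁ := ⟨_, rfl⟩
  obtain ⟨Y2R, hY2R⟩ : ∃ Y2R : PowerSeries (Rint 3), Y2R = liftSeries (Rint 3) Y₂ hY₂ := ⟨_, rfl⟩
  obtain ⟨u0R, hu0R⟩ : ∃ u0R : Rint 3, u0R = ⟨u₀, hu₀⟩ := ⟨_, rfl⟩
  have mS : PowerSeries.map (Rint 3).subtype S3R = sig3 := by rw [hS3R, map_liftSeries]
  have mY1 : PowerSeries.map (Rint 3).subtype Y1R = Y₁ := by rw [hY1R, map_liftSeries]
  have mY2 : PowerSeries.map (Rint 3).subtype Y2R = Y₂ := by rw [hY2R, map_liftSeries]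
  obtain ⟨A1, hA1def⟩ : ∃ A1 : PowerSeries (Rint 3), A1 = 2 * S3R + 3 * Y1R := ⟨_, rfl⟩
  obtain ⟨B1, hB1def⟩ : ∃ B1 : PowerSeries (Rint 3),
      B1 = PowerSeries.C u0R + 2 * PowerSeries.expand p hp0 S3R + 3 * Y2R := ⟨_, rfl⟩
  have hA1 : PowerSeries.map (Rint 3).subtype A1 = qExpansion 1 G := by
    rw [h1, hA1def, map_add, map_mul, map_mul, mS, mY1, map_ofNat, map_ofNat]
  have hB1 : PowerSeries.map (Rint 3).subtype B1 = sharpQ p 6 G := by
    rw [h2, hB1def, map_add, map_add, map_mul, map_mul, PowerSeries.map_expand, mS, mY2,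
      map_ofNat, map_ofNat, PowerSeries.map_C, hu0R]
    rfl
  -- reductions
  obtain ⟨Sbar, hSbar⟩ : ∃ Sbar : PowerSeries (ResField 3), Sbar = PowerSeries.map φ S3R := ⟨_, rfl⟩
  have hA1φ : PowerSeries.map φ A1 = 2 * Sbar := by
    rw [hA1def, map_add, map_mul, map_mul, map_ofNat, map_ofNat, three_eq_zero_series, zero_mul,
      add_zero, hSbar]
  have hB1φ : PowerSeries.map φ B1 =
      PowerSeries.expand p hp0 (2 * Sbar + PowerSeries.C (φ u0R)) := by
    rw [hB1def, map_add, map_add, map_mul, map_mul, map_ofNat, map_ofNat, three_eq_zero_series,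
      zero_mul, add_zero, PowerSeries.map_expand, PowerSeries.map_C, ← hSbar, map_add, map_mul,
      PowerSeries.expand_C, map_ofNat, add_comm]
  -- coefficients of `Sbar` and `Δ`
  have hcoeffS : ∀ n, PowerSeries.coeff n Sbar = φ ⟨PowerSeries.coeff n sig3, hS3 n⟩ := by
    intro n
    rw [hSbar, PowerSeries.coeff_map, hS3R]
    simp [liftSeries]
  have hS0 : PowerSeries.constantCoeff Sbar = 0 := by
    rw [← PowerSeries.coeff_zero_eq_constantCoeff_apply, hcoeffS]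
    have : (⟨PowerSeries.coeff 0 sig3, hS3 0⟩ : Rint 3) = 0 := Subtype.ext (by simp [sig3])
    rw [this, map_zero]
  have hS1 : PowerSeries.coeff 1 Sbar = 1 := by
    rw [hcoeffS]
    have : (⟨PowerSeries.coeff 1 sig3, hS3 1⟩ : Rint 3) = 1 := Subtype.ext (by simp [sig3])
    rw [this, map_one]
  have hS3' : PowerSeries.coeff 3 Sbar = 1 := by
    rw [hcoeffS]
    have h28 : PowerSeries.coeff 3 sig3 = 28 := by simp [sig3, Tau3.sigma3_three]
    have : (⟨PowerSeries.coeff 3 sig3, hS3 3⟩ : Rint 3) = ((28 : ℕ) : Rint 3) := by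
      apply Subtype.ext
      show PowerSeries.coeff 3 sig3 = (((28 : ℕ) : Rint 3) : ℂ)
      rw [h28]
      push_cast
      rfl
    rw [this, map_natCast]
    have h27 : ((27 : ℕ) : ResField 3) = 0 :=
      (CharP.cast_eq_zero_iff (ResField 3) 3 27).mpr (by norm_num)
    have : ((28 : ℕ) : ResField 3) = ((27 : ℕ) : ResField 3) + 1 := by push_cast; norm_num
    rw [this, h27, zero_add]
  have hD3 : PowerSeries.coeff 3 (deltaSeries (ResField 3)) = 0 := by
    rw [Tau3.coeff_three_deltaSeries]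
    have h252 : ((252 : ℕ) : ResField 3) = 0 :=
      (CharP.cast_eq_zero_iff (ResField 3) 3 252).mpr (by norm_num)
    exact_mod_cast h252
  have h24 : (24 : ResField 3) = 0 := by
    have h : ((24 : ℕ) : ResField 3) = 0 :=
      (CharP.cast_eq_zero_iff (ResField 3) 3 24).mpr (by norm_num)
    exact_mod_cast h
  -- the level one forms `e i`
  obtain ⟨Hc, e, -, -, he⟩ := exists_esymm_forms p hG
  refine Cores.three_core Sbar (deltaSeries (ResField 3)) hS0 hS1 hS3'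
    (Tau3.constantCoeff_deltaSeries _) (Tau3.coeff_one_deltaSeries _) hD3 hp (φ u0R) ?_
  intro i hi
  have hs0 : conjSeriesOpt p 6 G none =
      PowerSeries.expand p hp0 (PowerSeries.map (Rint 3).subtype A1) := by
    rw [hA1]; rfl
  have hs1 : ∀ j : Fin p, conjSeriesOpt p 6 G (some j) =
      PowerSeries.rescale (((ζ : Rint 3) : ℂ) ^ (j : ℕ))
        (PowerSeries.map (Rint 3).subtype B1) := by
    intro j
    rw [hB1, hζdef]; rfl
  obtain ⟨E1, hE1, hE1φ⟩ := Red.reduction_esymm hp0 (Rint 3) ζ hζ φ A1 B1 _ hB1φ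
    (conjSeriesOpt p 6 G) hs0 hs1 (qExpansion 1 (e i)) i hi (he i)
  obtain ⟨P, hPd, hP⟩ := map_eq_aeval_deltaSeries_natDegree (Rint 3) φ h24 _ (e i) E1 hE1
  refine ⟨P, ?_, ?_⟩
  · have : ((6 : ℤ) * (i : ℤ)).toNat / 12 = i / 2 := by
      have : ((6 : ℤ) * (i : ℤ)).toNat = 6 * i := by
        have : (6 : ℤ) * (i : ℤ) = ((6 * i : ℕ) : ℤ) := by push_cast; ring
        rw [this, Int.toNat_natCast]
      rw [this]; omega
    rw [← this]; exact hPd
  · rw [← hP, hE1φ, hA1φ]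

/-- **THREE**: `ℓ = 3`, `p ≡ 2 mod 3`, `s = 2`. -/
theorem no_oneMod_three (p : ℕ) [Fact p.Prime] (_hp5 : 5 ≤ p) (hp : p % 3 = 2)
    (F : ModularForm (Gamma0 p) 2) (hF : IsOneModQ 3 2 (qExpansion 1 F)) : False := by
  obtain ⟨hG, u₀, hu₀, Y₁, hY₁, Y₂, hY₂, -, h1, h2⟩ :=
    three_conj p hp (IsGamma0Form.of_form p F) hF
  have hle := Zloc_le_Rint 3
  exact no_three_of_conj p hp hG u₀ (hle hu₀) Y₁ Y₂
    (fun n => hle ((mem_seriesSubring_iff _ _).1 hY₁ n))
    (fun n => hle ((mem_seriesSubring_iff _ _).1 hY₂ n)) h1 h2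

end Three

end Fermat.Agent.Eis
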