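import Mathlib
import Fermat.Agent.Eis.Pairing
import Fermat.Prelude.Def_ModularCurve_ModularUnit

/-!
# S16 / upper bound, translation layer

* `IsEisMod.of_dvd`, `upper_of_prime_powers`: the upper bound may be checked on prime powers.
* `IsEisSeries p E`: `E ∈ M₂(Γ₀(p))` has `q`-expansion `(p-1)/24 + ∑ σ'(k) q^k`.
* `IsOneMod p ℓ M F`: `F ∈ M₂(Γ₀(p))` has `q`-expansion `1 + M · (series with coefficients in ℤ_(ℓ))`.
* `exists_oneMod`: a congruence `f ≡ E'` modulo `ℓ^e` with `ℓ^e ∤ n = (p-1)/gcd(p-1,12)` produces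
  `F = (24/(p-1)) (E - f) ≡ 1` modulo `ℓ · 24/gcd(p-1,12)`.
* `upper_of_no_oneMod`: so the upper bound follows from the non-existence of such `F` for every prime `ℓ`.
-/

set_option autoImplicit false

namespace Fermat.Agent.Eis

open CongruenceSubgroup ModularFormClass CuspForm Fermat.Agent.S49 ModularCurve UpperHalfPlane

variable (p : ℕ) [Fact p.Prime]

variable {p} in
lemma IsEisMod.of_dvd {m m' : ℕ} (h : m' ∣ m) {f : CuspForm (Gamma0 p) 2} (hf : IsEisMod p m f) :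
    IsEisMod p m' f := by
  intro k
  obtain ⟨a, ha, ha'⟩ := hf k
  exact ⟨a, ha, fun hk => (Int.natCast_dvd_natCast.mpr h).trans (ha' hk)⟩

/-- the upper bound may be checked on prime powers -/
theorem upper_of_prime_powers (n : ℕ)
    (h : ∀ ℓ e : ℕ, ℓ.Prime → (∃ f : CuspForm (Gamma0 p) 2, IsEisMod p (ℓ ^ e) f) → ℓ ^ e ∣ n) :
    ∀ m : ℕ, 0 < m → (∃ f : CuspForm (Gamma0 p) 2, IsEisMod p m f) → m ∣ n := by
  rintro m - ⟨f, hf⟩
  rw [Nat.dvd_iff_prime_pow_dvd_dvd]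
  intro ℓ e hℓ hdvd
  exact h ℓ e hℓ ⟨f, hf.of_dvd hdvd⟩

/-- `E` has the `q`-expansion of the Eisenstein series of weight 2 and level `p` -/
def IsEisSeries (E : ModularForm (Gamma0 p) 2) : Prop :=
  (qExpansion 1 E).coeff 0 = ((p : ℂ) - 1) / 24 ∧
    ∀ k : ℕ, 1 ≤ k → (qExpansion 1 E).coeff k = (eisCoeff p k : ℂ)

/-- `F` has `q`-expansion `1 + M · (a series with coefficients in ℤ_(ℓ), with a common denominator)` -/
def IsOneMod (ℓ M : ℕ) (F : ModularForm (Gamma0 p) 2) : Prop :=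
  (qExpansion 1 F).coeff 0 = 1 ∧
    ∃ b : ℕ, ¬ ℓ ∣ b ∧ ∀ k : ℕ, 1 ≤ k → ∃ a : ℤ, (qExpansion 1 F).coeff k = (M : ℂ) * (a : ℂ) / (b : ℂ)

variable {p} in
lemma IsOneMod.of_dvd {ℓ M M' : ℕ} (h : M' ∣ M) {F : ModularForm (Gamma0 p) 2} (hF : IsOneMod p ℓ M F) :
    IsOneMod p ℓ M' F := by
  obtain ⟨h0, b, hb, hk⟩ := hF
  obtain ⟨c, rfl⟩ := h
  refine ⟨h0, b, hb, fun k hk1 => ?_⟩
  obtain ⟨a, ha⟩ := hk k hk1
  exact ⟨c * a, by rw [ha]; push_cast; ring⟩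

/-- **Translation.** -/
theorem exists_oneMod (E : ModularForm (Gamma0 p) 2) (hE : IsEisSeries p E) {ℓ e : ℕ} (hℓ : ℓ.Prime)
    {f : CuspForm (Gamma0 p) 2} (hf : IsEisMod p (ℓ ^ e) f) (hne : ¬ ℓ ^ e ∣ eisensteinNumerator p) :
    ∃ F : ModularForm (Gamma0 p) 2, IsOneMod p ℓ (ℓ * (24 / Nat.gcd (p - 1) 12)) F := by
  have hp : p.Prime := Fact.out
  have hp1 : 0 < p - 1 := by have := hp.two_le; omega
  -- numerics
  set g := Nat.gcd (p - 1) 12 with hg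
  have hgpos : 0 < g := Nat.gcd_pos_of_pos_left _ hp1
  have hg12 : g ∣ 12 := Nat.gcd_dvd_right _ _
  have hg24 : g ∣ 24 := hg12.trans (by norm_num)
  have hgp : g ∣ p - 1 := Nat.gcd_dvd_left _ _
  set n := eisensteinNumerator p with hn
  have hng : n * g = p - 1 := Nat.div_mul_cancel hgp
  set d := 24 / g with hd
  have hdg : d * g = 24 := Nat.div_mul_cancel hg24
  have hnpos : n ≠ 0 := by
    intro h0
    rw [h0, zero_mul] at hng
    omega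
  obtain ⟨s, n', hn', hns⟩ := Nat.exists_eq_pow_mul_and_not_dvd hnpos ℓ hℓ.ne_one
  have hse : s < e := by
    by_contra hcon
    rw [not_lt] at hcon
    apply hne
    rw [hns]
    exact (pow_dvd_pow ℓ hcon).trans (dvd_mul_right _ _)
  obtain ⟨r, hr⟩ : ∃ r, e = s + 1 + r := ⟨e - s - 1, by omega⟩
  -- complex numerics
  have hgC : (g : ℂ) ≠ 0 := Nat.cast_ne_zero.mpr hgpos.ne'
  have hn'C : (n' : ℂ) ≠ 0 := by
    apply Nat.cast_ne_zero.mpr
    rintro rfl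
    exact hn' (dvd_zero _)
  have hℓC : (ℓ : ℂ) ≠ 0 := Nat.cast_ne_zero.mpr hℓ.ne_zero
  have hpC : ((p : ℂ) - 1) = (ℓ : ℂ) ^ s * (n' : ℂ) * (g : ℂ) := by
    have : ((p - 1 : ℕ) : ℂ) = (p : ℂ) - 1 := by rw [Nat.cast_sub hp.one_le, Nat.cast_one]
    rw [← this, ← hng, hns]
    push_cast
    ring
  have h24C : (24 : ℂ) = (d : ℂ) * (g : ℂ) := by exact_mod_cast hdg.symm
  have hpC0 : ((p : ℂ) - 1) ≠ 0 := by
    rw [hpC]
    exact mul_ne_zero (mul_ne_zero (pow_ne_zero _ hℓC) hn'C) hgC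
  -- the form
  set c : ℂ := 24 / ((p : ℂ) - 1) with hc
  let G : ModularForm (Gamma0 p) 2 := E - CuspForm.toModularFormₗ f
  let F : ModularForm (Gamma0 p) 2 := c • G
  have hGcoe : (⇑G : ℍ → ℂ) = ⇑E - ⇑f := by
    ext z
    rfl
  have hFcoe : (⇑F : ℍ → ℂ) = c • ⇑G := by
    ext z
    rfl
  have hq : qExpansion 1 ⇑F = c • (qExpansion 1 ⇑E - qExpansion 1 ⇑f) := by
    rw [hFcoe, ModularForm.qExpansion_smul one_pos (hΓ0 p) c G, hGcoe,
      ModularForm.qExpansion_sub one_pos (hΓ0 p) E f]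
  refine ⟨F, ?_, n', hn', fun k hk => ?_⟩
  · rw [hq, PowerSeries.coeff_smul, map_sub, hE.1]
    have : (qExpansion 1 ⇑f).coeff 0 = 0 := qCoeff_zero_index f
    rw [this, sub_zero, hc, smul_eq_mul]
    field_simp
  · obtain ⟨a, ha, ha'⟩ := hf k
    obtain ⟨x, hx⟩ := ha' hk
    refine ⟨-((ℓ : ℤ) ^ r * x), ?_⟩
    rw [hq, PowerSeries.coeff_smul, map_sub, hE.2 k hk]
    have : (qExpansion 1 ⇑f).coeff k = (a : ℂ) := ha
    rw [this]
    have hx' : (a : ℂ) - (eisCoeff p k : ℂ) = (ℓ : ℂ) ^ e * (x : ℂ) := by exact_mod_cast hx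
    have h2 : (eisCoeff p k : ℂ) - (a : ℂ) = -((ℓ : ℂ) ^ e * (x : ℂ)) := by rw [← hx']; ring
    rw [h2, hc, hpC, h24C, hr, smul_eq_mul]
    push_cast
    field_simp
    ring

/-- **Upper bound from the non-existence of forms `≡ 1`.** -/
theorem upper_of_no_oneMod (E : ModularForm (Gamma0 p) 2) (hE : IsEisSeries p E)
    (h : ∀ ℓ : ℕ, ℓ.Prime → ∀ F : ModularForm (Gamma0 p) 2, ¬ IsOneMod p ℓ (ℓ * (24 / Nat.gcd (p - 1) 12)) F) :
    ∀ m : ℕ, 0 < m → (∃ f : CuspForm (Gamma0 p) 2, IsEisMod p m f) → m ∣ eisensteinNumerator p := by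
  apply upper_of_prime_powers
  rintro ℓ e hℓ ⟨f, hf⟩
  by_contra hne
  obtain ⟨F, hF⟩ := exists_oneMod p E hE hℓ hf hne
  exact h ℓ hℓ F hF

end Fermat.Agent.Eis
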