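import Mathlib
import Fermat.Agent.Eis.LocalRing
import Fermat.Agent.Eis.Translate
import Fermat.Agent.Eis.EisLevelP
import Fermat.Agent.Eis.SmallP
import Fermat.Agent.Eis.LowBound

/-!
# S16: assembly of the upper bound (case table) and of the final cardinality statement

The five non-existence theorems (`tau_bound`, `no_oneMod_self`, `no_oneMod_two`, `no_oneMod_three`,
`no_oneMod_five`) enter as hypotheses; this file contains the bridge from the form-level predicate
`IsOneMod` of `Translate` to the series-level predicate `IsOneModQ`, the arithmetic of the case table,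
and the wiring with `card_eq_of_bounds_forms`, `low_bound`, `upper_of_no_oneMod`, `upper_bound_small`.
-/

set_option autoImplicit false

open UpperHalfPlane ModularForm Complex CongruenceSubgroup
open scoped MatrixGroups ModularForm

namespace Fermat.Agent.Eis

/-- bridge from the form-level predicate of `Translate` to the series-level predicate. -/
theorem IsOneMod.isOneModQ {p : ℕ} {ℓ M : ℕ} [Fact ℓ.Prime] {F : ModularForm (Gamma0 p) 2}
    (hF : IsOneMod p ℓ M F) {s : ℕ} (hs : ℓ ^ s ∣ M) : IsOneModQ ℓ s (qExpansion 1 F) := by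
  obtain ⟨h0, b, hb, hk⟩ := hF
  obtain ⟨c, rfl⟩ := hs
  refine ⟨h0, fun k hk1 => ?_⟩
  obtain ⟨a, ha⟩ := hk k hk1
  refine ⟨((c * a : ℤ) : ℂ) / ((b : ℤ) : ℂ), (mem_Zloc_iff ℓ _).mpr ⟨c * a, b, ?_, rfl⟩, ?_⟩
  · exact_mod_cast hb
  · rw [ha]; push_cast; ring

/-- arithmetic of the case table -/
theorem pow_dvd_table {p : ℕ} (hp : p.Prime) (hp5 : 5 ≤ p) :
    (p % 4 = 1 ∨ p % 4 = 3) ∧ (p % 3 = 1 ∨ p % 3 = 2) ∧
    (2 ^ 2 ∣ 2 * (24 / Nat.gcd (p - 1) 12)) ∧
    (p % 4 = 3 → 2 ^ 3 ∣ 2 * (24 / Nat.gcd (p - 1) 12)) ∧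
    (p % 3 = 2 → 3 ^ 2 ∣ 3 * (24 / Nat.gcd (p - 1) 12)) := by
  have h2 : ¬ 2 ∣ p := fun h => by
    have := (Nat.prime_dvd_prime_iff_eq Nat.prime_two hp).mp h; omega
  have h3 : ¬ 3 ∣ p := fun h => by
    have := (Nat.prime_dvd_prime_iff_eq Nat.prime_three hp).mp h; omega
  have hg1 : Nat.gcd (p - 1) 12 ∣ p - 1 := Nat.gcd_dvd_left _ _
  have hg2 : Nat.gcd (p - 1) 12 ∣ 12 := Nat.gcd_dvd_right _ _
  have hgle : Nat.gcd (p - 1) 12 ≤ 12 := Nat.le_of_dvd (by norm_num) hg2
  have hgpos : 0 < Nat.gcd (p - 1) 12 := Nat.gcd_pos_of_pos_right _ (by norm_num)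
  generalize Nat.gcd (p - 1) 12 = g at *
  refine ⟨by omega, by omega, ?_, ?_, ?_⟩
  · interval_cases g <;> first | (exfalso; revert hg2; decide) | decide
  · intro h4
    have : ¬ 4 ∣ g := fun h => by
      have := h.trans hg1; omega
    interval_cases g <;> first | (exfalso; revert hg2; decide) | (exfalso; revert this; decide) | decide
  · intro h3'
    have : ¬ 3 ∣ g := fun h => by
      have := h.trans hg1; omega
    interval_cases g <;> first | (exfalso; revert hg2; decide) | (exfalso; revert this; decide) | decide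

theorem eisensteinNumerator_pos_of_prime {p : ℕ} (hp : p.Prime) :
    0 < ModularCurve.eisensteinNumerator p := by
  have h1 : 0 < p - 1 := by have := hp.two_le; omega
  exact Nat.div_pos (Nat.le_of_dvd h1 (Nat.gcd_dvd_left _ _)) (Nat.gcd_pos_of_pos_left _ h1)

variable (p : ℕ) [Fact p.Prime]

theorem isEisSeries_eisP : IsEisSeries p (EisP.eisP p) :=
  ⟨EisP.qExpansion_eisP_coeff_zero, fun _ hk => EisP.qExpansion_eisP_coeff_pos hk⟩

/-- the five non-existence theorems, as a hypothesis package. -/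
structure UpperInputs : Prop where
  tau : ∀ (ℓ : ℕ) [Fact ℓ.Prime], ℓ ≠ p → ∀ (s : ℕ) (F : ModularForm (Gamma0 p) 2),
    IsOneModQ ℓ s (qExpansion 1 F) → ℓ ^ s ∣ p + 1
  self : 5 ≤ p → ∀ F : ModularForm (Gamma0 p) 2, IsOneModQ p 1 (qExpansion 1 F) → False
  two : 5 ≤ p → p % 4 = 3 → ∀ F : ModularForm (Gamma0 p) 2, IsOneModQ 2 3 (qExpansion 1 F) → False
  three : 5 ≤ p → p % 3 = 2 → ∀ F : ModularForm (Gamma0 p) 2, IsOneModQ 3 2 (qExpansion 1 F) → False
  five : 5 ≤ p → ∀ (ℓ : ℕ) [Fact ℓ.Prime], 5 ≤ ℓ → ℓ ∣ p + 1 → ∀ F : ModularForm (Gamma0 p) 2,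
    IsOneModQ ℓ 1 (qExpansion 1 F) → False

variable {p}

/-- no form `≡ 1` modulo `ℓ · 24/gcd(p-1,12)`, for `p ≥ 5`. -/
theorem UpperInputs.no_oneMod (I : UpperInputs p) (hp5 : 5 ≤ p) (ℓ : ℕ) (hℓ : ℓ.Prime)
    (F : ModularForm (Gamma0 p) 2) :
    ¬ IsOneMod p ℓ (ℓ * (24 / Nat.gcd (p - 1) 12)) F := by
  intro hF
  have hp : p.Prime := Fact.out
  have : Fact ℓ.Prime := ⟨hℓ⟩
  obtain ⟨h4, h3, t22, t23, t32⟩ := pow_dvd_table hp hp5
  by_cases hℓ5 : 5 ≤ ℓ
  · have h1 : IsOneModQ ℓ 1 (qExpansion 1 F) := hF.isOneModQ (by simp)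
    by_cases hℓp : ℓ = p
    · subst hℓp
      exact I.self hp5 F h1
    · have hd := I.tau ℓ hℓp 1 F h1
      rw [pow_one] at hd
      exact I.five hp5 ℓ hℓ5 hd F h1
  · have hℓ23 : ℓ = 2 ∨ ℓ = 3 := by
      have := hℓ.two_le
      have h4' : ℓ ≠ 4 := fun h => by rw [h] at hℓ; exact absurd hℓ (by decide)
      omega
    rcases hℓ23 with rfl | rfl
    · rcases h4 with h41 | h43
      · have h1 : IsOneModQ 2 2 (qExpansion 1 F) := hF.isOneModQ t22
        have hd := I.tau 2 (by omega) 2 F h1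
        omega
      · exact I.two hp5 h43 F (hF.isOneModQ (t23 h43))
    · rcases h3 with h31 | h32
      · have h1 : IsOneModQ 3 1 (qExpansion 1 F) := hF.isOneModQ (by simp)
        have hd := I.tau 3 (by omega) 1 F h1
        omega
      · exact I.three hp5 h32 F (hF.isOneModQ (t32 h32))

/-- **UP**: the upper bound `hUB`. -/
theorem UpperInputs.upper_bound (I : UpperInputs p) (m : ℕ) (hm : 0 < m)
    (h : ∃ f : CuspForm (Gamma0 p) 2, IsEisMod p m f) :
    m ∣ ModularCurve.eisensteinNumerator p := by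
  have hp : p.Prime := Fact.out
  by_cases hp5 : 5 ≤ p
  · exact upper_of_no_oneMod p (EisP.eisP p) (isEisSeries_eisP p)
      (fun ℓ hℓ F => I.no_oneMod hp5 ℓ hℓ F) m hm h
  · exact upper_bound_small hp (by omega) _ m hm h

open ModularCurve CuspForm in
/-- **S16**, from the five non-existence theorems. -/
theorem UpperInputs.card_eq (I : UpperInputs p) :
    Nat.card (↥(heckeLatticeAlgebra p ∅) ⧸
        Ideal.map ((latticeRestrictHom p ∅).toRingHom.comp (heckeEvalForms p 2))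
          (eisensteinIdeal p)) =
      eisensteinNumerator p :=
  card_eq_of_bounds_forms p (eisensteinNumerator p) (eisensteinNumerator_pos_of_prime Fact.out)
    (low_bound p) I.upper_bound

end Fermat.Agent.Eis
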